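import Fermat.Agent.Gateway.GoodRed.TLine4
import Fermat.Agent.Gateway.AuxLevel.Level9Haupt

set_option autoImplicit false

/-!
# The `t`-line data of `GoodRed/SumEmb` for the level-9 Hauptmodul `y₉`

`j = (t + 6)³ (t³ + 234 t² + 756 t + 2160)³ / ((t - 3)⁸ (t³ - 27))`; base cusps `t = ∞`
(width 1), `t = 3` (width 9), `t = 3ω, 3ω²` (width 1), over any field `k` in which `3` is
invertible and which contains a primitive cube root of unity `ω`.
-/

namespace Fermat.Agent.Gateway.GoodRed.TLine9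

open HahnSeries LaurentSeries ModularCurve Fermat.Agent.Lib.Residue Fermat.Agent.S28
open Fermat.Agent.Gateway.AuxLevel Fermat.Agent.Gateway.GoodRed.TLine4

section Series

variable (k : Type*) [Field k]

/-- The unit part of `y₉` over `k`. -/
noncomputable def u9k : PowerSeries k := PowerSeries.map (Int.castRingHom k) L9.u9

/-- The Hauptmodul `y₉ = q⁻¹ + 5 q² - 7 q⁵ + ⋯` over `k`. -/
noncomputable def y9k : k⸨X⸩ := coeffMap (Int.castRingHom k) L9.y9

theorem constantCoeff_u9k : PowerSeries.constantCoeff (u9k k) = 1 := by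
  rw [u9k, ← PowerSeries.coeff_zero_eq_constantCoeff_apply, PowerSeries.coeff_map,
    PowerSeries.coeff_zero_eq_constantCoeff_apply, L9.constantCoeff_u9, map_one]

theorem y9k_eq : y9k k = single (-1 : ℤ) (1 : k) * (u9k k : k⸨X⸩) := by
  rw [y9k, L9.y9, map_mul, coeffMap_ofPowerSeries, Fermat.Agent.S28.H2.qInv, coeffMap_single,
    map_one, u9k]

/-- `j(q) (y - 3)⁸ (y³ - 27) = (y + 6)³ (y³ + 234 y² + 756 y + 2160)³` over `k`. -/
theorem jq_y9k : jqModC k * ((y9k k - 3) ^ 8 * (y9k k ^ 3 - 27)) =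
    (y9k k + 6) ^ 3 * (y9k k ^ 3 + 234 * y9k k ^ 2 + 756 * y9k k + 2160) ^ 3 := by
  have h := congrArg (coeffMap (Int.castRingHom k)) L9.jq_y9
  simp only [map_mul, map_pow, map_sub, map_add, coeffMap_jqModC, coeffMap_C_int] at h
  simp only [Int.cast_ofNat, map_ofNat] at h
  exact h

/-- `j(q⁹) (y³ - 27) = y³ (y³ - 24)³` over `k`. -/
theorem jq9_y9k : qExpand k 9 (jqModC k) * (y9k k ^ 3 - 27) =
    y9k k ^ 3 * (y9k k ^ 3 - 24) ^ 3 := by
  have h := congrArg (coeffMap (Int.castRingHom k)) L9.jq9_y9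
  simp only [map_mul, map_pow, map_sub, coeffMap_jqModC, coeffMap_C_int, coeffMap_qExpand] at h
  simp only [Int.cast_ofNat, map_ofNat] at h
  exact h

end Series

section Data

variable (k : Type*) [Field k]

/-- The unit part of `y₉ - a`. -/
noncomputable def wa (a : k) : PowerSeries k := u9k k - PowerSeries.C a * PowerSeries.X

theorem constantCoeff_wa (a : k) : PowerSeries.constantCoeff (wa k a) = 1 := by
  rw [wa, map_sub, map_mul, PowerSeries.constantCoeff_X, mul_zero, sub_zero, constantCoeff_u9k]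

theorem y9k_sub_eq (a : k) :
    y9k k - HahnSeries.C a = single (-1 : ℤ) (1 : k) * (wa k a : k⸨X⸩) := by
  rw [wa, PowerSeries.coe_sub, PowerSeries.coe_mul, PowerSeries.coe_C, PowerSeries.coe_X, mul_sub,
    ← y9k_eq, mul_left_comm, single_mul_single, mul_one]
  congr 1
  rw [show (-1 : ℤ) + 1 = 0 by norm_num]
  change HahnSeries.C a = HahnSeries.C a * 1
  rw [mul_one]

/-- The local parameter at `t = ∞`: `1 / y₉`. -/
noncomputable def pInf : k⸨X⸩ := (y9k k)⁻¹

/-- The local parameter `27 / (y₉ - a)`. -/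
noncomputable def pAt (a : k) : k⸨X⸩ := HahnSeries.C 27 * (y9k k - HahnSeries.C a)⁻¹

theorem isParam_pInf : IsParam (pInf k) := by
  have := isParam_C_mul_inv (one_ne_zero (α := k)) (constantCoeff_u9k k)
  rwa [map_one, one_mul, ← y9k_eq] at this

variable {k} in
theorem ne_zero_27 (h3 : (3 : k) ≠ 0) : (27 : k) ≠ 0 := by
  have : (27 : k) = 3 ^ 3 := by norm_num
  rw [this]
  exact pow_ne_zero 3 h3

variable {k} in
theorem isParam_pAt (h3 : (3 : k) ≠ 0) (a : k) : IsParam (pAt k a) := by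
  have := isParam_C_mul_inv (ne_zero_27 h3) (constantCoeff_wa k a)
  rwa [← y9k_sub_eq] at this

variable {k} in
theorem y9k_ne_zero : y9k k ≠ 0 := by
  have h := isParam_pInf k
  intro h0
  apply h.ne_zero
  rw [pInf, h0, inv_zero]

variable {k} in
theorem y9k_sub_ne_zero (h3 : (3 : k) ≠ 0) (a : k) : y9k k - HahnSeries.C a ≠ 0 := by
  have h := isParam_pAt h3 a
  intro h0
  apply h.ne_zero
  rw [pAt, h0, inv_zero, mul_zero]

end Data

section Relations

open Polynomial

variable (k : Type*) [Field k]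

/-- Numerator of `J₉(t)`. -/
noncomputable def JP : k[X] := (X + 6) ^ 3 * (X ^ 3 + 234 * X ^ 2 + 756 * X + 2160) ^ 3

/-- Denominator of `J₉(t)`. -/
noncomputable def JQ : k[X] := (X - 3) ^ 8 * (X ^ 3 - 27)

theorem aeval_JP (y : k⸨X⸩) :
    aeval y (JP k) = (y + 6) ^ 3 * (y ^ 3 + 234 * y ^ 2 + 756 * y + 2160) ^ 3 := by
  simp only [JP, map_pow, map_add, map_mul, aeval_X, map_ofNat]

theorem aeval_JQ (y : k⸨X⸩) : aeval y (JQ k) = (y - 3) ^ 8 * (y ^ 3 - 27) := by
  simp only [JQ, map_pow, map_sub, map_mul, aeval_X, map_ofNat]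

variable {k}

/-- The relation at `t = ∞`. -/
theorem rel_inf : aeval (y9k k) (JP k) = jqModC k * aeval (y9k k) (JQ k) := by
  rw [aeval_JP, aeval_JQ]
  exact (jq_y9k k).symm

/-- The relation at `t = 3` (Fricke involution `y ↦ 3 + 27 / (y - 3)`). -/
theorem rel_three (h3 : (3 : k) ≠ 0) :
    aeval (HahnSeries.C 3 + pAt k 3) (JP k) =
      qExpand k 9 (jqModC k) * aeval (HahnSeries.C 3 + pAt k 3) (JQ k) := by
  have h := jq9_y9k k
  rw [aeval_JP, aeval_JQ, pAt, map_ofNat, map_ofNat]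
  have hz : (y9k k - 3) * (y9k k - 3)⁻¹ = 1 := by
    have := y9k_sub_ne_zero h3 3
    rw [map_ofNat] at this
    exact mul_inv_cancel₀ this
  set y := y9k k
  set z := (y - 3)⁻¹
  set j := qExpand k 9 (jqModC k)
  have h1 : 3 + 27 * z + 6 = 9 * y * z := by linear_combination (-9 : k⸨X⸩) * hz
  have h2 : 3 + 27 * z - 3 = 27 * z := by ring
  have h4 : (3 + 27 * z) ^ 3 + 234 * (3 + 27 * z) ^ 2 + 756 * (3 + 27 * z) + 2160 =
      6561 * z ^ 3 * (y ^ 3 - 24) := by
    linear_combination (-6561 * (z ^ 2 * y ^ 2 + z * y * (1 + 3 * z) + (1 + 3 * z) ^ 2)) * hz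
  have h5 : (3 + 27 * z) ^ 3 - 27 = 27 * z * (27 * z ^ 2 * (y ^ 2 + 3 * y + 9)) := by
    linear_combination (-27 * (27 * z) * (z * y + 1 + 6 * z)) * hz
  rw [h1, h2, h4, h5]
  linear_combination (-(3 : k⸨X⸩) ^ 30 * z ^ 12) * h +
    ((3 : k⸨X⸩) ^ 30 * j * z ^ 11 * (y ^ 2 + 3 * y + 9)) * hz

/-- The relation at `t = 3ω²` for a primitive cube root of unity `ω`: the automorphism
`y ↦ 3ω² + 27 / (y - 3ω)` of `X₀(9)` over `X(1)`. -/
theorem rel_omega (h3 : (3 : k) ≠ 0) {ω : k} (hω : ω ^ 2 + ω + 1 = 0) :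
    aeval (HahnSeries.C (3 * ω ^ 2) + pAt k (3 * ω)) (JP k) =
      jqModC k * aeval (HahnSeries.C (3 * ω ^ 2) + pAt k (3 * ω)) (JQ k) := by
  have h := jq_y9k k
  rw [aeval_JP, aeval_JQ, pAt, map_ofNat]
  have hz : (y9k k - HahnSeries.C (3 * ω)) * (y9k k - HahnSeries.C (3 * ω))⁻¹ = 1 :=
    mul_inv_cancel₀ (y9k_sub_ne_zero h3 _)
  have hw : (HahnSeries.C ω : k⸨X⸩) ^ 2 + HahnSeries.C ω + 1 = 0 := by
    rw [← map_pow, ← map_add, ← map_one (HahnSeries.C : k →+* k⸨X⸩), ← map_add, hω, map_zero]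
  have hC1 : (HahnSeries.C (3 * ω ^ 2) : k⸨X⸩) = 3 * HahnSeries.C ω ^ 2 := by
    rw [map_mul, map_pow, map_ofNat]
  have hC2 : (HahnSeries.C (3 * ω) : k⸨X⸩) = 3 * HahnSeries.C ω := by
    rw [map_mul, map_ofNat]
  rw [hC1]
  rw [hC2] at hz ⊢
  set y := y9k k
  set w : k⸨X⸩ := HahnSeries.C ω
  set z := (y - 3 * w)⁻¹
  set j := jqModC k
  obtain ⟨Y, hY⟩ : ∃ Y : k⸨X⸩, Y = 3 * w ^ 2 + 27 * z := ⟨_, rfl⟩
  rw [← hY]
  have h1 : Y + 6 = 3 * (1 - w) * (y + 6) * z := by
    rw [hY]; linear_combination (3 * w - 3) * hz + (9 * z + 3) * hw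
  have h2 : Y - 3 = 3 * (w ^ 2 - 1) * (y - 3) * z := by
    rw [hY]; linear_combination (-3 * w ^ 2 + 3) * hz + (-9 * z * w + 18 * z) * hw
  have h3' : Y - 3 * w = 3 * (w ^ 2 - w) * (y - 3 * w ^ 2) * z := by
    rw [hY]
    linear_combination (-3 * w ^ 2 + 3 * w) * hz + (9 * z * w ^ 2 - 27 * z * w + 27 * z) * hw
  have h4 : Y - 3 * w ^ 2 = 27 * z := by rw [hY]; ring
  have h5 : Y ^ 3 + 234 * Y ^ 2 + 756 * Y + 2160 =
      -81 * (1 + 2 * w) * z ^ 3 * (y ^ 3 + 234 * y ^ 2 + 756 * y + 2160) := by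
    rw [hY]
    linear_combination ((162)*y^2*z^2*w + (81)*y^2*z^2 + (486)*y*z^2*w^2 + (38151)*y*z^2*w + (18954)*y*z^2 + (162)*y*z*w + (81)*y*z + (1458)*z^2*w^3 + (114453)*z^2*w^2 + (179334)*z^2*w + (61236)*z^2 + (972)*z*w^2 + (38394)*z*w + (18954)*z + (162)*w + (81)) * hz + ((4374)*z^3*w^2 + (338985)*z^3*w + (194643)*z^3 + (4374)*z^2*w + (231822)*z^2 + (729)*z*w^2 + (-729)*z*w + (39366)*z + (27)*w^4 + (-27)*w^3 + (2106)*w^2 + (-2079)*w + (2241)) * hw
  have h6 : Y ^ 3 - 27 = (Y - 3) * (Y - 3 * w) * (Y - 3 * w ^ 2) := by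
    linear_combination (3 * Y ^ 2 - 9 * Y * w + 27 * w - 27) * hw
  have h7 : y ^ 3 - 27 = (y - 3) * (y - 3 * w) * (y - 3 * w ^ 2) := by
    linear_combination (3 * y ^ 2 - 9 * y * w + 27 * w - 27) * hw
  have hcL : 27 * (-81) ^ 3 * (1 - w) ^ 3 * (1 + 2 * w) ^ 3 = (3 : k⸨X⸩) ^ 18 := by
    linear_combination ((114791256)*w^4 + (-286978140)*w^3 + (86093442)*w^2 + (358722675)*w + (-401769396)) * hw
  have hcR : (3 : k⸨X⸩) ^ 13 * (w ^ 2 - 1) ^ 9 * (w ^ 2 - w) = (3 : k⸨X⸩) ^ 18 := by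
    linear_combination ((1594323)*w^18 + (-3188646)*w^17 + (-12754584)*w^16 + (30292137)*w^15 + (39858075)*w^14 + (-127545840)*w^13 + (-46235367)*w^12 + (307704339)*w^11 + (-60584274)*w^10 + (-448004763)*w^9 + (307704339)*w^8 + (341185122)*w^7 + (-514966329)*w^6 + (39858075)*w^5 + (417712626)*w^4 + (-400175073)*w^3 + (-3188646)*w^2 + (389014812)*w + (-387420489)) * hw
  rw [h7] at h
  rw [h6, h1, h5, h2, h3', h4]
  linear_combination (z ^ 12 * ((y + 6) ^ 3 * (y ^ 3 + 234 * y ^ 2 + 756 * y + 2160) ^ 3)) * hcL -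
    (j * z ^ 11 * (y - 3) ^ 9 * (y - 3 * w ^ 2)) * hcR + (-(3 : k⸨X⸩) ^ 18 * z ^ 12) * h +
    ((3 : k⸨X⸩) ^ 18 * j * z ^ 11 * (y - 3) ^ 9 * (y - 3 * w ^ 2)) * hz

end Relations

section Assembly

open Polynomial

open scoped Classical in
/-- The finite base cusps `t = 3, 3ω, 3ω²` of the `y₉`-line. -/
noncomputable def S9 {k : Type*} [Field k] (w : k) : Finset k := {3, 3 * w, 3 * w ^ 2}

open scoped Classical in
/-- The local parameters at the base cusps. -/
noncomputable def π9 {k : Type*} [Field k] (w : k) : Option k → k⸨X⸩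
  | none => pInf k
  | some a => if a = 3 then pAt k 3 else if a = 3 * w then pAt k (3 * w ^ 2) else pAt k (3 * w)

open scoped Classical in
/-- The widths of the base cusps: `1` at `∞, 3ω, 3ω²` and `9` at `3`. -/
noncomputable def e9 (k : Type*) [Field k] : Option k → ℕ
  | none => 1
  | some a => if a = 3 then 9 else 1

open scoped Classical in
/-- The ramification exponents `m o = 9 N' / e o`. -/
noncomputable def m9 (k : Type*) [Field k] (N' : ℕ) : Option k → ℕ
  | none => 9 * N'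
  | some a => if a = 3 then N' else 9 * N'

variable {k : Type*} [Field k]

open scoped Classical in
theorem π9_some (w a : k) : π9 w (some a) =
    if a = 3 then pAt k 3 else if a = 3 * w then pAt k (3 * w ^ 2) else pAt k (3 * w) := rfl

theorem π9_none (w : k) : π9 w none = pInf k := rfl

open scoped Classical in
theorem e9_some (a : k) : e9 k (some a) = if a = 3 then 9 else 1 := rfl

theorem e9_none : e9 k none = 1 := rfl

open scoped Classical in
theorem m9_some (N' : ℕ) (a : k) : m9 k N' (some a) = if a = 3 then N' else 9 * N' := rfl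

theorem m9_none (N' : ℕ) : m9 k N' none = 9 * N' := rfl

instance neZero_m9 (N' : ℕ) [NeZero N'] (o : Option k) : NeZero (m9 k N' o) := by
  have h9 : 9 * N' ≠ 0 := mul_ne_zero (by norm_num) (NeZero.ne N')
  cases o with
  | none => exact ⟨h9⟩
  | some a =>
    rw [m9_some]
    split_ifs
    · exact ⟨NeZero.ne N'⟩
    · exact ⟨h9⟩

theorem e9_mul_m9 (N' : ℕ) (o : Option k) : e9 k o * m9 k N' o = 9 * N' := by
  cases o with
  | none => rw [e9_none, m9_none, one_mul]
  | some a =>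
    rw [e9_some, m9_some]
    split_ifs
    · rfl
    · rw [one_mul]

theorem isParam_π9 (h3 : (3 : k) ≠ 0) (w : k) (o : Option k) : IsParam (π9 w o) := by
  cases o with
  | none => exact isParam_pInf k
  | some a =>
    rw [π9_some]
    split_ifs <;> exact isParam_pAt h3 _

section Omega

variable (h3 : (3 : k) ≠ 0) {w : k} (hw : w ^ 2 + w + 1 = 0)

include hw in
theorem w_cube : w ^ 3 = 1 := by linear_combination (w - 1) * hw

include hw in
theorem w_sq_sq : (w ^ 2) ^ 2 = w := by linear_combination (w ^ 2 - w) * hw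

include hw in
theorem w_sq_root : (w ^ 2) ^ 2 + w ^ 2 + 1 = 0 := by rw [w_sq_sq hw]; linear_combination hw

include h3 hw in
theorem three_w_ne_three : 3 * w ≠ 3 := by
  intro h
  have h1 : w = 1 := by
    have : (3 : k) * (w - 1) = 0 := by linear_combination h
    rcases mul_eq_zero.mp this with h0 | h0
    · exact absurd h0 h3
    · exact sub_eq_zero.mp h0
  apply h3
  rw [h1] at hw
  linear_combination hw

include h3 hw in
theorem three_w_sq_ne_three : 3 * w ^ 2 ≠ 3 := by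
  intro h
  have h1 : w ^ 2 = 1 := by
    have : (3 : k) * (w ^ 2 - 1) = 0 := by linear_combination h
    rcases mul_eq_zero.mp this with h0 | h0
    · exact absurd h0 h3
    · exact sub_eq_zero.mp h0
  -- then `w = -2` and `3 = 0`
  apply h3
  have h2 : w = -2 := by linear_combination hw - h1
  rw [h2] at h1
  linear_combination h1

include h3 hw in
theorem three_w_sq_ne_three_w : 3 * w ^ 2 ≠ 3 * w := by
  intro h
  have h1 : w * (w - 1) = 0 := by
    have : (3 : k) * (w * (w - 1)) = 0 := by linear_combination h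
    rcases mul_eq_zero.mp this with h0 | h0
    · exact absurd h0 h3
    · exact h0
  rcases mul_eq_zero.mp h1 with h0 | h0
  · rw [h0] at hw
    norm_num at hw
  · apply three_w_ne_three h3 hw
    rw [sub_eq_zero.mp h0, mul_one]

/-- The expansions of the `y₉`-line at its base cusps. -/
noncomputable def ε9 (w : k) : Option k → RatFunc k →+* k⸨X⸩ :=
  tExp (π9 w) (isParam_π9 h3 w)

theorem ε9_C (w : k) (o : Option k) (c : k) : ε9 h3 w o (RatFunc.C c) = HahnSeries.C c :=
  tExp_C _ _ o c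

theorem ε9_X_some (w a : k) :
    ε9 h3 w (some a) RatFunc.X = HahnSeries.C a + π9 w (some a) := tExp_X_some _ _ a

theorem ε9_X_none (w : k) : ε9 h3 w none RatFunc.X = (π9 w none)⁻¹ := tExp_X_none _ _

theorem ε9_X_inf (w : k) : ε9 h3 w none RatFunc.X = y9k k := by
  rw [ε9_X_none, π9_none, pInf, inv_inv]

theorem ε9_X_three (w : k) : ε9 h3 w (some 3) RatFunc.X = HahnSeries.C 3 + pAt k 3 := by
  rw [ε9_X_some, π9_some, if_pos rfl]

include hw in
theorem ε9_X_three_w :
    ε9 h3 w (some (3 * w)) RatFunc.X = HahnSeries.C (3 * w) + pAt k (3 * w ^ 2) := by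
  rw [ε9_X_some, π9_some, if_neg (three_w_ne_three h3 hw), if_pos rfl]

include hw in
theorem ε9_X_three_w_sq :
    ε9 h3 w (some (3 * w ^ 2)) RatFunc.X = HahnSeries.C (3 * w ^ 2) + pAt k (3 * w) := by
  rw [ε9_X_some, π9_some, if_neg (three_w_sq_ne_three h3 hw),
    if_neg (three_w_sq_ne_three_w h3 hw)]

theorem mem_insertNone_S9 {w : k} {o : Option k} (ho : o ∈ Finset.insertNone (S9 w)) :
    o = none ∨ o = some 3 ∨ o = some (3 * w) ∨ o = some (3 * w ^ 2) := by
  classical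
  cases o with
  | none => exact Or.inl rfl
  | some a =>
    rw [Finset.mem_insertNone] at ho
    have := ho a rfl
    rw [S9, Finset.mem_insert, Finset.mem_insert, Finset.mem_singleton] at this
    rcases this with rfl | rfl | rfl
    · exact Or.inr (Or.inl rfl)
    · exact Or.inr (Or.inr (Or.inl rfl))
    · exact Or.inr (Or.inr (Or.inr rfl))

include h3 hw in
theorem sum_e9 : ∑ o ∈ Finset.insertNone (S9 w), e9 k o = 12 := by
  classical
  have h : ∑ o ∈ Finset.insertNone (S9 w), e9 k o = 1 + (9 + (1 + 1)) := by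
    rw [Finset.sum_insertNone, S9, Finset.sum_insert, Finset.sum_pair
      (three_w_sq_ne_three_w h3 hw).symm, e9_none, e9_some, e9_some, e9_some, if_pos rfl,
      if_neg (three_w_ne_three h3 hw), if_neg (three_w_sq_ne_three h3 hw)]
    rw [Finset.mem_insert, Finset.mem_singleton]
    rintro (h | h)
    · exact three_w_ne_three h3 hw h.symm
    · exact three_w_sq_ne_three h3 hw h.symm
  rw [h]

end Omega

theorem natDegree_JP : (JP k).natDegree = 12 := by
  have h1 : ((X + 6 : k[X]) ^ 3).Monic := by monicity!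
  have h2 : ((X ^ 3 + 234 * X ^ 2 + 756 * X + 2160 : k[X]) ^ 3).Monic := by monicity!
  have d1 : ((X + 6 : k[X]) ^ 3).natDegree = 3 := by compute_degree!
  have d2 : ((X ^ 3 + 234 * X ^ 2 + 756 * X + 2160 : k[X]) ^ 3).natDegree = 9 := by
    compute_degree!
  rw [JP, h1.natDegree_mul h2, d1, d2]

theorem natDegree_JQ_lt : (JQ k).natDegree < (JP k).natDegree := by
  rw [natDegree_JP]
  have h : (JQ k).natDegree ≤ 11 := by
    rw [JQ]
    compute_degree
  omega

end Assembly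

section Main

open Polynomial Module

variable {k : Type*} [Field k] (h3 : (3 : k) ≠ 0) {w : k} (hw : w ^ 2 + w + 1 = 0) (N' : ℕ)
  [NeZero N'] (ζ : kˣ) (hζ : IsPrimitiveRoot ζ (9 * N'))

include hw in
/-- The relations `P(t) = j(X^(e o)) Q(t)` at the four base cusps. -/
theorem hrel9 : ∀ o ∈ Finset.insertNone (S9 w), ∃ jo : k⸨X⸩,
    qExpand k (m9 k N' o) jo = qExpand k (9 * N') (jqModC k) ∧
      aeval (ε9 h3 w o RatFunc.X) (JP k) = jo * aeval (ε9 h3 w o RatFunc.X) (JQ k) := by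
  intro o ho
  rcases mem_insertNone_S9 ho with rfl | rfl | rfl | rfl
  · refine ⟨jqModC k, qExpand_congr (m9_none N') _, ?_⟩
    rw [ε9_X_inf]
    exact rel_inf
  · refine ⟨qExpand k 9 (jqModC k), ?_, ?_⟩
    · rw [qExpand_qExpand]
      apply qExpand_congr
      rw [m9_some, if_pos rfl, mul_comm]
    · rw [ε9_X_three]
      exact rel_three h3
  · refine ⟨jqModC k, qExpand_congr ?_ _, ?_⟩
    · rw [m9_some, if_neg (three_w_ne_three h3 hw)]
    · rw [ε9_X_three_w h3 hw]
      have h := rel_omega h3 (w_sq_root hw)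
      rwa [w_sq_sq hw] at h
  · refine ⟨jqModC k, qExpand_congr ?_ _, ?_⟩
    · rw [m9_some, if_neg (three_w_sq_ne_three h3 hw)]
    · rw [ε9_X_three_w_sq h3 hw]
      exact rel_omega h3 hw

include hw hζ in
theorem hbranch9 : ∀ i ∈ branchIndex (S9 w) (e9 k),
    aeval (branch (ε9 h3 w) (m9 k N') ζ i.1 i.2 RatFunc.X) (JP k) =
      qExpand k (9 * N') (jqModC k) *
        aeval (branch (ε9 h3 w) (m9 k N') ζ i.1 i.2 RatFunc.X) (JQ k) :=
  aeval_branch_eq (S9 w) (ε9 h3 w) (e9 k) (m9 k N') ζ (JP k) (JQ k) _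
    (twist_qExpand_of_pow_eq_one ζ (9 * N') hζ.pow_eq_one _) (hrel9 h3 hw N')

variable {E : Type*} [Field E] [Algebra (RatFunc k) E] (jE : E)
  (hj : jE * algebraMap (RatFunc k) E (algebraMap k[X] (RatFunc k) (JQ k)) =
    algebraMap (RatFunc k) E (algebraMap k[X] (RatFunc k) (JP k)))

include hw hζ hj in
/-- **Cover at level 9.**  Every embedding of `E` over the constants with `j ↦ j(z^(9N'))`
restricts on `k(y₉)` to one of the twelve branches. -/
theorem exists_branch9 (s : E →+* k⸨X⸩)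
    (hsC : ∀ c : k, s (algebraMap (RatFunc k) E (RatFunc.C c)) = HahnSeries.C c)
    (hsj : s jE = qExpand k (9 * N') (jqModC k)) :
    ∃ o ∈ Finset.insertNone (S9 w), ∃ b < e9 k o,
      s.comp (algebraMap (RatFunc k) E) = branch (ε9 h3 w) (m9 k N') ζ o b :=
  exists_branch_of_map_j (S9 w) (ε9 h3 w) (π9 w) (fun o _ c => ε9_C h3 w o c)
    (fun o _ => isParam_π9 h3 w o) (fun a _ => ε9_X_some h3 w a) (ε9_X_none h3 w) (e9 k)
    (m9 k N') (9 * N') (fun o _ => e9_mul_m9 N' o) ζ hζ (JP k) (JQ k) natDegree_JQ_lt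
    (by rw [natDegree_JP, sum_e9 h3 hw]) _ (hbranch9 h3 hw N' ζ hζ) jE hj s hsC hsj

variable [Algebra k E] [IsScalarTower k (RatFunc k) E]

include h3 hw hζ hj in
/-- **Count at level 9**: `[E : k(j)] = 12 [E : k(y₉)]`. -/
theorem finrank_adjoin_eq9 :
    finrank (IntermediateField.adjoin k {jE}) E = 12 * finrank (RatFunc k) E := by
  rw [← sum_e9 h3 hw]
  exact finrank_adjoin_eq_sum_mul_finrank (S9 w) (ε9 h3 w) (π9 w) (fun o _ c => ε9_C h3 w o c)
    (fun o _ => isParam_π9 h3 w o) (fun a _ => ε9_X_some h3 w a) (ε9_X_none h3 w) (e9 k)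
    (m9 k N') (9 * N') (fun o _ => e9_mul_m9 N' o) ζ hζ (JP k) (JQ k) natDegree_JQ_lt
    (by rw [natDegree_JP, sum_e9 h3 hw]) _ (hbranch9 h3 hw N' ζ hζ) jE hj

end Main

section Final

open Polynomial Module

variable {k : Type*} [Field k] (h3 : (3 : k) ≠ 0) {w : k} (hw : w ^ 2 + w + 1 = 0) (N' : ℕ)
  [NeZero N'] (ζ : kˣ) (hζ : IsPrimitiveRoot ζ (9 * N'))
  {E : Type*} [Field E] [Algebra k E] [Algebra (RatFunc k) E] [IsScalarTower k (RatFunc k) E]
  [FiniteDimensional (RatFunc k) E] [Algebra.IsSeparable (RatFunc k) E] (jE : E)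
  (hj : jE * algebraMap (RatFunc k) E (algebraMap k[X] (RatFunc k) (JQ k)) =
    algebraMap (RatFunc k) E (algebraMap k[X] (RatFunc k) (JP k)))

theorem JQ_ne_zero : JQ k ≠ 0 := by
  have h : (JQ k).Monic := by
    rw [JQ]
    monicity!
  exact h.ne_zero

include h3 hw in
theorem JQ_dvd : JQ k ∣ (∏ a ∈ S9 w, (X - Polynomial.C a)) ^ 9 := by
  classical
  have hmem : (3 : k) ∉ ({3 * w, 3 * w ^ 2} : Finset k) := by
    rw [Finset.mem_insert, Finset.mem_singleton]
    rintro (h | h)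
    · exact three_w_ne_three h3 hw h.symm
    · exact three_w_sq_ne_three h3 hw h.symm
  rw [S9, Finset.prod_insert hmem, Finset.prod_pair (three_w_sq_ne_three_w h3 hw).symm, JQ]
  refine ⟨((X - Polynomial.C (3 * w)) * (X - Polynomial.C (3 * w ^ 2))) ^ 8, ?_⟩
  have hW : (Polynomial.C w : k[X]) ^ 2 + Polynomial.C w + 1 = 0 := by
    rw [← map_pow, ← map_add, ← map_one (Polynomial.C : k →+* k[X]), ← map_add, hw, map_zero]
  rw [show (Polynomial.C (3 : k) : k[X]) = 3 from map_ofNat Polynomial.C 3, map_mul, map_mul,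
    map_pow, show (Polynomial.C (3 : k) : k[X]) = 3 from map_ofNat Polynomial.C 3]
  set W : k[X] := Polynomial.C w
  have h27 : (X : k[X]) ^ 3 - 27 = (X - 3) * ((X - 3 * W) * (X - 3 * W ^ 2)) := by
    linear_combination (3 * X ^ 2 - 9 * X * W + 27 * W - 27) * hW
  rw [h27]
  ring

include h3 hw hζ hj in
/-- **The residue theorem over all embeddings at a level `9 N'`**, in consumer form: `E ⊇ k(y₉)`
finite separable, `j = J(y₉) ∈ E`; `s i : E → k⸨z⸩` (`i ∈ I`) pairwise distinct embeddings over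
the constants with `s i j = j(z^(9N'))`, as many as `[E : k(j)]`; `g ∈ E` integral over `k[j]`.
Then `∑ i ∈ I, res (s i g d(s i y₉)) = 0`. -/
theorem sum_res_eq_zero9 {ι : Type*} (I : Finset ι) (s : ι → E →+* k⸨X⸩) (hs : Set.InjOn s I)
    (hsC : ∀ i ∈ I, ∀ c : k, s i (algebraMap (RatFunc k) E (RatFunc.C c)) = HahnSeries.C c)
    (hsj : ∀ i ∈ I, s i jE = qExpand k (9 * N') (jqModC k))
    (hcard : I.card = finrank (IntermediateField.adjoin k {jE}) E)
    (g : E) (hg : IsIntegral (Algebra.adjoin k {jE}) g) :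
    ∑ i ∈ I, res (s i g * D (s i (algebraMap (RatFunc k) E RatFunc.X))) = 0 := by
  classical
  let _ : Algebra k[X] E :=
    ((algebraMap (RatFunc k) E).comp (algebraMap k[X] (RatFunc k))).toAlgebra
  have : IsScalarTower k[X] (RatFunc k) E := IsScalarTower.of_algebraMap_eq fun _ => rfl
  have : IsScalarTower k k[X] E := IsScalarTower.of_algebraMap_eq fun c => by
    change algebraMap k E c =
      algebraMap (RatFunc k) E (algebraMap k[X] (RatFunc k) (algebraMap k k[X] c))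
    rw [IsScalarTower.algebraMap_apply k (RatFunc k) E,
      ← IsScalarTower.algebraMap_apply k k[X] (RatFunc k)]
  obtain ⟨f, N, hf⟩ := exists_trace_eq_of_isIntegral_adjoin (S9 w) (JP k) (JQ k) JQ_ne_zero 9
    (JQ_dvd h3 hw) jE hj g hg
  refine sum_res_family_eq_zero (S9 w) (ε9 h3 w) (π9 w) (fun o _ c => ε9_C h3 w o c)
    (fun o _ => isParam_π9 h3 w o) (fun a _ => ε9_X_some h3 w a) (ε9_X_none h3 w) (e9 k)
    (m9 k N') (9 * N') (fun o _ => e9_mul_m9 N' o) ζ hζ I s hs
    (fun i hi => exists_branch9 h3 hw N' ζ hζ jE hj (s i) (hsC i hi) (hsj i hi)) ?_ g f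
    (fun _ => N) hf
  rw [hcard, finrank_adjoin_eq9 h3 hw N' ζ hζ jE hj, sum_e9 h3 hw]

end Final

end Fermat.Agent.Gateway.GoodRed.TLine9
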