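import Fermat.Agent.Gateway.GoodRed.Inputs

/-!
# P-GATEWAY (c), GoodRed: the box monomials span the base-changed function field over `L(j)`

For a field `L` of characteristic zero, every element `f` of
`laurentBaseChange L (modularFunctionFieldFull N)` satisfies
`Q(j) f = ∑_{μ ∈ box N} P_μ(j) ev L μ` with `Q, P_μ ∈ L[X]`, `Q ≠ 0` (`baseChange_span_poly`).
-/

set_option autoImplicit false

noncomputable section

namespace Fermat.Agent.Gateway.GoodRed

open Polynomial ModularCurve Fermat.Agent.S28 Fermat.Agent.S28.Tower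

variable (L : Type*) [Field L] [Algebra ℚ L]

/-- `L(j)` inside `L((q))`. -/
abbrev K1 : IntermediateField L (LaurentSeries L) := IntermediateField.adjoin L {jqModC L}

theorem coeffEmb_aeval_int (Q : ℤ[X]) (y : LaurentSeries ℚ) :
    coeffEmb L (aeval y Q) = aeval (coeffEmb L y) Q := by
  rw [aeval_def, aeval_def, Polynomial.hom_eval₂]
  congr 1
  exact RingHom.ext_int _ _

theorem coeffEmb_jq : coeffEmb L jq = jqModC L := by
  rw [← jqModC_rat, coeffEmb, coeffMap_jqModC]

theorem coeffEmb_ev (μ : ℕ →₀ ℕ) : coeffEmb L (ev ℚ μ) = ev L μ := by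
  rw [coeffEmb, coeffMap_ev]

omit [Algebra ℚ L] in
theorem aeval_int_mem_K1 (P : ℤ[X]) : aeval (jqModC L) P ∈ K1 L := by
  rw [aeval_eq_sum_range]
  refine sum_mem fun i _ => ?_
  rw [Algebra.smul_def, eq_intCast]
  exact mul_mem (intCast_mem _ _)
    (pow_mem (IntermediateField.mem_adjoin_simple_self L (jqModC L)) _)

theorem aeval_jq_int_ne_zero {Q : ℤ[X]} (hQ : Q ≠ 0) : aeval jq Q ≠ 0 := by
  have htr : Transcendental ℚ jq := by
    rw [← jqModC_rat]; exact transcendental_jqModC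
  have h1 : aeval jq Q = aeval jq (Q.map (Int.castRingHom ℚ)) := by
    rw [aeval_def, aeval_def, eval₂_map]
    congr 1
    exact RingHom.ext_int _ _
  rw [h1]
  intro h
  have h2 := transcendental_iff.mp htr _ h
  exact hQ ((Polynomial.map_eq_zero_iff (Int.castRingHom ℚ).injective_int).mp h2)

variable (N : ℕ) [NeZero N]

/-- the `L(j)`-span of the box monomials. -/
def boxSpan : Submodule (K1 L) (LaurentSeries L) :=
  Submodule.span (K1 L) (Set.range fun μ : box N => ev L (μ : ℕ →₀ ℕ))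

theorem coeffEmb_mem_boxSpan {y : LaurentSeries ℚ} (hy : y ∈ modularFunctionFieldFull N) :
    coeffEmb L y ∈ boxSpan L N := by
  obtain ⟨Q, hQ, P, e⟩ := full_span_poly N hy
  have e' := congrArg (coeffEmb L) e
  rw [map_mul, map_sum, coeffEmb_aeval_int, coeffEmb_jq] at e'
  have ha : aeval (jqModC L) Q ≠ 0 := by
    rw [← coeffEmb_jq, ← coeffEmb_aeval_int]
    intro h0
    exact aeval_jq_int_ne_zero hQ ((map_eq_zero_iff _ (coeffEmb L).injective).mp h0)
  have h1 : coeffEmb L y = ∑ μ : box N,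
      ((aeval (jqModC L) Q)⁻¹ * aeval (jqModC L) (P μ)) * ev L (μ : ℕ →₀ ℕ) := by
    rw [← mul_right_inj' ha, e', Finset.mul_sum]
    refine Finset.sum_congr rfl fun μ _ => ?_
    rw [map_mul, coeffEmb_aeval_int, coeffEmb_jq, coeffEmb_ev, ← mul_assoc, ← mul_assoc,
      mul_inv_cancel₀ ha, one_mul]
  rw [h1]
  refine Submodule.sum_mem _ fun μ _ => ?_
  have hc : (aeval (jqModC L) Q)⁻¹ * aeval (jqModC L) (P μ) ∈ K1 L :=
    mul_mem (inv_mem (aeval_int_mem_K1 L Q)) (aeval_int_mem_K1 L (P μ))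
  exact Submodule.smul_mem _ (⟨_, hc⟩ : K1 L) (Submodule.subset_span ⟨μ, rfl⟩)

omit [Algebra ℚ L] [NeZero N] in
theorem ev_mem_boxSpan (μ : box N) : ev L (μ : ℕ →₀ ℕ) ∈ boxSpan L N :=
  Submodule.subset_span ⟨μ, rfl⟩

theorem one_mem_boxSpan : (1 : LaurentSeries L) ∈ boxSpan L N := by
  have h := coeffEmb_mem_boxSpan L N (one_mem (modularFunctionFieldFull N))
  rwa [map_one] at h

theorem mul_mem_boxSpan {a b : LaurentSeries L} (ha : a ∈ boxSpan L N) (hb : b ∈ boxSpan L N) :
    a * b ∈ boxSpan L N := by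
  have hle : boxSpan L N * boxSpan L N ≤ boxSpan L N := by
    rw [boxSpan, Submodule.span_mul_span, Submodule.span_le]
    rintro _ ⟨_, ⟨μ, rfl⟩, _, ⟨ν, rfl⟩, rfl⟩
    show ev L (μ : ℕ →₀ ℕ) * ev L (ν : ℕ →₀ ℕ) ∈ boxSpan L N
    rw [← coeffEmb_ev L (μ : ℕ →₀ ℕ), ← coeffEmb_ev L (ν : ℕ →₀ ℕ), ← map_mul]
    exact coeffEmb_mem_boxSpan L N (mul_mem (ev_mem_full' N μ) (ev_mem_full' N ν))
  exact hle (Submodule.mul_mem_mul ha hb)

/-- the span as an `L(j)`-subalgebra. -/
def boxAlg : Subalgebra (K1 L) (LaurentSeries L) :=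
  (boxSpan L N).toSubalgebra (one_mem_boxSpan L N) fun _ _ ha hb => mul_mem_boxSpan L N ha hb

theorem mem_boxAlg {a : LaurentSeries L} : a ∈ boxAlg L N ↔ a ∈ boxSpan L N := Iff.rfl

theorem boxAlg_isField : IsField (boxAlg L N) := by
  have hfg : (Subalgebra.toSubmodule (boxAlg L N)).FG := by
    rw [boxAlg, Submodule.toSubalgebra_toSubmodule]
    exact Submodule.fg_span (Set.finite_range _)
  have hfin : Module.Finite (K1 L) (boxAlg L N) := Module.Finite.iff_fg.mpr hfg
  have : Algebra.IsIntegral (K1 L) (boxAlg L N) := Algebra.IsIntegral.of_finite (K1 L) (boxAlg L N)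
  exact isField_of_isIntegral_of_isField' (Field.toIsField (K1 L))

/-- the span as an intermediate field of `L((q)) / L`. -/
def boxField : IntermediateField L (LaurentSeries L) where
  carrier := (boxAlg L N : Set (LaurentSeries L))
  mul_mem' := fun ha hb => (boxAlg L N).mul_mem ha hb
  one_mem' := (boxAlg L N).one_mem
  add_mem' := fun ha hb => (boxAlg L N).add_mem ha hb
  zero_mem' := (boxAlg L N).zero_mem
  algebraMap_mem' := fun c => by
    show algebraMap L (LaurentSeries L) c ∈ boxAlg L N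
    have h1 : algebraMap L (LaurentSeries L) c
        = algebraMap (K1 L) (LaurentSeries L) (algebraMap L (K1 L) c) := rfl
    rw [h1]
    exact (boxAlg L N).algebraMap_mem _
  inv_mem' := by
    intro x hx
    have hx' : x ∈ boxAlg L N := hx
    show x⁻¹ ∈ boxAlg L N
    by_cases hx0 : x = 0
    · rw [hx0, inv_zero]; exact zero_mem _
    · obtain ⟨y, hy⟩ := (boxAlg_isField L N).mul_inv_cancel (a := (⟨x, hx'⟩ : boxAlg L N))
        (fun h0 => hx0 (congrArg Subtype.val h0))
      have hy' : x * (y : LaurentSeries L) = 1 := congrArg Subtype.val hy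
      have : x⁻¹ = (y : LaurentSeries L) := inv_eq_of_mul_eq_one_right hy'
      rw [this]
      exact y.2

theorem mem_boxField {a : LaurentSeries L} : a ∈ boxField L N ↔ a ∈ boxSpan L N := Iff.rfl

theorem laurentBaseChange_le_boxField :
    laurentBaseChange L (modularFunctionFieldFull N) ≤ boxField L N := by
  rw [laurentBaseChange, IntermediateField.adjoin_le_iff]
  rintro _ ⟨y, hy, rfl⟩
  exact coeffEmb_mem_boxSpan L N hy

omit [Algebra ℚ L] [NeZero N] in
/-- polynomial form of membership in the span. -/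
theorem exists_poly_of_mem_boxSpan {f : LaurentSeries L} (hf : f ∈ boxSpan L N) :
    ∃ Q : L[X], Q ≠ 0 ∧ ∃ P : box N → L[X],
      aeval (jqModC L) Q * f = ∑ μ : box N, aeval (jqModC L) (P μ) * ev L (μ : ℕ →₀ ℕ) := by
  classical
  rw [boxSpan] at hf
  induction hf using Submodule.span_induction with
  | mem x hx =>
    obtain ⟨μ₀, rfl⟩ := hx
    refine ⟨1, one_ne_zero, fun μ => if μ = μ₀ then 1 else 0, ?_⟩
    rw [map_one, one_mul, Finset.sum_eq_single μ₀]
    · simp
    · intro μ _ hμ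
      simp [hμ]
    · intro h; exact absurd (Finset.mem_univ _) h
  | zero =>
    exact ⟨1, one_ne_zero, fun _ => 0, by simp⟩
  | add y₁ y₂ _ _ h₁ h₂ =>
    obtain ⟨Q₁, hQ₁, P₁, e₁⟩ := h₁
    obtain ⟨Q₂, hQ₂, P₂, e₂⟩ := h₂
    refine ⟨Q₁ * Q₂, mul_ne_zero hQ₁ hQ₂, fun μ => Q₂ * P₁ μ + Q₁ * P₂ μ, ?_⟩
    have : aeval (jqModC L) (Q₁ * Q₂) * (y₁ + y₂) =
        aeval (jqModC L) Q₂ * (aeval (jqModC L) Q₁ * y₁)
          + aeval (jqModC L) Q₁ * (aeval (jqModC L) Q₂ * y₂) := by
      rw [map_mul]; ring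
    rw [this, e₁, e₂, Finset.mul_sum, Finset.mul_sum, ← Finset.sum_add_distrib]
    refine Finset.sum_congr rfl fun μ _ => ?_
    rw [map_add, map_mul, map_mul]; ring
  | smul a x _ h =>
    obtain ⟨Q, hQ, P, e⟩ := h
    obtain ⟨r, s, hrs⟩ := (IntermediateField.mem_adjoin_simple_iff L (a : LaurentSeries L)).mp a.2
    have hsmul : a • x = (a : LaurentSeries L) * x := rfl
    by_cases hS : aeval (jqModC L) s = 0
    · refine ⟨1, one_ne_zero, fun _ => 0, ?_⟩
      rw [hsmul, hrs, hS, div_zero, zero_mul, mul_zero]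
      simp
    · have hs0 : s ≠ 0 := by rintro rfl; simp at hS
      refine ⟨s * Q, mul_ne_zero hs0 hQ, fun μ => r * P μ, ?_⟩
      have hsum : ∑ μ : box N, aeval (jqModC L) (r * P μ) * ev L (μ : ℕ →₀ ℕ) =
          aeval (jqModC L) r * (aeval (jqModC L) Q * x) := by
        rw [e, Finset.mul_sum]
        refine Finset.sum_congr rfl fun μ _ => ?_
        rw [map_mul, mul_assoc]
      rw [hsum, hsmul, hrs, map_mul]
      field_simp

/-- **(SPAN)** every element of the base-changed function field is an `L(j)`-combination of the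
box monomials, in polynomial form. -/
theorem baseChange_span_poly {f : LaurentSeries L}
    (hf : f ∈ laurentBaseChange L (modularFunctionFieldFull N)) :
    ∃ Q : L[X], Q ≠ 0 ∧ ∃ P : box N → L[X],
      aeval (jqModC L) Q * f = ∑ μ : box N, aeval (jqModC L) (P μ) * ev L (μ : ℕ →₀ ℕ) :=
  exists_poly_of_mem_boxSpan L N (laurentBaseChange_le_boxField L N hf)

end Fermat.Agent.Gateway.GoodRed
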