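import Fermat.Agent.Gateway.GoodRed.GaussAbstract
import Fermat.Agent.Gateway.GoodRed.SpanL

/-!
# P-GATEWAY (c), GoodRed (G0): the Gauss valuation on the modular function field over `L`

`L` a field of characteristic zero, `A` a valuation subring, `π : A →+* k` surjective onto an
algebraically closed field `k` of characteristic `ℓ`, `ℓ ∤ N`,
`F := laurentBaseChange L (modularFunctionFieldFull N)`, `Fk := modularFunctionFieldFullC k N`.

* `exists_const_mul_unit_FBar` (Gauss normalisation): every nonzero `f ∈ F` is `c * u`, `c ∈ Lˣ`,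
  `u ∈ Ov`, `redV u ≠ 0`;
* `mem_Ov_or_inv_mem_Ov`, `OvVal : ValuationSubring F`;
* `algebraMap_mem_Ov_iff` (`Ov ∩ L = A`), `redV_algebraMap`;
* `redV_eq_zero_iff` (kernel of `redV` = multiples of the maximal ideal of `A`);
* `redV_mem_Fk`, `redV_surjective_Fk` (the residue field is `Fk`), `resFk`.
-/

set_option autoImplicit false
set_option linter.unusedSectionVars false
set_option linter.style.haveILetI false

noncomputable section

namespace Fermat.Agent.Gateway.GoodRed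

open Polynomial ModularCurve Fermat.Agent.S28 Fermat.Agent.S28.Tower Fermat.Agent.Gateway.Red

/-- the box monomials lie in the level-`N` function field, any coefficient field. -/
theorem ev_mem_fullC (K : Type*) [Field K] (N : ℕ) [NeZero N] {μ : ℕ →₀ ℕ} (hμ : μ ∈ box N) :
    ev K μ ∈ modularFunctionFieldFullC K N := by
  rw [ev, Finsupp.prod]
  refine prod_mem fun d hd => pow_mem ?_ _
  obtain ⟨hd0, hdN⟩ := dvd_of_mem_support_of_mem_box (NeZero.ne N) hμ hd
  haveI : NeZero d := ⟨hd0⟩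
  rw [jS_eq_qExpand]
  exact jqModCd_mem_full K N hdN

section Setting

variable {L : Type*} [Field L] [Algebra ℚ L] (A : ValuationSubring L)
  {k : Type} [Field k] (π : A →+* k)

/-- the level-`N` modular function field over `L`. -/
abbrev FBar (L : Type*) [Field L] [Algebra ℚ L] (N : ℕ) : IntermediateField L (LaurentSeries L) :=
  laurentBaseChange L (modularFunctionFieldFull N)

theorem embA_jqModC : embA A (jqModC A) = jqModC L := coeffMap_jqModC _

theorem redA_jqModC : redA A π (jqModC A) = jqModC k := coeffMap_jqModC _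

theorem embA_ev (μ : ℕ →₀ ℕ) : embA A (ev A μ) = ev L μ := coeffMap_ev _ μ

theorem redA_ev (μ : ℕ →₀ ℕ) : redA A π (ev A μ) = ev k μ := coeffMap_ev _ μ

theorem ev_mem_FBar (N : ℕ) [NeZero N] (μ : box N) : ev L (μ : ℕ →₀ ℕ) ∈ FBar L N := by
  rw [← coeffEmb_ev]
  exact coeffEmb_mem_laurentBaseChange L (ev_mem_full' N μ)

theorem jS_mem_FBar {N d : ℕ} [NeZero N] (hd0 : d ≠ 0) (hd : d ∣ N) : jS L 1 d ∈ FBar L N := by
  have h := coeffEmb_mem_laurentBaseChange L (jS_mem_full hd0 hd)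
  rwa [coeffEmb, coeffMap_jS, map_one] at h

theorem hahnC_mem_FBar (N : ℕ) (c : L) : (HahnSeries.C c : LaurentSeries L) ∈ FBar L N := by
  have := (FBar L N).algebraMap_mem c
  rwa [algebraMap_laurentSeries_eq_single] at this

variable [IsAlgClosed k] (ℓ : ℕ) [Fact ℓ.Prime] [CharP k ℓ] {N : ℕ} [NeZero N]

/-- the mod-`ℓ` independence of the box monomials, in the form needed by `GaussAbstract`. -/
theorem indepMod_box (hℓN : ¬ ℓ ∣ N) :
    IndepMod A π (jqModC A) (fun μ : box N => ev A (μ : ℕ →₀ ℕ)) := by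
  intro c h
  refine box_indepMod ℓ hℓN c ?_
  rw [← h]
  refine Finset.sum_congr rfl fun μ _ => ?_
  rw [redA_jqModC, redA_ev, aeval_eq_pev_field]

/-- **Gauss normalisation (ii).** -/
theorem exists_const_mul_unit_FBar (hℓN : ¬ ℓ ∣ N) {f : LaurentSeries L} (hf : f ∈ FBar L N)
    (hf0 : f ≠ 0) :
    ∃ (c : L) (u : gaussRing A π), c ≠ 0 ∧ (u : LaurentSeries L) ∈ FBar L N ∧
      gaussRed A π u ≠ 0 ∧ gaussRed A π u ∈ modularFunctionFieldFullC k N ∧
      f = HahnSeries.C c * (u : LaurentSeries L) := by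
  obtain ⟨Q, hQ, P, hrel⟩ := baseChange_span_poly L N hf
  have hrel' : pev (embA A (jqModC A)) Q * f
      = ∑ μ : box N, pev (embA A (jqModC A)) (P μ) * embA A (ev A (μ : ℕ →₀ ℕ)) := by
    rw [embA_jqModC, ← aeval_eq_pev_field, hrel]
    refine Finset.sum_congr rfl fun μ _ => ?_
    rw [embA_ev, aeval_eq_pev_field]
  obtain ⟨c, u, hc, hu0, huk, hfu⟩ := exists_const_mul_unit (indepMod_box A π ℓ hℓN) hf0 hQ hrel'
    (modularFunctionFieldFullC k N).toSubfield
    (fun a => by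
      have := (modularFunctionFieldFullC k N).algebraMap_mem a
      rwa [algebraMap_laurentSeries_eq_single] at this)
    (by rw [redA_jqModC]; exact jqModC_mem_full k N)
    (fun μ => by rw [redA_ev]; exact ev_mem_fullC k N μ.2)
  refine ⟨c, u, hc, ?_, hu0, huk, hfu⟩
  have hCc : (HahnSeries.C c : LaurentSeries L) ≠ 0 := by
    rw [Ne, map_eq_zero_iff _ HahnSeries.C_injective]
    exact hc
  have : (u : LaurentSeries L) = (HahnSeries.C c)⁻¹ * f := by
    rw [hfu, ← mul_assoc, inv_mul_cancel₀ hCc, one_mul]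
  rw [this]
  exact mul_mem (inv_mem (hahnC_mem_FBar N c)) hf

end Setting

section Main

variable {L : Type*} [Field L] [Algebra ℚ L] (A : ValuationSubring L)
  {k : Type} [Field k] (π : A →+* k)

theorem isUnit_of_map_ne_zero (hπ : Function.Surjective π) {a : A} (ha : π a ≠ 0) : IsUnit a := by
  have hmax : (RingHom.ker π).IsMaximal := RingHom.ker_isMaximal_of_surjective π hπ
  have hker : RingHom.ker π = IsLocalRing.maximalIdeal A := IsLocalRing.eq_maximalIdeal hmax
  by_contra hu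
  have : a ∈ IsLocalRing.maximalIdeal A := (IsLocalRing.mem_maximalIdeal a).mpr hu
  rw [← hker, RingHom.mem_ker] at this
  exact ha this

theorem coe_algebraMap_FBar (N : ℕ) (c : L) :
    ((algebraMap L (FBar L N) c : FBar L N) : LaurentSeries L) = HahnSeries.C c := by
  have h : ((algebraMap L (FBar L N) c : FBar L N) : LaurentSeries L)
      = algebraMap L (LaurentSeries L) c := rfl
  rw [h, algebraMap_laurentSeries_eq_single]
  rfl

variable (N : ℕ)

theorem algebraMap_mem_Ov_iff (hπ : Function.Surjective π) (c : L) :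
    algebraMap L (FBar L N) c ∈ Ov A π (FBar L N) ↔ c ∈ A := by
  rw [mem_Ov_iff, coe_algebraMap_FBar]
  exact hahnC_mem_gaussRing_iff A π (fun a ha => isUnit_of_map_ne_zero A π hπ ha) c

theorem redV_algebraMap (a : A) (h : algebraMap L (FBar L N) (a : L) ∈ Ov A π (FBar L N)) :
    redV A π (FBar L N) ⟨algebraMap L (FBar L N) (a : L), h⟩ = HahnSeries.C (π a) := by
  rw [redV_of_eq_embA A π (FBar L N) _ (a := HahnSeries.C a), redA_C]
  rw [embA_C]
  exact coe_algebraMap_FBar N (a : L)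

variable [IsAlgClosed k] (ℓ : ℕ) [Fact ℓ.Prime] [CharP k ℓ] [NeZero N]

/-- **Gauss normalisation (ii)**, in terms of `Ov` and `redV`. -/
theorem exists_const_mul_unit_F (hℓN : ¬ ℓ ∣ N) (f : FBar L N) (hf : f ≠ 0) :
    ∃ (c : L) (u : Ov A π (FBar L N)), c ≠ 0 ∧ redV A π (FBar L N) u ≠ 0 ∧
      redV A π (FBar L N) u ∈ modularFunctionFieldFullC k N ∧
      f = algebraMap L (FBar L N) c * (u : FBar L N) := by
  have hf0 : (f : LaurentSeries L) ≠ 0 := fun h => hf (Subtype.ext h)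
  obtain ⟨c, u, hc, huF, hu0, huk, hfu⟩ := exists_const_mul_unit_FBar A π ℓ hℓN f.2 hf0
  refine ⟨c, ⟨⟨(u : LaurentSeries L), huF⟩, u.2⟩, hc, hu0, huk, Subtype.ext ?_⟩
  rw [hfu]
  show HahnSeries.C c * (u : LaurentSeries L)
    = ((algebraMap L (FBar L N) c : FBar L N) : LaurentSeries L) * (u : LaurentSeries L)
  rw [coe_algebraMap_FBar]

/-- `Ov` is a valuation subring of `F`. -/
theorem mem_Ov_or_inv_mem_Ov (hπ : Function.Surjective π) (hℓN : ¬ ℓ ∣ N) (f : FBar L N) :
    f ∈ Ov A π (FBar L N) ∨ f⁻¹ ∈ Ov A π (FBar L N) := by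
  by_cases hf : f = 0
  · left; rw [hf]; exact zero_mem _
  obtain ⟨c, u, hc, hu0, -, hfu⟩ := exists_const_mul_unit_F A π N ℓ hℓN f hf
  rcases A.mem_or_inv_mem c with hcA | hcA
  · left
    rw [hfu]
    exact mul_mem ((algebraMap_mem_Ov_iff A π N hπ c).mpr hcA) u.2
  · right
    rw [hfu, mul_inv, ← map_inv₀]
    exact mul_mem ((algebraMap_mem_Ov_iff A π N hπ c⁻¹).mpr hcA) (inv_mem_Ov A π (FBar L N) u.2 hu0)

/-- refined normalisation of an element of `Ov`: the constant lies in `A`. -/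
theorem exists_const_mul_unit_Ov (hπ : Function.Surjective π) (hℓN : ¬ ℓ ∣ N)
    (f : Ov A π (FBar L N)) (hf : f ≠ 0) :
    ∃ (c : A) (u : Ov A π (FBar L N)), c ≠ 0 ∧ redV A π (FBar L N) u ≠ 0 ∧
      redV A π (FBar L N) u ∈ modularFunctionFieldFullC k N ∧
      (u : FBar L N)⁻¹ ∈ Ov A π (FBar L N) ∧
      f = (⟨algebraMap L (FBar L N) (c : L), (algebraMap_mem_Ov_iff A π N hπ c).mpr c.2⟩ :
        Ov A π (FBar L N)) * u := by
  have hf' : (f : FBar L N) ≠ 0 := fun h => hf (Subtype.ext h)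
  obtain ⟨c, u, hc, hu0, huk, hfu⟩ := exists_const_mul_unit_F A π N ℓ hℓN (f : FBar L N) hf'
  have huinv := inv_mem_Ov A π (FBar L N) u.2 hu0
  have hu0' : (u : FBar L N) ≠ 0 := by
    intro h
    apply hu0
    have : u = 0 := Subtype.ext h
    rw [this, map_zero]
  have hcmem : algebraMap L (FBar L N) c ∈ Ov A π (FBar L N) := by
    have : algebraMap L (FBar L N) c = (f : FBar L N) * (u : FBar L N)⁻¹ := by
      rw [hfu, mul_assoc, mul_inv_cancel₀ hu0', mul_one]
    rw [this]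
    exact mul_mem f.2 huinv
  have hcA : c ∈ A := (algebraMap_mem_Ov_iff A π N hπ c).mp hcmem
  refine ⟨⟨c, hcA⟩, u, fun h => hc (congrArg Subtype.val h), hu0, huk, huinv, Subtype.ext ?_⟩
  exact hfu

/-- **kernel of `redV`**: the multiples of the maximal ideal of `A`. -/
theorem redV_eq_zero_iff (hπ : Function.Surjective π) (hℓN : ¬ ℓ ∣ N) (f : Ov A π (FBar L N)) :
    redV A π (FBar L N) f = 0 ↔
      ∃ (c : A) (u : Ov A π (FBar L N)), π c = 0 ∧
        (f : FBar L N) = algebraMap L (FBar L N) (c : L) * (u : FBar L N) := by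
  constructor
  · intro h
    by_cases hf : f = 0
    · exact ⟨0, 0, map_zero _, by rw [hf]; simp⟩
    obtain ⟨c, u, -, hu0, -, -, hfu⟩ := exists_const_mul_unit_Ov A π N ℓ hπ hℓN f hf
    refine ⟨c, u, ?_, by rw [hfu]; rfl⟩
    rw [hfu, map_mul, redV_algebraMap] at h
    rcases mul_eq_zero.mp h with h1 | h1
    · exact (map_eq_zero_iff _ HahnSeries.C_injective).mp h1
    · exact absurd h1 hu0
  · rintro ⟨c, u, hc, hfu⟩
    have hcmem := (algebraMap_mem_Ov_iff A π N hπ (c : L)).mpr c.2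
    have : f = (⟨algebraMap L (FBar L N) (c : L), hcmem⟩ : Ov A π (FBar L N)) * u :=
      Subtype.ext hfu
    rw [this, map_mul, redV_algebraMap, hc, map_zero, zero_mul]

/-- the reduction of an element of `Ov` lies in the function field mod `ℓ`. -/
theorem redV_mem_Fk (hπ : Function.Surjective π) (hℓN : ¬ ℓ ∣ N) (f : Ov A π (FBar L N)) :
    redV A π (FBar L N) f ∈ modularFunctionFieldFullC k N := by
  by_cases hf : f = 0
  · rw [hf, map_zero]; exact zero_mem _
  obtain ⟨c, u, -, -, huk, -, hfu⟩ := exists_const_mul_unit_Ov A π N ℓ hπ hℓN f hf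
  rw [hfu, map_mul, redV_algebraMap]
  refine mul_mem ?_ huk
  have := (modularFunctionFieldFullC k N).algebraMap_mem (π c)
  rwa [algebraMap_laurentSeries_eq_single] at this

/-- an element of `Ov` with nonzero reduction is a unit of `Ov`. -/
theorem inv_mem_Ov_of_redV_ne_zero (f : Ov A π (FBar L N)) (h : redV A π (FBar L N) f ≠ 0) :
    (f : FBar L N)⁻¹ ∈ Ov A π (FBar L N) := inv_mem_Ov A π (FBar L N) f.2 h

end Main

section Residue

variable {L : Type*} [Field L] [Algebra ℚ L] (A : ValuationSubring L)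
  {k : Type} [Field k] (π : A →+* k) (N : ℕ)
  [IsAlgClosed k] (ℓ : ℕ) [Fact ℓ.Prime] [CharP k ℓ] [NeZero N]

/-- `j(q^d)`, `d ∣ N`, lies in `Ov` and reduces to `j(q^d)`. -/
theorem jS_mem_Ov {d : ℕ} (hd0 : d ≠ 0) (hd : d ∣ N) :
    (⟨jS L 1 d, jS_mem_FBar hd0 hd⟩ : FBar L N) ∈ Ov A π (FBar L N) := by
  rw [mem_Ov_iff]
  have : jS L 1 d = embA A (jS A 1 d) := by
    rw [embA, coeffMap_jS, map_one]
  show jS L 1 d ∈ gaussRing A π
  rw [this]
  exact embA_mem_gaussRing A π _

theorem redV_jS {d : ℕ} (hd0 : d ≠ 0) (hd : d ∣ N) :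
    redV A π (FBar L N) ⟨⟨jS L 1 d, jS_mem_FBar hd0 hd⟩, jS_mem_Ov A π N hd0 hd⟩ = jS k 1 d := by
  rw [redV_of_eq_embA A π (FBar L N) _ (a := jS A 1 d)]
  · rw [redA, coeffMap_jS, map_one]
  · show jS L 1 d = embA A (jS A 1 d)
    rw [embA, coeffMap_jS, map_one]

/-- the image of `redV`, as an intermediate field of `k((q)) / k`. -/
def resRange (hπ : Function.Surjective π) (_hℓN : ¬ ℓ ∣ N) :
    IntermediateField k (LaurentSeries k) where
  carrier := Set.range (redV A π (FBar L N))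
  mul_mem' := by
    rintro _ _ ⟨f, rfl⟩ ⟨g, rfl⟩
    exact ⟨f * g, map_mul _ _ _⟩
  one_mem' := ⟨1, map_one _⟩
  add_mem' := by
    rintro _ _ ⟨f, rfl⟩ ⟨g, rfl⟩
    exact ⟨f + g, map_add _ _ _⟩
  zero_mem' := ⟨0, map_zero _⟩
  algebraMap_mem' := by
    intro a
    obtain ⟨a', rfl⟩ := hπ a
    refine ⟨⟨algebraMap L (FBar L N) (a' : L), (algebraMap_mem_Ov_iff A π N hπ a').mpr a'.2⟩, ?_⟩
    rw [redV_algebraMap, algebraMap_laurentSeries_eq_single]
    rfl
  inv_mem' := by
    rintro _ ⟨f, rfl⟩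
    by_cases h0 : redV A π (FBar L N) f = 0
    · rw [h0, inv_zero]; exact ⟨0, map_zero _⟩
    · have hinv := inv_mem_Ov A π (FBar L N) f.2 h0
      refine ⟨⟨(f : FBar L N)⁻¹, hinv⟩, ?_⟩
      have hf0 : (f : FBar L N) ≠ 0 := by
        intro h
        apply h0
        have : f = 0 := Subtype.ext h
        rw [this, map_zero]
      have h1 : (⟨(f : FBar L N)⁻¹, hinv⟩ : Ov A π (FBar L N)) * f = 1 :=
        Subtype.ext (inv_mul_cancel₀ hf0)
      have h2 := congrArg (redV A π (FBar L N)) h1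
      rw [map_mul, map_one] at h2
      exact eq_inv_of_mul_eq_one_left h2

theorem mem_resRange (hπ : Function.Surjective π) (hℓN : ¬ ℓ ∣ N) {z : LaurentSeries k} :
    z ∈ resRange A π N ℓ hπ hℓN ↔ ∃ f, redV A π (FBar L N) f = z := Iff.rfl

/-- **the residue field is `Fk`**: `redV` maps `Ov` onto `modularFunctionFieldFullC k N`. -/
theorem redV_surjective_Fk (hπ : Function.Surjective π) (hℓN : ¬ ℓ ∣ N)
    {z : LaurentSeries k} (hz : z ∈ modularFunctionFieldFullC k N) :
    ∃ f : Ov A π (FBar L N), redV A π (FBar L N) f = z := by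
  have hle : modularFunctionFieldFullC k N ≤ resRange A π N ℓ hπ hℓN := by
    rw [modularFunctionFieldFullC, IntermediateField.adjoin_le_iff]
    rintro _ ⟨d, hd, hdN, rfl⟩
    have hd0 : d ≠ 0 := NeZero.ne d
    refine ⟨⟨⟨jS L 1 d, jS_mem_FBar hd0 hdN⟩, jS_mem_Ov A π N hd0 hdN⟩, ?_⟩
    rw [redV_jS A π N hd0 hdN, jS_eq_qExpand]
  exact hle hz

/-- `Ov` as a valuation subring of `F`. -/
def OvVal (hπ : Function.Surjective π) (hℓN : ¬ ℓ ∣ N) : ValuationSubring (FBar L N) :=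
  { Ov A π (FBar L N) with
    mem_or_inv_mem' := mem_Ov_or_inv_mem_Ov A π N ℓ hπ hℓN }

theorem mem_OvVal_iff (hπ : Function.Surjective π) (hℓN : ¬ ℓ ∣ N) {f : FBar L N} :
    f ∈ OvVal A π N ℓ hπ hℓN ↔ f ∈ Ov A π (FBar L N) := Iff.rfl

/-- the identity map `OvVal → Ov`. -/
def ovValToOv (hπ : Function.Surjective π) (hℓN : ¬ ℓ ∣ N) :
    OvVal A π N ℓ hπ hℓN →+* Ov A π (FBar L N) where
  toFun f := ⟨(f : FBar L N), f.2⟩
  map_one' := rfl
  map_mul' _ _ := rfl
  map_zero' := rfl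
  map_add' _ _ := rfl

/-- the residue map `OvVal → Fk`. -/
def resFk (hπ : Function.Surjective π) (hℓN : ¬ ℓ ∣ N) :
    OvVal A π N ℓ hπ hℓN →+* modularFunctionFieldFullC k N :=
  ((redV A π (FBar L N)).comp (ovValToOv A π N ℓ hπ hℓN)).codRestrict
    (modularFunctionFieldFullC k N) fun _ => redV_mem_Fk A π N ℓ hπ hℓN _

theorem coe_resFk (hπ : Function.Surjective π) (hℓN : ¬ ℓ ∣ N) (f : OvVal A π N ℓ hπ hℓN) :
    ((resFk A π N ℓ hπ hℓN f : modularFunctionFieldFullC k N) : LaurentSeries k)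
      = redV A π (FBar L N) ⟨(f : FBar L N), f.2⟩ := rfl

theorem resFk_surjective (hπ : Function.Surjective π) (hℓN : ¬ ℓ ∣ N) :
    Function.Surjective (resFk A π N ℓ hπ hℓN) := by
  intro z
  obtain ⟨f, hf⟩ := redV_surjective_Fk A π N ℓ hπ hℓN z.2
  exact ⟨⟨(f : FBar L N), f.2⟩, Subtype.ext hf⟩

/-- the kernel of the residue map is the set of non-units of `OvVal`. -/
theorem resFk_eq_zero_iff (hπ : Function.Surjective π) (hℓN : ¬ ℓ ∣ N)
    (f : OvVal A π N ℓ hπ hℓN) :
    resFk A π N ℓ hπ hℓN f = 0 ↔ ¬ IsUnit f := by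
  constructor
  · intro h hu
    have := hu.map (resFk A π N ℓ hπ hℓN)
    rw [h] at this
    exact not_isUnit_zero this
  · intro hu
    by_contra h0
    apply hu
    have h0' : redV A π (FBar L N) ⟨(f : FBar L N), f.2⟩ ≠ 0 := fun h => h0 (Subtype.ext h)
    have hinv := inv_mem_Ov A π (FBar L N) f.2 h0'
    have hf0 : (f : FBar L N) ≠ 0 := by
      intro h
      apply h0'
      have : (⟨(f : FBar L N), f.2⟩ : Ov A π (FBar L N)) = 0 := Subtype.ext h
      rw [this, map_zero]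
    exact IsUnit.of_mul_eq_one (⟨(f : FBar L N)⁻¹, hinv⟩ : OvVal A π N ℓ hπ hℓN)
      (Subtype.ext (mul_inv_cancel₀ hf0))

end Residue

end Fermat.Agent.Gateway.GoodRed
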