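import Mathlib
import Fermat.Agent.Gateway.GoodRed.GaussBar

/-!
# P-GATEWAY (c) GoodRed: shared basic elements of `FBar L N`

`jqModC_mem_FBar`, `jF`, `coe_jF`, `evF`, `coe_evF` (used by both `Instantiate/GaussData.lean` and
`Orthonormal.lean`).
-/

set_option autoImplicit false

noncomputable section

namespace Fermat.Agent.Gateway.GoodRed

open ModularCurve Fermat.Agent.S28 Fermat.Agent.S28.Tower

variable (L : Type*) [Field L] [Algebra ℚ L] (N : ℕ) [NeZero N]

theorem jqModC_mem_FBar : jqModC L ∈ FBar L N := by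
  have h := jS_mem_FBar (L := L) (N := N) one_ne_zero (one_dvd N)
  rwa [jS_one_one] at h

/-- `j` as an element of `FBar L N`. -/
def jF : FBar L N := ⟨jqModC L, jqModC_mem_FBar L N⟩

@[simp] theorem coe_jF : ((jF L N : FBar L N) : LaurentSeries L) = jqModC L := rfl

/-- the box monomials as elements of `FBar L N`. -/
def evF (μ : box N) : FBar L N := ⟨ev L (μ : ℕ →₀ ℕ), ev_mem_FBar N μ⟩

@[simp] theorem coe_evF (μ : box N) : ((evF L N μ : FBar L N) : LaurentSeries L) = ev L (μ : ℕ →₀ ℕ) :=
  rfl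

end Fermat.Agent.Gateway.GoodRed
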