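import Mathlib

/-!
# P-GATEWAY (c) GoodRed, WP-GR3: extension of a valuation ring with full residue degree

Pure valuation-ring algebra (Mathlib only).

Setting: `Kx ≤ F` fields, `F / Kx` finite of degree `n`, `O : ValuationSubring F`,
`Ox := O.comap (algebraMap Kx F)` (`baseVal Kx O`).  A `ResidueData O kx Fk` consists of ring homs
`redx : Ox →+* kx`, `red : O →+* Fk` into fields `kx ≤ Fk`, compatible with the inclusion, such
that `red` kills the non-units of `O` (in the form: `red f ≠ 0 → f⁻¹ ∈ O`).

Igusa-type hypothesis `FullResidueDegree`: there are `n = [F : Kx]` elements of `O` whose residues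
are `kx`-linearly independent.

Main results (`D : ResidueData O kx Fk`):
* `linearIndependent_of_red` : residues `kx`-independent ⇒ lifts `Kx`-independent (no hypothesis);
* `coeff_mem_of_red` : coordinates of `f ∈ O` in such a `Kx`-basis of lifts lie in `Ox`;
* `basisF`, `basisO`, `basisk` : the three bases attached to lifts of a `kx`-basis;
  `finrank_residue`; `isIntegral_of_mem`, `mem_iff_isIntegral` (`O` = integral closure of `Ox`);
* `leftMulMatrix_basisF`, `leftMulMatrix_basisk` and the existence statements
  `exists_charpoly`, `exists_trace`, `exists_norm`, `exists_discr` (reduction of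
  charpoly / trace / norm / discriminant);
* `exists_monic_of_isIntegral`, `isIntegral_red` : integrality over `R0` reduces;
* `powerBasis_*` : if `discr (1, θ, …, θ^(n-1))` is a unit of `Ox` then `O = Ox[θ]`, `Fk = kx(θ̄)`.
-/

set_option autoImplicit false

noncomputable section

namespace Fermat.Agent.Gateway.GoodRed.GaussExt

open Polynomial

section Defs

variable (Kx : Type*) {F : Type*} [Field Kx] [Field F] [Algebra Kx F]

/-- `O_x = O ∩ K_x`. -/
abbrev baseVal (O : ValuationSubring F) : ValuationSubring Kx := O.comap (algebraMap Kx F)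

/-- the inclusion `O_x → O`. -/
def baseIncl (O : ValuationSubring F) : baseVal Kx O →+* O :=
  (algebraMap Kx F).restrict (baseVal Kx O) O fun _ hx => hx

@[simp] theorem coe_baseIncl (O : ValuationSubring F) (c : baseVal Kx O) :
    ((baseIncl Kx O c : O) : F) = algebraMap Kx F (c : Kx) := rfl

theorem baseIncl_injective (O : ValuationSubring F) : Function.Injective (baseIncl Kx O) := by
  intro a b h
  have := congrArg (fun x : O => (x : F)) h
  simp only [coe_baseIncl] at this
  exact Subtype.ext ((algebraMap Kx F).injective this)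

end Defs

section Normalise

variable {K : Type*} [Field K] (A : ValuationSubring K)

/-- In a finite family of elements of `K`, not all zero, one of them is nonzero and divides all
the others in the valuation ring `A`. -/
theorem exists_div_mem {ι : Type*} (s : Finset ι) (g : ι → K) (h : ∃ i ∈ s, g i ≠ 0) :
    ∃ j ∈ s, g j ≠ 0 ∧ ∀ i ∈ s, g i / g j ∈ A := by
  obtain ⟨i₀, hi₀, hg₀⟩ := h
  obtain ⟨j, hj, hmax⟩ := s.exists_max_image (fun i => A.valuation (g i)) ⟨i₀, hi₀⟩
  have hj0 : g j ≠ 0 := by
    intro h0
    have h1 := hmax i₀ hi₀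
    rw [h0, map_zero] at h1
    exact hg₀ ((map_eq_zero _).1 (le_antisymm h1 zero_le))
  refine ⟨j, hj, hj0, fun i hi => ?_⟩
  rw [← A.valuation_le_one_iff, map_div₀]
  exact div_le_one_of_le₀ (hmax i hi) zero_le

end Normalise

section Main

variable {Kx F : Type*} [Field Kx] [Field F] [Algebra Kx F]
variable {kx Fk : Type*} [Field kx] [Field Fk] [Algebra kx Fk]

/-- Residue data for `O / O_x`: ring homs to fields `kx ≤ Fk`, compatible with the inclusion,
`red` killing the non-units of `O`. (No surjectivity is required here.) -/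
structure ResidueData (O : ValuationSubring F) (kx Fk : Type*) [Field kx] [Field Fk]
    [Algebra kx Fk] where
  /-- the reduction on `O_x`. -/
  redx : baseVal Kx O →+* kx
  /-- the reduction on `O`. -/
  red : O →+* Fk
  red_baseIncl : ∀ c : baseVal Kx O, red (baseIncl Kx O c) = algebraMap kx Fk (redx c)
  inv_mem_of_red_ne_zero : ∀ f : O, red f ≠ 0 → ((f : F))⁻¹ ∈ O

variable {O : ValuationSubring F} (D : ResidueData (Kx := Kx) O kx Fk)

namespace ResidueData

theorem red_eq_zero_of_not_isUnit (f : O) (hf : ¬ IsUnit f) : D.red f = 0 := by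
  by_contra h
  have hinv := D.inv_mem_of_red_ne_zero f h
  have hf0 : (f : F) ≠ 0 := by
    intro h0
    apply h
    have : f = 0 := Subtype.ext h0
    rw [this, map_zero]
  exact hf (isUnit_iff_exists_inv.2 ⟨⟨_, hinv⟩, Subtype.ext (mul_inv_cancel₀ hf0)⟩)

/-- `red` kills `c⁻¹` for `c ∈ Kx ∖ Ox`. -/
theorem red_inv_eq_zero {c : Kx} (hc : c ∉ baseVal Kx O) (hc' : c⁻¹ ∈ baseVal Kx O) :
    D.red (baseIncl Kx O ⟨c⁻¹, hc'⟩) = 0 := by
  apply D.red_eq_zero_of_not_isUnit
  intro hu
  obtain ⟨y, hy⟩ := isUnit_iff_exists_inv.1 hu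
  have h1 := congrArg (fun x : O => (x : F)) hy
  simp only [MulMemClass.coe_mul, coe_baseIncl, OneMemClass.coe_one, map_inv₀] at h1
  have hc0 : algebraMap Kx F c ≠ 0 := by
    intro h0
    rw [h0, inv_zero, zero_mul] at h1
    exact zero_ne_one h1
  have : (y : F) = algebraMap Kx F c := by
    field_simp at h1
    exact h1
  apply hc
  show algebraMap Kx F c ∈ O
  rw [← this]
  exact y.2

/-- Core: a relation `t = ∑ c i * b i` in `O` with `red t = 0` forces `redx (c i) = 0`. -/
theorem redx_eq_zero_of_sum {ι : Type*} {b : ι → O}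
    (hb : LinearIndependent kx (fun i => D.red (b i))) (s : Finset ι) (c : ι → baseVal Kx O)
    (t : O) (ht : D.red t = 0) (h : t = ∑ i ∈ s, baseIncl Kx O (c i) * b i) :
    ∀ i ∈ s, D.redx (c i) = 0 := by
  have h1 : ∑ i ∈ s, D.redx (c i) • D.red (b i) = 0 := by
    rw [← ht, h, map_sum]
    refine Finset.sum_congr rfl fun i _ => ?_
    rw [map_mul, D.red_baseIncl, Algebra.smul_def]
  exact linearIndependent_iff'.1 hb s (fun i => D.redx (c i)) h1

/-- (a0) Lifts of `kx`-linearly independent residues are `Kx`-linearly independent. -/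
theorem linearIndependent_of_red {ι : Type*} {b : ι → O}
    (hb : LinearIndependent kx (fun i => D.red (b i))) :
    LinearIndependent Kx (fun i => ((b i : O) : F)) := by
  classical
  rw [linearIndependent_iff']
  intro s g hg
  by_contra hne
  push Not at hne
  obtain ⟨j, hj, hj0, hdiv⟩ := exists_div_mem (baseVal Kx O) s g hne
  set c : ι → baseVal Kx O := fun i => if hi : i ∈ s then ⟨g i / g j, hdiv i hi⟩ else 0 with hc
  have hrel : (0 : O) = ∑ i ∈ s, baseIncl Kx O (c i) * b i := by
    apply Subtype.ext
    rw [ZeroMemClass.coe_zero]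
    have : ((∑ i ∈ s, baseIncl Kx O (c i) * b i : O) : F)
        = ∑ i ∈ s, algebraMap Kx F (g i / g j) * (b i : F) := by
      rw [← ValuationSubring.coe_subtype, map_sum]
      refine Finset.sum_congr rfl fun i hi => ?_
      simp only [hc, dif_pos hi, ValuationSubring.coe_subtype, MulMemClass.coe_mul,
        coe_baseIncl]
    rw [this]
    have h2 : ∑ i ∈ s, algebraMap Kx F (g i / g j) * (b i : F)
        = algebraMap Kx F (g j)⁻¹ * ∑ i ∈ s, g i • (b i : F) := by
      rw [Finset.mul_sum]
      refine Finset.sum_congr rfl fun i _ => ?_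
      rw [Algebra.smul_def, div_eq_mul_inv, map_mul]
      ring
    rw [h2, hg, mul_zero]
  have h3 := D.redx_eq_zero_of_sum hb s c 0 (map_zero _) hrel j hj
  have hcj : c j = 1 := by
    simp only [hc, dif_pos hj]
    exact Subtype.ext (div_self hj0)
  rw [hcj, map_one] at h3
  exact one_ne_zero h3

/-- Coordinates of an element of `O` with respect to lifts of `kx`-independent residues lie
in `O_x`. -/
theorem coeff_mem_of_red {ι : Type*} {b : ι → O}
    (hb : LinearIndependent kx (fun i => D.red (b i))) (f : O) (s : Finset ι) (g : ι → Kx)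
    (hf : (f : F) = ∑ i ∈ s, g i • ((b i : O) : F)) : ∀ i ∈ s, g i ∈ baseVal Kx O := by
  classical
  by_contra hne
  push Not at hne
  obtain ⟨i₀, hi₀, hg₀⟩ := hne
  have hg₀' : g i₀ ≠ 0 := by
    intro h0
    rw [h0] at hg₀
    exact hg₀ (zero_mem _)
  obtain ⟨j, hj, hj0, hdiv⟩ := exists_div_mem (baseVal Kx O) s g ⟨i₀, hi₀, hg₀'⟩
  have hgj : g j ∉ baseVal Kx O := by
    intro hmem
    apply hg₀
    have : g i₀ = g i₀ / g j * g j := by field_simp
    rw [this]
    exact mul_mem (hdiv i₀ hi₀) hmem
  have hgj' : (g j)⁻¹ ∈ baseVal Kx O := ((baseVal Kx O).mem_or_inv_mem (g j)).resolve_left hgj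
  set c : ι → baseVal Kx O := fun i => if hi : i ∈ s then ⟨g i / g j, hdiv i hi⟩ else 0 with hc
  have hrel : baseIncl Kx O ⟨(g j)⁻¹, hgj'⟩ * f = ∑ i ∈ s, baseIncl Kx O (c i) * b i := by
    apply Subtype.ext
    have : ((∑ i ∈ s, baseIncl Kx O (c i) * b i : O) : F)
        = ∑ i ∈ s, algebraMap Kx F (g i / g j) * (b i : F) := by
      rw [← ValuationSubring.coe_subtype, map_sum]
      refine Finset.sum_congr rfl fun i hi => ?_
      simp only [hc, dif_pos hi, ValuationSubring.coe_subtype, MulMemClass.coe_mul,
        coe_baseIncl]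
    rw [this, MulMemClass.coe_mul, coe_baseIncl, hf, Finset.mul_sum]
    refine Finset.sum_congr rfl fun i _ => ?_
    rw [Algebra.smul_def, div_eq_mul_inv, map_mul]
    ring
  have ht : D.red (baseIncl Kx O ⟨(g j)⁻¹, hgj'⟩ * f) = 0 := by
    rw [map_mul, D.red_inv_eq_zero hgj hgj', zero_mul]
  have h3 := D.redx_eq_zero_of_sum hb s c _ ht hrel j hj
  have hcj : c j = 1 := by
    simp only [hc, dif_pos hj]
    exact Subtype.ext (div_self hj0)
  rw [hcj, map_one] at h3
  exact one_ne_zero h3

end ResidueData

end Main

section Bases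

variable {Kx F : Type*} [Field Kx] [Field F] [Algebra Kx F]

/-- `O` as an `O_x`-algebra. -/
instance baseAlgebra (O : ValuationSubring F) : Algebra (baseVal Kx O) O :=
  (baseIncl Kx O).toAlgebra

theorem baseAlgebra_algebraMap (O : ValuationSubring F) :
    algebraMap (baseVal Kx O) O = baseIncl Kx O := rfl

theorem baseAlgebra_smul_def (O : ValuationSubring F) (c : baseVal Kx O) (f : O) :
    c • f = baseIncl Kx O c * f := rfl

instance baseAlgebra_isScalarTower (O : ValuationSubring F) :
    IsScalarTower (baseVal Kx O) O F :=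
  IsScalarTower.of_algebraMap_eq fun _ => rfl

@[simp] theorem coe_base_smul (O : ValuationSubring F) (c : baseVal Kx O) (f : O) :
    ((c • f : O) : F) = (c : Kx) • (f : F) := by
  rw [baseAlgebra_smul_def, MulMemClass.coe_mul, coe_baseIncl, Algebra.smul_def]

variable {kx Fk : Type*} [Field kx] [Field Fk] [Algebra kx Fk]
variable {O : ValuationSubring F} (D : ResidueData (Kx := Kx) O kx Fk)

namespace ResidueData

theorem red_smul (c : baseVal Kx O) (f : O) : D.red (c • f) = D.redx c • D.red f := by
  rw [baseAlgebra_smul_def, map_mul, D.red_baseIncl, Algebra.smul_def]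

variable [FiniteDimensional Kx F] {ι : Type*} [Fintype ι] {b : ι → O}

omit [FiniteDimensional Kx F] [Fintype ι] in
theorem linearIndependent_base (hb : LinearIndependent kx (fun i => D.red (b i))) :
    LinearIndependent (baseVal Kx O) b := by
  have h1 : LinearIndependent Kx (fun i => ((b i : O) : F)) := D.linearIndependent_of_red hb
  have h2 : LinearIndependent (baseVal Kx O) (fun i => ((b i : O) : F)) := by
    refine h1.restrict_scalars ?_
    intro x y hxy
    simp only [Algebra.smul_def, mul_one] at hxy
    exact Subtype.ext hxy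
  exact LinearIndependent.of_comp ((IsScalarTower.toAlgHom (baseVal Kx O) O F).toLinearMap) h2

variable (hb : LinearIndependent kx (fun i => D.red (b i)))
  (hcard : Fintype.card ι = Module.finrank Kx F)

include hb hcard

/-- The `Kx`-basis of `F` given by lifts of a `kx`-basis of the residue field. -/
def basisF : Module.Basis ι Kx F :=
  haveI : Nonempty ι := Fintype.card_pos_iff.1 (hcard ▸ Module.finrank_pos)
  basisOfLinearIndependentOfCardEqFinrank (D.linearIndependent_of_red hb) hcard

@[simp] theorem basisF_apply (i : ι) : D.basisF hb hcard i = (b i : F) := by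
  have : Nonempty ι := Fintype.card_pos_iff.1 (hcard ▸ Module.finrank_pos)
  simp [basisF]

theorem basisF_repr_mem (f : O) (i : ι) :
    (D.basisF hb hcard).repr (f : F) i ∈ baseVal Kx O := by
  refine D.coeff_mem_of_red hb f Finset.univ (fun i => (D.basisF hb hcard).repr (f : F) i) ?_ i
    (Finset.mem_univ i)
  conv_lhs => rw [← (D.basisF hb hcard).sum_repr (f : F)]
  refine Finset.sum_congr rfl fun i _ => ?_
  rw [basisF_apply]

theorem span_base_eq_top : ⊤ ≤ Submodule.span (baseVal Kx O) (Set.range b) := by
  intro f _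
  have hf : f = ∑ i, (⟨(D.basisF hb hcard).repr (f : F) i, D.basisF_repr_mem hb hcard f i⟩ :
      baseVal Kx O) • b i := by
    apply Subtype.ext
    rw [AddSubmonoidClass.coe_finsetSum]
    simp only [coe_base_smul]
    conv_lhs => rw [← (D.basisF hb hcard).sum_repr (f : F)]
    refine Finset.sum_congr rfl fun i _ => ?_
    rw [basisF_apply]
  rw [hf]
  exact Submodule.sum_mem _ fun i _ => Submodule.smul_mem _ _ (Submodule.subset_span ⟨i, rfl⟩)

/-- (a) The lifts form an `O_x`-basis of `O`. -/
def basisO : Module.Basis ι (baseVal Kx O) O :=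
  Module.Basis.mk (D.linearIndependent_base hb) (D.span_base_eq_top hb hcard)

@[simp] theorem basisO_apply (i : ι) : D.basisO hb hcard i = b i := by
  simp [basisO]

/-- coordinates in `basisF` are the coordinates in `basisO`. -/
theorem basisF_repr (f : O) (i : ι) :
    (D.basisF hb hcard).repr (f : F) i = (((D.basisO hb hcard).repr f i : baseVal Kx O) : Kx) := by
  have hf : (f : F) = ∑ i, (((D.basisO hb hcard).repr f i : baseVal Kx O) : Kx) •
      D.basisF hb hcard i := by
    conv_lhs => rw [← (D.basisO hb hcard).sum_repr f]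
    rw [AddSubmonoidClass.coe_finsetSum]
    refine Finset.sum_congr rfl fun i _ => ?_
    rw [coe_base_smul, basisO_apply, basisF_apply]
  conv_lhs => rw [hf]
  rw [Module.Basis.repr_sum_self]

/-- `O` is a finite free `O_x`-module. -/
theorem module_finite : Module.Finite (baseVal Kx O) O :=
  Module.Finite.of_basis (D.basisO hb hcard)

theorem module_free : Module.Free (baseVal Kx O) O :=
  Module.Free.of_basis (D.basisO hb hcard)

/-- every element of `O` is integral over `O_x`. -/
theorem isIntegral_of_mem (f : O) : IsIntegral (baseVal Kx O) (f : F) := by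
  have := D.module_finite hb hcard
  have h : IsIntegral (baseVal Kx O) f := Algebra.IsIntegral.isIntegral f
  exact h.map (IsScalarTower.toAlgHom (baseVal Kx O) O F)

/-- (a) `O` is the integral closure of `O_x` in `F`. -/
theorem mem_iff_isIntegral (f : F) : f ∈ O ↔ IsIntegral (baseVal Kx O) f := by
  constructor
  · intro hf
    exact D.isIntegral_of_mem hb hcard ⟨f, hf⟩
  · intro hf
    have h1 : IsIntegral O f := hf.tower_top
    obtain ⟨y, hy⟩ := (IsIntegrallyClosed.isIntegral_iff (R := O) (K := F)).1 h1
    rw [← hy]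
    exact y.2

variable (hsurj : Function.Surjective D.red)

include hsurj

theorem span_red_eq_top : ⊤ ≤ Submodule.span kx (Set.range fun i => D.red (b i)) := by
  intro y _
  obtain ⟨f, rfl⟩ := hsurj y
  have hf : D.red f = ∑ i, D.redx ((D.basisO hb hcard).repr f i) • D.red (b i) := by
    conv_lhs => rw [← (D.basisO hb hcard).sum_repr f]
    rw [map_sum]
    refine Finset.sum_congr rfl fun i _ => ?_
    rw [D.red_smul, basisO_apply]
  rw [hf]
  exact Submodule.sum_mem _ fun i _ => Submodule.smul_mem _ _ (Submodule.subset_span ⟨i, rfl⟩)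

/-- the residues form a `kx`-basis of the residue field. -/
def basisk : Module.Basis ι kx Fk :=
  Module.Basis.mk hb (D.span_red_eq_top hb hcard hsurj)

@[simp] theorem basisk_apply (i : ι) : D.basisk hb hcard hsurj i = D.red (b i) := by
  simp [basisk]

/-- coordinates in `basisk` are the reductions of the coordinates in `basisO`. -/
theorem basisk_repr (f : O) (i : ι) :
    (D.basisk hb hcard hsurj).repr (D.red f) i = D.redx ((D.basisO hb hcard).repr f i) := by
  have hf : D.red f = ∑ i, D.redx ((D.basisO hb hcard).repr f i) • D.basisk hb hcard hsurj i := by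
    conv_lhs => rw [← (D.basisO hb hcard).sum_repr f]
    rw [map_sum]
    refine Finset.sum_congr rfl fun i _ => ?_
    rw [D.red_smul, basisO_apply, basisk_apply]
  conv_lhs => rw [hf]
  rw [Module.Basis.repr_sum_self]

/-- the residue degree equals the degree. -/
theorem finrank_residue : Module.finrank kx Fk = Module.finrank Kx F := by
  rw [Module.finrank_eq_card_basis (D.basisk hb hcard hsurj), hcard]

theorem finiteDimensional_residue : FiniteDimensional kx Fk :=
  Module.Finite.of_basis (D.basisk hb hcard hsurj)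

section Matrix

variable [DecidableEq ι]

omit hsurj in
/-- (b) the matrix of multiplication by `f ∈ O` over `Kx` has entries in `O_x`. -/
theorem leftMulMatrix_basisF (f : O) :
    Algebra.leftMulMatrix (D.basisF hb hcard) (f : F) =
      (Algebra.leftMulMatrix (D.basisO hb hcard) f).map (algebraMap (baseVal Kx O) Kx) := by
  ext i j
  rw [Matrix.map_apply, Algebra.leftMulMatrix_eq_repr_mul, Algebra.leftMulMatrix_eq_repr_mul,
    basisF_apply, basisO_apply]
  exact D.basisF_repr hb hcard (f * b j) i

/-- (b) the matrix of multiplication by `red f` is the reduction of the matrix of `f`. -/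
theorem leftMulMatrix_basisk (f : O) :
    Algebra.leftMulMatrix (D.basisk hb hcard hsurj) (D.red f) =
      (Algebra.leftMulMatrix (D.basisO hb hcard) f).map D.redx := by
  ext i j
  rw [Matrix.map_apply, Algebra.leftMulMatrix_eq_repr_mul, Algebra.leftMulMatrix_eq_repr_mul,
    basisk_apply, basisO_apply, ← map_mul]
  exact D.basisk_repr hb hcard hsurj (f * b j) i

end Matrix

end ResidueData

end Bases

section Invariants

variable {Kx F : Type*} [Field Kx] [Field F] [Algebra Kx F] [FiniteDimensional Kx F]
variable {kx Fk : Type*} [Field kx] [Field Fk] [Algebra kx Fk]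
variable {O : ValuationSubring F} (D : ResidueData (Kx := Kx) O kx Fk)

namespace ResidueData

/-- Igusa-type hypothesis: there are `[F : Kx]` elements of `O` with `kx`-linearly independent
residues. -/
def FullResidueDegree : Prop :=
  ∃ b : Fin (Module.finrank Kx F) → O, LinearIndependent kx (fun i => D.red (b i))

variable (H : D.FullResidueDegree)

include H

theorem FullResidueDegree.module_finite : Module.Finite (baseVal Kx O) O := by
  obtain ⟨b, hb⟩ := H
  exact D.module_finite hb (by simp)

theorem FullResidueDegree.module_free : Module.Free (baseVal Kx O) O := by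
  obtain ⟨b, hb⟩ := H
  exact D.module_free hb (by simp)

theorem FullResidueDegree.isIntegral_of_mem (f : O) : IsIntegral (baseVal Kx O) (f : F) := by
  obtain ⟨b, hb⟩ := H
  exact D.isIntegral_of_mem hb (by simp) f

theorem FullResidueDegree.mem_iff_isIntegral (f : F) :
    f ∈ O ↔ IsIntegral (baseVal Kx O) f := by
  obtain ⟨b, hb⟩ := H
  exact D.mem_iff_isIntegral hb (by simp) f

/-- (b) trace over `Kx` of `f ∈ O` is the trace over `O_x`. -/
theorem FullResidueDegree.coe_trace (f : O) :
    ((Algebra.trace (baseVal Kx O) O f : baseVal Kx O) : Kx) = Algebra.trace Kx F (f : F) := by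
  classical
  obtain ⟨b, hb⟩ := H
  have hcard : Fintype.card (Fin (Module.finrank Kx F)) = Module.finrank Kx F := by simp
  rw [Algebra.trace_eq_matrix_trace (D.basisO hb hcard),
    Algebra.trace_eq_matrix_trace (D.basisF hb hcard), D.leftMulMatrix_basisF hb hcard]
  simp only [Matrix.trace, Matrix.diag_apply, Matrix.map_apply]
  rw [← ValuationSubring.coe_subtype, map_sum]
  rfl

/-- (b) norm over `Kx` of `f ∈ O` is the norm over `O_x`. -/
theorem FullResidueDegree.coe_norm (f : O) :
    ((Algebra.norm (baseVal Kx O) f : baseVal Kx O) : Kx) = Algebra.norm Kx (f : F) := by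
  classical
  obtain ⟨b, hb⟩ := H
  have hcard : Fintype.card (Fin (Module.finrank Kx F)) = Module.finrank Kx F := by simp
  rw [Algebra.norm_eq_matrix_det (D.basisO hb hcard),
    Algebra.norm_eq_matrix_det (D.basisF hb hcard), D.leftMulMatrix_basisF hb hcard]
  exact RingHom.map_det (algebraMap (baseVal Kx O) Kx) _

/-- (b) discriminant over `Kx` of a family in `O` is the discriminant over `O_x`. -/
theorem FullResidueDegree.coe_discr {κ : Type*} [Fintype κ] [DecidableEq κ] (v : κ → O) :
    ((Algebra.discr (baseVal Kx O) v : baseVal Kx O) : Kx) =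
      Algebra.discr Kx (fun i => ((v i : O) : F)) := by
  rw [Algebra.discr_def, Algebra.discr_def]
  have : Algebra.traceMatrix Kx (fun i => ((v i : O) : F)) =
      (Algebra.traceMatrix (baseVal Kx O) v).map (algebraMap (baseVal Kx O) Kx) := by
    ext i j
    rw [Matrix.map_apply, Algebra.traceMatrix_apply, Algebra.traceMatrix_apply,
      Algebra.traceForm_apply, Algebra.traceForm_apply]
    exact (FullResidueDegree.coe_trace D H (v i * v j)).symm
  rw [this]
  exact RingHom.map_det (algebraMap (baseVal Kx O) Kx) _

variable (hsurj : Function.Surjective D.red)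

include hsurj

theorem FullResidueDegree.finrank_residue : Module.finrank kx Fk = Module.finrank Kx F := by
  obtain ⟨b, hb⟩ := H
  exact D.finrank_residue hb (by simp) hsurj

theorem FullResidueDegree.finiteDimensional_residue : FiniteDimensional kx Fk := by
  obtain ⟨b, hb⟩ := H
  exact D.finiteDimensional_residue hb (by simp) hsurj

/-- (b) the trace reduces to the trace of the residue extension. -/
theorem FullResidueDegree.redx_trace (f : O) :
    D.redx (Algebra.trace (baseVal Kx O) O f) = Algebra.trace kx Fk (D.red f) := by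
  classical
  obtain ⟨b, hb⟩ := H
  have hcard : Fintype.card (Fin (Module.finrank Kx F)) = Module.finrank Kx F := by simp
  rw [Algebra.trace_eq_matrix_trace (D.basisO hb hcard),
    Algebra.trace_eq_matrix_trace (D.basisk hb hcard hsurj), D.leftMulMatrix_basisk hb hcard hsurj]
  simp only [Matrix.trace, Matrix.diag_apply, Matrix.map_apply]
  rw [map_sum]

/-- (b) the norm reduces to the norm of the residue extension. -/
theorem FullResidueDegree.redx_norm (f : O) :
    D.redx (Algebra.norm (baseVal Kx O) f) = Algebra.norm kx (D.red f) := by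
  classical
  obtain ⟨b, hb⟩ := H
  have hcard : Fintype.card (Fin (Module.finrank Kx F)) = Module.finrank Kx F := by simp
  rw [Algebra.norm_eq_matrix_det (D.basisO hb hcard),
    Algebra.norm_eq_matrix_det (D.basisk hb hcard hsurj), D.leftMulMatrix_basisk hb hcard hsurj]
  exact RingHom.map_det D.redx _

/-- (b) the discriminant reduces to the discriminant of the residue extension. -/
theorem FullResidueDegree.redx_discr {κ : Type*} [Fintype κ] [DecidableEq κ] (v : κ → O) :
    D.redx (Algebra.discr (baseVal Kx O) v) = Algebra.discr kx (fun i => D.red (v i)) := by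
  rw [Algebra.discr_def, Algebra.discr_def]
  have : Algebra.traceMatrix kx (fun i => D.red (v i)) =
      (Algebra.traceMatrix (baseVal Kx O) v).map D.redx := by
    ext i j
    rw [Matrix.map_apply, Algebra.traceMatrix_apply, Algebra.traceMatrix_apply,
      Algebra.traceForm_apply, Algebra.traceForm_apply, ← map_mul]
    exact (FullResidueDegree.redx_trace D H hsurj (v i * v j)).symm
  rw [this]
  exact RingHom.map_det D.redx _

/-- (b) the characteristic polynomial of `f ∈ O` over `Kx` has coefficients in `O_x` and reduces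
to the characteristic polynomial of `red f` over `kx`. -/
theorem FullResidueDegree.exists_charpoly [FiniteDimensional kx Fk] (f : O) :
    ∃ P : (baseVal Kx O)[X], P.Monic ∧ P.natDegree = Module.finrank Kx F ∧
      P.map (algebraMap (baseVal Kx O) Kx) = LinearMap.charpoly (Algebra.lmul Kx F (f : F)) ∧
      P.map D.redx = LinearMap.charpoly (Algebra.lmul kx Fk (D.red f)) ∧
      aeval f P = 0 := by
  classical
  obtain ⟨b, hb⟩ := H
  have hcard : Fintype.card (Fin (Module.finrank Kx F)) = Module.finrank Kx F := by simp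
  refine ⟨(Algebra.leftMulMatrix (D.basisO hb hcard) f).charpoly, Matrix.charpoly_monic _, ?_,
    ?_, ?_, ?_⟩
  · rw [Matrix.charpoly_natDegree_eq_dim, hcard]
  · rw [← Matrix.charpoly_map, ← D.leftMulMatrix_basisF hb hcard, Algebra.leftMulMatrix_apply,
      LinearMap.charpoly_toMatrix]
  · rw [← Matrix.charpoly_map, ← D.leftMulMatrix_basisk hb hcard hsurj,
      Algebra.leftMulMatrix_apply, LinearMap.charpoly_toMatrix]
  · have h1 := Matrix.aeval_self_charpoly (Algebra.leftMulMatrix (D.basisO hb hcard) f)
    rw [Polynomial.aeval_algHom_apply] at h1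
    exact (Algebra.leftMulMatrix_injective (D.basisO hb hcard)) (by rw [h1, map_zero])

end ResidueData

end Invariants

section IntegralOver

variable {Kx F : Type*} [Field Kx] [Field F] [Algebra Kx F] [FiniteDimensional Kx F]
variable {kx Fk : Type*} [Field kx] [Field Fk] [Algebra kx Fk]
variable {O : ValuationSubring F} (D : ResidueData (Kx := Kx) O kx Fk)

namespace ResidueData

omit [FiniteDimensional Kx F] in
/-- evaluation of polynomials over `O_x` commutes with reduction. -/
theorem aeval_red (Q : (baseVal Kx O)[X]) (f : O) :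
    aeval (D.red f) (Q.map D.redx) = D.red (aeval f Q) := by
  rw [aeval_def, eval₂_map, aeval_def, hom_eval₂]
  congr 1
  ext c
  simp only [RingHom.comp_apply, baseAlgebra_algebraMap, D.red_baseIncl]

omit [FiniteDimensional Kx F] in
/-- a unit of `O_x` has nonzero reduction. -/
theorem redx_ne_zero_of_inv_mem (c : baseVal Kx O) (hc0 : (c : Kx) ≠ 0)
    (hc : ((c : Kx))⁻¹ ∈ baseVal Kx O) : D.redx c ≠ 0 := by
  intro h0
  have h1 : c * ⟨_, hc⟩ = 1 := Subtype.ext (mul_inv_cancel₀ hc0)
  have h2 := congrArg D.redx h1
  rw [map_mul, h0, zero_mul, map_one] at h2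
  exact zero_ne_one h2

variable (H : D.FullResidueDegree)

include H

variable {R0 : Type*} [CommRing R0] [IsDomain R0] [IsIntegrallyClosed R0] [Algebra R0 Kx]
  [IsFractionRing R0 Kx] [Algebra R0 F] [IsScalarTower R0 Kx F]

/-- (c) If `f ∈ O` is integral over an integrally closed `R0` with fraction field `Kx`, then it is
killed by a monic polynomial over `R0` all of whose coefficients lie in `O_x`. -/
theorem FullResidueDegree.exists_monic_of_isIntegral (f : O) (hf : IsIntegral R0 (f : F)) :
    ∃ (P : R0[X]) (Q : (baseVal Kx O)[X]), P.Monic ∧ Q.Monic ∧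
      Q.map (algebraMap (baseVal Kx O) Kx) = P.map (algebraMap R0 Kx) ∧
      aeval (f : F) P = 0 ∧ aeval f Q = 0 := by
  have hf' : IsIntegral (baseVal Kx O) (f : F) := FullResidueDegree.isIntegral_of_mem D H f
  refine ⟨minpoly R0 (f : F), minpoly (baseVal Kx O) (f : F), minpoly.monic hf, minpoly.monic hf',
    ?_, minpoly.aeval _ _, ?_⟩
  · rw [← minpoly.isIntegrallyClosed_eq_field_fractions' Kx hf,
      ← minpoly.isIntegrallyClosed_eq_field_fractions' Kx hf']
  · have h1 : aeval (algebraMap O F f) (minpoly (baseVal Kx O) (f : F)) = 0 := minpoly.aeval _ _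
    rw [aeval_algebraMap_apply] at h1
    exact (FaithfulSMul.algebraMap_injective O F) (by rw [h1, map_zero])

/-- (c) Integrality over `R0` reduces to integrality over (any ring `R0k` receiving) the image of
`R0 ∩ O_x` in `kx`. -/
theorem FullResidueDegree.isIntegral_red {R0k : Type*} [CommRing R0k] [Algebra R0k kx]
    [Algebra R0k Fk] [IsScalarTower R0k kx Fk]
    (hR : ∀ c : baseVal Kx O, (c : Kx) ∈ Set.range (algebraMap R0 Kx) →
      D.redx c ∈ Set.range (algebraMap R0k kx))
    (f : O) (hf : IsIntegral R0 (f : F)) : IsIntegral R0k (D.red f) := by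
  obtain ⟨P, Q, hP, hQ, hPQ, -, hfQ⟩ := FullResidueDegree.exists_monic_of_isIntegral D H f hf
  have hlift : Q.map D.redx ∈ Polynomial.lifts (algebraMap R0k kx) := by
    rw [Polynomial.lifts_iff_coeff_lifts]
    intro i
    rw [Polynomial.coeff_map]
    apply hR
    refine ⟨P.coeff i, ?_⟩
    have := congrArg (fun p => Polynomial.coeff p i) hPQ
    simp only [Polynomial.coeff_map] at this
    exact this.symm
  obtain ⟨q, hq, -, hqm⟩ := Polynomial.lifts_and_natDegree_eq_and_monic hlift (hQ.map D.redx)
  refine ⟨q, hqm, ?_⟩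
  rw [← aeval_def, ← Polynomial.aeval_map_algebraMap kx, hq, D.aeval_red, hfQ, map_zero]

/-- (c'), instance-free variant: `R0` ANY commutative ring mapping to `Kx` (no fraction-field or
integrally-closed instance needed).  If `f ∈ O` is integral over `R0`, then `f` is killed by a
monic polynomial over `O_x` all of whose coefficients are integral over `R0`. -/
theorem FullResidueDegree.exists_monic_of_isIntegral' {R1 : Type*} [CommRing R1] [Algebra R1 Kx]
    [Algebra R1 F] [IsScalarTower R1 Kx F] (f : O) (hf : IsIntegral R1 (f : F)) :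
    ∃ Q : (baseVal Kx O)[X], Q.Monic ∧ aeval f Q = 0 ∧
      ∀ i, IsIntegral R1 (((Q.coeff i : baseVal Kx O)) : Kx) := by
  have hf' : IsIntegral (baseVal Kx O) (f : F) := FullResidueDegree.isIntegral_of_mem D H f
  refine ⟨minpoly (baseVal Kx O) (f : F), minpoly.monic hf', ?_, ?_⟩
  · have h1 : aeval (algebraMap O F f) (minpoly (baseVal Kx O) (f : F)) = 0 := minpoly.aeval _ _
    rw [aeval_algebraMap_apply] at h1
    exact (FaithfulSMul.algebraMap_injective O F) (by rw [h1, map_zero])
  · intro i
    obtain ⟨P0, hP0, hP0f⟩ := hf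
    have hd : minpoly Kx (f : F) ∣ P0.map (algebraMap R1 Kx) := by
      apply minpoly.dvd
      rw [aeval_def, eval₂_map, ← IsScalarTower.algebraMap_eq]
      exact hP0f
    have hint : IsIntegral Kx (f : F) := Algebra.IsIntegral.isIntegral _
    have hl := integralClosure.mem_lifts_of_monic_of_dvd_map Kx hP0 (minpoly.monic hint) hd
    have hc := (Polynomial.lifts_iff_coeff_lifts _).1 hl i
    obtain ⟨y, hy⟩ := hc
    have h2 : (((minpoly (baseVal Kx O) (f : F)).coeff i : baseVal Kx O) : Kx) =
        (minpoly Kx (f : F)).coeff i := by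
      rw [minpoly.isIntegrallyClosed_eq_field_fractions' Kx hf', Polynomial.coeff_map]
      rfl
    rw [h2, ← hy]
    exact y.2

/-- (c'), instance-free variant of `isIntegral_red`: integrality over `R1` reduces to integrality
over `R1k`, provided `redx` maps the elements of `O_x` integral over `R1` to elements of `kx`
integral over `R1k`. -/
theorem FullResidueDegree.isIntegral_red' {R1 : Type*} [CommRing R1] [Algebra R1 Kx]
    [Algebra R1 F] [IsScalarTower R1 Kx F] {R1k : Type*} [CommRing R1k] [Algebra R1k kx]
    [Algebra R1k Fk] [IsScalarTower R1k kx Fk]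
    (hR : ∀ c : baseVal Kx O, IsIntegral R1 (c : Kx) → IsIntegral R1k (D.redx c))
    (f : O) (hf : IsIntegral R1 (f : F)) : IsIntegral R1k (D.red f) := by
  obtain ⟨Q, hQ, hfQ, hQi⟩ := FullResidueDegree.exists_monic_of_isIntegral' D H f hf
  -- `red f` is integral over the integral closure of `R1k` in `kx`
  have hlift : Q.map D.redx ∈ Polynomial.lifts (algebraMap (integralClosure R1k kx) kx) := by
    rw [Polynomial.lifts_iff_coeff_lifts]
    intro i
    rw [Polynomial.coeff_map]
    exact ⟨⟨_, hR _ (hQi i)⟩, rfl⟩
  obtain ⟨q, hq, -, hqm⟩ := Polynomial.lifts_and_natDegree_eq_and_monic hlift (hQ.map D.redx)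
  have h1 : IsIntegral (integralClosure R1k kx) (D.red f) := by
    refine ⟨q, hqm, ?_⟩
    rw [← aeval_def, ← Polynomial.aeval_map_algebraMap kx, hq, D.aeval_red, hfQ, map_zero]
  exact isIntegral_trans _ h1

end ResidueData

end IntegralOver

section PowerBasis

variable {Kx F : Type*} [Field Kx] [Field F] [Algebra Kx F] [FiniteDimensional Kx F]
variable {kx Fk : Type*} [Field kx] [Field Fk] [Algebra kx Fk]
variable {O : ValuationSubring F} (D : ResidueData (Kx := Kx) O kx Fk)

namespace ResidueData

variable (H : D.FullResidueDegree) (hsurj : Function.Surjective D.red)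

include H hsurj

/-- (d) if the discriminant of `1, θ, …, θ^(n-1)` has nonzero reduction, the residues of the
powers of `θ` are `kx`-linearly independent (so `basisF/basisO/basisk`, `coeff_mem_of_red` apply
to the powers of `θ`). -/
theorem FullResidueDegree.linearIndependent_pow (θ : O) (n : ℕ)
    (hθ : D.redx (Algebra.discr (baseVal Kx O) (fun i : Fin n => θ ^ (i : ℕ))) ≠ 0) :
    LinearIndependent kx (fun i : Fin n => D.red (θ ^ (i : ℕ))) := by
  classical
  by_contra h
  apply hθ
  rw [FullResidueDegree.redx_discr D H hsurj]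
  exact Algebra.discr_zero_of_not_linearIndependent kx h

/-- (d), in terms of the discriminant over `Kx`: it suffices that the discriminant of
`1, θ, …, θ^(n-1)` over `Kx` is nonzero with inverse in `O_x`. -/
theorem FullResidueDegree.linearIndependent_pow' (θ : O) (n : ℕ)
    (hd0 : Algebra.discr Kx (fun i : Fin n => ((θ : O) : F) ^ (i : ℕ)) ≠ 0)
    (hd : (Algebra.discr Kx (fun i : Fin n => ((θ : O) : F) ^ (i : ℕ)))⁻¹ ∈ baseVal Kx O) :
    LinearIndependent kx (fun i : Fin n => D.red (θ ^ (i : ℕ))) := by
  classical
  apply FullResidueDegree.linearIndependent_pow D H hsurj θ n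
  have hc := FullResidueDegree.coe_discr D H (fun i : Fin n => θ ^ (i : ℕ))
  simp only [SubmonoidClass.coe_pow] at hc
  apply D.redx_ne_zero_of_inv_mem
  · rw [hc]; exact hd0
  · rw [hc]; exact hd

/-- (d) `O = O_x[θ]`: every element of `O` is an `O_x`-combination of `1, θ, …, θ^(n-1)`. -/
theorem FullResidueDegree.exists_eq_sum_pow (θ : O)
    (hθ : D.redx (Algebra.discr (baseVal Kx O)
      (fun i : Fin (Module.finrank Kx F) => θ ^ (i : ℕ))) ≠ 0) (f : O) :
    ∃ c : Fin (Module.finrank Kx F) → baseVal Kx O, f = ∑ i, c i • θ ^ (i : ℕ) := by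
  have hb := FullResidueDegree.linearIndependent_pow D H hsurj θ _ hθ
  have hcard : Fintype.card (Fin (Module.finrank Kx F)) = Module.finrank Kx F := by simp
  refine ⟨fun i => (D.basisO hb hcard).repr f i, ?_⟩
  conv_lhs => rw [← (D.basisO hb hcard).sum_repr f]
  refine Finset.sum_congr rfl fun i _ => ?_
  rw [basisO_apply]

/-- (d) `O = O_x[θ]`. -/
theorem FullResidueDegree.adjoin_eq_top (θ : O)
    (hθ : D.redx (Algebra.discr (baseVal Kx O)
      (fun i : Fin (Module.finrank Kx F) => θ ^ (i : ℕ))) ≠ 0) :
    Algebra.adjoin (baseVal Kx O) {θ} = ⊤ := by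
  rw [eq_top_iff]
  intro f _
  obtain ⟨c, rfl⟩ := FullResidueDegree.exists_eq_sum_pow D H hsurj θ hθ f
  refine Subalgebra.sum_mem _ fun i _ => Subalgebra.smul_mem _ ?_ _
  exact Subalgebra.pow_mem _ (Algebra.subset_adjoin (Set.mem_singleton θ)) _

/-- (d) `Fk = kx(θ̄)`. -/
theorem FullResidueDegree.adjoin_red_eq_top (θ : O)
    (hθ : D.redx (Algebra.discr (baseVal Kx O)
      (fun i : Fin (Module.finrank Kx F) => θ ^ (i : ℕ))) ≠ 0) :
    Algebra.adjoin kx {D.red θ} = ⊤ := by
  rw [eq_top_iff]
  intro y _
  obtain ⟨f, rfl⟩ := hsurj y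
  obtain ⟨c, rfl⟩ := FullResidueDegree.exists_eq_sum_pow D H hsurj θ hθ f
  rw [map_sum]
  refine Subalgebra.sum_mem _ fun i _ => ?_
  rw [D.red_smul, map_pow]
  exact Subalgebra.smul_mem _
    (Subalgebra.pow_mem _ (Algebra.subset_adjoin (Set.mem_singleton _)) _) _

end ResidueData

end PowerBasis

section Degree

variable {Kx F : Type*} [Field Kx] [Field F] [Algebra Kx F] [FiniteDimensional Kx F]
variable {kx Fk : Type*} [Field kx] [Field Fk] [Algebra kx Fk]
variable {O : ValuationSubring F} (D : ResidueData (Kx := Kx) O kx Fk)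

namespace ResidueData

/-- at most `[F : Kx]` residues can be `kx`-linearly independent (no hypothesis). -/
theorem card_le_finrank_of_red {ι : Type*} [Fintype ι] {b : ι → O}
    (hb : LinearIndependent kx (fun i => D.red (b i))) :
    Fintype.card ι ≤ Module.finrank Kx F :=
  (D.linearIndependent_of_red hb).fintype_card_le_finrank

variable (hsurj : Function.Surjective D.red)

include hsurj

/-- the fundamental inequality `[Fk : kx] ≤ [F : Kx]` (no hypothesis). -/
theorem rank_residue_le : Module.rank kx Fk ≤ (Module.finrank Kx F : Cardinal) := by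
  apply rank_le
  intro s hs
  choose lift hlift using hsurj
  have h1 : LinearIndependent kx (fun i : s => D.red (lift (i : Fk))) := by
    simpa only [hlift] using hs
  have h2 := D.card_le_finrank_of_red h1
  simpa using h2

theorem finiteDimensional_residue' : FiniteDimensional kx Fk := by
  rw [FiniteDimensional, ← Module.rank_lt_aleph0_iff]
  exact lt_of_le_of_lt (D.rank_residue_le hsurj) Cardinal.natCast_lt_aleph0

theorem finrank_residue_le : Module.finrank kx Fk ≤ Module.finrank Kx F := by
  have := D.finiteDimensional_residue' hsurj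
  have h1 := D.rank_residue_le hsurj
  rw [← Module.finrank_eq_rank] at h1
  exact_mod_cast h1

/-- the Igusa hypothesis in the form `[F : Kx] ≤ [Fk : kx]`. -/
theorem fullResidueDegree_of_le (hle : Module.finrank Kx F ≤ Module.finrank kx Fk) :
    D.FullResidueDegree := by
  have := D.finiteDimensional_residue' hsurj
  let B := Module.finBasis kx Fk
  choose lift hlift using hsurj
  refine ⟨fun i => lift (B (Fin.castLE hle i)), ?_⟩
  simp only [hlift]
  exact B.linearIndependent.comp _ (Fin.castLE_injective hle)

theorem fullResidueDegree_iff :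
    D.FullResidueDegree ↔ Module.finrank Kx F ≤ Module.finrank kx Fk :=
  ⟨fun H => (FullResidueDegree.finrank_residue D H hsurj).ge, D.fullResidueDegree_of_le hsurj⟩

end ResidueData

end Degree

section Unique

/-! ### Uniqueness: `O` is the only valuation subring of `F` lying over `O_x` -/

variable {Kx F : Type*} [Field Kx] [Field F] [Algebra Kx F] [FiniteDimensional Kx F]
variable {kx Fk : Type*} [Field kx] [Field Fk] [Algebra kx Fk]
variable {O : ValuationSubring F} (D : ResidueData (Kx := Kx) O kx Fk)

namespace ResidueData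

variable (H : D.FullResidueDegree)

include H

/-- every valuation subring of `F` containing `O_x` contains `O` (= the integral closure). -/
theorem FullResidueDegree.le_of_baseVal_le (O' : ValuationSubring F)
    (h : baseVal Kx O ≤ baseVal Kx O') : O ≤ O' := by
  intro f hf
  obtain ⟨P, hP, hPf⟩ := FullResidueDegree.isIntegral_of_mem D H ⟨f, hf⟩
  let i' : baseVal Kx O →+* O' :=
    (algebraMap Kx F).restrict (baseVal Kx O) O' fun c hc => h hc
  have hcomp : (algebraMap O' F).comp i' = algebraMap (baseVal Kx O) F := by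
    refine RingHom.ext fun c => ?_
    rfl
  have hint : IsIntegral O' f := by
    refine ⟨P.map i', hP.map i', ?_⟩
    rw [eval₂_map, hcomp]
    exact hPf
  obtain ⟨y, hy⟩ := (IsIntegrallyClosed.isIntegral_iff (R := O') (K := F)).1 hint
  rw [← hy]
  exact y.2

variable (hsurj : Function.Surjective D.red)

include hsurj

/-- **Uniqueness**: a valuation subring `O'` of `F` with `O' ∩ Kx = O_x` equals `O`. -/
theorem FullResidueDegree.eq_of_baseVal_eq (O' : ValuationSubring F)
    (h : baseVal Kx O' = baseVal Kx O) : O' = O := by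
  classical
  have hle : O ≤ O' := FullResidueDegree.le_of_baseVal_le D H O' h.ge
  refine le_antisymm ?_ hle
  intro g hg
  by_contra hgO
  have hg0 : g ≠ 0 := by
    rintro rfl
    exact hgO (zero_mem _)
  have hinv : g⁻¹ ∈ O := (O.mem_or_inv_mem g).resolve_left hgO
  set hh : O := ⟨g⁻¹, hinv⟩ with hhdef
  -- `hh` is a non-unit of `O`, so its reduction is zero
  have hred : D.red hh = 0 := by
    apply D.red_eq_zero_of_not_isUnit
    intro hu
    obtain ⟨y, hy⟩ := isUnit_iff_exists_inv.1 hu
    have h1 := congrArg (fun x : O => (x : F)) hy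
    simp only [MulMemClass.coe_mul, OneMemClass.coe_one, hhdef] at h1
    have : (y : F) = g := by
      field_simp at h1
      exact h1
    exact hgO (this ▸ y.2)
  have := FullResidueDegree.finiteDimensional_residue D H hsurj
  obtain ⟨P, hP, hdeg, -, hPk, hPh⟩ := FullResidueDegree.exists_charpoly D H hsurj hh
  set n := Module.finrank Kx F with hn
  have hnpos : 0 < n := Module.finrank_pos
  -- the reduced characteristic polynomial is `X ^ n`
  have hXn : P.map D.redx = X ^ n := by
    rw [hPk, hred, map_zero, LinearMap.charpoly_zero, FullResidueDegree.finrank_residue D H hsurj]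
  -- the lower coefficients are non-units of `O_x`, hence of `O'`
  have hcoef : ∀ i, i < n → O'.valuation (algebraMap Kx F ((P.coeff i : baseVal Kx O) : Kx)) < 1 := by
    intro i hi
    have h0 : D.redx (P.coeff i) = 0 := by
      have := congrArg (fun p => Polynomial.coeff p i) hXn
      simp only [Polynomial.coeff_map, Polynomial.coeff_X_pow] at this
      rw [this, if_neg (ne_of_lt hi)]
    set c : baseVal Kx O := P.coeff i with hc
    by_cases hc0 : (c : Kx) = 0
    · rw [hc0, map_zero, map_zero]
      exact zero_lt_one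
    · have hnot : ((c : Kx))⁻¹ ∉ baseVal Kx O := by
        intro hmem
        exact D.redx_ne_zero_of_inv_mem c hc0 hmem h0
      have hnot' : (algebraMap Kx F (c : Kx))⁻¹ ∉ O' := by
        intro hmem
        apply hnot
        have h5 : ((c : Kx))⁻¹ ∈ baseVal Kx O' := by
          show algebraMap Kx F ((c : Kx))⁻¹ ∈ O'
          rw [map_inv₀]
          exact hmem
        rwa [h] at h5
      have hcO' : algebraMap Kx F (c : Kx) ∈ O' := by
        have : (c : Kx) ∈ baseVal Kx O' := by rw [h]; exact c.2
        exact this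
      have hle1 : O'.valuation (algebraMap Kx F (c : Kx)) ≤ 1 := (O'.valuation_le_one_iff _).2 hcO'
      refine lt_of_le_of_ne hle1 ?_
      intro h1
      apply hnot'
      rw [← O'.valuation_le_one_iff, map_inv₀, h1, inv_one]
  -- `g⁻¹` is a unit of `O'`
  have hv1 : O'.valuation g⁻¹ = 1 := by
    have h1 : O'.valuation g ≤ 1 := (O'.valuation_le_one_iff _).2 hg
    have h2 : O'.valuation g⁻¹ ≤ 1 := (O'.valuation_le_one_iff _).2 (hle hinv)
    rw [map_inv₀] at h2 ⊢
    have hvg0 : O'.valuation g ≠ 0 := (Valuation.ne_zero_iff _).2 hg0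
    have h3 : 1 ≤ O'.valuation g := by
      rwa [inv_le_one₀ (zero_lt_iff.2 hvg0)] at h2
    rw [le_antisymm h1 h3, inv_one]
  -- evaluate the characteristic polynomial at `g⁻¹`
  have hev : (g⁻¹) ^ n = -∑ i ∈ Finset.range n,
      algebraMap Kx F ((P.coeff i : baseVal Kx O) : Kx) * (g⁻¹) ^ i := by
    have h1 := congrArg (fun x : O => (x : F)) hPh
    simp only [ZeroMemClass.coe_zero] at h1
    rw [Polynomial.aeval_eq_sum_range, hdeg, Finset.sum_range_succ,
      AddMemClass.coe_add, AddSubmonoidClass.coe_finsetSum] at h1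
    have h2 : P.coeff n = 1 := by rw [← hdeg]; exact hP.coeff_natDegree
    rw [h2, one_smul] at h1
    rw [eq_neg_iff_add_eq_zero, add_comm, ← h1]
    congr 1
  have hlt : O'.valuation ((g⁻¹) ^ n) < 1 := by
    rw [hev, Valuation.map_neg]
    refine Valuation.map_sum_lt _ one_ne_zero fun i hi => ?_
    rw [map_mul, map_pow, hv1, one_pow, mul_one]
    exact hcoef i (Finset.mem_range.1 hi)
  rw [map_pow, hv1, one_pow] at hlt
  exact lt_irrefl _ hlt

end ResidueData

end Unique

section OfRingHom

/-! ### Residue data from a ring hom `O →+* E` into a field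

For consumers whose reduction map lands in a big field `E` (e.g. `redV : Ov →+* k((q))`):
`resField ρ h` is the image of `O`, `resFieldx ρ h` the image of `O_x` (both subfields of `E`),
and `ofRingHom ρ h : ResidueData O (resFieldx ρ h) (resField ρ h)` has surjective `red`, `redx`. -/

variable {Kx F : Type*} [Field Kx] [Field F] [Algebra Kx F]
variable {E : Type*} [Field E] {O : ValuationSubring F} (ρ : O →+* E)
  (h : ∀ f : O, ρ f ≠ 0 → ((f : F))⁻¹ ∈ O)

include h in
theorem exists_inv_of_ne_zero (f : O) (hf : ρ f ≠ 0) : ∃ g : O, (g : F) = ((f : F))⁻¹ ∧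
    ρ g = (ρ f)⁻¹ := by
  refine ⟨⟨_, h f hf⟩, rfl, ?_⟩
  have hf0 : (f : F) ≠ 0 := by
    intro h0
    apply hf
    have : f = 0 := Subtype.ext h0
    rw [this, map_zero]
  have h1 : f * ⟨_, h f hf⟩ = 1 := Subtype.ext (mul_inv_cancel₀ hf0)
  have h2 := congrArg ρ h1
  rw [map_mul, map_one] at h2
  exact eq_inv_of_mul_eq_one_right h2

/-- the image of `O` in `E`, a subfield. -/
def resField : Subfield E where
  toSubring := ρ.range
  inv_mem' := by
    rintro _ ⟨f, rfl⟩
    by_cases hf : ρ f = 0
    · rw [hf, inv_zero]; exact ρ.range.zero_mem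
    · obtain ⟨g, -, hg⟩ := exists_inv_of_ne_zero ρ h f hf
      exact ⟨g, hg⟩

variable (Kx) in
/-- the image of `O_x` in `E`, a subfield. -/
def resFieldx : Subfield E where
  toSubring := (ρ.comp (baseIncl Kx O)).range
  inv_mem' := by
    rintro _ ⟨c, rfl⟩
    by_cases hc : ρ (baseIncl Kx O c) = 0
    · rw [RingHom.comp_apply, hc, inv_zero]; exact (ρ.comp (baseIncl Kx O)).range.zero_mem
    · obtain ⟨g, hg1, hg2⟩ := exists_inv_of_ne_zero ρ h _ hc
      have hmem : ((c : Kx))⁻¹ ∈ baseVal Kx O := by
        show algebraMap Kx F ((c : Kx))⁻¹ ∈ O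
        rw [map_inv₀, ← coe_baseIncl, ← hg1]
        exact g.2
      refine ⟨⟨_, hmem⟩, ?_⟩
      rw [RingHom.comp_apply, RingHom.comp_apply, ← hg2]
      congr 1
      apply Subtype.ext
      rw [hg1, coe_baseIncl, coe_baseIncl, map_inv₀]

theorem mem_resField {y : E} : y ∈ resField ρ h ↔ ∃ f : O, ρ f = y := Iff.rfl

theorem mem_resFieldx {y : E} :
    y ∈ resFieldx Kx ρ h ↔ ∃ c : baseVal Kx O, ρ (baseIncl Kx O c) = y := Iff.rfl

theorem resFieldx_le : resFieldx Kx ρ h ≤ resField ρ h := by
  rintro _ ⟨c, rfl⟩
  exact ⟨baseIncl Kx O c, rfl⟩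

instance resFieldAlgebra : Algebra (resFieldx Kx ρ h) (resField ρ h) :=
  (Subfield.inclusion (resFieldx_le ρ h)).toAlgebra

theorem coe_resFieldAlgebra_algebraMap (y : resFieldx Kx ρ h) :
    ((algebraMap (resFieldx Kx ρ h) (resField ρ h) y : resField ρ h) : E) = (y : E) := rfl

/-- the residue data attached to `ρ : O →+* E`. -/
def ofRingHom : ResidueData (Kx := Kx) O (resFieldx Kx ρ h) (resField ρ h) where
  redx := (ρ.comp (baseIncl Kx O)).codRestrict (resFieldx Kx ρ h).toSubring fun c => ⟨c, rfl⟩
  red := ρ.codRestrict (resField ρ h).toSubring fun f => ⟨f, rfl⟩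
  red_baseIncl := fun _ => rfl
  inv_mem_of_red_ne_zero := by
    intro f hf
    apply h f
    intro h0
    apply hf
    exact Subtype.ext h0

@[simp] theorem coe_ofRingHom_red (f : O) : (((ofRingHom (Kx := Kx) ρ h).red f : resField ρ h) : E)
    = ρ f := rfl

@[simp] theorem coe_ofRingHom_redx (c : baseVal Kx O) :
    (((ofRingHom (Kx := Kx) ρ h).redx c : resFieldx Kx ρ h) : E) = ρ (baseIncl Kx O c) := rfl

theorem ofRingHom_red_surjective : Function.Surjective (ofRingHom (Kx := Kx) ρ h).red := by
  rintro ⟨_, f, rfl⟩
  exact ⟨f, rfl⟩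

theorem ofRingHom_redx_surjective : Function.Surjective (ofRingHom (Kx := Kx) ρ h).redx := by
  rintro ⟨_, c, rfl⟩
  exact ⟨c, rfl⟩

/-- linear independence over `resFieldx` of elements of `resField` can be tested in `E`
(with `E` viewed as a module over the subfield). -/
theorem linearIndependent_resField_iff {ι : Type*} (v : ι → resField ρ h) :
    LinearIndependent (resFieldx Kx ρ h) v ↔
      LinearIndependent (resFieldx Kx ρ h) (fun i => ((v i : resField ρ h) : E)) := by
  let φ : resField ρ h →ₗ[resFieldx Kx ρ h] E :=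
    { toFun := fun y => (y : E)
      map_add' := fun _ _ => rfl
      map_smul' := fun _ _ => rfl }
  have hφ : Function.Injective φ := fun a b hab => Subtype.ext hab
  exact (LinearMap.linearIndependent_iff φ (LinearMap.ker_eq_bot.2 hφ)).symm

end OfRingHom

end Fermat.Agent.Gateway.GoodRed.GaussExt
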