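import Mathlib
import Fermat.Agent.Gateway.Red.Defs
import Fermat.Agent.S28.Laurent
import Fermat.Agent.S28.RatFuncEval
import Fermat.Prelude.Thm_ModularCurve_coeffMap_qExpand

/-!
# P-GATEWAY (c1) WP-GR2: the Gauss ring of a (non-discrete) valuation subring inside `L((z))`

Built on `Fermat.Agent.Gateway.Red` (`embA`, `redA`, `intLS`, `gaussRing`, `gaussRed`).
`L` a field, `A : ValuationSubring L` (NOT assumed discrete), `k` a field, `π : A →+* k`
surjective (the residue map).

* residue map: `pi_eq_zero_iff`, `pi_ne_zero_iff_isUnit`;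
* `redA_surjective`, `gaussRed_surjective`;
* constants: `C_mem_gaussRing_iff : C c ∈ gaussRing A π ↔ c ∈ A`, `gaussRed_C`,
  `C_mul_mem_gaussRing_iff` (scalar criterion for elements with nonzero reduction);
* orders: `support_embA`, `orderTop_embA`, `order_embA`, `leadingCoeff_embA`;
* unit criterion: `isUnit_of_isUnit_leadingCoeff`, `inv_mem_intLS_of_isUnit_leadingCoeff`,
  `redA_order_of_isUnit_leadingCoeff`, ...;
* polynomials: `exists_primitive_normalisation`, `isPrimitive_iff_map_ne_zero`;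
* Gauss lemma at a series `ξ ∈ A((z))` of negative order with unit lowest coefficient:
  `transcendental_redA`, `aeval_mem_gaussRing_iff`, `Ox`, `mem_Ox_iff`, `redOx`, ...;
* compatibility with `qExpand` and `twist`.
-/

set_option autoImplicit false

noncomputable section

namespace Fermat.Agent.Gateway.GoodRed.GaussRing

open ModularCurve HahnSeries Polynomial IntermediateField Fermat.Agent.Gateway.Red

variable {L : Type*} [Field L] (A : ValuationSubring L) {k : Type*} [Field k] (π : A →+* k)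

/-! ### The residue map -/

section Residue

variable {A π}

theorem pi_ne_zero_of_isUnit {a : A} (ha : IsUnit a) : π a ≠ 0 :=
  (ha.map π).ne_zero

theorem ker_pi_eq (hπ : Function.Surjective π) :
    RingHom.ker π = IsLocalRing.maximalIdeal A :=
  IsLocalRing.ker_eq_maximalIdeal π hπ

theorem pi_eq_zero_iff (hπ : Function.Surjective π) (a : A) :
    π a = 0 ↔ a ∈ IsLocalRing.maximalIdeal A := by
  rw [← ker_pi_eq hπ, RingHom.mem_ker]

theorem pi_ne_zero_iff_isUnit (hπ : Function.Surjective π) (a : A) :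
    π a ≠ 0 ↔ IsUnit a := by
  rw [Ne, pi_eq_zero_iff hπ, IsLocalRing.mem_maximalIdeal, mem_nonunits_iff, not_not]

/-- if `c ∉ A` then `c⁻¹` lies in the maximal ideal of `A`. -/
theorem pi_inv_eq_zero_of_notMem (hπ : Function.Surjective π) {c : L} (hc : c ∉ A) :
    ∃ h : c⁻¹ ∈ A, π ⟨c⁻¹, h⟩ = 0 := by
  have hinv : c⁻¹ ∈ A := (A.mem_or_inv_mem c).resolve_left hc
  refine ⟨hinv, ?_⟩
  by_contra hne
  have hu : IsUnit (⟨c⁻¹, hinv⟩ : A) := (pi_ne_zero_iff_isUnit hπ _).mp hne
  obtain ⟨u, hu⟩ := hu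
  apply hc
  have h1 : ((u⁻¹ : Aˣ) : A) * ⟨c⁻¹, hinv⟩ = 1 := by rw [← hu]; exact u.inv_mul
  have h2 : (((u⁻¹ : Aˣ) : A) : L) * c⁻¹ = 1 := by
    have := congrArg (Subtype.val) h1
    simpa using this
  have hc0 : c ≠ 0 := by
    rintro rfl
    exact hc A.zero_mem
  have h3 : (((u⁻¹ : Aˣ) : A) : L) = c := by
    field_simp at h2
    exact h2
  rw [← h3]
  exact ((u⁻¹ : Aˣ) : A).2

end Residue

/-! ### Surjectivity of the reductions -/

section Surjective

theorem redA_surjective (hπ : Function.Surjective π) : Function.Surjective (redA A π) := by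
  classical
  intro f
  let s : k → A := fun c => if c = 0 then 0 else Function.surjInv hπ c
  have hs : ∀ c, π (s c) = c := by
    intro c
    by_cases hc : c = 0
    · simp [s, hc]
    · simp only [s, hc, if_false]
      exact Function.surjInv_eq hπ c
  have hs0 : s 0 = 0 := by simp [s]
  refine ⟨⟨fun n => s (f.coeff n), f.isPWO_support.mono ?_⟩, ?_⟩
  · intro n hn
    simp only [Function.mem_support, ne_eq] at hn
    simp only [HahnSeries.mem_support, ne_eq]
    intro h0
    exact hn (by rw [h0, hs0])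
  · ext n
    rw [redA_coeff]
    exact hs _

theorem gaussRed_surjective (hπ : Function.Surjective π) :
    Function.Surjective (gaussRed A π) := by
  intro f
  obtain ⟨a, rfl⟩ := redA_surjective A π hπ f
  exact ⟨⟨embA A a, embA_mem_gaussRing A π a⟩, gaussRed_embA A π a⟩

end Surjective

/-! ### Constants -/

section Constants

theorem C_mem_gaussRing_of_mem {c : L} (hc : c ∈ A) : HahnSeries.C c ∈ gaussRing A π := by
  have : HahnSeries.C c = embA A (HahnSeries.C (⟨c, hc⟩ : A)) := by rw [embA_C]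
  rw [this]
  exact embA_mem_gaussRing A π _

theorem gaussRed_C (a : A) :
    gaussRed A π ⟨HahnSeries.C (a : L), C_mem_gaussRing_of_mem A π a.2⟩ = HahnSeries.C (π a) := by
  rw [gaussRed_of_eq_embA A π _ (a := HahnSeries.C a) (by rw [embA_C]), redA_C]

/-- **Scalar criterion.** If `u` is in the Gauss ring with nonzero reduction then
`c • u` is in the Gauss ring iff `c ∈ A`. -/
theorem C_mul_mem_gaussRing_iff (hπ : Function.Surjective π) {u : LaurentSeries L}
    (hu : u ∈ gaussRing A π) (hured : gaussRed A π ⟨u, hu⟩ ≠ 0) (c : L) :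
    HahnSeries.C c * u ∈ gaussRing A π ↔ c ∈ A := by
  constructor
  · intro hcu
    by_contra hc
    obtain ⟨hinv, hπinv⟩ := pi_inv_eq_zero_of_notMem hπ hc
    have hc0 : c ≠ 0 := by
      rintro rfl
      exact hc A.zero_mem
    -- `u = C c⁻¹ * (C c * u)` so `ū = 0`
    have hmem : HahnSeries.C (c⁻¹ : L) ∈ gaussRing A π := C_mem_gaussRing_of_mem A π hinv
    have heq : (⟨u, hu⟩ : gaussRing A π) =
        ⟨HahnSeries.C (c⁻¹ : L), hmem⟩ * ⟨HahnSeries.C c * u, hcu⟩ := by
      apply Subtype.ext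
      show u = HahnSeries.C c⁻¹ * (HahnSeries.C c * u)
      rw [← mul_assoc, ← map_mul, inv_mul_cancel₀ hc0, map_one, one_mul]
    apply hured
    rw [heq, map_mul]
    have := gaussRed_C A π ⟨c⁻¹, hinv⟩
    rw [this, hπinv, map_zero, zero_mul]
  · intro hc
    exact (gaussRing A π).mul_mem (C_mem_gaussRing_of_mem A π hc) hu

theorem C_mem_gaussRing_iff (hπ : Function.Surjective π) (c : L) :
    HahnSeries.C c ∈ gaussRing A π ↔ c ∈ A := by
  have h1 : (1 : LaurentSeries L) ∈ gaussRing A π := (gaussRing A π).one_mem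
  have h := C_mul_mem_gaussRing_iff A π hπ h1
    (by
      have : (⟨1, h1⟩ : gaussRing A π) = 1 := rfl
      rw [this, map_one]; exact one_ne_zero) c
  rwa [mul_one] at h

theorem algebraMap_mem_gaussRing_iff (hπ : Function.Surjective π) (c : L) :
    algebraMap L (LaurentSeries L) c ∈ gaussRing A π ↔ c ∈ A := by
  rw [algebraMap_laurentSeries_eq_single]
  exact C_mem_gaussRing_iff A π hπ c

end Constants

/-! ### Orders and the unit criterion -/

section Order

theorem support_embA (a : LaurentSeries A) : (embA A a).support = a.support := by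
  ext n
  simp only [HahnSeries.mem_support, embA_coeff, ne_eq]
  exact not_congr (by rw [← ZeroMemClass.coe_eq_zero])

theorem orderTop_embA (a : LaurentSeries A) : (embA A a).orderTop = a.orderTop := by
  by_cases ha : a = 0
  · subst ha; simp
  · have ha' : embA A a ≠ 0 := fun h => ha ((embA_eq_zero_iff A a).mp h)
    rw [HahnSeries.orderTop_of_ne_zero ha', HahnSeries.orderTop_of_ne_zero ha]
    congr 1
    simp only [support_embA]

theorem order_embA (a : LaurentSeries A) : (embA A a).order = a.order := by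
  by_cases ha : a = 0
  · subst ha; simp
  · have ha' : embA A a ≠ 0 := fun h => ha ((embA_eq_zero_iff A a).mp h)
    have h := orderTop_embA A a
    rw [← HahnSeries.order_eq_orderTop_of_ne_zero ha', ← HahnSeries.order_eq_orderTop_of_ne_zero ha] at h
    exact_mod_cast h

theorem leadingCoeff_embA (a : LaurentSeries A) :
    (embA A a).leadingCoeff = (a.leadingCoeff : L) := by
  rw [HahnSeries.leadingCoeff_eq, HahnSeries.leadingCoeff_eq, order_embA, embA_coeff]

end Order

section Unit

/-- **Unit criterion**: a Laurent series over `A` whose lowest coefficient is a unit of `A`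
is invertible in `A((z))`. -/
theorem isUnit_of_isUnit_leadingCoeff {u : LaurentSeries A} (hu : IsUnit u.leadingCoeff) :
    IsUnit u :=
  HahnSeries.isUnit_iff.mpr hu

theorem embA_inv_of_isUnit {u : LaurentSeries A} (hu : IsUnit u) :
    (embA A u)⁻¹ = embA A (↑(hu.unit⁻¹) : LaurentSeries A) := by
  have h1 : u * (↑(hu.unit⁻¹) : LaurentSeries A) = 1 := by
    have := hu.unit.mul_inv
    rwa [IsUnit.unit_spec] at this
  have h2 := congrArg (embA A) h1
  rw [map_mul, map_one] at h2
  exact inv_eq_of_mul_eq_one_right h2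

/-- the inverse of an integral series with unit lowest coefficient is integral. -/
theorem inv_mem_intLS_of_isUnit_leadingCoeff {u : LaurentSeries A} (hu : IsUnit u.leadingCoeff) :
    (embA A u)⁻¹ ∈ intLS A := by
  rw [embA_inv_of_isUnit A (isUnit_of_isUnit_leadingCoeff A hu)]
  exact embA_mem_intLS A _

theorem redA_coeff_order_ne_zero {u : LaurentSeries A} (hu : IsUnit u.leadingCoeff) :
    (redA A π u).coeff u.order ≠ 0 := by
  rw [redA_coeff, ← HahnSeries.leadingCoeff_eq]
  exact pi_ne_zero_of_isUnit hu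

theorem redA_ne_zero_of_isUnit_leadingCoeff {u : LaurentSeries A} (hu : IsUnit u.leadingCoeff) :
    redA A π u ≠ 0 := by
  intro h
  have := redA_coeff_order_ne_zero A π hu
  rw [h] at this
  exact this rfl

theorem redA_order_of_isUnit_leadingCoeff {u : LaurentSeries A} (hu : IsUnit u.leadingCoeff) :
    (redA A π u).order = u.order := by
  have hu0 : u ≠ 0 := by
    rintro rfl
    simp at hu
  apply le_antisymm
  · exact HahnSeries.order_le_of_coeff_ne_zero (redA_coeff_order_ne_zero A π hu)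
  · rw [HahnSeries.le_order_iff_forall (redA_ne_zero_of_isUnit_leadingCoeff A π hu)]
    intro n hn
    rw [redA_coeff, HahnSeries.coeff_eq_zero_of_lt_order hn, map_zero]

theorem redA_leadingCoeff_of_isUnit_leadingCoeff {u : LaurentSeries A}
    (hu : IsUnit u.leadingCoeff) : (redA A π u).leadingCoeff = π u.leadingCoeff := by
  rw [HahnSeries.leadingCoeff_eq, redA_order_of_isUnit_leadingCoeff A π hu, redA_coeff,
    ← HahnSeries.leadingCoeff_eq]

/-- in general the order can only go up under reduction. -/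
theorem order_le_redA_order {u : LaurentSeries A} (h : redA A π u ≠ 0) :
    u.order ≤ (redA A π u).order := by
  rw [HahnSeries.le_order_iff_forall h]
  intro n hn
  rw [redA_coeff, HahnSeries.coeff_eq_zero_of_lt_order hn, map_zero]

end Unit

section Poly

/-- a polynomial over `L` all of whose coefficients lie in `A` comes from `A[X]`. -/
theorem exists_map_subtype_eq {P : L[X]} (h : ∀ n, P.coeff n ∈ A) :
    ∃ P₀ : A[X], P₀.map A.subtype = P := by
  have : P ∈ Polynomial.lifts A.subtype := by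
    rw [Polynomial.lifts_iff_coeff_lifts]
    intro n
    exact ⟨⟨P.coeff n, h n⟩, rfl⟩
  obtain ⟨P₀, hP₀⟩ := this
  exact ⟨P₀, hP₀⟩

theorem map_subtype_injective : Function.Injective (Polynomial.map A.subtype) :=
  Polynomial.map_injective _ Subtype.val_injective

/-- **Content normalisation**: a nonzero polynomial over `L` is a nonzero constant times a
polynomial over `A` one of whose coefficients is `1` (so with nonzero reduction). -/
theorem exists_primitive_normalisation {P : L[X]} (hP : P ≠ 0) :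
    ∃ (c : L) (P₀ : A[X]), c ≠ 0 ∧ P = Polynomial.C c * P₀.map A.subtype ∧
      (∃ n, P₀.coeff n = 1) := by
  classical
  have hne : P.support.Nonempty := by
    rw [Finset.nonempty_iff_ne_empty, Ne, Polynomial.support_eq_empty]
    exact hP
  obtain ⟨n, hn, hmax⟩ := Finset.exists_max_image P.support (fun m => A.valuation (P.coeff m)) hne
  have hc0 : P.coeff n ≠ 0 := Polynomial.mem_support_iff.mp hn
  set c := P.coeff n with hc
  have hcoef : ∀ m, (Polynomial.C c⁻¹ * P).coeff m ∈ A := by
    intro m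
    rw [Polynomial.coeff_C_mul]
    by_cases hm : m ∈ P.support
    · rw [← A.valuation_le_one_iff, map_mul, map_inv₀]
      have hv0 : A.valuation c ≠ 0 := (Valuation.ne_zero_iff _).mpr hc0
      rw [inv_mul_le_iff₀ (zero_lt_iff.mpr hv0), mul_one]
      exact hmax m hm
    · rw [Polynomial.notMem_support_iff.mp hm, mul_zero]
      exact A.zero_mem
  obtain ⟨P₀, hP₀⟩ := exists_map_subtype_eq A hcoef
  refine ⟨c, P₀, hc0, ?_, n, ?_⟩
  · rw [hP₀, ← mul_assoc, ← Polynomial.C_mul, mul_inv_cancel₀ hc0, Polynomial.C_1, one_mul]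
  · apply Subtype.val_injective
    have := congrArg (fun Q => Polynomial.coeff Q n) hP₀
    simp only [Polynomial.coeff_map, Polynomial.coeff_C_mul] at this
    rw [ValuationSubring.subtype_apply] at this
    rw [this, ← hc, inv_mul_cancel₀ hc0]
    rfl

theorem map_pi_ne_zero_of_coeff_eq_one {P₀ : A[X]} (h : ∃ n, P₀.coeff n = 1) :
    P₀.map π ≠ 0 := by
  obtain ⟨n, hn⟩ := h
  intro h0
  have := congrArg (fun Q => Polynomial.coeff Q n) h0
  simp only [Polynomial.coeff_map, hn, map_one, Polynomial.coeff_zero] at this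
  exact one_ne_zero this

/-- over a valuation ring, `P` is primitive iff its reduction is nonzero. -/
theorem isPrimitive_iff_map_ne_zero (hπ : Function.Surjective π) (P : A[X]) :
    P.IsPrimitive ↔ P.map π ≠ 0 := by
  constructor
  · intro hprim h0
    have hP0 : P ≠ 0 := hprim.ne_zero
    have hPL : P.map A.subtype ≠ 0 := fun h => hP0 (map_subtype_injective A (by rw [h, Polynomial.map_zero]))
    obtain ⟨c, P₀, hc0, hP, hn⟩ := exists_primitive_normalisation A hPL
    -- `c ∈ A` since `c = ` the `n`-th coefficient of `P`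
    obtain ⟨n, hn⟩ := hn
    have hcn : ((P.coeff n : A) : L) = c := by
      have := congrArg (fun Q => Polynomial.coeff Q n) hP
      simp only [Polynomial.coeff_map, Polynomial.coeff_C_mul, hn] at this
      simpa using this
    have hcA : c ∈ A := hcn ▸ (P.coeff n).2
    have hPeq : P = Polynomial.C (⟨c, hcA⟩ : A) * P₀ := by
      apply map_subtype_injective A
      rw [hP, Polynomial.map_mul, Polynomial.map_C]
      rfl
    have hunit : IsUnit (⟨c, hcA⟩ : A) := hprim _ ⟨P₀, hPeq⟩
    have hπc : π ⟨c, hcA⟩ ≠ 0 := pi_ne_zero_of_isUnit hunit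
    have : (P.map π).coeff n = π ⟨c, hcA⟩ := by
      rw [Polynomial.coeff_map]
      congr 1
      exact Subtype.ext hcn
    rw [h0, Polynomial.coeff_zero] at this
    exact hπc this.symm
  · intro hne r hr
    obtain ⟨Q, hQ⟩ := hr
    rw [← pi_ne_zero_iff_isUnit hπ]
    intro hr0
    apply hne
    rw [hQ, Polynomial.map_mul, Polynomial.map_C, hr0, Polynomial.C_0, zero_mul]

end Poly

section Eval

theorem algebraMap_eq_C (R : Type*) [CommRing R] (r : R) :
    algebraMap R (LaurentSeries R) r = HahnSeries.C r := by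
  have h1 : algebraMap R (PowerSeries R) r = PowerSeries.C r := by
    simp
  rw [HahnSeries.algebraMap_apply', h1, HahnSeries.ofPowerSeries_C]

theorem embA_comp_algebraMap_eq :
    (embA A).comp (algebraMap A (LaurentSeries A)) =
      (algebraMap L (LaurentSeries L)).comp A.subtype := by
  ext a : 1
  simp only [RingHom.comp_apply]
  rw [algebraMap_eq_C, algebraMap_eq_C, embA_C]
  rfl

theorem redA_comp_algebraMap_eq :
    (redA A π).comp (algebraMap A (LaurentSeries A)) =
      (algebraMap k (LaurentSeries k)).comp π := by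
  ext a : 1
  simp only [RingHom.comp_apply]
  rw [algebraMap_eq_C, algebraMap_eq_C, redA_C]

theorem embA_aeval (ξ : LaurentSeries A) (P : A[X]) :
    embA A (aeval ξ P) = aeval (embA A ξ) (P.map A.subtype) := by
  rw [Polynomial.aeval_def, Polynomial.aeval_def, Polynomial.hom_eval₂, Polynomial.eval₂_map,
    embA_comp_algebraMap_eq]

theorem redA_aeval (ξ : LaurentSeries A) (P : A[X]) :
    redA A π (aeval ξ P) = aeval (redA A π ξ) (P.map π) := by
  rw [Polynomial.aeval_def, Polynomial.aeval_def, Polynomial.hom_eval₂, Polynomial.eval₂_map,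
    redA_comp_algebraMap_eq]

/-- The `K`-algebra embedding `RatFunc K → E`, `X ↦ x`, for a transcendental `x`
(universe polymorphic). -/
def evalRF {K E : Type*} [Field K] [Field E] [Algebra K E] (x : E) (hx : Transcendental K x) :
    RatFunc K →ₐ[K] E :=
  (K⟮x⟯.val).comp (RatFunc.algEquivOfTranscendental x hx).toAlgHom

section evalRF

variable {K E : Type*} [Field K] [Field E] [Algebra K E] (x : E) (hx : Transcendental K x)

theorem evalRF_eq_rfEval (g : RatFunc K) : evalRF x hx g = Fermat.Agent.S28.rfEval g x := by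
  rw [Fermat.Agent.S28.rfEval_eq_algEquivOfTranscendental x hx]
  rfl

theorem evalRF_X : evalRF x hx RatFunc.X = x := by
  show ((RatFunc.algEquivOfTranscendental x hx) RatFunc.X : E) = x
  rw [RatFunc.algEquivOfTranscendental_X]

theorem evalRF_algebraMap (P : K[X]) :
    evalRF x hx (algebraMap K[X] (RatFunc K) P) = aeval x P := by
  show ((RatFunc.algEquivOfTranscendental x hx) (algebraMap K[X] (RatFunc K) P) : E) = aeval x P
  rw [RatFunc.algEquivOfTranscendental_algebraMap]
  simp

theorem evalRF_C (c : K) : evalRF x hx (RatFunc.C c) = algebraMap K E c := by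
  have : (RatFunc.C c : RatFunc K) = algebraMap K (RatFunc K) c := rfl
  rw [this, AlgHom.commutes]

theorem evalRF_injective : Function.Injective (evalRF x hx) := (evalRF x hx).toRingHom.injective

theorem evalRF_mem_adjoin (g : RatFunc K) : evalRF x hx g ∈ K⟮x⟯ := by
  rw [evalRF_eq_rfEval]
  exact Fermat.Agent.S28.rfEval_mem_adjoin x g

theorem exists_evalRF_eq_of_mem_adjoin {y : E} (hy : y ∈ K⟮x⟯) : ∃ g : RatFunc K, evalRF x hx g = y := by
  obtain ⟨g, hg⟩ := Fermat.Agent.S28.exists_rfEval_of_mem_adjoin x y hx hy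
  exact ⟨g, by rw [evalRF_eq_rfEval, hg]⟩

end evalRF

end Eval

/-! ### The Gauss lemma at a series `ξ` of negative order with unit lowest coefficient -/

section Gauss

variable {A π} {ξ : LaurentSeries A}

theorem transcendental_embA (hord : ξ.order < 0) : Transcendental L (embA A ξ) :=
  Fermat.Agent.S28.transcendental_of_order_neg (by rw [order_embA]; exact hord)

theorem transcendental_redA (hord : ξ.order < 0) (hlc : IsUnit ξ.leadingCoeff) :
    Transcendental k (redA A π ξ) :=
  Fermat.Agent.S28.transcendental_of_order_neg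
    (by rw [redA_order_of_isUnit_leadingCoeff A π hlc]; exact hord)

theorem aeval_map_subtype_mem_gaussRing (ξ : LaurentSeries A) (P : A[X]) :
    aeval (embA A ξ) (P.map A.subtype) ∈ gaussRing A π := by
  rw [← embA_aeval]
  exact embA_mem_gaussRing A π _

theorem gaussRed_aeval_map_subtype (ξ : LaurentSeries A) (P : A[X]) :
    gaussRed A π ⟨aeval (embA A ξ) (P.map A.subtype), aeval_map_subtype_mem_gaussRing ξ P⟩ =
      aeval (redA A π ξ) (P.map π) := by
  rw [gaussRed_of_eq_embA A π _ (embA_aeval A ξ P).symm, redA_aeval]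

theorem aeval_redA_ne_zero (hord : ξ.order < 0) (hlc : IsUnit ξ.leadingCoeff) {P : A[X]}
    (hP : P.map π ≠ 0) : aeval (redA A π ξ) (P.map π) ≠ 0 :=
  fun h => hP ((transcendental_iff.mp (transcendental_redA hord hlc)) _ h)

/-- the quotient of the values at `ξ` of two polynomials over `A` with nonzero reduction is in the
Gauss ring, and its reduction is the (nonzero) quotient of the reduced values. -/
theorem aeval_div_aeval_mem_gaussRing (hord : ξ.order < 0) (hlc : IsUnit ξ.leadingCoeff)
    (P : A[X]) {Q : A[X]} (hQ : Q.map π ≠ 0) :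
    ∃ h : aeval (embA A ξ) (P.map A.subtype) / aeval (embA A ξ) (Q.map A.subtype) ∈ gaussRing A π,
      gaussRed A π ⟨_, h⟩ = aeval (redA A π ξ) (P.map π) / aeval (redA A π ξ) (Q.map π) := by
  have hQmem := aeval_map_subtype_mem_gaussRing (π := π) ξ Q
  have hQred : gaussRed A π ⟨_, hQmem⟩ ≠ 0 := by
    rw [gaussRed_aeval_map_subtype]
    exact aeval_redA_ne_zero hord hlc hQ
  have hQinv := inv_mem_gaussRing A π hQmem hQred
  have hQ0 : aeval (embA A ξ) (Q.map A.subtype) ≠ 0 := by
    intro h0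
    apply hQred
    have : (⟨_, hQmem⟩ : gaussRing A π) = 0 := Subtype.ext h0
    rw [this, map_zero]
  have hPmem := aeval_map_subtype_mem_gaussRing (π := π) ξ P
  refine ⟨by rw [div_eq_mul_inv]; exact (gaussRing A π).mul_mem hPmem hQinv, ?_⟩
  have heq : (⟨aeval (embA A ξ) (P.map A.subtype) / aeval (embA A ξ) (Q.map A.subtype),
      by rw [div_eq_mul_inv]; exact (gaussRing A π).mul_mem hPmem hQinv⟩ : gaussRing A π) =
      ⟨_, hPmem⟩ * ⟨_, hQinv⟩ := Subtype.ext (div_eq_mul_inv _ _)
  rw [heq, map_mul, gaussRed_inv A π hQmem hQinv hQ0, gaussRed_aeval_map_subtype,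
    gaussRed_aeval_map_subtype, div_eq_mul_inv]

/-- **Gauss lemma, polynomial form**: `P(ξ)` is in the Gauss ring iff `P ∈ A[X]`. -/
theorem aeval_mem_gaussRing_iff (hπ : Function.Surjective π) (hord : ξ.order < 0)
    (hlc : IsUnit ξ.leadingCoeff) (P : L[X]) :
    aeval (embA A ξ) P ∈ gaussRing A π ↔ ∀ n, P.coeff n ∈ A := by
  constructor
  · intro hmem
    by_cases hP : P = 0
    · subst hP
      intro n
      rw [Polynomial.coeff_zero]
      exact A.zero_mem
    obtain ⟨c, P₀, hc0, hPeq, hn⟩ := exists_primitive_normalisation A hP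
    have hP₀ : P₀.map π ≠ 0 := map_pi_ne_zero_of_coeff_eq_one A π hn
    have hu := aeval_map_subtype_mem_gaussRing (π := π) ξ P₀
    have hured : gaussRed A π ⟨_, hu⟩ ≠ 0 := by
      rw [gaussRed_aeval_map_subtype]
      exact aeval_redA_ne_zero hord hlc hP₀
    have hval : aeval (embA A ξ) P = HahnSeries.C c * aeval (embA A ξ) (P₀.map A.subtype) := by
      rw [hPeq, map_mul, Polynomial.aeval_C, algebraMap_eq_C]
    rw [hval] at hmem
    have hcA : c ∈ A := (C_mul_mem_gaussRing_iff A π hπ hu hured c).mp hmem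
    intro n
    rw [hPeq, Polynomial.coeff_C_mul, Polynomial.coeff_map]
    exact A.mul_mem _ _ hcA (P₀.coeff n).2
  · intro h
    obtain ⟨P₀, rfl⟩ := exists_map_subtype_eq A h
    exact aeval_map_subtype_mem_gaussRing ξ P₀

end Gauss

/-! ### The Gauss valuation ring of `L(X)` -/

section RatFunc

/-- the rational function `e * P / Q` for `e ∈ L`, `P, Q ∈ A[X]`. -/
def nf (e : L) (P Q : A[X]) : RatFunc L :=
  RatFunc.C e * algebraMap L[X] (RatFunc L) (P.map A.subtype) /
    algebraMap L[X] (RatFunc L) (Q.map A.subtype)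

/-- **Normal form**: every nonzero rational function over `L` is `e * P / Q` with `e ∈ Lˣ` and
`P, Q ∈ A[X]` each having a coefficient equal to `1`. -/
theorem exists_nf {c : RatFunc L} (hc : c ≠ 0) :
    ∃ (e : L) (P Q : A[X]), e ≠ 0 ∧ (∃ n, P.coeff n = 1) ∧ (∃ n, Q.coeff n = 1) ∧
      c = nf A e P Q := by
  obtain ⟨c₁, P, hc₁, hP, hPn⟩ := exists_primitive_normalisation A (RatFunc.num_ne_zero hc)
  obtain ⟨c₂, Q, hc₂, hQ, hQn⟩ := exists_primitive_normalisation A (RatFunc.denom_ne_zero c)
  refine ⟨c₁ / c₂, P, Q, div_ne_zero hc₁ hc₂, hPn, hQn, ?_⟩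
  have h := (RatFunc.num_div_denom c).symm
  rw [hP, hQ, map_mul, map_mul, RatFunc.algebraMap_C, RatFunc.algebraMap_C] at h
  rw [h, nf, map_div₀]
  have hc₂' : (RatFunc.C c₂ : RatFunc L) ≠ 0 := by
    rw [Ne, map_eq_zero]; exact hc₂
  have hQ0 : algebraMap L[X] (RatFunc L) (Q.map A.subtype) ≠ 0 := by
    rw [Ne, map_eq_zero_iff _ (IsFractionRing.injective L[X] (RatFunc L))]
    intro h0
    obtain ⟨n, hn⟩ := hQn
    have h1 := congrArg (fun R => Polynomial.coeff R n) h0
    simp only [Polynomial.coeff_map, hn, map_one, Polynomial.coeff_zero] at h1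
    exact one_ne_zero h1
  field_simp

variable {A π} {ξ : LaurentSeries A}

theorem evalRF_nf (hord : ξ.order < 0) (e : L) (P Q : A[X]) :
    evalRF (embA A ξ) (transcendental_embA hord) (nf A e P Q) =
      HahnSeries.C e *
        (aeval (embA A ξ) (P.map A.subtype) / aeval (embA A ξ) (Q.map A.subtype)) := by
  rw [nf, map_div₀, map_mul, evalRF_C, evalRF_algebraMap, evalRF_algebraMap,
    algebraMap_eq_C, mul_div_assoc]

/-- **Gauss lemma, rational form.** -/
theorem evalRF_nf_mem_gaussRing_iff (hπ : Function.Surjective π) (hord : ξ.order < 0)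
    (hlc : IsUnit ξ.leadingCoeff) (e : L) {P Q : A[X]} (hP : P.map π ≠ 0) (hQ : Q.map π ≠ 0) :
    evalRF (embA A ξ) (transcendental_embA hord) (nf A e P Q) ∈ gaussRing A π ↔ e ∈ A := by
  rw [evalRF_nf hord]
  obtain ⟨hu, hured⟩ := aeval_div_aeval_mem_gaussRing (π := π) hord hlc P hQ
  refine C_mul_mem_gaussRing_iff A π hπ hu ?_ e
  rw [hured]
  exact div_ne_zero (aeval_redA_ne_zero hord hlc hP) (aeval_redA_ne_zero hord hlc hQ)

theorem gaussRed_evalRF_nf (hord : ξ.order < 0) (hlc : IsUnit ξ.leadingCoeff) (e : A)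
    (P : A[X]) {Q : A[X]} (hQ : Q.map π ≠ 0)
    (hmem : evalRF (embA A ξ) (transcendental_embA hord) (nf A (e : L) P Q) ∈ gaussRing A π) :
    gaussRed A π ⟨_, hmem⟩ =
      HahnSeries.C (π e) *
        (aeval (redA A π ξ) (P.map π) / aeval (redA A π ξ) (Q.map π)) := by
  obtain ⟨hu, hured⟩ := aeval_div_aeval_mem_gaussRing (π := π) hord hlc P hQ
  have heq : (⟨_, hmem⟩ : gaussRing A π) =
      ⟨HahnSeries.C (e : L), C_mem_gaussRing_of_mem A π e.2⟩ * ⟨_, hu⟩ :=
    Subtype.ext (evalRF_nf hord (e : L) P Q)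
  rw [heq, map_mul, gaussRed_C, hured]

end RatFunc

section Ox

variable {A π} {ξ : LaurentSeries A}

/-- **The Gauss valuation ring** `O_x` of `L(X)`: the rational functions whose value at `ξ` lies in
the Gauss ring of `L((z))`. -/
def Ox (hπ : Function.Surjective π) (hord : ξ.order < 0) (hlc : IsUnit ξ.leadingCoeff) :
    ValuationSubring (RatFunc L) where
  toSubring := (gaussRing A π).comap (evalRF (embA A ξ) (transcendental_embA hord)).toRingHom
  mem_or_inv_mem' := by
    intro c
    by_cases hc : c = 0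
    · left
      subst hc
      exact Subring.zero_mem _
    obtain ⟨e, P, Q, he, hP, hQ, rfl⟩ := exists_nf A hc
    have hP' := map_pi_ne_zero_of_coeff_eq_one A π hP
    have hQ' := map_pi_ne_zero_of_coeff_eq_one A π hQ
    have hinv : (nf A e P Q)⁻¹ = nf A e⁻¹ Q P := by
      rw [nf, nf, inv_div, map_inv₀]
      have hc₂' : (RatFunc.C e : RatFunc L) ≠ 0 := by
        rw [Ne, map_eq_zero]; exact he
      rw [div_mul_eq_div_div, div_eq_mul_inv _ (RatFunc.C e), mul_comm _ (RatFunc.C e)⁻¹,
        mul_div_assoc]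
    rcases A.mem_or_inv_mem e with h | h
    · left
      exact (evalRF_nf_mem_gaussRing_iff hπ hord hlc e hP' hQ').mpr h
    · right
      rw [hinv]
      exact (evalRF_nf_mem_gaussRing_iff hπ hord hlc e⁻¹ hQ' hP').mpr h

variable (hπ : Function.Surjective π) (hord : ξ.order < 0) (hlc : IsUnit ξ.leadingCoeff)

theorem mem_Ox_iff_evalRF {c : RatFunc L} :
    c ∈ Ox hπ hord hlc ↔ evalRF (embA A ξ) (transcendental_embA hord) c ∈ gaussRing A π :=
  Iff.rfl

theorem nf_mem_Ox_iff (e : L) {P Q : A[X]} (hP : P.map π ≠ 0) (hQ : Q.map π ≠ 0) :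
    nf A e P Q ∈ Ox hπ hord hlc ↔ e ∈ A :=
  evalRF_nf_mem_gaussRing_iff hπ hord hlc e hP hQ

/-- **Gauss lemma**: `c(ξ)` is in the Gauss ring iff `c = u * P / Q` with `u ∈ A` and
`P, Q ∈ A[X]` with nonzero reduction (i.e. primitive). In particular `O_x` does not depend on
the choice of `ξ`. -/
theorem mem_Ox_iff {c : RatFunc L} :
    c ∈ Ox hπ hord hlc ↔
      ∃ (e : A) (P Q : A[X]), P.map π ≠ 0 ∧ Q.map π ≠ 0 ∧ c = nf A (e : L) P Q := by
  constructor
  · intro hc
    by_cases hc0 : c = 0
    · refine ⟨0, 1, 1, ?_, ?_, ?_⟩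
      · rw [Polynomial.map_one]; exact one_ne_zero
      · rw [Polynomial.map_one]; exact one_ne_zero
      · rw [hc0, nf]; simp
    obtain ⟨e, P, Q, he, hP, hQ, rfl⟩ := exists_nf A hc0
    have hP' := map_pi_ne_zero_of_coeff_eq_one A π hP
    have hQ' := map_pi_ne_zero_of_coeff_eq_one A π hQ
    exact ⟨⟨e, (nf_mem_Ox_iff hπ hord hlc e hP' hQ').mp hc⟩, P, Q, hP', hQ', rfl⟩
  · rintro ⟨e, P, Q, hP, hQ, rfl⟩
    exact (nf_mem_Ox_iff hπ hord hlc (e : L) hP hQ).mpr e.2

/-- `O_x ∩ L[X] = A[X]`. -/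
theorem algebraMap_mem_Ox_iff (P : L[X]) :
    algebraMap L[X] (RatFunc L) P ∈ Ox hπ hord hlc ↔ ∀ n, P.coeff n ∈ A := by
  rw [mem_Ox_iff_evalRF, evalRF_algebraMap]
  exact aeval_mem_gaussRing_iff hπ hord hlc P

/-- `O_x ∩ L = A`. -/
theorem C_mem_Ox_iff (c : L) : RatFunc.C c ∈ Ox hπ hord hlc ↔ c ∈ A := by
  rw [mem_Ox_iff_evalRF, evalRF_C, algebraMap_eq_C]
  exact C_mem_gaussRing_iff A π hπ c

theorem X_mem_Ox : (RatFunc.X : RatFunc L) ∈ Ox hπ hord hlc := by
  rw [mem_Ox_iff_evalRF, evalRF_X]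
  exact embA_mem_gaussRing A π ξ

end Ox

section RedOx

variable {A π} {ξ : LaurentSeries A}
variable (hπ : Function.Surjective π) (hord : ξ.order < 0) (hlc : IsUnit ξ.leadingCoeff)

/-- the reduction map of `O_x`, with values in `k((z))`. -/
def redOxHom : Ox hπ hord hlc →+* LaurentSeries k :=
  (gaussRed A π).comp
    ((evalRF (embA A ξ) (transcendental_embA hord)).toRingHom.restrict
      (Ox hπ hord hlc).toSubring (gaussRing A π) fun _ h => h)

theorem redOxHom_apply (c : Ox hπ hord hlc) :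
    redOxHom hπ hord hlc c =
      gaussRed A π ⟨evalRF (embA A ξ) (transcendental_embA hord) (c : RatFunc L), c.2⟩ := rfl

theorem redOxHom_nf (e : A) (P : A[X]) {Q : A[X]} (hQ : Q.map π ≠ 0)
    (hmem : nf A (e : L) P Q ∈ Ox hπ hord hlc) :
    redOxHom hπ hord hlc ⟨_, hmem⟩ =
      HahnSeries.C (π e) *
        (aeval (redA A π ξ) (P.map π) / aeval (redA A π ξ) (Q.map π)) := by
  rw [redOxHom_apply]
  exact gaussRed_evalRF_nf hord hlc e P hQ hmem

theorem redOxHom_mem_adjoin (c : Ox hπ hord hlc) :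
    redOxHom hπ hord hlc c ∈ k⟮redA A π ξ⟯ := by
  obtain ⟨c, hc⟩ := c
  obtain ⟨e, P, Q, hP, hQ, rfl⟩ := (mem_Ox_iff hπ hord hlc).mp hc
  rw [redOxHom_nf hπ hord hlc e P hQ, IntermediateField.mem_adjoin_simple_iff]
  refine ⟨Polynomial.C (π e) * P.map π, Q.map π, ?_⟩
  rw [map_mul, Polynomial.aeval_C, algebraMap_eq_C, mul_div_assoc]

/-- the reduction map `O_x → k(ξ̄)`. -/
def redOx : Ox hπ hord hlc →+* k⟮redA A π ξ⟯ :=
  (redOxHom hπ hord hlc).codRestrict k⟮redA A π ξ⟯.toSubfield.toSubring
    (redOxHom_mem_adjoin hπ hord hlc)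

theorem redOx_coe (c : Ox hπ hord hlc) :
    ((redOx hπ hord hlc c : k⟮redA A π ξ⟯) : LaurentSeries k) = redOxHom hπ hord hlc c := rfl

/-- the residue field of `O_x` is `k(ξ̄)`. -/
theorem redOx_surjective : Function.Surjective (redOx hπ hord hlc) := by
  rintro ⟨y, hy⟩
  rw [IntermediateField.mem_adjoin_simple_iff] at hy
  obtain ⟨r, s, rfl⟩ := hy
  by_cases hr : r = 0
  · refine ⟨0, ?_⟩
    rw [map_zero]
    apply Subtype.ext
    simp [hr]
  by_cases hs : s = 0
  · refine ⟨0, ?_⟩
    rw [map_zero]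
    apply Subtype.ext
    simp [hs]
  obtain ⟨P, rfl⟩ := Polynomial.map_surjective π hπ r
  obtain ⟨Q, rfl⟩ := Polynomial.map_surjective π hπ s
  have hmem : nf A ((1 : A) : L) P Q ∈ Ox hπ hord hlc :=
    (nf_mem_Ox_iff hπ hord hlc _ hr hs).mpr (1 : A).2
  refine ⟨⟨_, hmem⟩, ?_⟩
  apply Subtype.ext
  rw [redOx_coe, redOxHom_nf hπ hord hlc 1 P hs, map_one, map_one, one_mul]

theorem ker_redOx :
    RingHom.ker (redOx hπ hord hlc) = IsLocalRing.maximalIdeal (Ox hπ hord hlc) :=
  IsLocalRing.ker_eq_maximalIdeal _ (redOx_surjective hπ hord hlc)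

theorem redOx_eq_zero_iff (c : Ox hπ hord hlc) :
    redOx hπ hord hlc c = 0 ↔ c ∈ IsLocalRing.maximalIdeal (Ox hπ hord hlc) := by
  rw [← ker_redOx, RingHom.mem_ker]

theorem redOx_X :
    ((redOx hπ hord hlc ⟨RatFunc.X, X_mem_Ox hπ hord hlc⟩ : k⟮redA A π ξ⟯) : LaurentSeries k) =
      redA A π ξ := by
  rw [redOx_coe, redOxHom_apply]
  exact gaussRed_of_eq_embA A π _ (evalRF_X _ _)

theorem redOx_C (a : A) :
    ((redOx hπ hord hlc ⟨RatFunc.C (a : L), (C_mem_Ox_iff hπ hord hlc _).mpr a.2⟩ :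
      k⟮redA A π ξ⟯) : LaurentSeries k) = HahnSeries.C (π a) := by
  rw [redOx_coe, redOxHom_apply]
  have h : evalRF (embA A ξ) (transcendental_embA hord) (RatFunc.C (a : L)) =
      embA A (HahnSeries.C a) := by
    rw [evalRF_C, algebraMap_eq_C, embA_C]
  rw [gaussRed_of_eq_embA A π _ h, redA_C]

end RedOx

/-! ### Compatibility with `qExpand`, `twist` and `subst` -/

section Compat

open Fermat.Agent.S28

theorem embA_qExpand (d : ℕ) [NeZero d] (a : LaurentSeries A) :
    embA A (qExpand A d a) = qExpand L d (embA A a) :=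
  ModularCurve.coeffMap_qExpand _ d a

theorem redA_qExpand (d : ℕ) [NeZero d] (a : LaurentSeries A) :
    redA A π (qExpand A d a) = qExpand k d (redA A π a) :=
  ModularCurve.coeffMap_qExpand _ d a

theorem embA_twist (ζ : Aˣ) (a : LaurentSeries A) :
    embA A (twist ζ a) = twist (Units.map (A.subtype : A →* L) ζ) (embA A a) :=
  coeffMap_twist _ ζ a

theorem redA_twist (ζ : Aˣ) (a : LaurentSeries A) :
    redA A π (twist ζ a) = twist (Units.map (π : A →* k) ζ) (redA A π a) :=
  coeffMap_twist _ ζ a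

theorem qExpand_mem_gaussRing (d : ℕ) [NeZero d] {y : LaurentSeries L}
    (hy : y ∈ gaussRing A π) : qExpand L d y ∈ gaussRing A π := by
  obtain ⟨a, b, hb, h⟩ := hy
  refine ⟨qExpand A d a, qExpand A d b, ?_, ?_⟩
  · rw [redA_qExpand, Ne, Fermat.Agent.S28.qExpand_eq_zero_iff]
    exact hb
  · rw [embA_qExpand, embA_qExpand, ← map_mul, h]

theorem gaussRed_qExpand (d : ℕ) [NeZero d] {y : LaurentSeries L} (hy : y ∈ gaussRing A π) :
    gaussRed A π ⟨qExpand L d y, qExpand_mem_gaussRing A π d hy⟩ =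
      qExpand k d (gaussRed A π ⟨y, hy⟩) := by
  obtain ⟨a, b, hb, h⟩ := id hy
  have hb' : redA A π (qExpand A d b) ≠ 0 := by
    rw [redA_qExpand, Ne, Fermat.Agent.S28.qExpand_eq_zero_iff]
    exact hb
  have h' : qExpand L d y * embA A (qExpand A d b) = embA A (qExpand A d a) := by
    rw [embA_qExpand, embA_qExpand, ← map_mul, h]
  rw [gaussRed_eq_div A π ⟨_, qExpand_mem_gaussRing A π d hy⟩ hb' h',
    gaussRed_eq_div A π ⟨y, hy⟩ hb h, redA_qExpand, redA_qExpand, map_div₀]

theorem twist_mem_gaussRing (ζ : Aˣ) {y : LaurentSeries L} (hy : y ∈ gaussRing A π) :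
    twist (Units.map (A.subtype : A →* L) ζ) y ∈ gaussRing A π := by
  obtain ⟨a, b, hb, h⟩ := hy
  refine ⟨twist ζ a, twist ζ b, ?_, ?_⟩
  · rw [redA_twist, Ne, Fermat.Agent.S28.twist_eq_zero_iff]
    exact hb
  · rw [embA_twist, embA_twist, ← map_mul, h]

theorem gaussRed_twist (ζ : Aˣ) {y : LaurentSeries L} (hy : y ∈ gaussRing A π) :
    gaussRed A π ⟨twist (Units.map (A.subtype : A →* L) ζ) y, twist_mem_gaussRing A π ζ hy⟩ =
      twist (Units.map (π : A →* k) ζ) (gaussRed A π ⟨y, hy⟩) := by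
  obtain ⟨a, b, hb, h⟩ := id hy
  have hb' : redA A π (twist ζ b) ≠ 0 := by
    rw [redA_twist, Ne, Fermat.Agent.S28.twist_eq_zero_iff]
    exact hb
  have h' : twist (Units.map (A.subtype : A →* L) ζ) y * embA A (twist ζ b) =
      embA A (twist ζ a) := by
    rw [embA_twist, embA_twist, ← map_mul, h]
  rw [gaussRed_eq_div A π ⟨_, twist_mem_gaussRing A π ζ hy⟩ hb' h',
    gaussRed_eq_div A π ⟨y, hy⟩ hb h, redA_twist, redA_twist, map_div₀]

theorem subst_mem_gaussRing (ζ : Aˣ) (c : ℕ) [NeZero c] {y : LaurentSeries L}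
    (hy : y ∈ gaussRing A π) :
    subst (Units.map (A.subtype : A →* L) ζ) c y ∈ gaussRing A π := by
  rw [subst_apply]
  exact qExpand_mem_gaussRing A π c (twist_mem_gaussRing A π ζ hy)

theorem gaussRed_subst (ζ : Aˣ) (c : ℕ) [NeZero c] {y : LaurentSeries L}
    (hy : y ∈ gaussRing A π) :
    gaussRed A π ⟨subst (Units.map (A.subtype : A →* L) ζ) c y, subst_mem_gaussRing A π ζ c hy⟩ =
      subst (Units.map (π : A →* k) ζ) c (gaussRed A π ⟨y, hy⟩) := by
  have h1 := gaussRed_qExpand A π c (twist_mem_gaussRing A π ζ hy)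
  rw [gaussRed_twist A π ζ hy] at h1
  exact h1

end Compat

end Fermat.Agent.Gateway.GoodRed.GaussRing
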