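import Mathlib
import Fermat.Agent.Gateway.GoodRed.GaussBar
import Fermat.Agent.Gateway.GoodRed.GaussBarBasic
import Fermat.Agent.Gateway.C0.Cartesian

/-!
# P-GATEWAY (c) GoodRed: the orthonormal `L`-family `j^n * ev μ` of `FBar L N` (cartesian lattices)

Abstract part (setting of `GaussAbstract`, `h : IndepMod A π x e`):
* `IndepMod.sum_ne_zero` : `∑ P_i(x) e_i ≠ 0` if some `P_i ≠ 0` (`L`-independence of `x^n e_i`);
* `IndepMod.coeff_mem_of_sum_mem_gaussRing` : `∑ P_i(x) e_i` in the Gauss ring ⟹ all `P_i ∈ A[X]`.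

Concrete part (`FBar L N`, `O = OvVal`, helper82's `GaussBar`):
* `orthoFam N : box N × ℕ → FBar L N`, `(μ, n) ↦ j^n * ev μ`;
* `linearIndependent_orthoFam`, `orthoFam_orth` (orthonormality for `OvVal` over `A`);
* `exists_unit_denominator` : every finite-dimensional `V` has a unit `q` of `OvVal` with
  `q V ≤ span (orthoFam)`;
* `fg_inf_OvVal` : `V ∩ OvVal` is a finitely generated `A`-module (= `CountData.cartesian` of
  helper92's `C0/Count.lean`, for every finite-dimensional `V`).
-/

set_option autoImplicit false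

noncomputable section

namespace Fermat.Agent.Gateway.GoodRed

open Polynomial Fermat.Agent.Gateway.Red

section Abstract

variable {L : Type*} [Field L] {A : ValuationSubring L} {k : Type*} [Field k] {π : A →+* k}
variable {ι : Type*} [Fintype ι] {x : LaurentSeries A} {e : ι → LaurentSeries A}

/-- `∑ P_i(x) e_i = c * (∑ P'_i(x) e_i)` for the content normalisation `P' = c⁻¹ P`. -/
theorem sum_pev_eq_C_mul {P : ι → L[X]} {c : L} (hc : c ≠ 0) {P' : ι → A[X]}
    (hP' : ∀ i, (P' i).map A.subtype = C c⁻¹ * P i) :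
    ∑ i, pev (embA A x) (P i) * embA A (e i) =
      HahnSeries.C c * embA A (∑ i, pev x (P' i) * e i) := by
  rw [map_sum, Finset.mul_sum]
  refine Finset.sum_congr rfl fun i _ => ?_
  rw [map_mul, embA_pev, hP', pev_mul, pev_C, ← mul_assoc, ← mul_assoc, ← map_mul,
    mul_inv_cancel₀ hc, map_one, one_mul]

/-- the `x^n e_i` are `L`-linearly independent (polynomial form). -/
theorem IndepMod.sum_ne_zero (h : IndepMod A π x e) {P : ι → L[X]} (hP : ∃ i, P i ≠ 0) :
    ∑ i, pev (embA A x) (P i) * embA A (e i) ≠ 0 := by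
  obtain ⟨c, hc, P', hP', hPπ⟩ := exists_content A π P hP
  rw [sum_pev_eq_C_mul hc hP']
  have hW := h.redA_sum_ne_zero hPπ
  have hW0 : embA A (∑ i, pev x (P' i) * e i) ≠ 0 := by
    intro h0
    rw [embA_eq_zero_iff] at h0
    exact hW (by rw [h0, map_zero])
  have hCc : (HahnSeries.C c : LaurentSeries L) ≠ 0 := by
    rw [Ne, map_eq_zero_iff _ HahnSeries.C_injective]
    exact hc
  exact mul_ne_zero hCc hW0

/-- **Orthonormality.** If `∑ P_i(x) e_i` lies in the Gauss ring then all `P_i` have coefficients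
in `A`. -/
theorem IndepMod.coeff_mem_of_sum_mem_gaussRing (h : IndepMod A π x e)
    (hπ : ∀ a : A, π a ≠ 0 → IsUnit a) {P : ι → L[X]}
    (hmem : ∑ i, pev (embA A x) (P i) * embA A (e i) ∈ gaussRing A π) (i : ι) (n : ℕ) :
    (P i).coeff n ∈ A := by
  by_cases hP : ∃ i, P i ≠ 0
  · obtain ⟨c, hc, P', hP', hPπ⟩ := exists_content A π P hP
    rw [sum_pev_eq_C_mul hc hP'] at hmem
    set W := ∑ i, pev x (P' i) * e i with hW
    have hWred : redA A π W ≠ 0 := h.redA_sum_ne_zero hPπ
    have hWmem : embA A W ∈ gaussRing A π := embA_mem_gaussRing A π W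
    have hWinv : (embA A W)⁻¹ ∈ gaussRing A π := by
      apply inv_mem_gaussRing A π hWmem
      rw [gaussRed_embA]
      exact hWred
    have hW0 : embA A W ≠ 0 := by
      intro h0
      rw [embA_eq_zero_iff] at h0
      exact hWred (by rw [h0, map_zero])
    have hcmem : (HahnSeries.C c : LaurentSeries L) ∈ gaussRing A π := by
      have := (gaussRing A π).mul_mem hmem hWinv
      rwa [mul_assoc, mul_inv_cancel₀ hW0, mul_one] at this
    have hcA : c ∈ A := (hahnC_mem_gaussRing_iff A π hπ c).mp hcmem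
    have hPi : P i = C c * (P' i).map A.subtype := by
      rw [hP', ← mul_assoc, ← C_mul, mul_inv_cancel₀ hc, C_1, one_mul]
    rw [hPi, coeff_C_mul, coeff_map]
    exact A.mul_mem _ _ hcA ((P' i).coeff n).2
  · push Not at hP
    rw [hP i, coeff_zero]
    exact A.zero_mem

end Abstract

section Concrete

open ModularCurve Fermat.Agent.S28 Fermat.Agent.S28.Tower

variable (L : Type*) [Field L] [Algebra ℚ L] (N : ℕ) [NeZero N]

/-- the orthonormal family `(μ, n) ↦ j^n * ev μ`. -/
def orthoFam (s : box N × ℕ) : FBar L N := jF L N ^ s.2 * evF L N s.1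

theorem coe_orthoFam (s : box N × ℕ) :
    ((orthoFam L N s : FBar L N) : LaurentSeries L) = jqModC L ^ s.2 * ev L (s.1 : ℕ →₀ ℕ) := rfl

variable {L N}

/-- the polynomial `∑ n, a (μ, n) X^n`. -/
def polyOf (a : (box N × ℕ) →₀ L) (μ : box N) : L[X] :=
  ∑ n ∈ a.support.image Prod.snd, Polynomial.monomial n (a (μ, n))

omit [Algebra ℚ L] [NeZero N] in
theorem coeff_polyOf (a : (box N × ℕ) →₀ L) (μ : box N) (n : ℕ) :
    (polyOf a μ).coeff n = a (μ, n) := by
  classical
  rw [polyOf, Polynomial.finsetSum_coeff]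
  simp only [Polynomial.coeff_monomial]
  rw [Finset.sum_ite_eq' (a.support.image Prod.snd) n fun m => a (μ, m)]
  split_ifs with h
  · rfl
  · symm
    by_contra h0
    apply h
    rw [Finset.mem_image]
    exact ⟨(μ, n), Finsupp.mem_support_iff.mpr h0, rfl⟩

theorem aeval_mul_ev_eq_sum (R : L[X]) (μ : box N) :
    aeval (jF L N) R * evF L N μ =
      ∑ n ∈ Finset.range (R.natDegree + 1), R.coeff n • orthoFam L N (μ, n) := by
  rw [Polynomial.aeval_eq_sum_range, Finset.sum_mul]
  refine Finset.sum_congr rfl fun n _ => ?_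
  rw [orthoFam, smul_mul_assoc]

/-- the `L`-combination `∑ a_s e_s` in polynomial form. -/
theorem sum_orthoFam_eq (a : (box N × ℕ) →₀ L) :
    (a.sum fun s c => c • orthoFam L N s) = ∑ μ : box N, aeval (jF L N) (polyOf a μ) * evF L N μ := by
  classical
  have h1 : ∀ μ : box N, aeval (jF L N) (polyOf a μ) * evF L N μ =
      ∑ n ∈ a.support.image Prod.snd, a (μ, n) • orthoFam L N (μ, n) := by
    intro μ
    rw [polyOf, map_sum, Finset.sum_mul]
    refine Finset.sum_congr rfl fun n _ => ?_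
    rw [Polynomial.aeval_monomial, orthoFam, Algebra.smul_def, mul_assoc]
  simp only [h1]
  rw [← Finset.sum_product' (Finset.univ : Finset (box N)) (a.support.image Prod.snd)
    (fun μ n => a (μ, n) • orthoFam L N (μ, n))]
  rw [Finsupp.sum]
  refine Finset.sum_subset ?_ ?_
  · intro s hs
    rw [Finset.mem_product]
    exact ⟨Finset.mem_univ _, Finset.mem_image_of_mem _ hs⟩
  · intro s _ hs
    rw [Finsupp.notMem_support_iff.mp hs, zero_smul]

variable (A : ValuationSubring L) {k : Type} [Field k] (π : A →+* k)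

/-- the coercion to `L((q))` of `∑ P_μ(j) ev μ`, in `pev` form. -/
theorem coe_sum_aeval_mul_evF (P : box N → L[X]) :
    ((∑ μ : box N, aeval (jF L N) (P μ) * evF L N μ : FBar L N) : LaurentSeries L) =
      ∑ μ : box N, pev (embA A (jqModC A)) (P μ) * embA A (ev A (μ : ℕ →₀ ℕ)) := by
  rw [← IntermediateField.coe_val, map_sum]
  refine Finset.sum_congr rfl fun μ _ => ?_
  rw [map_mul, ← Polynomial.aeval_algHom_apply, IntermediateField.coe_val]
  rw [coe_jF, coe_evF, embA_jqModC, embA_ev, aeval_eq_pev_field]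

variable [IsAlgClosed k] (ℓ : ℕ) [Fact ℓ.Prime] [CharP k ℓ]

include π ℓ in
/-- the family `j^n * ev μ` is `L`-linearly independent. -/
theorem linearIndependent_orthoFam (hℓN : ¬ ℓ ∣ N) : LinearIndependent L (orthoFam L N) := by
  rw [linearIndependent_iff]
  intro a ha
  rw [Finsupp.linearCombination_apply, sum_orthoFam_eq] at ha
  have h1 := congrArg (fun f : FBar L N => (f : LaurentSeries L)) ha
  simp only [coe_sum_aeval_mul_evF A, ZeroMemClass.coe_zero] at h1
  have h2 : ∀ μ, polyOf a μ = 0 := by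
    by_contra hcon
    push Not at hcon
    exact (indepMod_box A π ℓ hℓN).sum_ne_zero hcon h1
  ext ⟨μ, n⟩
  rw [← coeff_polyOf, h2 μ, coeff_zero, Finsupp.zero_apply]

/-- **Orthonormality** of `j^n * ev μ` for the Gauss valuation ring over `A`. -/
theorem orthoFam_orth (hπ : Function.Surjective π) (hℓN : ¬ ℓ ∣ N) (a : (box N × ℕ) →₀ L) :
    (a.sum fun s c => c • orthoFam L N s) ∈ OvVal A π N ℓ hπ hℓN ↔ ∀ s, a s ∈ A := by
  constructor
  · intro hmem s
    rw [mem_OvVal_iff, mem_Ov_iff, sum_orthoFam_eq, coe_sum_aeval_mul_evF A] at hmem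
    have := (indepMod_box A π ℓ hℓN).coeff_mem_of_sum_mem_gaussRing
      (fun a ha => isUnit_of_map_ne_zero A π hπ ha) hmem s.1 s.2
    rwa [coeff_polyOf] at this
  · intro h
    rw [Finsupp.sum]
    refine Subring.sum_mem _ fun s _ => ?_
    rw [Algebra.smul_def]
    refine Subring.mul_mem _ ((algebraMap_mem_Ov_iff A π N hπ (a s)).mpr (h s)) ?_
    show orthoFam L N s ∈ Ov A π (FBar L N)
    rw [mem_Ov_iff, coe_orthoFam, ← embA_jqModC A, ← embA_ev A, ← map_pow, ← map_mul]
    exact embA_mem_gaussRing A π _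

theorem aeval_mul_evF_mem_span (R : L[X]) (μ : box N) :
    aeval (jF L N) R * evF L N μ ∈ Submodule.span L (Set.range (orthoFam L N)) := by
  rw [aeval_mul_ev_eq_sum]
  exact Submodule.sum_mem _ fun n _ =>
    Submodule.smul_mem _ _ (Submodule.subset_span ⟨(μ, n), rfl⟩)

theorem coe_aeval_jF (R : L[X]) :
    ((aeval (jF L N) R : FBar L N) : LaurentSeries L) = aeval (jqModC L) R := by
  rw [← IntermediateField.coe_val, ← Polynomial.aeval_algHom_apply, IntermediateField.coe_val,
    coe_jF]

/-- every element of `FBar L N` has a polynomial denominator in `j`. -/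
theorem exists_poly_denominator (f : FBar L N) :
    ∃ Q : L[X], Q ≠ 0 ∧ aeval (jF L N) Q * f ∈ Submodule.span L (Set.range (orthoFam L N)) := by
  obtain ⟨Q, hQ, P, hrel⟩ := baseChange_span_poly L N f.2
  refine ⟨Q, hQ, ?_⟩
  have h : aeval (jF L N) Q * f = ∑ μ : box N, aeval (jF L N) (P μ) * evF L N μ := by
    apply Subtype.ext
    rw [MulMemClass.coe_mul, coe_aeval_jF, hrel, AddSubmonoidClass.coe_finsetSum]
    refine Finset.sum_congr rfl fun μ _ => ?_
    rw [MulMemClass.coe_mul, coe_aeval_jF, coe_evF]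
  rw [h]
  exact Submodule.sum_mem _ fun μ _ => aeval_mul_evF_mem_span (P μ) μ

/-- a common polynomial denominator for a finite-dimensional subspace. -/
theorem exists_common_denominator (V : Submodule L (FBar L N)) [FiniteDimensional L V] :
    ∃ Q : L[X], Q ≠ 0 ∧ ∀ f ∈ V,
      aeval (jF L N) Q * f ∈ Submodule.span L (Set.range (orthoFam L N)) := by
  classical
  obtain ⟨S, hS⟩ : V.FG := (Submodule.fg_iff_finiteDimensional V).mpr inferInstance
  choose Q hQ0 hQ using fun g : FBar L N => exists_poly_denominator g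
  refine ⟨∏ g ∈ S, Q g, Finset.prod_ne_zero_iff.mpr fun g _ => hQ0 g, ?_⟩
  -- multiplication by a polynomial in `j` preserves the span
  have hstab : ∀ (R : L[X]) (g : FBar L N),
      g ∈ Submodule.span L (Set.range (orthoFam L N)) →
      aeval (jF L N) R * g ∈ Submodule.span L (Set.range (orthoFam L N)) := by
    intro R g hg
    induction hg using Submodule.span_induction with
    | mem x hx =>
      obtain ⟨⟨μ, n⟩, rfl⟩ := hx
      have : aeval (jF L N) R * orthoFam L N (μ, n) = aeval (jF L N) (R * X ^ n) * evF L N μ := by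
        rw [orthoFam, map_mul, map_pow, aeval_X, mul_assoc]
      rw [this]
      exact aeval_mul_evF_mem_span _ μ
    | zero => rw [mul_zero]; exact Submodule.zero_mem _
    | add x y _ _ hx hy => rw [mul_add]; exact Submodule.add_mem _ hx hy
    | smul c x _ hx => rw [mul_smul_comm]; exact Submodule.smul_mem _ _ hx
  intro f hf
  rw [← hS] at hf
  induction hf using Submodule.span_induction with
  | mem g hg =>
    have hsplit : ∏ g' ∈ S, Q g' = (∏ g' ∈ S.erase g, Q g') * Q g := by
      rw [Finset.prod_erase_mul _ _ hg]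
    rw [hsplit, map_mul, mul_assoc]
    exact hstab _ _ (hQ g)
  | zero => rw [mul_zero]; exact Submodule.zero_mem _
  | add x y _ _ hx hy => rw [mul_add]; exact Submodule.add_mem _ hx hy
  | smul c x _ hx => rw [mul_smul_comm]; exact Submodule.smul_mem _ _ hx

variable (A : ValuationSubring L) {k : Type} [Field k] (π : A →+* k)
variable [IsAlgClosed k] (ℓ : ℕ) [Fact ℓ.Prime] [CharP k ℓ]

/-- every finite-dimensional `L`-subspace `V` of `FBar L N` has a unit `q` of the Gauss ring with
`q V ≤ span (j^n ev μ)`. -/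
theorem exists_unit_denominator (hπ : Function.Surjective π) (hℓN : ¬ ℓ ∣ N)
    (V : Submodule L (FBar L N)) [FiniteDimensional L V] :
    ∃ q : FBar L N, q ≠ 0 ∧ q ∈ OvVal A π N ℓ hπ hℓN ∧ q⁻¹ ∈ OvVal A π N ℓ hπ hℓN ∧
      ∀ f ∈ V, q * f ∈ Submodule.span L (Set.range (orthoFam L N)) := by
  obtain ⟨Q, hQ0, hQ⟩ := exists_common_denominator V
  obtain ⟨c, hc, Q', hQ', hQπ⟩ := exists_content_single A π Q hQ0
  have hcoe : ((aeval (jF L N) (C c⁻¹ * Q) : FBar L N) : LaurentSeries L) =
      embA A (pev (jqModC A) Q') := by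
    rw [← IntermediateField.coe_val, ← Polynomial.aeval_algHom_apply, IntermediateField.coe_val,
      coe_jF, embA_pev, hQ', embA_jqModC, aeval_eq_pev_field]
  have hred : redA A π (pev (jqModC A) Q') ≠ 0 :=
    (indepMod_box (N := N) A π ℓ hℓN).redA_pev_ne_zero hQπ
  have hq0 : aeval (jF L N) (C c⁻¹ * Q) ≠ 0 := by
    intro h0
    have h1 := congrArg (fun f : FBar L N => (f : LaurentSeries L)) h0
    simp only [hcoe, ZeroMemClass.coe_zero] at h1
    rw [embA_eq_zero_iff] at h1
    exact hred (by rw [h1, map_zero])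
  have hqmem : aeval (jF L N) (C c⁻¹ * Q) ∈ Ov A π (FBar L N) := by
    rw [mem_Ov_iff, hcoe]
    exact embA_mem_gaussRing A π _
  refine ⟨aeval (jF L N) (C c⁻¹ * Q), hq0, hqmem, ?_, ?_⟩
  · show (aeval (jF L N) (C c⁻¹ * Q))⁻¹ ∈ Ov A π (FBar L N)
    apply inv_mem_Ov A π (FBar L N) hqmem
    rw [redV_of_eq_embA A π (FBar L N) _ hcoe]
    exact hred
  · intro f hf
    rw [map_mul, aeval_C, mul_assoc, ← Algebra.smul_def]
    exact Submodule.smul_mem _ _ (hQ f hf)

set_option synthInstance.maxHeartbeats 400000 in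
/-- **Cartesian lattices**: for every finite-dimensional `L`-subspace `V` of `FBar L N`, the
lattice `V ∩ Ov` is a finitely generated `A`-module. -/
theorem fg_inf_OvVal (hπ : Function.Surjective π) (hℓN : ¬ ℓ ∣ N)
    (V : Submodule L (FBar L N)) [FiniteDimensional L V] (Λ : Submodule A (FBar L N))
    (hΛ : ∀ f, f ∈ Λ ↔ f ∈ V ∧ f ∈ OvVal A π N ℓ hπ hℓN) : Λ.FG := by
  obtain ⟨q, hq0, hq, hq', hqV⟩ := exists_unit_denominator A π ℓ hπ hℓN V
  exact Fermat.Agent.Gateway.C0.fg_inf_of_orthonormal_mul A (OvVal A π N ℓ hπ hℓN)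
    (orthoFam L N) (linearIndependent_orthoFam A π ℓ hℓN) (orthoFam_orth A π ℓ hπ hℓN)
    V q hq0 hq hq' hqV Λ hΛ

end Concrete

end Fermat.Agent.Gateway.GoodRed
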