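import Mathlib
import Fermat.Agent.Gateway.GoodRed.Forms.Analytic
import Fermat.Agent.Gateway.GoodRed.Forms.Descent
import Fermat.Agent.Gateway.GoodRed.Forms.Embeddings
import Fermat.Agent.Gateway.GoodRed.Forms.Saturation

/-!
# WP-GR8 Forms: the analytic → algebraic dictionary for weight two cusp forms

Setting: a level `M`, `K = Kbar = AlgebraicClosure ℚ`, `F_M = modularFunctionFieldBar M ⊆ K((q))`.
`tq ∈ F_M` is the `q`-series of a function `t` (in the application the Hauptmodul of an auxiliary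
level `r₀ ∣ M`) which has an analytic avatar `θ` (holomorphic on `ℍ`, `q`-expansion `tq`) with
nowhere vanishing derivative.  `G := q dt/dq`.  For a cusp form `f ∈ S₂(Γ₀(M))` whose `q`-expansion
`qf` has coefficients in `K`, put `h := qf / G ∈ K((q))`.  Then

* (α1) `h ∈ F_M`;
* (α2) `h` is integral over `K[j]`;
* (γ) for EVERY ring hom `σ : F_M → K((z))` which is the identity on constants and sends `j` to
  `j(z^M)`: `σ h * d(σ t)/dz` is a power series (the differential `h dt` is regular at every cusp);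
* (∞) `h * G = qf` (so `h dt = f dq/q` at the cusp `∞`).
-/

set_option autoImplicit false

open UpperHalfPlane ModularCurve CongruenceSubgroup
open scoped MatrixGroups

noncomputable section

namespace Fermat.Agent.Gateway.GoodRed.Forms

open Fermat.Agent.S24 Fermat.Agent.S24.QExp Fermat.Agent.S24.Setup Derivative
open Fermat.Agent.S24.CuspOrd (cuspFnAlg)
open Fermat.Agent.Gateway.Dict

/-- `coeffMap` commutes with the derivative of Laurent series. -/
theorem coeffMap_D {R S : Type*} [CommRing R] [CommRing S] (φ : R →+* S) (x : LaurentSeries R) :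
    coeffMap φ (Fermat.Agent.Lib.Residue.D x) = Fermat.Agent.Lib.Residue.D (coeffMap φ x) := by
  ext n
  rw [coeffMap_coeff, Fermat.Agent.Lib.Residue.D_coeff, Fermat.Agent.Lib.Residue.D_coeff,
    coeffMap_coeff, map_mul, map_intCast]

/-- The formal weight two form `G = q dt/dq`. -/
def Gq (tq : LaurentSeries Kbar) : LaurentSeries Kbar :=
  HahnSeries.single (1 : ℤ) (1 : Kbar) * Fermat.Agent.Lib.Residue.D tq

/-- The formal function `h = qf / G`. -/
def hq (tq : LaurentSeries Kbar) (qf : PowerSeries Kbar) : LaurentSeries Kbar :=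
  HahnSeries.ofPowerSeries ℤ Kbar qf / Gq tq

theorem coeffMap_Gq (tq : LaurentSeries Kbar) :
    coeffMap iota (Gq tq) =
      HahnSeries.single (1 : ℤ) (1 : ℂ) * Fermat.Agent.Lib.Residue.D (coeffMap iota tq) := by
  rw [Gq, map_mul, coeffMap_single, map_one, coeffMap_D]

variable {M : ℕ} [NeZero M]

/-- The data of WP-GR8. -/
structure FormsData (M : ℕ) where
  /-- the `q`-series of `t` -/
  tq : LaurentSeries Kbar
  tq_mem : tq ∈ modularFunctionFieldBar M
  /-- the analytic avatar of `t` -/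
  θ : HolFun
  θ_per : θ ∈ PerFun
  θ_q : qLaurent ⟨θ, θ_per⟩ = coeffMap iota tq
  θ_dne : ∀ τ : ℍ, D (θ : ℍ → ℂ) τ ≠ 0

namespace FormsData

variable (A : FormsData M)

/-- `t` as an element of the function field. -/
def tF : FF M := ⟨A.tq, A.tq_mem⟩

/-- The analytic Hauptmodul data. -/
def hauptAn : HauptAn M :=
  Classical.choose (exists_hauptAn A.θ A.θ_per (iotaF M A.tF) A.θ_q A.θ_dne)

theorem hauptAn_θ : A.hauptAn.θ = A.θ :=
  Classical.choose_spec (exists_hauptAn A.θ A.θ_per (iotaF M A.tF) A.θ_q A.θ_dne)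

theorem qLaurent_hauptAn : qLaurent ⟨A.hauptAn.θ, theta_mem_perFun A.hauptAn⟩ = coeffMap iota A.tq := by
  have h : (⟨A.hauptAn.θ, theta_mem_perFun A.hauptAn⟩ : PerFun) = ⟨A.θ, A.θ_per⟩ :=
    Subtype.ext A.hauptAn_θ
  rw [h, A.θ_q]

theorem coeffMap_Gq_ne_zero : coeffMap iota (Gq A.tq) ≠ 0 := by
  rw [coeffMap_Gq, ← A.qLaurent_hauptAn, ← qLaurent_dPer]
  intro h0
  have h1 : dPer ⟨A.hauptAn.θ, theta_mem_perFun A.hauptAn⟩ = 0 :=
    qLaurent_injective (by rw [h0, map_zero])
  have h2 := congrArg (fun p : PerFun => fn p UpperHalfPlane.I) h1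
  exact A.hauptAn.dne _ h2

theorem Gq_ne_zero : Gq A.tq ≠ 0 := fun h => A.coeffMap_Gq_ne_zero (by rw [h, map_zero])

variable (f : CuspForm ((Gamma0 M : Subgroup SL(2, ℤ)) : Subgroup (GL (Fin 2) ℝ)) 2)
  (qf : PowerSeries Kbar) (hqf : qExpansion 1 (f : ℍ → ℂ) = qf.map iota)

/-- (∞) `h * G = qf`. -/
theorem hq_mul_Gq : hq A.tq qf * Gq A.tq = HahnSeries.ofPowerSeries ℤ Kbar qf :=
  div_mul_cancel₀ _ A.Gq_ne_zero

include hqf

/-- The base change of `h` to `ℂ` is the `q`-expansion of the analytic function `f / D θ`. -/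
theorem coeffMap_hq :
    coeffMap iota (hq A.tq qf) = qLaurent ⟨han A.hauptAn f, han_mem_perFun A.hauptAn f⟩ := by
  have h1 := qLaurent_han_mul A.hauptAn f
  rw [A.qLaurent_hauptAn, ← coeffMap_Gq, hqf, ← coeffMap_ofPowerSeries] at h1
  rw [hq, map_div₀, div_eq_iff A.coeffMap_Gq_ne_zero]
  exact h1.symm

/-- The preimage of `h` in `ℂ(X₀(M))`. -/
theorem exists_xC : ∃ x : SetupC.FC M,
    EmbedC.embC M x = algebraMap HolFun MerFun (han A.hauptAn f) ∧
      (x : LaurentSeries ℂ) = coeffMap iota (hq A.tq qf) := by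
  obtain ⟨x, hx⟩ := exists_embC_eq_han A.hauptAn f
  refine ⟨x, hx, ?_⟩
  rw [A.coeffMap_hq f qf hqf]
  exact (EmbedC.qLaurent_eq_of_embC_eq M x (han_mem_perFun A.hauptAn f) hx).symm

/-- **(α1)** `h = qf / G` lies in the function field `F_M`. -/
theorem hq_mem : hq A.tq qf ∈ modularFunctionFieldBar M := by
  obtain ⟨x, -, hx⟩ := A.exists_xC f qf hqf
  apply mem_bar_of_coeffMap_mem M
  rw [← hx]
  exact x.2

/-- `h` as an element of the function field. -/
def hF : FF M := ⟨hq A.tq qf, A.hq_mem f qf hqf⟩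

/-- **(α2)** `h` is integral over `K[j]`. -/
theorem hF_isIntegral : IsIntegral (Algebra.adjoin Kbar {jF M}) (A.hF f qf hqf) := by
  obtain ⟨x, hx1, hx2⟩ := A.exists_xC f qf hqf
  obtain ⟨n, p, hrel⟩ := exists_monic_relation A.hauptAn f x hx1
  exact isIntegral_of_relation M (A.hF f qf hqf) x hx2 n p hrel

/-- **(γ)** regularity of `h dt` at every cusp: for every ring hom `σ : F_M → K((z))` which is the
identity on constants and sends `j` to `j(z^M)`, the series `σ h * d(σ t)/dz` has no polar part. -/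
theorem cusp_regular (σ : FF M →+* LaurentSeries Kbar)
    (hσc : ∀ c : Kbar, σ (algebraMap Kbar (FF M) c) = HahnSeries.C c)
    (hσj : σ (jF M) = qExpand Kbar M (jK 1)) {n : ℤ} (hn : n < 0) :
    (σ (A.hF f qf hqf) * Fermat.Agent.Lib.Residue.D (σ A.tF)).coeff n = 0 := by
  obtain ⟨g, hg⟩ := exists_tau_eq M σ hσc hσj
  obtain ⟨x, hx1, hx2⟩ := A.exists_xC f qf hqf
  have hM : 0 < M := Nat.pos_of_ne_zero (NeZero.ne M)
  -- the images of `h` and `t` under `tau g`
  have h1 : tau M g (A.hF f qf hqf) = zL M (hsl A.hauptAn f g) := by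
    have e : iotaF M (A.hF f qf hqf) = x := Subtype.ext hx2.symm
    rw [tau_apply, e]
    apply tauC_eq
    rw [hx1, MerFun.sl_smul_algebraMap]
    rfl
  have h2 : tau M g A.tF = zL M (A.hauptAn.tr g) := by
    rw [tau_apply]
    apply tauC_eq
    have e := EmbedC.embC_eq_of_qLaurent_eq M (iotaF M A.tF) A.θ_per A.θ_q
    rw [e, MerFun.sl_smul_algebraMap, ← A.hauptAn_θ]
    rfl
  have h3 : coeffMap iota (σ (A.hF f qf hqf) * Fermat.Agent.Lib.Residue.D (σ A.tF)) =
      zL M (hsl A.hauptAn f g) * Fermat.Agent.Lib.Residue.D (zL M (A.hauptAn.tr g)) := by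
    rw [map_mul, coeffMap_D, ← h1, ← h2, ← hg]
    rfl
  have h4 := zL_hsl_mul_D A.hauptAn f g hn
  rw [← h3, coeffMap_coeff] at h4
  exact (map_eq_zero_iff iota iota_injective).mp h4

omit hqf in
/-- **(β)** integrality: if `t` has integral `q`-expansion `tqZ` and `G = q dt/dq` has a unit lowest
coefficient, then for every integral power series `qfZ` the quotient `h = qfZ / G` is (the image
of) an integral Laurent series. -/
theorem hq_int (tqZ : LaurentSeries ℤ) (htq : A.tq = coeffMap (Int.castRingHom Kbar) tqZ)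
    (hu : IsUnit (HahnSeries.single (1 : ℤ) (1 : ℤ) *
      Fermat.Agent.Lib.Residue.D tqZ).leadingCoeff) (qfZ : PowerSeries ℤ) :
    ∃ hZ : LaurentSeries ℤ,
      hZ * (HahnSeries.single (1 : ℤ) (1 : ℤ) * Fermat.Agent.Lib.Residue.D tqZ) =
        HahnSeries.ofPowerSeries ℤ ℤ qfZ ∧
      coeffMap (Int.castRingHom Kbar) hZ = hq A.tq (qfZ.map (Int.castRingHom Kbar)) := by
  have hU : IsUnit (HahnSeries.single (1 : ℤ) (1 : ℤ) * Fermat.Agent.Lib.Residue.D tqZ) :=
    HahnSeries.isUnit_iff.mpr hu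
  obtain ⟨u, hu'⟩ := hU
  refine ⟨HahnSeries.ofPowerSeries ℤ ℤ qfZ * (↑u⁻¹ : LaurentSeries ℤ), ?_, ?_⟩
  · rw [← hu', mul_assoc, Units.inv_mul, mul_one]
  · have hG : coeffMap (Int.castRingHom Kbar)
        (HahnSeries.single (1 : ℤ) (1 : ℤ) * Fermat.Agent.Lib.Residue.D tqZ) = Gq A.tq := by
      rw [Gq, htq, map_mul, coeffMap_single, map_one, coeffMap_D]
    rw [hq, eq_div_iff A.Gq_ne_zero, ← hG, ← hu', ← map_mul, mul_assoc, Units.inv_mul, mul_one,
      coeffMap_ofPowerSeries]

end FormsData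

/-- **WP-GR8, final export.**  Given the data `A` (the function `t` with its analytic avatar) and
an integral model `tqZ` of its `q`-series such that `G = q dt/dq` has a unit lowest coefficient,
there are `g = dim S₂(Γ₀(M))` integral power series `qf i` (the `q`-expansions of a saturated
integral basis of `S₂(Γ₀(M))`) and functions `h i ∈ F_M` with
(∞) `h i * G = qf i`, (β) `h i ∈ ℤ((q))`, (α) `h i` integral over `K[j]`,
(γ) `h i dt` regular at every cusp, (δ) the reductions of the `qf i` modulo any prime are linearly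
independent over every field of that characteristic. -/
theorem exists_forms (A : FormsData M) (tqZ : LaurentSeries ℤ)
    (htq : A.tq = coeffMap (Int.castRingHom Kbar) tqZ)
    (hu : IsUnit (HahnSeries.single (1 : ℤ) (1 : ℤ) *
      Fermat.Agent.Lib.Residue.D tqZ).leadingCoeff) :
    ∃ (qf : Fin (Module.finrank ℂ (CuspForm (Gamma0 M) 2)) → PowerSeries ℤ)
      (hZ : Fin (Module.finrank ℂ (CuspForm (Gamma0 M) 2)) → LaurentSeries ℤ)
      (h : Fin (Module.finrank ℂ (CuspForm (Gamma0 M) 2)) → FF M),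
      (∀ i, PowerSeries.constantCoeff (qf i) = 0) ∧
      (∀ i, hZ i * (HahnSeries.single (1 : ℤ) (1 : ℤ) * Fermat.Agent.Lib.Residue.D tqZ) =
        HahnSeries.ofPowerSeries ℤ ℤ (qf i)) ∧
      (∀ i, ((h i : FF M) : LaurentSeries Kbar) = coeffMap (Int.castRingHom Kbar) (hZ i)) ∧
      (∀ i, IsIntegral (Algebra.adjoin Kbar {jF M}) (h i)) ∧
      (∀ i (σ : FF M →+* LaurentSeries Kbar),
        (∀ c : Kbar, σ (algebraMap Kbar (FF M) c) = HahnSeries.C c) →
        σ (jF M) = qExpand Kbar M (jK 1) →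
        ∀ n : ℤ, n < 0 → (σ (h i) * Fermat.Agent.Lib.Residue.D (σ A.tF)).coeff n = 0) ∧
      (∀ (k : Type) [Field k] (p : ℕ) [CharP k p], p.Prime →
        LinearIndependent k (fun i => (qf i).map (Int.castRingHom k))) := by
  obtain ⟨f, qf, hqf, hc0, -, -, hsat⟩ := exists_saturated_basis M
  have hqf' : ∀ i, qExpansion 1 ((f i : CuspForm (Gamma0 M) 2) : ℍ → ℂ) =
      ((qf i).map (Int.castRingHom Kbar)).map iota := by
    intro i
    rw [hqf i]
    ext n
    simp only [PowerSeries.coeff_map, eq_intCast, map_intCast]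
  choose hZ hZ1 hZ2 using fun i => A.hq_int tqZ htq hu (qf i)
  refine ⟨qf, hZ, fun i => A.hF (f i) ((qf i).map (Int.castRingHom Kbar)) (hqf' i), hc0, hZ1,
    fun i => (hZ2 i).symm, fun i => A.hF_isIntegral _ _ (hqf' i),
    fun i σ hσc hσj n hn => A.cusp_regular _ _ (hqf' i) σ hσc hσj hn, hsat⟩

end Fermat.Agent.Gateway.GoodRed.Forms
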