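import Fermat.Agent.Gateway.GoodRed.ConjFamily.Degree
import Fermat.Agent.Gateway.GoodRed.ConjFamily.Units

/-!
# P-GATEWAY (c1) WP-GR11: the family of all cusp embeddings of the level-`N` function field
(`(S4)` of the GoodRed v2 plan), packaged

`k : Type` algebraically closed, `(N : k) ≠ 0` (any characteristic).
`Fk k N = modularFunctionFieldFullC k N ⊆ k((q))`, `Emb k N` = all ring homs
`τ : Fk k N →+* k((z))` which are the identity on `k` and send `j(q)` to `j(z^N)`.

* `fintypeEmb hNk : Fintype (Emb k N)`, `card_emb_fintype`.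
* `emb_ext_of_jdF` **(SEP)**: two cusp embeddings agreeing on all `j(q^d)`, `d ∣ N`, are equal.
* `exists_family`: everything in the shape of the hypotheses of
  `GoodRed/UpperBound.lean` (section `Family`) and `PolePlaces.exists_polePlaces`.
-/

set_option autoImplicit false

noncomputable section

namespace Fermat.Agent.Gateway.GoodRed.ConjFamily

open Polynomial ModularCurve IntermediateField Fermat.Agent.S28 Fermat.Agent.S28.Tower
open Fermat.Agent.Gateway.GoodRed

section Package

variable {k : Type} [Field k] {N : ℕ} [NeZero N]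

theorem θ_jdF (d : ℕ) (hd : d ∣ N) :
    θ k N (jdF d hd) = ⟨jS k 1 (N * d), jS_mem_Fz hd⟩ := by
  apply Subtype.ext
  rw [coe_θ, coe_jdF]
  have : NeZero d := ⟨ne_zero_of_dvd_N hd⟩
  rw [jS_eq_qExpand, qExpand_qExpand_jqModC]

/-- **(SEP)** the `j(q^d)`, `d ∣ N`, generate `Fk` over `k(j)`: two cusp embeddings which agree on
all of them are equal. -/
theorem emb_ext_of_jdF (τ τ' : Emb k N)
    (h : ∀ d (hd : d ∣ N), τ.1 (jdF d hd) = τ'.1 (jdF d hd)) : τ = τ' := by
  apply (embEquiv (k := k) (N := N)).injective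
  apply IntermediateField.adjoin_algHom_ext
  rintro x ⟨d, hd, rfl⟩
  have h1 := embToAlgHom_θ τ.1 τ.2 (jdF d hd)
  have h2 := embToAlgHom_θ τ'.1 τ'.2 (jdF d hd)
  rw [θ_jdF] at h1 h2
  exact h1.trans ((h d hd).trans h2.symm)

theorem emb_ne_iff (τ τ' : Emb k N) :
    τ ≠ τ' ↔ ∃ d, ∃ hd : d ∣ N, τ.1 (jdF d hd) ≠ τ'.1 (jdF d hd) := by
  constructor
  · intro hne
    by_contra hcon
    simp only [not_exists, not_not] at hcon
    exact hne (emb_ext_of_jdF τ τ' hcon)
  · rintro ⟨d, hd, hne⟩ rfl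
    exact hne rfl

theorem order_qExpand_jqModC : (qExpand k N (jqModC k)).order = -(N : ℤ) := by
  rw [qExpand_order, jqModC_order]
  ring

variable [IsAlgClosed k]

/-- the (noncomputable) `Fintype` structure on the cusp embeddings. -/
@[reducible] def fintypeEmb (hNk : (N : k) ≠ 0) : Fintype (Emb k N) :=
  haveI := finite_emb hNk
  Fintype.ofFinite _

theorem card_emb_fintype (hNk : (N : k) ≠ 0) :
    @Fintype.card (Emb k N) (fintypeEmb hNk) = Module.finrank k⟮jFk k N⟯ (Fk k N) := by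
  letI := fintypeEmb hNk
  rw [← Nat.card_eq_fintype_card]
  exact card_emb_eq_finrank hNk

/-- **(S4), packaged**: the twist-stable family of all cusp embeddings of `Fk k N`, in the shape
of the hypotheses of `UpperBound` (section `Family`) / `PolePlaces.exists_polePlaces`, together
with its explicit values on the generators `j(q^d)`. -/
theorem exists_family (hNk : (N : k) ≠ 0) :
    ∃ (ζ : kˣ) (_ : IsPrimitiveRoot ζ N) (ι : Type) (_ : Fintype ι) (_ : DecidableEq ι)
      (σ : ι → Fk k N →+* LaurentSeries k) (rot : Equiv.Perm ι) (i0 : ι),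
      (∀ j (c : k), σ j (algebraMap k (Fk k N) c) = HahnSeries.C c) ∧
      (∀ j f, σ (rot j) f = Fermat.Agent.S28.twist ζ (σ j f)) ∧
      Function.Injective σ ∧
      (∀ j, σ j (jFk k N) = qExpand k N (jqModC k)) ∧
      (qExpand k N (jqModC k)).order = -(N : ℤ) ∧
      Fintype.card ι = Module.finrank k⟮jFk k N⟯ (Fk k N) ∧
      Module.finrank k⟮jFk k N⟯ (Fk k N) = dedekindPsi N ∧
      (∀ f : Fk k N, σ i0 f = qExpand k N (f : LaurentSeries k)) ∧
      (∀ j d (hd : d ∣ N), ∃ (ξ : kˣ) (c : ℕ), ξ ^ N = 1 ∧ c ≠ 0 ∧ σ j (jdF d hd) = jS k ξ c) ∧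
      (∀ j j', (∀ d (hd : d ∣ N), σ j (jdF d hd) = σ j' (jdF d hd)) → j = j') := by
  classical
  obtain ⟨ζ, hζ⟩ := exists_primitiveRoot_unit (k := k) N hNk
  refine ⟨ζ, hζ, Emb k N, fintypeEmb hNk, inferInstance, fun τ => τ.1, rot ζ hζ.pow_eq_one,
    embInfty, emb_algebraMap, fun τ f => rot_apply ζ hζ.pow_eq_one τ f, emb_val_injective,
    emb_jFk, order_qExpand_jqModC, card_emb_fintype hNk, finrank_Fk_eq_dedekindPsi hNk,
    embInfty_apply, fun τ d hd => emb_jdF' hNk τ d hd, emb_ext_of_jdF⟩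

end Package

end Fermat.Agent.Gateway.GoodRed.ConjFamily
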