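import Fermat.Agent.Gateway.GoodRed.RedFamilyAbstract
import Fermat.Agent.Gateway.GoodRed.Instantiate.GaussData
import Fermat.Agent.S28.Tower.BAdapter
import Fermat.Agent.S28.Tower.CharZeroIntegral
import Fermat.Agent.S28.ModEq.Final

/-!
# P-GATEWAY (c) GoodRed, (S5) part 1: reduction of a ring hom `F → L((z))` to the residue fields

`F = FBar L N` the level-`N` modular function field over `L` (inside `L((q))`), `A ⊆ L` a valuation
subring with residue map `π : A → k` (`k` algebraically closed of characteristic `ℓ ∤ N`),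
`Fk = modularFunctionFieldFullC k N`, `resFk : OvVal → Fk` the residue map of the Gauss valuation
(helper82, `GaussBar`).

* `algebraPolyF` : the `L[X]`-algebra structure `X ↦ j` on `F` (under helper82's `algebraRF`);
* `jSF`, `isIntegral_jSF` : `j(q^d)`, `d ∣ N`, is integral over `L[j]` (prime level modular equations);
* `ringHom_ext_FBar` : ring homs out of `F` are determined by the constants and the `j(q^d)`;
* `Persists s` : `s : F →+* L((z))` maps `Ov` into the Gauss ring and `ker redV` into `ker gaussRed`;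
* `redHom hs : Fk →+* k((z))` with `redHom_resFk : redHom hs (resFk f) = gaussRed (s f)`;
  values: `redHom_algebraMap`, `redHom_jS`, `redHom_of_eq_embA`, `redHom_coeff_eq_zero`;
  twists `Persists.twist`, `redHom_twist`; the cusp `∞`: `sInfty`, `persists_sInfty`, `redHom_sInfty`;
* `unitOfRoot` : roots of unity of `L` are units of `A`; `xiA = j(z^N)` over `A`.
-/

set_option autoImplicit false
set_option linter.unusedSectionVars false
set_option linter.style.haveILetI false

noncomputable section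

namespace Fermat.Agent.Gateway.GoodRed

open Polynomial ModularCurve Fermat.Agent.S28 Fermat.Agent.S28.Tower Fermat.Agent.Gateway.Red
open IntermediateField

section PolyAlg

variable (L : Type) [Field L] [Algebra ℚ L] (N : ℕ) [NeZero N]

attribute [local instance] algebraRF

/-- the `L[X]`-algebra structure on `F`, `X ↦ j`. -/
@[reducible] def algebraPolyF : Algebra L[X] (FBar L N) :=
  ((algebraMap (RatFunc L) (FBar L N)).comp (algebraMap L[X] (RatFunc L))).toAlgebra

attribute [local instance] algebraPolyF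

theorem isScalarTower_polyF : IsScalarTower L[X] (RatFunc L) (FBar L N) :=
  IsScalarTower.of_algebraMap_eq fun _ => rfl

theorem coe_algebraMap_polyF (P : L[X]) :
    ((algebraMap L[X] (FBar L N) P : FBar L N) : LaurentSeries L) = aeval (jqModC L) P := by
  show ((algebraMap (RatFunc L) (FBar L N) (algebraMap L[X] (RatFunc L) P) : FBar L N) :
    LaurentSeries L) = _
  rw [algebraMap_RF_apply, GaussRing.evalRF_algebraMap]

theorem charZero_of_algebraRat : CharZero L := algebraRat.charZero L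

theorem isSeparable_RF : Algebra.IsSeparable (RatFunc L) (FBar L N) := by
  haveI : CharZero L := algebraRat.charZero L
  haveI : CharZero (RatFunc L) := charZero_of_injective_algebraMap (algebraMap L (RatFunc L)).injective
  haveI := finiteDimensional_RF L N
  infer_instance

/-- `j(q^d)` as an element of `F`. -/
def jSF {d : ℕ} (hd0 : d ≠ 0) (hd : d ∣ N) : FBar L N := ⟨jS L 1 d, jS_mem_FBar hd0 hd⟩

@[simp] theorem coe_jSF {d : ℕ} (hd0 : d ≠ 0) (hd : d ∣ N) :
    ((jSF L N hd0 hd : FBar L N) : LaurentSeries L) = jS L 1 d := rfl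

theorem jSF_one : jSF L N one_ne_zero (one_dvd N) = algebraMap L[X] (FBar L N) X := by
  apply Subtype.ext
  rw [coe_jSF, coe_algebraMap_polyF, aeval_X, jS_one_one]

/-- `j(q^d)`, `d ∣ N`, is integral over `L[j]`. -/
theorem isIntegral_jSF [IsAlgClosed L] :
    ∀ (d : ℕ) (hd0 : d ≠ 0) (hd : d ∣ N), IsIntegral L[X] (jSF L N hd0 hd) := by
  haveI : CharZero L := algebraRat.charZero L
  intro d
  induction d using Nat.strong_induction_on with
  | _ d ih =>
    intro hd0 hd
    rcases eq_or_ne d 1 with rfl | hd1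
    · rw [jSF_one]
      exact isIntegral_algebraMap
    · have hrp : (d.minFac).Prime := Nat.minFac_prime hd1
      obtain ⟨d', hd'⟩ := Nat.minFac_dvd d
      set r := d.minFac with hr
      have hr0 : r ≠ 0 := hrp.ne_zero
      have hd'0 : d' ≠ 0 := fun h => hd0 (by rw [hd', h, mul_zero])
      have hd'lt : d' < d := by
        rw [hd']
        exact lt_mul_of_one_lt_left (Nat.pos_of_ne_zero hd'0) hrp.one_lt
      have hd'd : d' ∣ d := ⟨r, by rw [hd', mul_comm]⟩
      haveI : NeZero r := ⟨hr0⟩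
      obtain ⟨ζ, hζ⟩ : ∃ ζ : Lˣ, IsPrimitiveRoot ζ r := by
        obtain ⟨ζ, hζ⟩ := HasEnoughRootsOfUnity.exists_primitiveRoot L r
        have hu : IsUnit ζ := hζ.isUnit hr0
        exact ⟨hu.unit, by rw [← IsPrimitiveRoot.coe_units_iff]; simpa using hζ⟩
      have hA : IsModEq (ModEq.modularEquation r hrp).Φ r L :=
        isModEq_of_modularEquation (ModEq.modularEquation r hrp) L
      have hrel : Rel (ModEq.modularEquation r hrp).Φ (jS L 1 (d' * r)) (jS L 1 d') :=
        rel_fwd_K hA hr0 hζ hd'0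
      have hd'N : d' ∣ N := hd'd.trans hd
      have hy' := ih d' hd'lt hd'0 hd'N
      refine isIntegral_of_rel (ModEq.modularEquation r hrp).monic
        (y := jSF L N hd'0 hd'N) ?_ hy'
      apply Rel.of_map_injective (algebraMap (FBar L N) (LaurentSeries L))
        (algebraMap (FBar L N) (LaurentSeries L)).injective
      show Rel _ (jS L 1 d) (jS L 1 d')
      rw [hd', mul_comm r d']
      exact hrel

/-- two ring homs out of `F` which agree on the constants and on the `j(q^d)`, `d ∣ N`, are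
equal. -/
theorem ringHom_ext_FBar {R : Type*} [Field R] (s s' : FBar L N →+* R)
    (hc : ∀ c : L, s (algebraMap L (FBar L N) c) = s' (algebraMap L (FBar L N) c))
    (hj : ∀ (d : ℕ) (hd0 : d ≠ 0) (hd : d ∣ N), s (jSF L N hd0 hd) = s' (jSF L N hd0 hd)) :
    s = s' := by
  -- the equaliser, as an intermediate field of `L((q)) / L`
  let E : IntermediateField L (LaurentSeries L) :=
    { carrier := {x | ∃ h : x ∈ FBar L N, s ⟨x, h⟩ = s' ⟨x, h⟩}
      mul_mem' := by
        rintro x y ⟨hx, hx'⟩ ⟨hy, hy'⟩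
        refine ⟨mul_mem hx hy, ?_⟩
        have : (⟨x * y, mul_mem hx hy⟩ : FBar L N) = ⟨x, hx⟩ * ⟨y, hy⟩ := rfl
        rw [this, map_mul, map_mul, hx', hy']
      one_mem' := ⟨one_mem _, by
        have : (⟨1, one_mem _⟩ : FBar L N) = 1 := rfl
        rw [this, map_one, map_one]⟩
      add_mem' := by
        rintro x y ⟨hx, hx'⟩ ⟨hy, hy'⟩
        refine ⟨add_mem hx hy, ?_⟩
        have : (⟨x + y, add_mem hx hy⟩ : FBar L N) = ⟨x, hx⟩ + ⟨y, hy⟩ := rfl
        rw [this, map_add, map_add, hx', hy']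
      zero_mem' := ⟨zero_mem _, by
        have : (⟨0, zero_mem _⟩ : FBar L N) = 0 := rfl
        rw [this, map_zero, map_zero]⟩
      algebraMap_mem' := fun c => ⟨(FBar L N).algebraMap_mem c, hc c⟩
      inv_mem' := by
        rintro x ⟨hx, hx'⟩
        refine ⟨inv_mem hx, ?_⟩
        have : (⟨x⁻¹, inv_mem hx⟩ : FBar L N) = (⟨x, hx⟩ : FBar L N)⁻¹ := rfl
        rw [this, map_inv₀, map_inv₀, hx'] }
  have hgen : ∀ (d : ℕ) (hd0 : d ≠ 0) (hd : d ∣ N), jS L 1 d ∈ E := fun d hd0 hd =>
    ⟨jS_mem_FBar hd0 hd, hj d hd0 hd⟩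
  have hT : ∀ x ∈ modularFunctionFieldFull N, coeffEmb L x ∈ E := by
    intro x hx
    rw [modularFunctionFieldFull] at hx
    induction hx using IntermediateField.adjoin_induction with
    | mem x hx =>
      obtain ⟨d, hne, hdvd, rfl⟩ := hx
      have h := hgen d (NeZero.ne d) hdvd
      have h2 : coeffEmb L (qExpand ℚ d jq) = jS L 1 d := by
        rw [← jS_rat_eq_qExpand, coeffEmb, coeffMap_jS, map_one]
      rw [h2]
      exact h
    | algebraMap c =>
      have : coeffEmb L (algebraMap ℚ (LaurentSeries ℚ) c) =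
          algebraMap L (LaurentSeries L) (algebraMap ℚ L c) := by
        rw [algebraMap_laurentSeries_eq_single, algebraMap_laurentSeries_eq_single]
        exact coeffMap_single _ _ _
      rw [this]
      exact E.algebraMap_mem _
    | add x y _ _ hx hy =>
      rw [map_add]
      exact add_mem hx hy
    | inv x _ hx =>
      rw [map_inv₀]
      exact inv_mem hx
    | mul x y _ _ hx hy =>
      rw [map_mul]
      exact mul_mem hx hy
  have hle : FBar L N ≤ E := by
    rw [FBar, laurentBaseChange, IntermediateField.adjoin_le_iff]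
    rintro _ ⟨x, hx, rfl⟩
    exact hT x hx
  refine RingHom.ext fun f => ?_
  obtain ⟨h, hf⟩ := hle f.2
  exact hf

end PolyAlg

section RedHom

variable {L : Type} [Field L] [Algebra ℚ L] (A : ValuationSubring L)
  {k : Type} [Field k] (π : A →+* k) (N : ℕ)
  [IsAlgClosed k] (ℓ : ℕ) [Fact ℓ.Prime] [CharP k ℓ] [NeZero N]
  (hπ : Function.Surjective π) (hℓN : ¬ ℓ ∣ N)

/-- a ring hom `s : F → L((z))` *persists* to the residue fields if it maps `Ov` into the Gauss
ring and the kernel of the reduction into the kernel of the reduction. -/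
structure Persists (s : FBar L N →+* LaurentSeries L) : Prop where
  mem : ∀ f : FBar L N, f ∈ Ov A π (FBar L N) → s f ∈ gaussRing A π
  red_eq_zero : ∀ (f : FBar L N) (hf : f ∈ Ov A π (FBar L N)),
    redV A π (FBar L N) ⟨f, hf⟩ = 0 → gaussRed A π ⟨s f, mem f hf⟩ = 0

variable {A π N}

/-- the ring hom `OvVal → k((z))`, `f ↦ gaussRed (s f)`. -/
def Persists.pre {s : FBar L N →+* LaurentSeries L} (hs : Persists A π N s) :
    OvVal A π N ℓ hπ hℓN →+* LaurentSeries k :=
  (gaussRed A π).comp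
    ((s.comp (OvVal A π N ℓ hπ hℓN).subtype).codRestrict (gaussRing A π) fun f => hs.mem f f.2)

theorem Persists.pre_apply {s : FBar L N →+* LaurentSeries L} (hs : Persists A π N s)
    (f : OvVal A π N ℓ hπ hℓN) :
    hs.pre ℓ hπ hℓN f = gaussRed A π ⟨s f, hs.mem f f.2⟩ := rfl

/-- **the reduction** `s̄ : Fk → k((z))` of a persisting ring hom `s : F → L((z))`. -/
def redHom {s : FBar L N →+* LaurentSeries L} (hs : Persists A π N s) :
    modularFunctionFieldFullC k N →+* LaurentSeries k :=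
  RingHom.liftOfSurjective (resFk A π N ℓ hπ hℓN) (resFk_surjective A π N ℓ hπ hℓN)
    ⟨hs.pre ℓ hπ hℓN, by
      intro f hf
      rw [RingHom.mem_ker] at hf ⊢
      rw [Persists.pre_apply]
      refine hs.red_eq_zero f f.2 ?_
      have := congrArg Subtype.val hf
      rwa [coe_resFk] at this⟩

/-- the defining property of `redHom`. -/
theorem redHom_resFk {s : FBar L N →+* LaurentSeries L} (hs : Persists A π N s)
    (f : OvVal A π N ℓ hπ hℓN) :
    redHom ℓ hπ hℓN hs (resFk A π N ℓ hπ hℓN f) = gaussRed A π ⟨s f, hs.mem f f.2⟩ :=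
  RingHom.liftOfSurjective_comp_apply (resFk A π N ℓ hπ hℓN) _ _ f

theorem redHom_of_eq_embA {s : FBar L N →+* LaurentSeries L} (hs : Persists A π N s)
    (f : OvVal A π N ℓ hπ hℓN) {g : LaurentSeries A} (hg : s f = embA A g) :
    redHom ℓ hπ hℓN hs (resFk A π N ℓ hπ hℓN f) = redA A π g := by
  rw [redHom_resFk]
  exact gaussRed_of_eq_embA A π _ hg

/-! ### constants -/

theorem resFk_algebraMap (a : A) :
    resFk A π N ℓ hπ hℓN ⟨algebraMap L (FBar L N) (a : L),
        (mem_OvVal_iff A π N ℓ hπ hℓN).mpr ((algebraMap_mem_Ov_iff A π N hπ a).mpr a.2)⟩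
      = algebraMap k (modularFunctionFieldFullC k N) (π a) := by
  apply Subtype.ext
  rw [coe_resFk]
  refine (redV_algebraMap A π N a _).trans ?_
  show _ = algebraMap k (LaurentSeries k) (π a)
  rw [algebraMap_laurentSeries_eq_single]
  rfl

theorem redHom_algebraMap {s : FBar L N →+* LaurentSeries L} (hs : Persists A π N s)
    (hsL : ∀ c : L, s (algebraMap L (FBar L N) c) = HahnSeries.C c) (c : k) :
    redHom ℓ hπ hℓN hs (algebraMap k (modularFunctionFieldFullC k N) c) = HahnSeries.C c := by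
  obtain ⟨a, rfl⟩ := hπ c
  rw [← resFk_algebraMap ℓ hπ hℓN a, redHom_of_eq_embA ℓ hπ hℓN hs _ (g := HahnSeries.C a), redA_C]
  rw [embA_C]
  exact hsL _

/-! ### roots of unity -/

theorem mem_of_pow_eq_one (A : ValuationSubring L) {x : L} {m : ℕ} (hm : m ≠ 0) (h : x ^ m = 1) :
    x ∈ A := by
  rcases A.mem_or_inv_mem x with hx | hx
  · exact hx
  · have hx0 : x ≠ 0 := by
      rintro rfl
      rw [zero_pow hm] at h
      exact zero_ne_one h
    have : x = x⁻¹ ^ (m - 1) := by
      have h1 : x ^ m = x ^ (m - 1) * x := by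
        rw [← pow_succ, Nat.sub_add_cancel (Nat.pos_of_ne_zero hm)]
      rw [inv_pow]
      exact eq_inv_of_mul_eq_one_right (by rw [← h1, h])
    rw [this]
    exact pow_mem hx _

/-- a root of unity of `L`, as a unit of `A`. -/
def unitOfRoot (A : ValuationSubring L) (ξ : Lˣ) {m : ℕ} (hm : m ≠ 0) (h : ξ ^ m = 1) : Aˣ where
  val := ⟨(ξ : L), mem_of_pow_eq_one A hm (by rw [← Units.val_pow_eq_pow_val, h, Units.val_one])⟩
  inv := ⟨((ξ⁻¹ : Lˣ) : L), mem_of_pow_eq_one A hm
    (by rw [← Units.val_pow_eq_pow_val, inv_pow, h, inv_one, Units.val_one])⟩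
  val_inv := Subtype.ext (by simp)
  inv_val := Subtype.ext (by simp)

theorem map_unitOfRoot (A : ValuationSubring L) (ξ : Lˣ) {m : ℕ} (hm : m ≠ 0) (h : ξ ^ m = 1) :
    Units.map (A.subtype : A →* L) (unitOfRoot A ξ hm h) = ξ :=
  Units.ext rfl

theorem unitOfRoot_pow (A : ValuationSubring L) (ξ : Lˣ) {m : ℕ} (hm : m ≠ 0) (h : ξ ^ m = 1) :
    unitOfRoot A ξ hm h ^ m = 1 := by
  apply Units.ext
  apply Subtype.ext
  rw [Units.val_pow_eq_pow_val, Units.val_one]
  show ((ξ : L)) ^ m = 1
  rw [← Units.val_pow_eq_pow_val, h, Units.val_one]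

theorem embA_jS (ζ : Aˣ) (e : ℕ) :
    embA A (jS A ζ e) = jS L (Units.map (A.subtype : A →* L) ζ) e := coeffMap_jS _ ζ e

theorem redA_jS (ζ : Aˣ) (e : ℕ) :
    redA A π (jS A ζ e) = jS k (Units.map (π : A →* k) ζ) e := coeffMap_jS _ ζ e

/-! ### the generators -/

variable (A π N)

/-- `j(q^d)`, `d ∣ N`, as an element of `OvVal`. -/
def jSO {d : ℕ} (hd0 : d ≠ 0) (hd : d ∣ N) : OvVal A π N ℓ hπ hℓN :=
  ⟨jSF L N hd0 hd, jS_mem_Ov A π N hd0 hd⟩

variable {A π N}

theorem jS_mem_fullC (K : Type*) [Field K] {d : ℕ} (hd0 : d ≠ 0) (hd : d ∣ N) :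
    jS K 1 d ∈ modularFunctionFieldFullC K N := by
  haveI : NeZero d := ⟨hd0⟩
  rw [jS_eq_qExpand]
  exact jqModCd_mem_full K N hd

theorem resFk_jSO {d : ℕ} (hd0 : d ≠ 0) (hd : d ∣ N) :
    resFk A π N ℓ hπ hℓN (jSO A π N ℓ hπ hℓN hd0 hd) = ⟨jS k 1 d, jS_mem_fullC k hd0 hd⟩ := by
  apply Subtype.ext
  rw [coe_resFk]
  exact redV_jS A π N hd0 hd

theorem redHom_jS {s : FBar L N →+* LaurentSeries L} (hs : Persists A π N s)
    {d : ℕ} (hd0 : d ≠ 0) (hd : d ∣ N) (ζ : Aˣ) (e : ℕ)
    (h : s (jSF L N hd0 hd) = jS L (Units.map (A.subtype : A →* L) ζ) e) :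
    redHom ℓ hπ hℓN hs ⟨jS k 1 d, jS_mem_fullC k hd0 hd⟩
      = jS k (Units.map (π : A →* k) ζ) e := by
  rw [← resFk_jSO ℓ hπ hℓN hd0 hd, redHom_of_eq_embA ℓ hπ hℓN hs _ (g := jS A ζ e), redA_jS]
  rw [embA_jS]
  exact h

/-! ### twists -/

theorem Persists.twist {s s' : FBar L N →+* LaurentSeries L} (hs : Persists A π N s) (ζ : Aˣ)
    (h : ∀ f, s' f = Fermat.Agent.S28.twist (Units.map (A.subtype : A →* L) ζ) (s f)) :
    Persists A π N s' where
  mem f hf := by
    rw [h]
    exact GaussRing.twist_mem_gaussRing A π ζ (hs.mem f hf)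
  red_eq_zero f hf h0 := by
    have h1 := GaussRing.gaussRed_twist A π ζ (hs.mem f hf)
    rw [hs.red_eq_zero f hf h0, map_zero] at h1
    rw [← h1]
    congr 2
    exact h f

theorem redHom_twist {s s' : FBar L N →+* LaurentSeries L} (hs : Persists A π N s)
    (hs' : Persists A π N s') (ζ : Aˣ)
    (h : ∀ f, s' f = Fermat.Agent.S28.twist (Units.map (A.subtype : A →* L) ζ) (s f))
    (y : modularFunctionFieldFullC k N) :
    redHom ℓ hπ hℓN hs' y
      = Fermat.Agent.S28.twist (Units.map (π : A →* k) ζ) (redHom ℓ hπ hℓN hs y) := by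
  obtain ⟨f, rfl⟩ := resFk_surjective A π N ℓ hπ hℓN y
  rw [redHom_resFk, redHom_resFk, ← GaussRing.gaussRed_twist A π ζ (hs.mem f f.2)]
  congr 2
  exact h f

/-! ### the cusp at infinity -/

/-- the expansion at the cusp `∞` in the variable `z = q^(1/N)`. -/
def sInfty (L : Type) [Field L] [Algebra ℚ L] (N : ℕ) [NeZero N] :
    FBar L N →+* LaurentSeries L :=
  (qExpand L N).comp (algebraMap (FBar L N) (LaurentSeries L))

theorem sInfty_apply (f : FBar L N) : sInfty L N f = qExpand L N (f : LaurentSeries L) := rfl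

theorem persists_sInfty : Persists A π N (sInfty L N) where
  mem f hf := GaussRing.qExpand_mem_gaussRing A π N hf
  red_eq_zero f hf h0 := by
    have h1 := GaussRing.gaussRed_qExpand A π N ((mem_Ov_iff A π (FBar L N)).mp hf)
    rw [redV_apply] at h0
    rw [h0, map_zero] at h1
    exact h1

theorem redHom_sInfty (hs : Persists A π N (sInfty L N)) (y : modularFunctionFieldFullC k N) :
    redHom ℓ hπ hℓN hs y = qExpand k N (y : LaurentSeries k) := by
  obtain ⟨f, rfl⟩ := resFk_surjective A π N ℓ hπ hℓN y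
  rw [redHom_resFk, coe_resFk, redV_apply]
  exact GaussRing.gaussRed_qExpand A π N ((mem_Ov_iff A π (FBar L N)).mp f.2)

/-! ### coefficients -/

theorem redHom_coeff_eq_zero {s : FBar L N →+* LaurentSeries L} (hs : Persists A π N s)
    (f : OvVal A π N ℓ hπ hℓN) (hint : s f ∈ intLS A) {n : ℤ} (hn : (s f).coeff n = 0) :
    (redHom ℓ hπ hℓN hs (resFk A π N ℓ hπ hℓN f)).coeff n = 0 := by
  obtain ⟨g, hg⟩ := hint
  rw [redHom_of_eq_embA ℓ hπ hℓN hs f hg.symm, redA_coeff]
  rw [← hg, embA_coeff] at hn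
  have : g.coeff n = 0 := Subtype.ext hn
  rw [this, map_zero]

end RedHom

section Main

variable {L : Type} [Field L] [Algebra ℚ L] [IsAlgClosed L] (A : ValuationSubring L)
  {k : Type} [Field k] (π : A →+* k) (N : ℕ)
  [IsAlgClosed k] (ℓ : ℕ) [Fact ℓ.Prime] [CharP k ℓ] [NeZero N]
  (hπ : Function.Surjective π) (hℓN : ¬ ℓ ∣ N)

attribute [local instance] algebraRF algebraPolyF

include hℓN in
theorem natCast_ne_zero_of_not_dvd : ((N : ℕ) : k) ≠ 0 := by
  rw [Ne, CharP.cast_eq_zero_iff k ℓ]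
  exact hℓN

include hπ hℓN in
theorem isUnit_natCast_A : IsUnit ((N : ℕ) : A) := by
  refine isUnit_of_map_ne_zero A π hπ ?_
  rw [map_natCast]
  exact natCast_ne_zero_of_not_dvd N ℓ hℓN

/-- the expansion of `j` in the variable `z = q^(1/N)`, over `A`. -/
def xiA : LaurentSeries A := jS A 1 N

theorem xiA_eq : xiA A N = qExpand A N (jqModC A) := jS_eq_qExpand N

theorem xiA_order : (xiA A N).order = -(N : ℤ) ∧ (xiA A N).leadingCoeff = 1 := by
  have h1 : (xiA A N).coeff (-(N : ℤ)) = 1 := by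
    rw [xiA, coeff_jS_neg (NeZero.ne N)]
    simp
  have := ConjFamily.order_eq_of_coeff (f := xiA A N) (n := -(N : ℤ))
    (by rw [h1]; exact one_ne_zero) (fun m hm => coeff_jS_of_lt (NeZero.ne N) 1 hm)
  exact ⟨this.1, by rw [this.2, h1]⟩

theorem xiA_order_neg : (xiA A N).order < 0 := by
  rw [(xiA_order A N).1]
  have : (0 : ℤ) < N := by exact_mod_cast Nat.pos_of_ne_zero (NeZero.ne N)
  linarith

theorem isUnit_xiA : IsUnit (xiA A N) :=
  HahnSeries.isUnit_iff.mpr (by rw [(xiA_order A N).2]; exact isUnit_one)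

theorem embA_xiA : embA A (xiA A N) = qExpand L N (jqModC L) := by
  rw [xiA_eq, GaussRing.embA_qExpand, embA_jqModC]

theorem redA_xiA : redA A π (xiA A N) = qExpand k N (jqModC k) := by
  rw [xiA_eq, GaussRing.redA_qExpand, redA_jqModC]

end Main

end Fermat.Agent.Gateway.GoodRed
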