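import Mathlib

set_option autoImplicit false

/-!
# Norm and trace over a full family of embeddings

`E / K` is a finite separable extension of degree `n` and `σ j : E →ₐ[K] L` (`j : ι`) are `n`
pairwise distinct embeddings into a field `L` (not necessarily algebraically closed).  Then they
are all the embeddings, and the norm and trace of `E / K` are the product and sum of the `σ j`.
-/

set_option linter.unusedSectionVars false

noncomputable section

namespace Fermat.Agent.Gateway.GoodRed

open Module

variable {K E L : Type*} [Field K] [Field E] [Field L] [Algebra K E] [Algebra K L]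
  [FiniteDimensional K E] [Algebra.IsSeparable K E]
  {ι : Type*} [Fintype ι] (σ : ι → E →ₐ[K] L)

/-- The embeddings, composed with the inclusion of `L` into its algebraic closure. -/
def toClosure (j : ι) : E →ₐ[K] AlgebraicClosure L :=
  (IsScalarTower.toAlgHom K L (AlgebraicClosure L)).comp (σ j)

theorem toClosure_apply (j : ι) (u : E) :
    toClosure σ j u = algebraMap L (AlgebraicClosure L) (σ j u) := rfl

variable (hinj : Function.Injective σ) (hcard : Fintype.card ι = finrank K E)

include hinj hcard in
theorem toClosure_bijective : Function.Bijective (toClosure σ) := by
  rw [Fintype.bijective_iff_injective_and_card]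
  refine ⟨fun j j' h => hinj ?_, ?_⟩
  · ext u
    have := DFunLike.congr_fun h u
    rw [toClosure_apply, toClosure_apply] at this
    exact (algebraMap L (AlgebraicClosure L)).injective this
  · rw [hcard, AlgHom.card]

include hinj hcard in
/-- The norm is the product over the family of embeddings. -/
theorem algebraMap_norm_eq_prod (u : E) :
    algebraMap K L (Algebra.norm K u) = ∏ j, σ j u := by
  apply (algebraMap L (AlgebraicClosure L)).injective
  rw [← IsScalarTower.algebraMap_apply, Algebra.norm_eq_prod_embeddings K (AlgebraicClosure L) u,
    map_prod]
  exact (Fintype.prod_bijective (toClosure σ) (toClosure_bijective σ hinj hcard) _ _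
    fun j => (toClosure_apply σ j u).symm).symm

include hinj hcard in
/-- The trace is the sum over the family of embeddings. -/
theorem algebraMap_trace_eq_sum (u : E) :
    algebraMap K L (Algebra.trace K E u) = ∑ j, σ j u := by
  apply (algebraMap L (AlgebraicClosure L)).injective
  rw [← IsScalarTower.algebraMap_apply, trace_eq_sum_embeddings (AlgebraicClosure L), map_sum]
  exact (Fintype.sum_bijective (toClosure σ) (toClosure_bijective σ hinj hcard) _ _
    fun j => (toClosure_apply σ j u).symm).symm

include hinj hcard in
/-- Every embedding of `E` into `L` over `K` belongs to the family. -/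
theorem exists_eq_of_algHom (τ : E →ₐ[K] L) : ∃ j, σ j = τ := by
  obtain ⟨j, hj⟩ := (toClosure_bijective σ hinj hcard).2
    ((IsScalarTower.toAlgHom K L (AlgebraicClosure L)).comp τ)
  refine ⟨j, ?_⟩
  ext u
  have := DFunLike.congr_fun hj u
  exact (algebraMap L (AlgebraicClosure L)).injective this

end Fermat.Agent.Gateway.GoodRed

end
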