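import Mathlib
import Fermat.Agent.S28.Crux.Order
import Fermat.Agent.Gateway.GoodRed.Embeddings

set_option autoImplicit false

/-!
# Functions regular at all the cusps are constant

`E / K` is a finite separable extension of `K = Frac k[X]`, and `σ j : E →+* k((z))` is a full
family of `[E : K]` distinct embeddings over `X ↦ ξ`, where `ξ` has a pole.  An element of `E`
which is integral over `k[X]` and whose expansions `σ j f` are all power series is a constant.
-/

set_option linter.unusedSectionVars false
set_option linter.style.haveILetI false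

noncomputable section

namespace Fermat.Agent.Gateway.GoodRed

open Module HahnSeries LaurentSeries Polynomial

variable {k : Type*} [Field k] {K : Type*} [Field K] [Algebra k[X] K] [IsFractionRing k[X] K]
  {E : Type*} [Field E] [Algebra K E] [Algebra k[X] E] [IsScalarTower k[X] K E]
  [FiniteDimensional K E] [Algebra.IsSeparable K E]
  {ι : Type*} [Fintype ι] (σ : ι → E →+* k⸨X⸩) (ξ : k⸨X⸩)
  (hσp : ∀ j (p : k[X]), σ j (algebraMap k[X] E p) = aeval ξ p)

include hσp in
/-- All the embeddings agree on `K`. -/
theorem sigma_comp_algebraMap_eq (j j' : ι) :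
    (σ j).comp (algebraMap K E) = (σ j').comp (algebraMap K E) := by
  apply IsLocalization.ringHom_ext (nonZeroDivisors k[X])
  refine RingHom.ext fun p => ?_
  simp only [RingHom.comp_apply]
  rw [← IsScalarTower.algebraMap_apply, hσp, hσp]

/-- A nonzero series without negative coefficients has nonnegative order. -/
theorem order_nonneg_of_coeff_neg {y : k⸨X⸩} (hy : ∀ a : ℤ, a < 0 → y.coeff a = 0) :
    0 ≤ y.order := by
  by_cases h0 : y = 0
  · rw [h0, order_zero]
  · by_contra hneg
    rw [not_le] at hneg
    exact h0 (coeff_order_eq_zero.mp (hy _ hneg))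

theorem order_prod_nonneg {s : Finset ι} (y : ι → k⸨X⸩)
    (hy : ∀ j ∈ s, ∀ a : ℤ, a < 0 → (y j).coeff a = 0) (hne : ∀ j ∈ s, y j ≠ 0) :
    0 ≤ (∏ j ∈ s, y j).order := by
  classical
  induction s using Finset.induction_on with
  | empty => simp
  | insert a s ha ih =>
    rw [Finset.prod_insert ha, order_mul (hne a (Finset.mem_insert_self _ _))
      (Finset.prod_ne_zero_iff.mpr fun j hj => hne j (Finset.mem_insert_of_mem hj))]
    exact add_nonneg (order_nonneg_of_coeff_neg (hy a (Finset.mem_insert_self _ _)))
      (ih (fun j hj => hy j (Finset.mem_insert_of_mem hj))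
        (fun j hj => hne j (Finset.mem_insert_of_mem hj)))

variable (hξ : ξ.order < 0) (hinj : Function.Injective σ)
  (hcard : Fintype.card ι = finrank K E)

include hσp hξ hinj hcard in
/-- An integral element all of whose expansions are power series, one of them without constant
term, vanishes. -/
theorem eq_zero_of_regular_of_coeff_zero (u : E) (hint : IsIntegral k[X] u)
    (hreg : ∀ j, ∀ a : ℤ, a < 0 → (σ j u).coeff a = 0) (j₁ : ι)
    (h₁ : (σ j₁ u).coeff 0 = 0) : u = 0 := by
  classical
  by_contra hu
  -- the common restriction of the embeddings to `K`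
  letI : Algebra K k⸨X⸩ := ((σ j₁).comp (algebraMap K E)).toAlgebra
  let τ : ι → E →ₐ[K] k⸨X⸩ := fun j =>
    { σ j with
      commutes' := fun c => by
        have := RingHom.congr_fun (sigma_comp_algebraMap_eq σ ξ hσp j j₁) c
        exact this }
  have hτinj : Function.Injective τ := by
    intro j j' h
    apply hinj
    ext1 f
    exact DFunLike.congr_fun h f
  have hnorm := algebraMap_norm_eq_prod τ hτinj hcard u
  -- the norm is a polynomial
  have hN : IsIntegral k[X] (Algebra.norm K u) := Algebra.isIntegral_norm K hint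
  obtain ⟨P, hP⟩ := IsIntegrallyClosed.isIntegral_iff.mp hN
  have hPξ : algebraMap K k⸨X⸩ (Algebra.norm K u) = aeval ξ P := by
    rw [← hP]
    show σ j₁ (algebraMap K E (algebraMap k[X] K P)) = _
    rw [← IsScalarTower.algebraMap_apply, hσp]
  have hP0 : P ≠ 0 := by
    rintro rfl
    rw [map_zero] at hP
    exact hu (Algebra.norm_eq_zero_iff.mp hP.symm)
  have hne : ∀ j, σ j u ≠ 0 := fun j h0 => hu ((map_eq_zero (σ j)).mp h0)
  -- orders
  have h1 : (aeval ξ P).order ≤ 0 := by
    rw [Fermat.Agent.S28.order_aeval_of_order_neg ξ hξ P hP0]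
    exact mul_nonpos_of_nonneg_of_nonpos (Int.natCast_nonneg _) hξ.le
  have h2 : 0 < (∏ j, σ j u).order := by
    rw [← Finset.mul_prod_erase Finset.univ _ (Finset.mem_univ j₁),
      order_mul (hne j₁) (Finset.prod_ne_zero_iff.mpr fun j _ => hne j)]
    have hpos : 0 < (σ j₁ u).order := by
      have hge := order_nonneg_of_coeff_neg (hreg j₁)
      rcases hge.lt_or_eq with h | h
      · exact h
      · exfalso
        apply hne j₁
        rw [← coeff_order_eq_zero, ← h]
        exact h₁
    have hrest := order_prod_nonneg (s := Finset.univ.erase j₁) (fun j => σ j u)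
      (fun j _ => hreg j) (fun j _ => hne j)
    omega
  rw [hPξ] at hnorm
  have : (∏ j, τ j u) = ∏ j, σ j u := rfl
  rw [this] at hnorm
  rw [hnorm] at h1
  omega

include hσp hξ hinj hcard in
/-- **Regular functions are constant.** -/
theorem exists_eq_algebraMap_of_regular [Algebra k E] [IsScalarTower k k[X] E]
    [Nonempty ι] (f : E) (hint : IsIntegral k[X] f)
    (hreg : ∀ j, ∀ a : ℤ, a < 0 → (σ j f).coeff a = 0) :
    ∃ c : k, f = algebraMap k E c := by
  obtain ⟨j₁⟩ := ‹Nonempty ι›
  set c := (σ j₁ f).coeff 0 with hc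
  refine ⟨c, ?_⟩
  have hcE : ∀ j, σ j (algebraMap k E c) = HahnSeries.C c := by
    intro j
    rw [IsScalarTower.algebraMap_apply k k[X] E, hσp, Polynomial.algebraMap_eq, aeval_C]
    exact Fermat.Agent.S28.CruxOrder.algebraMap_eq_single c
  have hu := eq_zero_of_regular_of_coeff_zero σ ξ hσp hξ hinj hcard (f - algebraMap k E c)
    (hint.sub (by
      rw [IsScalarTower.algebraMap_apply k k[X] E]
      exact isIntegral_algebraMap))
    (fun j a ha => by
      rw [map_sub, HahnSeries.coeff_sub, hreg j a ha, hcE, HahnSeries.C_apply,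
        HahnSeries.coeff_single_of_ne ha.ne, sub_zero])
    j₁ (by rw [map_sub, HahnSeries.coeff_sub, hcE, HahnSeries.C_apply,
      HahnSeries.coeff_single_same, ← hc, sub_self])
  exact sub_eq_zero.mp hu

end Fermat.Agent.Gateway.GoodRed

end
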