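import Mathlib
import Fermat.Agent.S28.Crux.Order
import Fermat.Agent.S28.Laurent
import Fermat.Agent.Gateway.GoodRed.Constants

set_option autoImplicit false

/-!
# Functions regular at all the cusps are constant: instance-free form

The same statement as in `Constants.lean`, over an abstract integrally closed base ring `R`
(playing the role of `k[j]`), and specialised to `R = Algebra.adjoin k {x}`, `K = k⟮x⟯` for an
element `x` of the function field `E`: no `Algebra k[X] E` instance is involved, so the result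
can be combined with a second coordinate function `t` on `E`.
-/

set_option linter.unusedSectionVars false
set_option linter.style.haveILetI false

noncomputable section

namespace Fermat.Agent.Gateway.GoodRed

open Module HahnSeries LaurentSeries Polynomial

section General

variable {k : Type*} [Field k] {R : Type*} [CommRing R] [IsDomain R] [IsIntegrallyClosed R]
  {K : Type*} [Field K] [Algebra R K] [IsFractionRing R K]
  {E : Type*} [Field E] [Algebra K E] [Algebra R E] [IsScalarTower R K E]
  [FiniteDimensional K E] [Algebra.IsSeparable K E]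
  {ι : Type*} [Fintype ι] (σ : ι → E →+* k⸨X⸩) (ev : R →+* k⸨X⸩)
  (hσR : ∀ j (r : R), σ j (algebraMap R E r) = ev r)
  (hev : ∀ r : R, r ≠ 0 → ev r ≠ 0 ∧ (ev r).order ≤ 0)
  (hinj : Function.Injective σ) (hcard : Fintype.card ι = finrank K E)

include hσR in
theorem sigma_comp_algebraMap_eq_gen (j j' : ι) :
    (σ j).comp (algebraMap K E) = (σ j').comp (algebraMap K E) := by
  apply IsLocalization.ringHom_ext (nonZeroDivisors R)
  refine RingHom.ext fun p => ?_
  simp only [RingHom.comp_apply]
  rw [← IsScalarTower.algebraMap_apply, hσR, hσR]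

include hσR hev hinj hcard in
/-- An integral element all of whose expansions are power series, one of them without constant
term, vanishes. -/
theorem eq_zero_of_regular_of_coeff_zero_gen (u : E) (hint : IsIntegral R u)
    (hreg : ∀ j, ∀ a : ℤ, a < 0 → (σ j u).coeff a = 0) (j₁ : ι)
    (h₁ : (σ j₁ u).coeff 0 = 0) : u = 0 := by
  classical
  by_contra hu
  letI : Algebra K k⸨X⸩ := ((σ j₁).comp (algebraMap K E)).toAlgebra
  let τ : ι → E →ₐ[K] k⸨X⸩ := fun j =>
    { σ j with
      commutes' := fun c => by
        have := RingHom.congr_fun (sigma_comp_algebraMap_eq_gen σ ev hσR j j₁) c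
        exact this }
  have hτinj : Function.Injective τ := by
    intro j j' h
    apply hinj
    ext1 f
    exact DFunLike.congr_fun h f
  have hnorm := algebraMap_norm_eq_prod τ hτinj hcard u
  have hN : IsIntegral R (Algebra.norm K u) := Algebra.isIntegral_norm K hint
  obtain ⟨P, hP⟩ := IsIntegrallyClosed.isIntegral_iff.mp hN
  have hPξ : algebraMap K k⸨X⸩ (Algebra.norm K u) = ev P := by
    rw [← hP]
    show σ j₁ (algebraMap K E (algebraMap R K P)) = _
    rw [← IsScalarTower.algebraMap_apply, hσR]
  have hP0 : P ≠ 0 := by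
    rintro rfl
    rw [map_zero] at hP
    exact hu (Algebra.norm_eq_zero_iff.mp hP.symm)
  have hne : ∀ j, σ j u ≠ 0 := fun j h0 => hu ((map_eq_zero (σ j)).mp h0)
  have h1 : (ev P).order ≤ 0 := (hev P hP0).2
  have h2 : 0 < (∏ j, σ j u).order := by
    rw [← Finset.mul_prod_erase Finset.univ _ (Finset.mem_univ j₁),
      order_mul (hne j₁) (Finset.prod_ne_zero_iff.mpr fun j _ => hne j)]
    have hpos : 0 < (σ j₁ u).order := by
      have hge := order_nonneg_of_coeff_neg (hreg j₁)
      rcases hge.lt_or_eq with h | h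
      · exact h
      · exfalso
        apply hne j₁
        rw [← coeff_order_eq_zero, ← h]
        exact h₁
    have hrest := order_prod_nonneg (s := Finset.univ.erase j₁) (fun j => σ j u)
      (fun j _ => hreg j) (fun j _ => hne j)
    omega
  rw [hPξ] at hnorm
  have : (∏ j, τ j u) = ∏ j, σ j u := rfl
  rw [this] at hnorm
  rw [hnorm] at h1
  omega

end General

/-! ### The case `R = k[x]` inside the function field -/

section Adjoin

open IntermediateField
open scoped IntermediateField.algebraAdjoinAdjoin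

variable {k : Type*} [Field k] {E : Type*} [Field E] [Algebra k E] (x : E)
  {ι : Type*} [Fintype ι] (σ : ι → E →+* k⸨X⸩)
  (hσk : ∀ j (c : k), σ j (algebraMap k E c) = HahnSeries.C c)
  (ξ : k⸨X⸩) (hξ : ξ.order < 0) (hσx : ∀ j, σ j x = ξ)

/-- `σ j` as a `k`-algebra homomorphism. -/
def sigmaAlgHom (j : ι) : E →ₐ[k] k⸨X⸩ :=
  { σ j with
    commutes' := fun c => by
      show σ j (algebraMap k E c) = _
      rw [hσk]
      exact (Fermat.Agent.S28.CruxOrder.algebraMap_eq_single c).symm }

include hσk hσx in
theorem sigma_aeval (j : ι) (p : k[X]) : σ j (aeval x p) = aeval ξ p := by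
  have h := Polynomial.aeval_algHom_apply (sigmaAlgHom σ hσk j) x p
  have hx : sigmaAlgHom σ hσk j x = ξ := hσx j
  rw [hx] at h
  exact h.symm

include hσk hξ hσx in
theorem transcendental_of_sigma [Nonempty ι] : Transcendental k x := by
  obtain ⟨j⟩ := ‹Nonempty ι›
  intro ⟨p, hp0, hp⟩
  have h1 := sigma_aeval x σ hσk ξ hσx j p
  rw [hp, map_zero] at h1
  exact Fermat.Agent.S28.transcendental_of_order_neg hξ ⟨p, hp0, h1.symm⟩

/-- `k[x]` is a polynomial ring when `x` is transcendental. -/
def adjoinEquivPolynomial (hx : Transcendental k x) : k[X] ≃ₐ[k] Algebra.adjoin k {x} :=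
  (AlgEquiv.ofInjective (aeval x) (transcendental_iff_injective.mp hx)).trans
    (Subalgebra.equivOfEq _ _ (Algebra.adjoin_singleton_eq_range_aeval k x).symm)

theorem adjoinEquivPolynomial_apply (hx : Transcendental k x) (p : k[X]) :
    ((adjoinEquivPolynomial x hx p : Algebra.adjoin k {x}) : E) = aeval x p := rfl

theorem isIntegrallyClosed_adjoin (hx : Transcendental k x) :
    IsIntegrallyClosed (Algebra.adjoin k {x}) :=
  IsIntegrallyClosed.of_equiv (adjoinEquivPolynomial x hx).toRingEquiv

include hσk hξ hσx in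
/-- **Regular functions are constant**, for `R = k[x] ⊆ E`. -/
theorem exists_eq_algebraMap_of_regular_adjoin [Nonempty ι]
    [FiniteDimensional k⟮x⟯ E] [Algebra.IsSeparable k⟮x⟯ E]
    (hinj : Function.Injective σ) (hcard : Fintype.card ι = finrank k⟮x⟯ E)
    (f : E) (hint : IsIntegral (Algebra.adjoin k {x}) f)
    (hreg : ∀ j, ∀ a : ℤ, a < 0 → (σ j f).coeff a = 0) :
    ∃ c : k, f = algebraMap k E c := by
  have hx : Transcendental k x := transcendental_of_sigma x σ hσk ξ hξ hσx
  haveI := isIntegrallyClosed_adjoin x hx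
  obtain ⟨j₁⟩ := ‹Nonempty ι›
  set c := (σ j₁ f).coeff 0 with hc
  refine ⟨c, ?_⟩
  -- the evaluation on `k[x]`
  let ev : Algebra.adjoin k {x} →+* k⸨X⸩ := (σ j₁).comp (algebraMap (Algebra.adjoin k {x}) E)
  have hrep : ∀ r : Algebra.adjoin k {x}, ∃ p : k[X], (r : E) = aeval x p ∧ (r = 0 ↔ p = 0) := by
    intro r
    refine ⟨(adjoinEquivPolynomial x hx).symm r, ?_, ?_⟩
    · rw [← adjoinEquivPolynomial_apply x hx, AlgEquiv.apply_symm_apply]
    · rw [map_eq_zero_iff _ (adjoinEquivPolynomial x hx).symm.injective]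
  have hσR : ∀ j (r : Algebra.adjoin k {x}), σ j (algebraMap (Algebra.adjoin k {x}) E r) = ev r := by
    intro j r
    obtain ⟨p, hp, -⟩ := hrep r
    show σ j (r : E) = σ j₁ (r : E)
    rw [hp, sigma_aeval x σ hσk ξ hσx, sigma_aeval x σ hσk ξ hσx]
  have hev : ∀ r : Algebra.adjoin k {x}, r ≠ 0 → ev r ≠ 0 ∧ (ev r).order ≤ 0 := by
    intro r hr
    obtain ⟨p, hp, hp0⟩ := hrep r
    have hp0' : p ≠ 0 := fun h => hr (hp0.mpr h)
    have hev' : ev r = aeval ξ p := by
      show σ j₁ (r : E) = _
      rw [hp, sigma_aeval x σ hσk ξ hσx]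
    rw [hev']
    refine ⟨Fermat.Agent.S28.aeval_ne_zero_of_order_ne_zero ξ hξ.ne p hp0', ?_⟩
    rw [Fermat.Agent.S28.order_aeval_of_order_neg ξ hξ p hp0']
    exact mul_nonpos_of_nonneg_of_nonpos (Int.natCast_nonneg _) hξ.le
  have hcE : ∀ j, σ j (algebraMap k E c) = HahnSeries.C c := fun j => hσk j c
  have hu := eq_zero_of_regular_of_coeff_zero_gen (R := Algebra.adjoin k {x}) (K := k⟮x⟯)
    σ ev hσR hev hinj hcard (f - algebraMap k E c)
    (hint.sub (by
      rw [IsScalarTower.algebraMap_apply k (Algebra.adjoin k {x}) E]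
      exact isIntegral_algebraMap))
    (fun j a ha => by
      rw [map_sub, HahnSeries.coeff_sub, hreg j a ha, hcE, HahnSeries.C_apply,
        HahnSeries.coeff_single_of_ne ha.ne, sub_zero])
    j₁ (by rw [map_sub, HahnSeries.coeff_sub, hcE, HahnSeries.C_apply,
      HahnSeries.coeff_single_same, ← hc, sub_self])
  exact sub_eq_zero.mp hu

end Adjoin

end Fermat.Agent.Gateway.GoodRed

end
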