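import Fermat.Agent.Lib.Residue.TwistOrbit

set_option autoImplicit false

/-!
# The residue theorem summed over all embeddings (WP-GR5)

`E / k(t)` finite separable, `Sig` a finite set of embeddings `E → k⸨z⸩` whose restrictions to
`k(t)` are the branches `twist (ζ ^ b) ∘ qExpand (m a) ∘ ε a` (`b < e a`) of the expansions
`ε a` of the `t`-line at its base cusps `a ∈ S ∪ {∞}`.  If `Sig` has the maximal possible
cardinality, then for `g ∈ E` whose trace to `k(t)` has poles only in `S ∪ {∞}`,
`∑ σ ∈ Sig, res (σ g * D (σ t)) = 0`.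
-/

namespace Fermat.Agent.Gateway.GoodRed

open HahnSeries LaurentSeries ModularCurve Fermat.Agent.Lib.Residue Fermat.Agent.S28

section Trace

variable {K E L : Type*} [Field K] [Field E] [Field L] [Algebra K E] [FiniteDimensional K E]

/-- An embedding `E → L` extending `τ : K → L`, as a `K`-algebra map for the structure `τ`. -/
noncomputable def extAlgHom (τ : K →+* L) (σ : E →+* L) (h : σ.comp (algebraMap K E) = τ) :
    letI := τ.toAlgebra
    E →ₐ[K] L :=
  letI := τ.toAlgebra
  { σ with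
    commutes' := fun r => by
      change σ (algebraMap K E r) = τ r
      rw [← h]; rfl }

/-- The number of extensions of an embedding is at most the degree. -/
theorem card_extensions_le (τ : K →+* L) (s : Finset (E →+* L))
    (hs : ∀ σ ∈ s, σ.comp (algebraMap K E) = τ) : s.card ≤ Module.finrank K E := by
  classical
  let _ := τ.toAlgebra
  have hfin : Finite (E →ₐ[K] L) := inferInstance
  let _ := Fintype.ofFinite (E →ₐ[K] L)
  refine le_trans ?_ (card_algHom_le_finrank K E L)
  rw [Nat.card_eq_fintype_card, ← Finset.card_univ, ← Finset.card_attach]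
  refine Finset.card_le_card_of_injOn (fun σ : {σ // σ ∈ s} => extAlgHom τ σ.1 (hs σ.1 σ.2))
    (fun _ _ => Finset.mem_univ _) ?_
  intro σ _ σ' _ heq
  ext x
  exact DFunLike.congr_fun heq x

/-- **Galois-theoretic trace**: the sum of a full set of extensions of `τ` is `τ ∘ Tr`. -/
theorem sum_extensions_eq_map_trace [Algebra.IsSeparable K E] (τ : K →+* L)
    (s : Finset (E →+* L)) (hs : ∀ σ ∈ s, σ.comp (algebraMap K E) = τ)
    (hcard : s.card = Module.finrank K E) (g : E) :
    ∑ σ ∈ s, σ g = τ (Algebra.trace K E g) := by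
  classical
  let Ω := AlgebraicClosure L
  let τ' : K →+* Ω := (algebraMap L Ω).comp τ
  let _ := τ'.toAlgebra
  have hinj : Function.Injective (algebraMap L Ω) := (algebraMap L Ω).injective
  apply hinj
  have h1 : algebraMap L Ω (τ (Algebra.trace K E g)) = algebraMap K Ω (Algebra.trace K E g) := rfl
  rw [h1, trace_eq_sum_embeddings (K := K) (L := E) Ω, map_sum]
  have hs' : ∀ σ ∈ s, ((algebraMap L Ω).comp σ).comp (algebraMap K E) = τ' := fun σ hσ => by
    rw [RingHom.comp_assoc, hs σ hσ]
  let F : {σ // σ ∈ s} → (E →ₐ[K] Ω) := fun σ =>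
    extAlgHom τ' ((algebraMap L Ω).comp σ.1) (hs' σ.1 σ.2)
  have hF : Function.Injective F := by
    intro σ σ' heq
    ext x
    apply hinj
    exact DFunLike.congr_fun heq x
  have himg : (Finset.univ.image F) = Finset.univ := by
    apply Finset.eq_univ_of_card
    rw [Finset.card_image_of_injective _ hF, Finset.card_univ, Fintype.card_coe, hcard,
      AlgHom.card]
  rw [← himg, Finset.sum_image (fun _ _ _ _ h => hF h), ← Finset.sum_attach,
    Finset.univ_eq_attach]
  rfl

omit [FiniteDimensional K E] in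
open scoped Classical in
/-- Grouping a sum over embeddings of `E` according to their restrictions to `K`. -/
theorem sum_eq_sum_fibers {A : Type*} [AddCommMonoid A] {ι : Type*} (T : Finset ι)
    (τ : ι → K →+* L) (hτ : Set.InjOn τ T) (Sig : Finset (E →+* L))
    (hcover : ∀ s ∈ Sig, ∃ i ∈ T, s.comp (algebraMap K E) = τ i) (F : (E →+* L) → A) :
    ∑ s ∈ Sig, F s =
      ∑ i ∈ T, ∑ s ∈ Sig with s.comp (algebraMap K E) = τ i, F s := by
  classical
  have h1 : ∀ s ∈ Sig, F s = ∑ i ∈ T, if s.comp (algebraMap K E) = τ i then F s else 0 := by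
    intro s hs
    obtain ⟨i, hi, hsi⟩ := hcover s hs
    rw [Finset.sum_eq_single_of_mem i hi, if_pos hsi]
    intro j hj hji
    rw [if_neg]
    intro hsj
    exact hji (hτ hj hi (hsj.symm.trans hsi))
  rw [Finset.sum_congr rfl h1, Finset.sum_comm]
  refine Finset.sum_congr rfl fun i _ => ?_
  rw [Finset.sum_filter]

open scoped Classical in
/-- If the embeddings in `Sig` restrict to the `τ i` and `Sig` has the maximal possible
cardinality, then every `τ i` has a full set of extensions in `Sig`. -/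
theorem card_fiber_eq {ι : Type*} (T : Finset ι)
    (τ : ι → K →+* L) (hτ : Set.InjOn τ T) (Sig : Finset (E →+* L))
    (hcover : ∀ s ∈ Sig, ∃ i ∈ T, s.comp (algebraMap K E) = τ i)
    (hcard : Sig.card = T.card * Module.finrank K E) {i : ι} (hi : i ∈ T) :
    (Sig.filter fun s : E →+* L => s.comp (algebraMap K E) = τ i).card = Module.finrank K E := by
  classical
  have h1 := sum_eq_sum_fibers T τ hτ Sig hcover (fun _ => (1 : ℕ))
  simp only [Finset.sum_const, smul_eq_mul, mul_one] at h1
  rw [hcard] at h1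
  have h2 : ∀ j ∈ T, (Sig.filter fun s : E →+* L => s.comp (algebraMap K E) = τ j).card ≤
      Module.finrank K E := fun j _ =>
    card_extensions_le (τ j) _ fun σ hσ => (Finset.mem_filter.mp hσ).2
  have h3 : ∑ j ∈ T, (Sig.filter fun s : E →+* L => s.comp (algebraMap K E) = τ j).card =
      ∑ _j ∈ T, Module.finrank K E := by
    rw [← h1, Finset.sum_const, smul_eq_mul]
  exact (Finset.sum_eq_sum_iff_of_le h2).mp h3 i hi

end Trace

section Grouping

variable {k : Type*} [Field k] {K E : Type*} [Field K] [Field E] [Algebra K E]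
  [FiniteDimensional K E] [Algebra.IsSeparable K E]

/-- **Grouping theorem.**  The sum of the residues of `g dt` over a maximal set of embeddings of
`E` is the sum of the residues of `Tr(g) dt` over the restrictions of these embeddings to `K`. -/
theorem sum_res_eq_sum_restrictions {ι : Type*} (T : Finset ι)
    (τ : ι → K →+* k⸨X⸩) (hτ : Set.InjOn τ T) (Sig : Finset (E →+* k⸨X⸩))
    (hcover : ∀ s ∈ Sig, ∃ i ∈ T, s.comp (algebraMap K E) = τ i)
    (hcard : Sig.card = T.card * Module.finrank K E) (g : E) (t : K) :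
    ∑ s ∈ Sig, res (s g * D (s (algebraMap K E t))) =
      ∑ i ∈ T, res (τ i (Algebra.trace K E g) * D (τ i t)) := by
  classical
  rw [sum_eq_sum_fibers T τ hτ Sig hcover]
  refine Finset.sum_congr rfl fun i hi => ?_
  rw [← sum_extensions_eq_map_trace (τ i) (Sig.filter fun s : E →+* k⸨X⸩ => s.comp (algebraMap K E) = τ i)
    (fun σ hσ => (Finset.mem_filter.mp hσ).2) (card_fiber_eq T τ hτ Sig hcover hcard hi) g,
    Finset.sum_mul, res_sum]
  refine Finset.sum_congr rfl fun s hs => ?_
  have : s (algebraMap K E t) = τ i t := by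
    rw [← (Finset.mem_filter.mp hs).2]; rfl
  rw [this]

end Grouping

section Param

variable {k : Type*} [Field k]

theorem isParam_coeff_eq_zero {π : k⸨X⸩} (h : IsParam π) {n : ℤ} (hn : n < 1) :
    π.coeff n = 0 := by
  obtain ⟨p, hp, rfl⟩ := h.exists_coe
  rw [PowerSeries.coeff_coe]
  split_ifs with h0
  · rfl
  · have : n = 0 := by omega
    subst this
    simpa using hp

theorem isParam_coeff_one_ne_zero {π : k⸨X⸩} (h : IsParam π) : π.coeff 1 ≠ 0 := by
  obtain ⟨a, u, ha, hu, rfl⟩ := h
  rw [coeff_single_mul', sub_self, show (0 : ℤ) = ((0 : ℕ) : ℤ) by rfl, coeff_coe_powerSeries,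
    PowerSeries.coeff_zero_eq_constantCoeff_apply, hu, mul_one]
  exact ha

theorem isParam_coeff_inv_ne_zero {π : k⸨X⸩} (h : IsParam π) : (π⁻¹).coeff (-1) ≠ 0 := by
  obtain ⟨a, u, ha, hu, rfl⟩ := h
  have hu0 : PowerSeries.constantCoeff u ≠ 0 := by rw [hu]; exact one_ne_zero
  obtain ⟨q, hq⟩ := IsPS.inv_coe hu0
  have hq0 : PowerSeries.constantCoeff q ≠ 0 := by
    intro h0
    have hne : (u : k⸨X⸩) ≠ 0 := by
      intro hh
      have : u = 0 := HahnSeries.ofPowerSeries_injective (Γ := ℤ) (hh.trans (map_zero _).symm)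
      rw [this] at hu; simp at hu
    have h1 : (u : k⸨X⸩) * (q : k⸨X⸩) = 1 := by rw [hq, mul_inv_cancel₀ hne]
    have h2 : u * q = 1 :=
      HahnSeries.ofPowerSeries_injective (Γ := ℤ)
        ((map_mul (HahnSeries.ofPowerSeries ℤ k) u q).trans (h1.trans (map_one _).symm))
    have := congrArg PowerSeries.constantCoeff h2
    rw [map_mul, h0, mul_zero, map_one] at this
    exact zero_ne_one this
  have hinv : (single 1 a * (u : k⸨X⸩))⁻¹ = single (-1) a⁻¹ * (q : k⸨X⸩) := by
    rw [mul_inv, hq]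
    congr 1
    apply inv_eq_of_mul_eq_one_right
    rw [single_mul_single, mul_inv_cancel₀ ha]
    rfl
  rw [hinv, coeff_single_mul', show (-1 : ℤ) - -1 = ((0 : ℕ) : ℤ) by simp, coeff_coe_powerSeries,
    PowerSeries.coeff_zero_eq_constantCoeff_apply]
  exact mul_ne_zero (inv_ne_zero ha) hq0

end Param

section Branches

variable {k : Type*} [Field k]

/-- Ring homomorphisms out of `k(t)` are determined by their values on the constants and on
`t`. -/
theorem ratFunc_ringHom_ext {L : Type*} [Field L] {f g : RatFunc k →+* L}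
    (hC : ∀ c, f (RatFunc.C c) = g (RatFunc.C c)) (hX : f RatFunc.X = g RatFunc.X) : f = g := by
  apply IsFractionRing.ringHom_ext (A := Polynomial k)
  intro p
  have : f.comp (algebraMap (Polynomial k) (RatFunc k)) =
      g.comp (algebraMap (Polynomial k) (RatFunc k)) := by
    apply Polynomial.ringHom_ext
    · intro a
      simpa [RatFunc.algebraMap_C] using hC a
    · simpa [RatFunc.algebraMap_X] using hX
  exact RingHom.congr_fun this p

theorem coeff_twist_qExpand (ζ : kˣ) (m : ℕ) [NeZero m] (f : k⸨X⸩) (j : ℤ) :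
    (twist ζ (qExpand k m f)).coeff ((m : ℤ) * j) =
      ((ζ ^ ((m : ℤ) * j) : kˣ) : k) * f.coeff j := by
  rw [twist_coeff, qExpand_coeff_mul]

theorem coeff_twist_qExpand_of_neg (ζ : kˣ) (m : ℕ) [NeZero m] (f : k⸨X⸩)
    (hf : ∀ j < 0, f.coeff j = 0) {n : ℤ} (hn : n < 0) :
    (twist ζ (qExpand k m f)).coeff n = 0 := by
  rw [twist_coeff]
  by_cases hd : (m : ℤ) ∣ n
  · obtain ⟨j, rfl⟩ := hd
    have hm : (0 : ℤ) < m := by exact_mod_cast Nat.pos_of_ne_zero (NeZero.ne m)
    have hj : j < 0 := by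
      by_contra hj
      rw [not_lt] at hj
      exact absurd hn (not_lt.mpr (mul_nonneg hm.le hj))
    rw [qExpand_coeff_mul, hf j hj, mul_zero]
  · rw [qExpand_coeff_of_not_dvd m f hd, mul_zero]

/-- The branch `twist (ζ ^ b) ∘ qExpand (m o) ∘ ε o` of the expansion `ε o`. -/
noncomputable def branch (ε : Option k → RatFunc k →+* k⸨X⸩) (m : Option k → ℕ)
    [∀ o, NeZero (m o)] (ζ : kˣ) (o : Option k) (b : ℕ) : RatFunc k →+* k⸨X⸩ :=
  (twist (ζ ^ b)).comp ((qExpand k (m o)).comp (ε o))

theorem branch_apply (ε : Option k → RatFunc k →+* k⸨X⸩) (m : Option k → ℕ)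
    [∀ o, NeZero (m o)] (ζ : kˣ) (o : Option k) (b : ℕ) (h : RatFunc k) :
    branch ε m ζ o b h = twist (ζ ^ b) (qExpand k (m o) (ε o h)) := rfl

/-- The index set of the branches: pairs `(o, b)` with `o ∈ S ∪ {∞}` and `b < e o`. -/
def branchIndex (S : Finset k) (e : Option k → ℕ) : Finset (Σ _ : Option k, ℕ) :=
  (Finset.insertNone S).sigma fun o => Finset.range (e o)

omit [Field k] in
theorem mem_branchIndex {S : Finset k} {e : Option k → ℕ} {i : Σ _ : Option k, ℕ} :
    i ∈ branchIndex S e ↔ i.1 ∈ Finset.insertNone S ∧ i.2 < e i.1 := by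
  rw [branchIndex, Finset.mem_sigma, Finset.mem_range]

omit [Field k] in
theorem card_branchIndex (S : Finset k) (e : Option k → ℕ) :
    (branchIndex S e).card = ∑ o ∈ Finset.insertNone S, e o := by
  rw [branchIndex, Finset.card_sigma]
  simp

variable (S : Finset k) (ε : Option k → RatFunc k →+* k⸨X⸩) (π : Option k → k⸨X⸩)
  (hC : ∀ o ∈ Finset.insertNone S, ∀ c : k, ε o (RatFunc.C c) = HahnSeries.C c)
  (hπ : ∀ o ∈ Finset.insertNone S, IsParam (π o))
  (hε : ∀ a ∈ S, ε (some a) RatFunc.X = HahnSeries.C a + π (some a))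
  (hεinf : ε none RatFunc.X = (π none)⁻¹)
  (e m : Option k → ℕ) [∀ o, NeZero (m o)] (M : ℕ)
  (hem : ∀ o ∈ Finset.insertNone S, e o * m o = M) (ζ : kˣ)

include hC hπ hε hεinf hem in
/-- The residue theorem on the `t`-line, summed over all branches. -/
theorem sum_res_branch_eq_zero (f : Polynomial k) (n : k → ℕ) :
    ∑ i ∈ branchIndex S e,
      res (branch ε m ζ i.1 i.2 (algebraMap (Polynomial k) (RatFunc k) f *
          ∏ a ∈ S, (RatFunc.X - RatFunc.C a)⁻¹ ^ n a) *
        D (branch ε m ζ i.1 i.2 RatFunc.X)) = 0 := by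
  set h : RatFunc k := algebraMap (Polynomial k) (RatFunc k) f *
    ∏ a ∈ S, (RatFunc.X - RatFunc.C a)⁻¹ ^ n a with hh
  rw [branchIndex, Finset.sum_sigma]
  have h1 : ∀ o ∈ Finset.insertNone S, ∑ b ∈ Finset.range (e o),
      res (branch ε m ζ o b h * D (branch ε m ζ o b RatFunc.X)) =
      (M : k) * res (ε o h * D (ε o RatFunc.X)) := by
    intro o ho
    have h2 : ∀ b ∈ Finset.range (e o),
        res (branch ε m ζ o b h * D (branch ε m ζ o b RatFunc.X)) =
        (m o : k) * res (ε o h * D (ε o RatFunc.X)) := by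
      intro b _
      rw [branch_apply, branch_apply, res_twist_mul_D_twist, res_qExpand_mul_D_qExpand]
    rw [Finset.sum_congr rfl h2, Finset.sum_const, Finset.card_range, nsmul_eq_mul, ← mul_assoc,
      ← Nat.cast_mul, hem o ho]
  rw [Finset.sum_congr rfl h1, ← Finset.mul_sum, Finset.sum_insertNone]
  have := totalRes_eq_zero S (fun a => ε (some a)) (fun a => π (some a))
    (fun a ha => hC (some a) (Finset.mem_insertNone.mpr (by simpa using ha)))
    (fun a ha => hπ (some a) (Finset.mem_insertNone.mpr (by simpa using ha)))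
    hε (ε none) (π none) (hC none (by simp)) (hπ none (by simp)) hεinf f n
  rw [totalRes, ← hh] at this
  rw [add_comm, this, mul_zero]

include hε in
theorem branch_X_some {a : k} (ha : a ∈ S) (b : ℕ) :
    branch ε m ζ (some a) b RatFunc.X =
      HahnSeries.C a + twist (ζ ^ b) (qExpand k (m (some a)) (π (some a))) := by
  rw [branch_apply, hε a ha, map_add, map_add, qExpand_C, twist_C]

include hπ hε in
theorem coeff_branch_X_some_of_neg {a : k} (ha : a ∈ S) (b : ℕ) {n : ℤ} (hn : n < 0) :
    (branch ε m ζ (some a) b RatFunc.X).coeff n = 0 := by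
  have hπa : IsParam (π (some a)) := hπ _ (Finset.mem_insertNone.mpr (by simpa using ha))
  rw [branch_X_some S ε π hε m ζ ha, HahnSeries.coeff_add, HahnSeries.C_apply,
    HahnSeries.coeff_single_of_ne hn.ne, zero_add]
  exact coeff_twist_qExpand_of_neg _ _ _ (fun j hj => isParam_coeff_eq_zero hπa (by omega)) hn

include hπ hε in
theorem coeff_zero_branch_X_some {a : k} (ha : a ∈ S) (b : ℕ) :
    (branch ε m ζ (some a) b RatFunc.X).coeff 0 = a := by
  have hπa : IsParam (π (some a)) := hπ _ (Finset.mem_insertNone.mpr (by simpa using ha))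
  have h0 := coeff_twist_qExpand (ζ ^ b) (m (some a)) (π (some a)) 0
  rw [mul_zero] at h0
  rw [branch_X_some S ε π hε m ζ ha, HahnSeries.coeff_add, HahnSeries.C_apply,
    HahnSeries.coeff_single_same, h0, isParam_coeff_eq_zero hπa (by omega : (0 : ℤ) < 1), mul_zero,
    add_zero]

include hε in
theorem coeff_branch_X_some {a : k} (ha : a ∈ S) (b : ℕ) :
    (branch ε m ζ (some a) b RatFunc.X).coeff (m (some a) : ℤ) =
      ((ζ ^ (b * m (some a)) : kˣ) : k) * (π (some a)).coeff 1 := by
  have hm : ((m (some a) : ℕ) : ℤ) ≠ 0 := by exact_mod_cast NeZero.ne (m (some a))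
  have h1 := coeff_twist_qExpand (ζ ^ b) (m (some a)) (π (some a)) 1
  rw [mul_one] at h1
  rw [branch_X_some S ε π hε m ζ ha, HahnSeries.coeff_add, HahnSeries.C_apply,
    HahnSeries.coeff_single_of_ne hm, zero_add, h1, zpow_natCast, ← pow_mul]

include hεinf in
theorem coeff_branch_X_none (b : ℕ) :
    (branch ε m ζ none b RatFunc.X).coeff (-(m none : ℤ)) =
      (((ζ ^ (b * m none))⁻¹ : kˣ) : k) * ((π none)⁻¹).coeff (-1) := by
  have h1 := coeff_twist_qExpand (ζ ^ b) (m none) (π none)⁻¹ (-1)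
  rw [mul_neg_one] at h1
  rw [branch_apply, hεinf, h1, zpow_neg, zpow_natCast, ← pow_mul]

include hπ hε hεinf hem in
/-- For a primitive `M`-th root of unity `ζ`, the values of the branches at `t` are pairwise
distinct. -/
theorem branch_X_injOn (hζ : IsPrimitiveRoot ζ M) :
    Set.InjOn (fun i : Σ _ : Option k, ℕ => branch ε m ζ i.1 i.2 RatFunc.X) (branchIndex S e) := by
  have hlt : ∀ o ∈ Finset.insertNone S, ∀ b < e o, b * m o < M := by
    intro o ho b hb
    rw [← hem o ho]
    exact Nat.mul_lt_mul_of_pos_right hb (Nat.pos_of_ne_zero (NeZero.ne (m o)))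
  have hcancel : ∀ o ∈ Finset.insertNone S, ∀ b < e o, ∀ b' < e o,
      ζ ^ (b * m o) = ζ ^ (b' * m o) → b = b' := by
    intro o ho b hb b' hb' h
    have := hζ.pow_inj (hlt o ho b hb) (hlt o ho b' hb') h
    exact Nat.eq_of_mul_eq_mul_right (Nat.pos_of_ne_zero (NeZero.ne (m o))) this
  have hmneg : ∀ o : Option k, -((m o : ℕ) : ℤ) < 0 := fun o => by
    have : (0 : ℤ) < m o := by exact_mod_cast Nat.pos_of_ne_zero (NeZero.ne (m o))
    omega
  have hnone : ∀ b : ℕ, (branch ε m ζ none b RatFunc.X).coeff (-(m none : ℤ)) ≠ 0 := by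
    intro b
    rw [coeff_branch_X_none ε π hεinf m ζ]
    exact mul_ne_zero (Units.ne_zero _) (isParam_coeff_inv_ne_zero (hπ none (by simp)))
  rintro ⟨o, b⟩ hi ⟨o', b'⟩ hi' hX
  rw [Finset.mem_coe, mem_branchIndex] at hi hi'
  obtain ⟨ho, hb⟩ := hi
  obtain ⟨ho', hb'⟩ := hi'
  simp only at ho hb ho' hb' hX
  rcases o with _ | a <;> rcases o' with _ | a'
  · -- both at infinity
    have h1 := congrArg (fun f : k⸨X⸩ => f.coeff (-(m none : ℤ))) hX
    simp only [coeff_branch_X_none ε π hεinf m ζ] at h1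
    have h2 := mul_right_cancel₀ (isParam_coeff_inv_ne_zero (hπ none (by simp))) h1
    have h3 : ζ ^ (b * m none) = ζ ^ (b' * m none) := inv_injective (Units.ext h2)
    rw [hcancel none ho b hb b' hb' h3]
  · exfalso
    have ha' : a' ∈ S := by simpa using ho'
    have h1 := congrArg (fun f : k⸨X⸩ => f.coeff (-(m none : ℤ))) hX
    simp only [coeff_branch_X_some_of_neg S ε π hπ hε m ζ ha' b' (hmneg none)] at h1
    exact hnone b h1
  · exfalso
    have ha : a ∈ S := by simpa using ho
    have h1 := congrArg (fun f : k⸨X⸩ => f.coeff (-(m none : ℤ))) hX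
    simp only [coeff_branch_X_some_of_neg S ε π hπ hε m ζ ha b (hmneg none)] at h1
    exact hnone b' h1.symm
  · have ha : a ∈ S := by simpa using ho
    have ha' : a' ∈ S := by simpa using ho'
    have h0 := congrArg (fun f : k⸨X⸩ => f.coeff 0) hX
    simp only [coeff_zero_branch_X_some S ε π hπ hε m ζ ha,
      coeff_zero_branch_X_some S ε π hπ hε m ζ ha'] at h0
    subst h0
    have h1 := congrArg (fun f : k⸨X⸩ => f.coeff (m (some a) : ℤ)) hX
    simp only [coeff_branch_X_some S ε π hε m ζ ha] at h1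
    have h2 := mul_right_cancel₀
      (isParam_coeff_one_ne_zero (hπ (some a) ho)) h1
    have h3 : ζ ^ (b * m (some a)) = ζ ^ (b' * m (some a)) := Units.ext h2
    rw [hcancel (some a) ho b hb b' hb' h3]

include hπ hε hεinf hem in
/-- For a primitive `M`-th root of unity `ζ`, the branches are pairwise distinct. -/
theorem branch_injOn (hζ : IsPrimitiveRoot ζ M) :
    Set.InjOn (fun i : Σ _ : Option k, ℕ => branch ε m ζ i.1 i.2) (branchIndex S e) :=
  fun _ hi _ hj h => branch_X_injOn S ε π hπ hε hεinf e m M hem ζ hζ hi hj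
    (congrArg (fun τ : RatFunc k →+* k⸨X⸩ => τ RatFunc.X) h)

end Branches

section Main

variable {k : Type*} [Field k] {E : Type*} [Field E] [Algebra (RatFunc k) E]
  [FiniteDimensional (RatFunc k) E] [Algebra.IsSeparable (RatFunc k) E]
  (S : Finset k) (ε : Option k → RatFunc k →+* k⸨X⸩) (π : Option k → k⸨X⸩)
  (hC : ∀ o ∈ Finset.insertNone S, ∀ c : k, ε o (RatFunc.C c) = HahnSeries.C c)
  (hπ : ∀ o ∈ Finset.insertNone S, IsParam (π o))
  (hε : ∀ a ∈ S, ε (some a) RatFunc.X = HahnSeries.C a + π (some a))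
  (hεinf : ε none RatFunc.X = (π none)⁻¹)
  (e m : Option k → ℕ) [∀ o, NeZero (m o)] (M : ℕ)
  (hem : ∀ o ∈ Finset.insertNone S, e o * m o = M) (ζ : kˣ) (hζ : IsPrimitiveRoot ζ M)

include hC hπ hε hεinf hem hζ

/-- **The residue theorem summed over all embeddings** (`Finset` form).  `Sig` is a set of
embeddings `E → k⸨z⸩` whose restrictions to `k(t)` are branches of the expansions of the `t`-line
at its base cusps `S ∪ {∞}`, of the maximal possible cardinality `(∑ e o) * [E : k(t)]`.  Then
for `g ∈ E` with `Tr_{E/k(t)} g = f / ∏ (t - a) ^ n a`, the sum over `Sig` of the residues of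
`σ g d(σ t)` vanishes. -/
theorem sum_res_embeddings_eq_zero (Sig : Finset (E →+* k⸨X⸩))
    (hcover : ∀ s ∈ Sig, ∃ o ∈ Finset.insertNone S, ∃ b < e o,
      s.comp (algebraMap (RatFunc k) E) = branch ε m ζ o b)
    (hcard : Sig.card = (∑ o ∈ Finset.insertNone S, e o) * Module.finrank (RatFunc k) E)
    (g : E) (f : Polynomial k) (n : k → ℕ)
    (hg : Algebra.trace (RatFunc k) E g = algebraMap (Polynomial k) (RatFunc k) f *
      ∏ a ∈ S, (RatFunc.X - RatFunc.C a)⁻¹ ^ n a) :
    ∑ s ∈ Sig, res (s g * D (s (algebraMap (RatFunc k) E RatFunc.X))) = 0 := by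
  rw [sum_res_eq_sum_restrictions (branchIndex S e) (fun i => branch ε m ζ i.1 i.2)
    (branch_injOn S ε π hπ hε hεinf e m M hem ζ hζ) Sig ?_ ?_ g RatFunc.X, hg]
  · exact sum_res_branch_eq_zero S ε π hC hπ hε hεinf e m M hem ζ f n
  · intro s hs
    obtain ⟨o, ho, b, hb, h⟩ := hcover s hs
    exact ⟨⟨o, b⟩, mem_branchIndex.mpr ⟨ho, hb⟩, h⟩
  · rw [card_branchIndex, hcard]

/-- The residue theorem summed over all embeddings, for an injective family of embeddings. -/
theorem sum_res_family_eq_zero {ι : Type*} (I : Finset ι) (s : ι → E →+* k⸨X⸩)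
    (hs : Set.InjOn s I)
    (hcover : ∀ i ∈ I, ∃ o ∈ Finset.insertNone S, ∃ b < e o,
      (s i).comp (algebraMap (RatFunc k) E) = branch ε m ζ o b)
    (hcard : I.card = (∑ o ∈ Finset.insertNone S, e o) * Module.finrank (RatFunc k) E)
    (g : E) (f : Polynomial k) (n : k → ℕ)
    (hg : Algebra.trace (RatFunc k) E g = algebraMap (Polynomial k) (RatFunc k) f *
      ∏ a ∈ S, (RatFunc.X - RatFunc.C a)⁻¹ ^ n a) :
    ∑ i ∈ I, res (s i g * D (s i (algebraMap (RatFunc k) E RatFunc.X))) = 0 := by
  classical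
  have := sum_res_embeddings_eq_zero S ε π hC hπ hε hεinf e m M hem ζ hζ (I.image s) ?_ ?_ g f n hg
  · rwa [Finset.sum_image hs] at this
  · intro σ hσ
    obtain ⟨i, hi, rfl⟩ := Finset.mem_image.mp hσ
    exact hcover i hi
  · rw [Finset.card_image_of_injOn hs, hcard]

omit hC hπ hε hεinf in
/-- The branches are periodic in the twisting exponent. -/
theorem branch_add_mul {o : Option k} (ho : o ∈ Finset.insertNone S) (b j : ℕ) :
    branch ε m ζ o (b + e o * j) = branch ε m ζ o b := by
  ext h : 1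
  have h1 : (ζ ^ (e o * j)) ^ m o = 1 := by
    rw [← pow_mul, mul_right_comm, hem o ho, pow_mul, hζ.pow_eq_one, one_pow]
  rw [branch_apply, branch_apply, _root_.pow_add, ← twist_twist,
    twist_qExpand_of_pow_eq_one _ _ h1]

omit hC hπ hε hεinf in
theorem branch_mod {o : Option k} (ho : o ∈ Finset.insertNone S) (b : ℕ) :
    branch ε m ζ o b = branch ε m ζ o (b % e o) := by
  conv_lhs => rw [← Nat.mod_add_div b (e o)]
  exact branch_add_mul S ε e m M hem ζ hζ ho _ _

/-- **The residue theorem summed over the cusps.**  `expn c : E → k⸨y⸩` (`c ∈ C`) are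
expansions such that the embeddings `twist (ζ ^ b) ∘ qExpand (mm c) ∘ expn c`
(`b < w c`, `w c * mm c = M`) are pairwise distinct, restrict to branches of the `t`-line, and
are as many as possible.  Then the sum over `c ∈ C` of the residues of `expn c g d(expn c t)`
vanishes (`M` is invertible in `k` because `k` contains a primitive `M`-th root of unity). -/
theorem sum_res_cusps_eq_zero {κ : Type*} (C : Finset κ) (expn : κ → E →+* k⸨X⸩)
    (w mm : κ → ℕ) [∀ c, NeZero (mm c)] (hw : ∀ c ∈ C, w c * mm c = M) (hM0 : M ≠ 0)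
    (hinj : Set.InjOn (fun i : Σ _ : κ, ℕ =>
      (twist (ζ ^ i.2)).comp ((qExpand k (mm i.1)).comp (expn i.1)))
      (C.sigma fun c => Finset.range (w c)))
    (hcover : ∀ c ∈ C, ∃ o ∈ Finset.insertNone S, ∃ b : ℕ,
      ((qExpand k (mm c)).comp (expn c)).comp (algebraMap (RatFunc k) E) = branch ε m ζ o b)
    (hcard : ∑ c ∈ C, w c = (∑ o ∈ Finset.insertNone S, e o) * Module.finrank (RatFunc k) E)
    (g : E) (f : Polynomial k) (n : k → ℕ)
    (hg : Algebra.trace (RatFunc k) E g = algebraMap (Polynomial k) (RatFunc k) f *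
      ∏ a ∈ S, (RatFunc.X - RatFunc.C a)⁻¹ ^ n a) :
    ∑ c ∈ C, res (expn c g * D (expn c (algebraMap (RatFunc k) E RatFunc.X))) = 0 := by
  have hM : (M : k) ≠ 0 := by
    have : NeZero M := ⟨hM0⟩
    exact (IsPrimitiveRoot.neZero' (IsPrimitiveRoot.coe_units_iff.mpr hζ)).ne
  have hepos : ∀ o ∈ Finset.insertNone S, 0 < e o := fun o ho =>
    Nat.pos_of_ne_zero fun h0 => hM0 (by rw [← hem o ho, h0, zero_mul])
  have key := sum_res_family_eq_zero S ε π hC hπ hε hεinf e m M hem ζ hζ
    (C.sigma fun c => Finset.range (w c))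
    (fun i : Σ _ : κ, ℕ => (twist (ζ ^ i.2)).comp ((qExpand k (mm i.1)).comp (expn i.1)))
    hinj ?_ ?_ g f n hg
  · rw [Finset.sum_sigma] at key
    have h1 : ∀ c ∈ C, ∑ b ∈ Finset.range (w c),
        res (((twist (ζ ^ b)).comp ((qExpand k (mm c)).comp (expn c))) g *
          D (((twist (ζ ^ b)).comp ((qExpand k (mm c)).comp (expn c)))
            (algebraMap (RatFunc k) E RatFunc.X))) =
        (M : k) * res (expn c g * D (expn c (algebraMap (RatFunc k) E RatFunc.X))) := by
      intro c hc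
      have h2 : ∀ b ∈ Finset.range (w c),
          res (((twist (ζ ^ b)).comp ((qExpand k (mm c)).comp (expn c))) g *
            D (((twist (ζ ^ b)).comp ((qExpand k (mm c)).comp (expn c)))
              (algebraMap (RatFunc k) E RatFunc.X))) =
          (mm c : k) * res (expn c g * D (expn c (algebraMap (RatFunc k) E RatFunc.X))) := by
        intro b _
        rw [RingHom.comp_apply, RingHom.comp_apply, RingHom.comp_apply, RingHom.comp_apply,
          res_twist_mul_D_twist, res_qExpand_mul_D_qExpand]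
      rw [Finset.sum_congr rfl h2, Finset.sum_const, Finset.card_range, nsmul_eq_mul, ← mul_assoc,
        ← Nat.cast_mul, hw c hc]
    rw [Finset.sum_congr rfl h1, ← Finset.mul_sum] at key
    exact (mul_eq_zero.mp key).resolve_left hM
  · rintro ⟨c, b'⟩ hi
    rw [Finset.mem_sigma, Finset.mem_range] at hi
    obtain ⟨o, ho, b, hb⟩ := hcover c hi.1
    refine ⟨o, ho, (b' + b) % e o, Nat.mod_lt _ (hepos o ho), ?_⟩
    rw [← branch_mod S ε e m M hem ζ hζ ho]
    change ((twist (ζ ^ b')).comp ((qExpand k (mm c)).comp (expn c))).comp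
      (algebraMap (RatFunc k) E) = branch ε m ζ o (b' + b)
    rw [RingHom.comp_assoc, hb]
    ext h : 1
    rw [RingHom.comp_apply, branch_apply, branch_apply, twist_twist, _root_.pow_add]
  · rw [Finset.card_sigma]
    simpa using hcard

end Main

section TraceForm

variable {k : Type*} [Field k] {E : Type*} [Field E] [Algebra (RatFunc k) E]
  [FiniteDimensional (RatFunc k) E] [Algebra (Polynomial k) E]
  [IsScalarTower (Polynomial k) (RatFunc k) E]

/-- If `Q ^ N * g` is integral over `k[t]`, `Q = ∏_{a ∈ S} (t - a)`, then the trace of `g` to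
`k(t)` has the shape required by the residue theorems above. -/
theorem exists_trace_eq_of_isIntegral (S : Finset k) (g : E) (N : ℕ)
    (h : IsIntegral (Polynomial k)
      (algebraMap (Polynomial k) E ((∏ a ∈ S, (Polynomial.X - Polynomial.C a)) ^ N) * g)) :
    ∃ f : Polynomial k, Algebra.trace (RatFunc k) E g =
      algebraMap (Polynomial k) (RatFunc k) f *
        ∏ a ∈ S, (RatFunc.X - RatFunc.C a)⁻¹ ^ N := by
  set Q : Polynomial k := ∏ a ∈ S, (Polynomial.X - Polynomial.C a) with hQ
  have hQ0 : algebraMap (Polynomial k) (RatFunc k) Q ≠ 0 := by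
    rw [Ne, map_eq_zero_iff _ (IsFractionRing.injective (Polynomial k) (RatFunc k))]
    exact Finset.prod_ne_zero_iff.mpr fun a _ => Polynomial.X_sub_C_ne_zero a
  have h1 : algebraMap (Polynomial k) E (Q ^ N) * g =
      (algebraMap (Polynomial k) (RatFunc k) (Q ^ N)) • g := by
    rw [Algebra.smul_def, ← IsScalarTower.algebraMap_apply]
  rw [h1] at h
  have h2 := Algebra.isIntegral_trace (L := RatFunc k) h
  rw [map_smul, smul_eq_mul] at h2
  obtain ⟨f, hf⟩ := IsIntegrallyClosed.isIntegral_iff.mp h2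
  refine ⟨f, ?_⟩
  have hQN : algebraMap (Polynomial k) (RatFunc k) (Q ^ N) ≠ 0 := by
    rw [map_pow]; exact pow_ne_zero _ hQ0
  have h3 : ∏ a ∈ S, (RatFunc.X - RatFunc.C a)⁻¹ ^ N =
      (algebraMap (Polynomial k) (RatFunc k) (Q ^ N))⁻¹ := by
    have h4 : algebraMap (Polynomial k) (RatFunc k) Q = ∏ a ∈ S, (RatFunc.X - RatFunc.C a) := by
      rw [hQ, map_prod]
      refine Finset.prod_congr rfl fun a _ => ?_
      rw [map_sub, RatFunc.algebraMap_X, RatFunc.algebraMap_C]
    rw [map_pow, h4, ← inv_pow, ← Finset.prod_inv_distrib, Finset.prod_pow]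
  rw [hf, h3, mul_comm, inv_mul_cancel_left₀ hQN]

end TraceForm

section Orbits

variable {k : Type*} [Field k] {E : Type*} [Field E] [Algebra (RatFunc k) E]
  [FiniteDimensional (RatFunc k) E] [Algebra.IsSeparable (RatFunc k) E]
  (S : Finset k) (ε : Option k → RatFunc k →+* k⸨X⸩) (π : Option k → k⸨X⸩)
  (hC : ∀ o ∈ Finset.insertNone S, ∀ c : k, ε o (RatFunc.C c) = HahnSeries.C c)
  (hπ : ∀ o ∈ Finset.insertNone S, IsParam (π o))
  (hε : ∀ a ∈ S, ε (some a) RatFunc.X = HahnSeries.C a + π (some a))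
  (hεinf : ε none RatFunc.X = (π none)⁻¹)
  (e m : Option k → ℕ) [∀ o, NeZero (m o)] (M : ℕ) [NeZero M]
  (hem : ∀ o ∈ Finset.insertNone S, e o * m o = M) (ζ : kˣ) (hζ : IsPrimitiveRoot ζ M)

include hC hπ hε hεinf hem in
/-- **The residue theorem summed over the orbits of the twisting action.**  `Sig` is a
twist-stable set of embeddings `E → k⸨z⸩` restricting to branches of the `t`-line and of maximal
cardinality, `C` a set of representatives of its orbits (`exists_orbit_representatives`).  Then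
the sum over `c ∈ C` of the residues of `g dt`, expanded in the local parameters
`y = z ^ (M / twistPeriod ζ c)` via `orbitExpn hζ c`, vanishes. -/
theorem sum_res_orbits_eq_zero (Sig : Finset (E →+* k⸨X⸩))
    (hcover : ∀ s ∈ Sig, ∃ o ∈ Finset.insertNone S, ∃ b < e o,
      s.comp (algebraMap (RatFunc k) E) = branch ε m ζ o b)
    (hcard : Sig.card = (∑ o ∈ Finset.insertNone S, e o) * Module.finrank (RatFunc k) E)
    (C : Finset (E →+* k⸨X⸩)) (hCS : C ⊆ Sig)
    (hinj : Set.InjOn (fun i : Σ _ : E →+* k⸨X⸩, ℕ => twistHom ζ i.2 i.1)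
      (C.sigma fun c => Finset.range (twistPeriod ζ c)))
    (hcardC : Sig.card = ∑ c ∈ C, twistPeriod ζ c)
    (g : E) (f : Polynomial k) (n : k → ℕ)
    (hg : Algebra.trace (RatFunc k) E g = algebraMap (Polynomial k) (RatFunc k) f *
      ∏ a ∈ S, (RatFunc.X - RatFunc.C a)⁻¹ ^ n a) :
    ∑ c ∈ C, res (orbitExpn hζ c g * D (orbitExpn hζ c (algebraMap (RatFunc k) E RatFunc.X))) =
      0 := by
  have hζ1 : ζ ^ M = 1 := hζ.pow_eq_one
  have : ∀ c : E →+* k⸨X⸩, NeZero (M / twistPeriod ζ c) := fun c =>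
    neZero_div_twistPeriod hζ1 c
  have hfac : ∀ c : E →+* k⸨X⸩, (qExpand k (M / twistPeriod ζ c)).comp (orbitExpn hζ c) = c :=
    fun c => qExpand_comp_orbitExpn hζ c
  refine sum_res_cusps_eq_zero S ε π hC hπ hε hεinf e m M hem ζ hζ C (orbitExpn hζ)
    (fun c => twistPeriod ζ c) (fun c => M / twistPeriod ζ c)
    (fun c _ => twistPeriod_mul_div hζ1 c) (NeZero.ne M) ?_ ?_ ?_ g f n hg
  · have : (fun i : Σ _ : E →+* k⸨X⸩, ℕ => (twist (ζ ^ i.2)).comp
        ((qExpand k (M / twistPeriod ζ i.1)).comp (orbitExpn hζ i.1))) =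
        fun i : Σ _ : E →+* k⸨X⸩, ℕ => twistHom ζ i.2 i.1 := by
      funext i
      rw [hfac]
      rfl
    rw [this]
    exact hinj
  · intro c hc
    obtain ⟨o, ho, b, -, hb⟩ := hcover c (hCS hc)
    exact ⟨o, ho, b, by rw [hfac, hb]⟩
  · rw [← hcardC, hcard]

include hC hπ hε hεinf hem in
open scoped Classical in
/-- Orbit decomposition and residue theorem in one statement: a twist-stable set `Sig` of
embeddings restricting to branches of the `t`-line, of maximal cardinality, has a set `C` of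
orbit representatives ("cusps") over which the residue theorem holds. -/
theorem exists_cusps_sum_res_eq_zero (Sig : Finset (E →+* k⸨X⸩))
    (hstable : ∀ s ∈ Sig, twistHom ζ 1 s ∈ Sig)
    (hcover : ∀ s ∈ Sig, ∃ o ∈ Finset.insertNone S, ∃ b < e o,
      s.comp (algebraMap (RatFunc k) E) = branch ε m ζ o b)
    (hcard : Sig.card = (∑ o ∈ Finset.insertNone S, e o) * Module.finrank (RatFunc k) E) :
    ∃ C : Finset (E →+* k⸨X⸩), C ⊆ Sig ∧
      Set.InjOn (fun i : Σ _ : E →+* k⸨X⸩, ℕ => twistHom ζ i.2 i.1)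
        (C.sigma fun c => Finset.range (twistPeriod ζ c)) ∧
      (C.sigma fun c => Finset.range (twistPeriod ζ c)).image
        (fun i => twistHom ζ i.2 i.1) = Sig ∧
      ∀ (g : E) (f : Polynomial k) (n : k → ℕ),
        Algebra.trace (RatFunc k) E g = algebraMap (Polynomial k) (RatFunc k) f *
          ∏ a ∈ S, (RatFunc.X - RatFunc.C a)⁻¹ ^ n a →
        ∑ c ∈ C, res (orbitExpn hζ c g *
          D (orbitExpn hζ c (algebraMap (RatFunc k) E RatFunc.X))) = 0 := by
  obtain ⟨C, hCS, hinj, himg⟩ := exists_orbit_representatives hζ.pow_eq_one Sig hstable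
  refine ⟨C, hCS, hinj, himg, fun g f n hg => ?_⟩
  exact sum_res_orbits_eq_zero S ε π hC hπ hε hεinf e m M hem ζ hζ Sig hcover hcard C hCS hinj
    (card_eq_sum_twistPeriod Sig C hinj himg) g f n hg

end Orbits

end Fermat.Agent.Gateway.GoodRed
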