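import Mathlib
import Fermat.Agent.Lib.Residue.Basic

set_option autoImplicit false

/-!
# The cuspidal Riemann inequality (abstract form)

`V` is a `k`-vector space of "functions regular off the cusps", `C` is the finite set of cusps and
`expn c` the expansion at the cusp `c` in a local parameter.  `φ i c` (`i < g`) are the expansions
of `g` differentials regular at the cusps.  If the residue theorem holds for all products
`f · ω_i`, the space `cuspSpace expn m` of functions with poles of order at most `m c` at the
cusps has dimension at most `∑ m c + dim (cuspSpace 0) - g`, as soon as the `g` differentials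
are independent modulo `X ^ m c₀` at one cusp `c₀`.
-/

noncomputable section

namespace Fermat.Agent.Gateway.GoodRed

open HahnSeries LaurentSeries Module
open Fermat.Agent.Lib.Residue

variable {k : Type*} [Field k]

/-! ### Residue of a product with a power series -/

/-- The residue of `F * p`, for `F` with a pole of order at most `m` and `p` a power series. -/
theorem res_mul_coe_eq_sum (F : k⸨X⸩) (m : ℕ) (hF : ∀ i : ℤ, i < -(m : ℤ) → F.coeff i = 0)
    (p : PowerSeries k) :
    res (F * (p : k⸨X⸩)) = ∑ n : Fin m, F.coeff (-((n : ℕ) + 1 : ℤ)) * PowerSeries.coeff n p := by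
  classical
  set P : PowerSeries k := PowerSeries.mk fun a => F.coeff ((a : ℤ) - m) with hP
  have hFP : F = single (-(m : ℤ)) (1 : k) * (P : k⸨X⸩) := by
    ext i
    rw [coeff_single_mul', one_mul, PowerSeries.coeff_coe]
    split_ifs with h
    · exact hF i (by omega)
    · have h0 : 0 ≤ i - -(m : ℤ) := by omega
      obtain ⟨a, ha⟩ := Int.eq_ofNat_of_zero_le h0
      rw [ha, Int.natAbs_natCast, hP, PowerSeries.coeff_mk]
      congr 1
      omega
  have hmul : F * (p : k⸨X⸩) = single (-(m : ℤ)) (1 : k) * ((P * p : PowerSeries k) : k⸨X⸩) := by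
    rw [PowerSeries.coe_mul, ← mul_assoc, ← hFP]
  rw [res, hmul, coeff_single_mul', one_mul, PowerSeries.coeff_coe]
  rcases Nat.eq_zero_or_pos m with rfl | hm
  · simp
  · have h1 : ¬ ((-1 : ℤ) - -(m : ℤ) < 0) := by omega
    rw [if_neg h1]
    have h2 : ((-1 : ℤ) - -(m : ℤ)).natAbs = m - 1 := by omega
    rw [h2, PowerSeries.coeff_mul, Finset.Nat.sum_antidiagonal_eq_sum_range_succ
      (fun a b => PowerSeries.coeff a P * PowerSeries.coeff b p), Nat.succ_eq_add_one,
      Nat.sub_add_cancel hm, ← Finset.sum_range_reflect, Finset.sum_range]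
    refine Finset.sum_congr rfl fun n _ => ?_
    have hn := n.2
    have h3 : m - 1 - (m - 1 - (n : ℕ)) = (n : ℕ) := by omega
    rw [h3, hP, PowerSeries.coeff_mk]
    congr 2
    omega

/-! ### The spaces -/

section Spaces

variable {V : Type*} [AddCommGroup V] [Module k V] {C : Type*}

/-- The functions with a pole of order at most `m c` at each cusp `c`. -/
def cuspSpace (expn : C → V →ₗ[k] k⸨X⸩) (m : C → ℕ) : Submodule k V where
  carrier := {f | ∀ c, ∀ i : ℤ, i < -(m c : ℤ) → (expn c f).coeff i = 0}
  add_mem' := by
    intro f f' hf hf' c i hi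
    rw [map_add, coeff_add, hf c i hi, hf' c i hi, add_zero]
  zero_mem' := by
    intro c i _
    rw [map_zero, coeff_zero]
  smul_mem' := by
    intro a f hf c i hi
    rw [map_smul, coeff_smul, hf c i hi, smul_zero]

theorem mem_cuspSpace {expn : C → V →ₗ[k] k⸨X⸩} {m : C → ℕ} {f : V} :
    f ∈ cuspSpace expn m ↔ ∀ c, ∀ i : ℤ, i < -(m c : ℤ) → (expn c f).coeff i = 0 :=
  Iff.rfl

theorem cuspSpace_mono {expn : C → V →ₗ[k] k⸨X⸩} {m m' : C → ℕ} (h : ∀ c, m c ≤ m' c) :
    cuspSpace expn m ≤ cuspSpace expn m' := by
  intro f hf c i hi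
  exact hf c i (by have := h c; omega)

/-- The principal parts of a function of `cuspSpace expn m`. -/
def principalPart (expn : C → V →ₗ[k] k⸨X⸩) (m : C → ℕ) :
    cuspSpace expn m →ₗ[k] ((c : C) → Fin (m c) → k) where
  toFun f c n := (expn c (f : V)).coeff (-((n : ℕ) + 1 : ℤ))
  map_add' := by
    intro f f'
    ext c n
    simp [map_add]
  map_smul' := by
    intro a f
    ext c n
    simp [map_smul]

theorem principalPart_apply (expn : C → V →ₗ[k] k⸨X⸩) (m : C → ℕ) (f : cuspSpace expn m)
    (c : C) (n : Fin (m c)) :
    principalPart expn m f c n = (expn c (f : V)).coeff (-((n : ℕ) + 1 : ℤ)) :=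
  rfl

/-- A function with vanishing principal parts is regular at the cusps. -/
theorem mem_cuspSpace_zero_of_principalPart_eq_zero {expn : C → V →ₗ[k] k⸨X⸩} {m : C → ℕ}
    (f : cuspSpace expn m) (hf : principalPart expn m f = 0) :
    (f : V) ∈ cuspSpace expn (fun _ => 0) := by
  intro c i hi
  simp only [Nat.cast_zero, neg_zero] at hi
  by_cases h : i < -(m c : ℤ)
  · exact f.2 c i h
  · have h0 : 0 ≤ -i - 1 := by omega
    obtain ⟨a, ha⟩ := Int.eq_ofNat_of_zero_le h0
    have ham : a < m c := by omega
    have := congrFun (congrFun hf c) ⟨a, ham⟩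
    rw [principalPart_apply] at this
    simp only [Pi.zero_apply] at this
    rw [← this]
    congr 1
    omega

end Spaces

/-! ### The residue functionals -/

section Functionals

variable {C : Type*} [Fintype C] {g : ℕ}

/-- The pairing of principal parts with the `g` differentials. -/
def resPairing (m : C → ℕ) (φ : Fin g → C → PowerSeries k) :
    ((c : C) → Fin (m c) → k) →ₗ[k] (Fin g → k) where
  toFun p i := ∑ c, ∑ n : Fin (m c), p c n * PowerSeries.coeff n (φ i c)
  map_add' := by
    intro p p'
    ext i
    simp [add_mul, Finset.sum_add_distrib]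
  map_smul' := by
    intro a p
    ext i
    simp [Finset.mul_sum, mul_assoc]

theorem resPairing_apply (m : C → ℕ) (φ : Fin g → C → PowerSeries k)
    (p : (c : C) → Fin (m c) → k) (i : Fin g) :
    resPairing m φ p i = ∑ c, ∑ n : Fin (m c), p c n * PowerSeries.coeff n (φ i c) :=
  rfl

/-- If the differentials are independent modulo `X ^ m c₀` at one cusp, the residue pairing has
rank `g`. -/
theorem le_finrank_range_resPairing [DecidableEq C] (m : C → ℕ) (φ : Fin g → C → PowerSeries k)
    (c₀ : C)
    (hind : LinearIndependent k fun i : Fin g => fun n : Fin (m c₀) =>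
      PowerSeries.coeff n (φ i c₀)) :
    g ≤ finrank k (LinearMap.range (resPairing m φ)) := by
  set B : Matrix (Fin g) (Fin (m c₀)) k := Matrix.of fun i n => PowerSeries.coeff n (φ i c₀)
    with hB
  have hrank : B.rank = g := by
    have := LinearIndependent.rank_matrix (M := B) hind
    rwa [Fintype.card_fin] at this
  have hcomp : (resPairing m φ).comp (LinearMap.single k (fun c => Fin (m c) → k) c₀) =
      B.mulVecLin := by
    refine LinearMap.ext fun p => funext fun i => ?_
    rw [LinearMap.comp_apply, resPairing_apply, Matrix.mulVecLin_apply, Matrix.mulVec,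
      dotProduct]
    rw [Finset.sum_eq_single c₀]
    · refine Finset.sum_congr rfl fun n _ => ?_
      rw [LinearMap.single_apply, Pi.single_eq_same, hB, Matrix.of_apply, mul_comm]
    · intro c _ hc
      refine Finset.sum_eq_zero fun n _ => ?_
      rw [LinearMap.single_apply, Pi.single_eq_of_ne hc]
      simp
    · intro h
      exact absurd (Finset.mem_univ _) h
  have hle : LinearMap.range B.mulVecLin ≤ LinearMap.range (resPairing m φ) := by
    rw [← hcomp]
    exact LinearMap.range_comp_le_range _ _
  calc g = B.rank := hrank.symm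
    _ = finrank k (LinearMap.range B.mulVecLin) := rfl
    _ ≤ finrank k (LinearMap.range (resPairing m φ)) := Submodule.finrank_mono hle

theorem finrank_ker_resPairing_add_le [DecidableEq C] (m : C → ℕ)
    (φ : Fin g → C → PowerSeries k) (c₀ : C)
    (hind : LinearIndependent k fun i : Fin g => fun n : Fin (m c₀) =>
      PowerSeries.coeff n (φ i c₀)) :
    finrank k (LinearMap.ker (resPairing m φ)) + g ≤ ∑ c, m c := by
  have h1 := LinearMap.finrank_range_add_finrank_ker (resPairing m φ)
  have h2 := le_finrank_range_resPairing m φ c₀ hind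
  have h3 : finrank k ((c : C) → Fin (m c) → k) = ∑ c, m c := by
    rw [Module.finrank_pi_fintype]
    refine Finset.sum_congr rfl fun c _ => ?_
    rw [Module.finrank_fin_fun]
  omega

end Functionals


/-! ### Independence of truncations -/

section Trunc

variable {g : ℕ}

/-- The relations between the truncations modulo `X ^ m` of the series `φ₀ i`. -/
def truncKer (φ₀ : Fin g → PowerSeries k) (m : ℕ) : Submodule k (Fin g → k) where
  carrier := {a | ∀ n, n < m → ∑ i, a i * PowerSeries.coeff n (φ₀ i) = 0}
  add_mem' := by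
    intro a b ha hb n hn
    simp only [Pi.add_apply, add_mul, Finset.sum_add_distrib, ha n hn, hb n hn, add_zero]
  zero_mem' := by
    intro n _
    simp
  smul_mem' := by
    intro c a ha n hn
    simp only [Pi.smul_apply, smul_eq_mul, mul_assoc, ← Finset.mul_sum, ha n hn, mul_zero]

theorem truncKer_antitone (φ₀ : Fin g → PowerSeries k) {m m' : ℕ} (h : m ≤ m') :
    truncKer φ₀ m' ≤ truncKer φ₀ m :=
  fun _ ha n hn => ha n (lt_of_lt_of_le hn h)

theorem linearIndependent_trunc_of_truncKer_eq_bot (φ₀ : Fin g → PowerSeries k) {m : ℕ}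
    (h : truncKer φ₀ m = ⊥) :
    LinearIndependent k fun i : Fin g => fun n : Fin m => PowerSeries.coeff n (φ₀ i) := by
  rw [Fintype.linearIndependent_iff]
  intro a ha i
  have hmem : a ∈ truncKer φ₀ m := by
    intro n hn
    have := congrFun ha ⟨n, hn⟩
    simpa [Finset.sum_apply, Pi.smul_apply, smul_eq_mul] using this
  rw [h, Submodule.mem_bot] at hmem
  rw [hmem, Pi.zero_apply]

/-- Linearly independent power series are independent modulo `X ^ m` for `m` large. -/
theorem exists_linearIndependent_trunc (φ₀ : Fin g → PowerSeries k)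
    (h : LinearIndependent k φ₀) :
    ∃ m₀, ∀ m, m₀ ≤ m →
      LinearIndependent k fun i : Fin g => fun n : Fin m => PowerSeries.coeff n (φ₀ i) := by
  let f : ℕ →o (Submodule k (Fin g → k))ᵒᵈ :=
    ⟨fun m => OrderDual.toDual (truncKer φ₀ m), fun _ _ hmm => truncKer_antitone φ₀ hmm⟩
  obtain ⟨n₀, hn₀⟩ := IsArtinian.monotone_stabilizes f
  have hbot : truncKer φ₀ n₀ = ⊥ := by
    rw [eq_bot_iff]
    intro a ha
    rw [Submodule.mem_bot]
    have hall : ∀ n, ∑ i, a i * PowerSeries.coeff n (φ₀ i) = 0 := by
      intro n
      have h1 : truncKer φ₀ n₀ = truncKer φ₀ (max n₀ (n + 1)) :=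
        congrArg OrderDual.ofDual (hn₀ (max n₀ (n + 1)) (le_max_left _ _))
      rw [h1] at ha
      exact ha n (lt_of_lt_of_le (Nat.lt_succ_self n) (le_max_right _ _))
    have hsum : ∑ i, a i • φ₀ i = 0 := by
      ext n
      rw [map_sum, map_zero, ← hall n]
      refine Finset.sum_congr rfl fun i _ => ?_
      rw [PowerSeries.coeff_smul, smul_eq_mul]
    have := Fintype.linearIndependent_iff.mp h a hsum
    exact funext this
  refine ⟨n₀, fun m hm => linearIndependent_trunc_of_truncKer_eq_bot φ₀ ?_⟩
  rw [eq_bot_iff, ← hbot]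
  exact truncKer_antitone φ₀ hm

end Trunc

/-! ### The inequality -/

section Main

variable {V : Type*} [AddCommGroup V] [Module k V] {C : Type*} [Fintype C] {g : ℕ}

/-- The residue theorem puts the principal parts into the kernel of the residue pairing. -/
theorem range_principalPart_le_ker (expn : C → V →ₗ[k] k⸨X⸩) (m : C → ℕ)
    (φ : Fin g → C → PowerSeries k)
    (hres : ∀ f ∈ cuspSpace expn m, ∀ i, ∑ c, res (expn c f * (φ i c : k⸨X⸩)) = 0) :
    LinearMap.range (principalPart expn m) ≤ LinearMap.ker (resPairing m φ) := by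
  rintro _ ⟨f, rfl⟩
  rw [LinearMap.mem_ker]
  ext i
  rw [resPairing_apply, Pi.zero_apply, ← hres f f.2 i]
  refine Finset.sum_congr rfl fun c _ => ?_
  rw [res_mul_coe_eq_sum _ (m c) (f.2 c)]
  rfl

/-- **Cuspidal Riemann inequality.**  Given the residue theorem for the `g` differentials `φ`,
independent modulo `X ^ m c₀` at the cusp `c₀`, the space of functions with poles of order at
most `m` at the cusps is finite dimensional, of dimension at most
`∑ m c + dim (regular functions) - g`. -/
theorem finrank_cuspSpace_add_le [DecidableEq C] (expn : C → V →ₗ[k] k⸨X⸩) (m : C → ℕ)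
    (φ : Fin g → C → PowerSeries k)
    (hres : ∀ f ∈ cuspSpace expn m, ∀ i, ∑ c, res (expn c f * (φ i c : k⸨X⸩)) = 0)
    [Module.Finite k (cuspSpace expn fun _ => 0)] (c₀ : C)
    (hind : LinearIndependent k fun i : Fin g => fun n : Fin (m c₀) =>
      PowerSeries.coeff n (φ i c₀)) :
    Module.Finite k (cuspSpace expn m) ∧
      finrank k (cuspSpace expn m) + g ≤
        ∑ c, m c + finrank k (cuspSpace expn fun _ => 0) := by
  set PP := principalPart expn m with hPP
  -- the kernel of the principal part map injects into the regular functions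
  let ι : LinearMap.ker PP →ₗ[k] cuspSpace expn (fun _ => 0) :=
    { toFun := fun f => ⟨((f : cuspSpace expn m) : V),
        mem_cuspSpace_zero_of_principalPart_eq_zero f.1 (LinearMap.mem_ker.mp f.2)⟩
      map_add' := fun _ _ => rfl
      map_smul' := fun _ _ => rfl }
  have hι : Function.Injective ι := by
    intro f f' h
    have : ((f : cuspSpace expn m) : V) = ((f' : cuspSpace expn m) : V) :=
      congrArg (fun x : cuspSpace expn (fun _ => 0) => (x : V)) h
    exact Subtype.ext (Subtype.ext this)
  have : Module.Finite k (LinearMap.ker PP) := Module.Finite.of_injective ι hι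
  have hfin : Module.Finite k (cuspSpace expn m) := by
    have hex : Function.Exact (LinearMap.ker PP.rangeRestrict).subtype PP.rangeRestrict :=
      LinearMap.exact_subtype_ker_map _
    have : Module.Finite k (LinearMap.ker PP.rangeRestrict) := by
      rw [LinearMap.ker_rangeRestrict]
      infer_instance
    exact Module.Finite.of_exact hex PP.surjective_rangeRestrict
  refine ⟨hfin, ?_⟩
  have h1 := LinearMap.finrank_range_add_finrank_ker PP
  have h2 : finrank k (LinearMap.range PP) ≤ finrank k (LinearMap.ker (resPairing m φ)) :=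
    Submodule.finrank_mono (range_principalPart_le_ker expn m φ hres)
  have h3 := finrank_ker_resPairing_add_le m φ c₀ hind
  have h4 : finrank k (LinearMap.ker PP) ≤ finrank k (cuspSpace expn fun _ => 0) :=
    LinearMap.finrank_le_finrank_of_injective hι
  omega

/-- **Cuspidal Riemann inequality**, uniform form: if the residue theorem holds for every `f`
and the differentials are linearly independent at the cusp `c₀`, there is `m₀` such that the
inequality holds for every `m` with `m₀ ≤ m c₀`. -/
theorem exists_bound_finrank_cuspSpace [DecidableEq C] (expn : C → V →ₗ[k] k⸨X⸩)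
    (φ : Fin g → C → PowerSeries k)
    (hres : ∀ f : V, ∀ i, ∑ c, res (expn c f * (φ i c : k⸨X⸩)) = 0)
    [Module.Finite k (cuspSpace expn fun _ => 0)] (c₀ : C)
    (hind : LinearIndependent k fun i : Fin g => φ i c₀) :
    ∃ m₀ : ℕ, ∀ m : C → ℕ, m₀ ≤ m c₀ →
      Module.Finite k (cuspSpace expn m) ∧
        finrank k (cuspSpace expn m) + g ≤
          ∑ c, m c + finrank k (cuspSpace expn fun _ => 0) := by
  obtain ⟨m₀, hm₀⟩ := exists_linearIndependent_trunc (fun i => φ i c₀) hind
  exact ⟨m₀, fun m hm =>
    finrank_cuspSpace_add_le expn m φ (fun f _ i => hres f i) c₀ (hm₀ (m c₀) hm)⟩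

end Main

end Fermat.Agent.Gateway.GoodRed

end
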