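import Mathlib

set_option autoImplicit false

/-!
# Sums over the orbits of a permutation

For a permutation `rot` of a finite type `ι`, `Orb rot` is the type of orbits, `orbRep` a choice of
representatives and `orbSize` the size of the orbit.  A `rot`-invariant function sums to the
sum over the representatives weighted by the orbit sizes.
-/

noncomputable section

namespace Fermat.Agent.Gateway.GoodRed

open Function

variable {ι : Type*} (rot : Equiv.Perm ι)

/-- The orbits of a permutation. -/
abbrev Orb : Type _ := MulAction.orbitRel.Quotient (Subgroup.zpowers rot) ι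

/-- The orbit of an element. -/
def orbMk (i : ι) : Orb rot := Quotient.mk'' i

/-- A representative of an orbit. -/
def orbRep (c : Orb rot) : ι := Quotient.out c

/-- The size of the orbit of an element. -/
def orbSize (i : ι) : ℕ := minimalPeriod rot i

theorem orbMk_orbRep (c : Orb rot) : orbMk rot (orbRep rot c) = c := Quotient.out_eq' c

theorem orbMk_eq_iff {i j : ι} : orbMk rot i = orbMk rot j ↔ ∃ s : ℤ, (rot ^ s) j = i := by
  rw [orbMk, orbMk, Quotient.eq'']
  show MulAction.orbitRel (Subgroup.zpowers rot) ι i j ↔ _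
  rw [MulAction.orbitRel_apply, MulAction.mem_orbit_iff]
  constructor
  · rintro ⟨⟨g, hg⟩, h⟩
    obtain ⟨s, rfl⟩ := Subgroup.mem_zpowers_iff.mp hg
    exact ⟨s, h⟩
  · rintro ⟨s, h⟩
    exact ⟨⟨rot ^ s, Subgroup.zpow_mem_zpowers rot s⟩, h⟩

theorem orbMk_rot (i : ι) : orbMk rot (rot i) = orbMk rot i :=
  (orbMk_eq_iff rot).mpr ⟨1, by simp⟩

/-- An invariant function is constant on orbits. -/
theorem eq_of_orbMk_eq {α : Type*} {F : ι → α} (hF : ∀ i, F (rot i) = F i) {i j : ι}
    (h : orbMk rot i = orbMk rot j) : F i = F j := by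
  obtain ⟨s, rfl⟩ := (orbMk_eq_iff rot).mp h
  have hnat : ∀ n : ℕ, ∀ x, F ((rot ^ n) x) = F x := by
    intro n
    induction n with
    | zero => intro x; simp
    | succ n ih =>
      intro x
      rw [pow_succ', Equiv.Perm.mul_apply, hF, ih]
  have hneg : ∀ n : ℕ, ∀ x, F ((rot ^ n)⁻¹ x) = F x := by
    intro n x
    have := hnat n ((rot ^ n)⁻¹ x)
    rw [← Equiv.Perm.mul_apply, mul_inv_cancel, Equiv.Perm.one_apply] at this
    exact this.symm
  rcases Int.eq_nat_or_neg s with ⟨n, rfl | rfl⟩
  · rw [zpow_natCast]; exact hnat n j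
  · rw [zpow_neg, zpow_natCast]; exact hneg n j

theorem eq_orbRep {α : Type*} {F : ι → α} (hF : ∀ i, F (rot i) = F i) (i : ι) :
    F i = F (orbRep rot (orbMk rot i)) :=
  eq_of_orbMk_eq rot hF (orbMk_orbRep rot _).symm

section Finite

variable [Fintype ι] [DecidableEq ι]

set_option linter.unusedSectionVars false

instance : Fintype (Orb rot) := by
  classical
  exact Quotient.fintype _

/-- The number of elements of an orbit. -/
theorem card_filter_orbMk_eq (c : Orb rot) [DecidableEq (Orb rot)] :
    (Finset.univ.filter fun i => orbMk rot i = c).card = orbSize rot (orbRep rot c) := by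
  classical
  have hset : ∀ i, orbMk rot i = c ↔
      i ∈ MulAction.orbit (Subgroup.zpowers rot) (orbRep rot c) := by
    intro i
    rw [← MulAction.orbitRel_apply]
    conv_lhs => rw [← orbMk_orbRep rot c]
    rw [orbMk, orbMk, Quotient.eq'']
  have h1 : orbSize rot (orbRep rot c) =
      Fintype.card (MulAction.orbit (Subgroup.zpowers rot) (orbRep rot c)) :=
    MulAction.minimalPeriod_eq_card (a := rot) (b := orbRep rot c)
  rw [h1, ← Fintype.card_subtype]
  exact Fintype.card_congr (Equiv.subtypeEquivRight hset)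

/-- The sum of an invariant function is the sum over the orbit representatives, weighted by
the orbit sizes. -/
theorem sum_eq_sum_orb {R : Type*} [AddCommMonoid R] [DecidableEq (Orb rot)] (F : ι → R)
    (hF : ∀ i, F (rot i) = F i) :
    ∑ i, F i = ∑ c : Orb rot, orbSize rot (orbRep rot c) • F (orbRep rot c) := by
  rw [← Finset.sum_fiberwise Finset.univ (orbMk rot) F]
  refine Finset.sum_congr rfl fun c _ => ?_
  rw [← card_filter_orbMk_eq rot c, ← Finset.sum_const]
  refine Finset.sum_congr rfl fun i hi => ?_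
  rw [Finset.mem_filter] at hi
  rw [eq_orbRep rot hF i, hi.2]

theorem orbSize_pos (i : ι) : 0 < orbSize rot i :=
  minimalPeriod_pos_of_mem_periodicPts (by
    have : IsOfFinOrder rot := isOfFinOrder_of_finite rot
    rw [mem_periodicPts]
    refine ⟨orderOf rot, this.orderOf_pos, ?_⟩
    rw [IsPeriodicPt, IsFixedPt, ← Equiv.Perm.coe_pow, pow_orderOf_eq_one]
    rfl)

theorem orbSize_dvd {M : ℕ} (hM : rot ^ M = 1) (i : ι) : orbSize rot i ∣ M := by
  apply IsPeriodicPt.minimalPeriod_dvd
  rw [IsPeriodicPt, IsFixedPt, ← Equiv.Perm.coe_pow, hM]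
  rfl

theorem pow_orbSize_apply (i : ι) : (rot ^ orbSize rot i) i = i := by
  have := isPeriodicPt_minimalPeriod rot i
  rwa [IsPeriodicPt, IsFixedPt, ← Equiv.Perm.coe_pow] at this

theorem orbSize_rot (i : ι) : orbSize rot (rot i) = orbSize rot i := by
  unfold orbSize
  exact minimalPeriod_apply (f := rot) (x := i) (by
    have : IsOfFinOrder rot := isOfFinOrder_of_finite rot
    rw [mem_periodicPts]
    refine ⟨orderOf rot, this.orderOf_pos, ?_⟩
    rw [IsPeriodicPt, IsFixedPt, ← Equiv.Perm.coe_pow, pow_orderOf_eq_one]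
    rfl)

theorem exists_pow_orbRep (i : ι) : ∃ s : ℕ, (rot ^ s) (orbRep rot (orbMk rot i)) = i := by
  have h : orbMk rot i = orbMk rot (orbRep rot (orbMk rot i)) := (orbMk_orbRep rot _).symm
  obtain ⟨s, hs⟩ := (orbMk_eq_iff rot).mp h
  refine ⟨(s % (orderOf rot : ℤ)).toNat, ?_⟩
  have hpos : (0 : ℤ) < orderOf rot := by
    exact_mod_cast (isOfFinOrder_of_finite rot).orderOf_pos
  rw [← zpow_natCast, Int.toNat_of_nonneg (Int.emod_nonneg _ hpos.ne'), zpow_mod_orderOf]
  exact hs

end Finite

end Fermat.Agent.Gateway.GoodRed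

end
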