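import Mathlib
import Fermat.Agent.S28.Laurent
import Fermat.Agent.Lib.Residue.Ramified
import Fermat.Agent.Gateway.GoodRed.Count
import Fermat.Agent.Gateway.GoodRed.Orbits

set_option autoImplicit false

/-!
# The cuspidal Riemann inequality for a twist-stable family of expansions

`B` is a `k`-algebra (functions regular off the cusps), `σ j : B →+* k((z))` (`j : ι`) a finite
family of expansions, stable under the twists `z ↦ ζ z` (`ζ` a primitive `M`-th root of unity):
`σ (rot j) = twist ζ ∘ σ j`.  The orbits of `rot` are the cusps.  Given `g` differentials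
`h i dt` regular at the cusps and the residue theorem
`∑ j, res (σ j (f h_i) d(σ j t)) = 0`, the space `poleSpace σ P` of functions with
`ord_z (σ j f) ≥ - P j` satisfies `M (dim + g) ≤ ∑ j, P j + M dim (poleSpace σ 0)`.
-/

set_option linter.unusedSectionVars false
set_option linter.style.haveILetI false

noncomputable section

namespace Fermat.Agent.Gateway.GoodRed

open HahnSeries LaurentSeries ModularCurve Module Function
open Fermat.Agent.S28 Fermat.Agent.Lib.Residue

variable {k : Type*} [Field k]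

/-! ### Laurent series lemmas -/

theorem coeff_C_mul' (c : k) (f : k⸨X⸩) (n : ℤ) : (HahnSeries.C c * f).coeff n = c * f.coeff n := by
  have := coeff_single_mul' (0 : ℤ) c f n
  rwa [sub_zero] at this

theorem ub_D_twist (ζ : kˣ) (f : k⸨X⸩) :
    D (twist ζ f) = HahnSeries.C (ζ : k) * twist ζ (D f) := by
  ext n
  rw [D_coeff, twist_coeff, coeff_C_mul', twist_coeff, D_coeff, zpow_add_one, Units.val_mul]
  ring

theorem ub_res_twist (ζ : kˣ) (f : k⸨X⸩) : res (twist ζ f) = ((ζ⁻¹ : kˣ) : k) * res f := by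
  rw [res, res, twist_coeff, zpow_neg_one]

theorem ub_res_twist_mul_D_twist (ζ : kˣ) (F H : k⸨X⸩) :
    res (twist ζ F * D (twist ζ H)) = res (F * D H) := by
  rw [ub_D_twist, mul_left_comm, ← map_mul, res_C_mul, ub_res_twist, ← mul_assoc, ← Units.val_mul,
    mul_inv_cancel, Units.val_one, one_mul]

theorem ub_res_qExpand_mul_D_qExpand (r : ℕ) [NeZero r] (F H : k⸨X⸩) :
    res (qExpand k r F * D (qExpand k r H)) = (r : k) * res (F * D H) := by
  rw [D_qExpand, D_single, mul_one, mul_left_comm, ← map_mul, res, coeff_single_mul', res]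
  have h : (-1 : ℤ) - ((r : ℤ) - 1) = (r : ℤ) * (-1) := by ring
  rw [h, qExpand_coeff_mul]
  push_cast
  rfl

/-- `qContract` as a linear map. -/
def qContractₗ (r : ℕ) [NeZero r] : k⸨X⸩ →ₗ[k] k⸨X⸩ where
  toFun := qContract r
  map_add' f g := by
    ext n
    simp
  map_smul' c f := by
    ext n
    simp

@[simp] theorem qContractₗ_apply (r : ℕ) [NeZero r] (f : k⸨X⸩) :
    qContractₗ r f = qContract r f := rfl

/-! ### A twist-stable family of expansions -/

section Family

variable {B : Type*} [CommRing B] [Algebra k B] {M : ℕ} [NeZero M] {ζ : kˣ}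
  {ι : Type*} [Fintype ι] [DecidableEq ι] (σ : ι → B →+* k⸨X⸩) (rot : Equiv.Perm ι)

/-- The functions whose expansion `σ j f` has a pole of order at most `P j`, for all `j`. -/
def poleSpace (hσk : ∀ j (c : k), σ j (algebraMap k B c) = HahnSeries.C c) (P : ι → ℕ) :
    Submodule k B where
  carrier := {f | ∀ j, ∀ a : ℤ, a < -(P j : ℤ) → (σ j f).coeff a = 0}
  add_mem' := by
    intro f f' hf hf' j a ha
    rw [map_add, coeff_add, hf j a ha, hf' j a ha, add_zero]
  zero_mem' := by
    intro j a _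
    rw [map_zero, coeff_zero]
  smul_mem' := by
    intro c f hf j a ha
    rw [Algebra.smul_def, map_mul, hσk, coeff_C_mul', hf j a ha, mul_zero]

variable (hσk : ∀ j (c : k), σ j (algebraMap k B c) = HahnSeries.C c)
  (hrot : ∀ j f, σ (rot j) f = twist ζ (σ j f))

include hrot in
theorem sigma_pow (s : ℕ) (j : ι) (f : B) : σ ((rot ^ s) j) f = twist (ζ ^ s) (σ j f) := by
  induction s generalizing j with
  | zero => simp [twist_one]
  | succ s ih =>
    rw [pow_succ', Equiv.Perm.mul_apply, hrot, ih, twist_twist, pow_succ']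

include hrot in
theorem rot_pow_eq_one (hζ : IsPrimitiveRoot ζ M) (hσinj : Injective σ) : rot ^ M = 1 := by
  ext j
  apply hσinj
  ext1 f
  rw [sigma_pow σ rot hrot, hζ.pow_eq_one, twist_one, Equiv.Perm.one_apply]

/-- The ramification quotient `M / e` at `j`. -/
def ramQ (M : ℕ) (j : ι) : ℕ := M / orbSize rot j

include hrot in
theorem orbSize_mul_ramQ (hζ : IsPrimitiveRoot ζ M) (hσinj : Injective σ) (j : ι) :
    orbSize rot j * ramQ rot M j = M :=
  Nat.mul_div_cancel' (orbSize_dvd rot (rot_pow_eq_one σ rot hrot hζ hσinj) j)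

include hrot in
theorem ramQ_ne_zero (hζ : IsPrimitiveRoot ζ M) (hσinj : Injective σ) (j : ι) :
    ramQ rot M j ≠ 0 := by
  intro h
  have := orbSize_mul_ramQ σ rot hrot hζ hσinj j
  rw [h, mul_zero] at this
  exact NeZero.ne M this.symm

theorem ramQ_rot (j : ι) : ramQ rot M (rot j) = ramQ rot M j := by
  rw [ramQ, ramQ, orbSize_rot]

include hrot in
/-- The expansion at `j` is a series in `z ^ (M / e)`. -/
theorem coeff_sigma_eq_zero_of_not_dvd (hζ : IsPrimitiveRoot ζ M) (hσinj : Injective σ) (j : ι)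
    (f : B) {a : ℤ} (ha : ¬ (ramQ rot M j : ℤ) ∣ a) : (σ j f).coeff a = 0 := by
  have hr := ramQ_ne_zero σ rot hrot hζ hσinj j
  haveI : NeZero (ramQ rot M j) := ⟨hr⟩
  have hprim : IsPrimitiveRoot (ζ ^ orbSize rot j) (ramQ rot M j) :=
    hζ.pow (Nat.pos_of_ne_zero (NeZero.ne M)) (orbSize_mul_ramQ σ rot hrot hζ hσinj j).symm
  have hfix : twist (ζ ^ orbSize rot j) (σ j f) = σ j f := by
    rw [← sigma_pow σ rot hrot, pow_orbSize_apply]
  rw [twist_eq_self_iff (ramQ rot M j) hprim, mem_range_qExpand_iff] at hfix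
  exact hfix a ha

include hrot in
theorem qExpand_qContract_sigma (hζ : IsPrimitiveRoot ζ M) (hσinj : Injective σ) (j : ι)
    (f : B) [NeZero (ramQ rot M j)] :
    qExpand k (ramQ rot M j) (qContract (ramQ rot M j) (σ j f)) = σ j f :=
  qExpand_qContract _ fun _ ha => coeff_sigma_eq_zero_of_not_dvd σ rot hrot hζ hσinj j f ha

end Family

/-! ### Expansions in the local parameters at the cusps -/

/-- Contraction `f(z^r) ↦ f(z)` as a linear map (junk for `r = 0`). -/
def contr (r : ℕ) : k⸨X⸩ →ₗ[k] k⸨X⸩ :=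
  if h : r = 0 then 0 else @qContractₗ k _ r ⟨h⟩

theorem contr_apply (r : ℕ) [NeZero r] (f : k⸨X⸩) : contr r f = qContract r f := by
  rw [contr, dif_neg (NeZero.ne r)]
  rfl

section Cusps

variable {B : Type*} [CommRing B] [Algebra k B] {M : ℕ} [NeZero M] {ζ : kˣ}
  {ι : Type*} [Fintype ι] [DecidableEq ι] (σ : ι → B →+* k⸨X⸩) (rot : Equiv.Perm ι)
  (hσk : ∀ j (c : k), σ j (algebraMap k B c) = HahnSeries.C c)

/-- `σ j` as a `k`-linear map. -/
def sigmaₗ (j : ι) : B →ₗ[k] k⸨X⸩ where
  toFun := σ j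
  map_add' := map_add _
  map_smul' c f := by
    rw [Algebra.smul_def, map_mul, hσk, RingHom.id_apply]
    ext n
    rw [coeff_C_mul', coeff_smul, smul_eq_mul]

/-- The expansion at the cusp `c` in the local parameter `y = z ^ (M / e)`. -/
def expnAt (M : ℕ) (c : Orb rot) : B →ₗ[k] k⸨X⸩ :=
  (contr (ramQ rot M (orbRep rot c))).comp (sigmaₗ σ hσk (orbRep rot c))

variable (hrot : ∀ j f, σ (rot j) f = twist ζ (σ j f)) (hζ : IsPrimitiveRoot ζ M)
  (hσinj : Injective σ)

include hrot hζ hσinj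

theorem qExpand_expnAt (c : Orb rot) [NeZero (ramQ rot M (orbRep rot c))] (f : B) :
    qExpand k (ramQ rot M (orbRep rot c)) (expnAt σ rot hσk M c f) = σ (orbRep rot c) f := by
  rw [expnAt, LinearMap.comp_apply, contr_apply]
  exact qExpand_qContract_sigma σ rot hrot hζ hσinj (orbRep rot c) f

theorem expnAt_mul (c : Orb rot) (f f' : B) :
    expnAt σ rot hσk M c (f * f') = expnAt σ rot hσk M c f * expnAt σ rot hσk M c f' := by
  haveI : NeZero (ramQ rot M (orbRep rot c)) := ⟨ramQ_ne_zero σ rot hrot hζ hσinj _⟩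
  apply qExpand_injective (R := k) (ramQ rot M (orbRep rot c))
  rw [qExpand_expnAt σ rot hσk hrot hζ hσinj, (qExpand k _).map_mul,
    qExpand_expnAt σ rot hσk hrot hζ hσinj, qExpand_expnAt σ rot hσk hrot hζ hσinj,
    (σ _).map_mul]

theorem expnAt_coeff (c : Orb rot) (f : B) (b : ℤ) :
    (expnAt σ rot hσk M c f).coeff b =
      (σ (orbRep rot c) f).coeff ((ramQ rot M (orbRep rot c) : ℤ) * b) := by
  haveI : NeZero (ramQ rot M (orbRep rot c)) := ⟨ramQ_ne_zero σ rot hrot hζ hσinj _⟩
  rw [expnAt, LinearMap.comp_apply, contr_apply, qContract_coeff]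
  rfl

/-- The differential `h dt` at the cusp `c`, in terms of the local parameter. -/
theorem sigma_mul_D_sigma (c : Orb rot) [NeZero (ramQ rot M (orbRep rot c))] (f t : B) :
    σ (orbRep rot c) f * D (σ (orbRep rot c) t) =
      single ((ramQ rot M (orbRep rot c) : ℤ) - 1) ((ramQ rot M (orbRep rot c) : ℕ) : k) *
        qExpand k (ramQ rot M (orbRep rot c))
          (expnAt σ rot hσk M c f * D (expnAt σ rot hσk M c t)) := by
  rw [← qExpand_expnAt σ rot hσk hrot hζ hσinj c f, ← qExpand_expnAt σ rot hσk hrot hζ hσinj c t,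
    D_qExpand, D_single, mul_one, map_mul, Int.cast_natCast]
  ring

theorem res_sigma_mul_D_sigma (c : Orb rot) (f t : B) :
    res (σ (orbRep rot c) f * D (σ (orbRep rot c) t)) =
      ((ramQ rot M (orbRep rot c) : ℕ) : k) *
        res (expnAt σ rot hσk M c f * D (expnAt σ rot hσk M c t)) := by
  haveI : NeZero (ramQ rot M (orbRep rot c)) := ⟨ramQ_ne_zero σ rot hrot hζ hσinj _⟩
  rw [← qExpand_expnAt σ rot hσk hrot hζ hσinj c f, ← qExpand_expnAt σ rot hσk hrot hζ hσinj c t,
    ub_res_qExpand_mul_D_qExpand]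

end Cusps

/-! ### The pole spaces as cusp spaces -/

section Compare

variable {B : Type*} [CommRing B] [Algebra k B] {M : ℕ} [NeZero M] {ζ : kˣ}
  {ι : Type*} [Fintype ι] [DecidableEq ι] (σ : ι → B →+* k⸨X⸩) (rot : Equiv.Perm ι)
  (hσk : ∀ j (c : k), σ j (algebraMap k B c) = HahnSeries.C c)
  (hrot : ∀ j f, σ (rot j) f = twist ζ (σ j f)) (hζ : IsPrimitiveRoot ζ M)
  (hσinj : Injective σ)

/-- The multiplicity at the cusp `c` (in the local parameter) of the pole bound `P`. -/
def cuspMult (M : ℕ) (P : ι → ℕ) (c : Orb rot) : ℕ :=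
  P (orbRep rot c) / ramQ rot M (orbRep rot c)

include hrot hζ hσinj in
theorem cuspSpace_expnAt_eq_poleSpace (P : ι → ℕ) (hP : ∀ j, P (rot j) = P j) :
    cuspSpace (expnAt σ rot hσk M) (cuspMult rot M P) = poleSpace σ hσk P := by
  ext f
  constructor
  · intro hf j a ha
    set c := orbMk rot j with hc
    set j' := orbRep rot c with hj'
    obtain ⟨s, hs⟩ := exists_pow_orbRep rot j
    rw [← hs, sigma_pow σ rot hrot, twist_coeff]
    have hr0 : ramQ rot M j' ≠ 0 := ramQ_ne_zero σ rot hrot hζ hσinj j'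
    have hPj : P j = P j' := eq_orbRep rot hP j
    by_cases hdvd : (ramQ rot M j' : ℤ) ∣ a
    · obtain ⟨b, rfl⟩ := hdvd
      have hb : b < -(cuspMult rot M P c : ℤ) := by
        have h1 : (ramQ rot M j' : ℤ) * (cuspMult rot M P c : ℤ) ≤ (P j' : ℤ) := by
          rw [cuspMult]
          exact_mod_cast Nat.mul_div_le (P j') (ramQ rot M j')
        have hrpos : (0 : ℤ) < ramQ rot M j' := by exact_mod_cast Nat.pos_of_ne_zero hr0
        rw [hPj] at ha
        by_contra hcon
        rw [not_lt] at hcon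
        nlinarith
      have := hf c b hb
      rw [expnAt_coeff σ rot hσk hrot hζ hσinj] at this
      rw [this, mul_zero]
    · rw [coeff_sigma_eq_zero_of_not_dvd σ rot hrot hζ hσinj j' f hdvd, mul_zero]
  · intro hf c b hb
    rw [expnAt_coeff σ rot hσk hrot hζ hσinj]
    apply hf
    have hr0 : ramQ rot M (orbRep rot c) ≠ 0 := ramQ_ne_zero σ rot hrot hζ hσinj _
    have hrpos : (0 : ℤ) < ramQ rot M (orbRep rot c) := by
      exact_mod_cast Nat.pos_of_ne_zero hr0
    have h1 : (P (orbRep rot c) : ℤ) <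
        (ramQ rot M (orbRep rot c) : ℤ) * ((cuspMult rot M P c : ℤ) + 1) := by
      rw [cuspMult]
      exact_mod_cast Nat.lt_mul_div_succ (P (orbRep rot c)) (Nat.pos_of_ne_zero hr0)
    nlinarith

end Compare

/-! ### The differentials and the main theorem -/

section MainThm

variable {B : Type*} [CommRing B] [Algebra k B] {M : ℕ} [NeZero M] {ζ : kˣ}
  {ι : Type*} [Fintype ι] [DecidableEq ι] (σ : ι → B →+* k⸨X⸩) (rot : Equiv.Perm ι)
  (hσk : ∀ j (c : k), σ j (algebraMap k B c) = HahnSeries.C c)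
  (hrot : ∀ j f, σ (rot j) f = twist ζ (σ j f)) (hζ : IsPrimitiveRoot ζ M)
  (hσinj : Injective σ) (hM : (M : k) ≠ 0)

/-- The expansion of the differential `h dt` at the cusp `c`, in the local parameter. -/
def diffAt (M : ℕ) (t h : B) (c : Orb rot) : PowerSeries k :=
  PowerSeries.mk fun n =>
    (expnAt σ rot hσk M c h * D (expnAt σ rot hσk M c t)).coeff (n : ℤ)

include hrot hζ hσinj hM in
theorem natCast_ramQ_ne_zero (j : ι) : ((ramQ rot M j : ℕ) : k) ≠ 0 := by
  intro h0
  apply hM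
  rw [← orbSize_mul_ramQ σ rot hrot hζ hσinj j, Nat.cast_mul, h0, mul_zero]

include hrot hζ hσinj hM in
theorem coe_diffAt (t h : B)
    (hreg : ∀ j (a : ℤ), a < 0 → (σ j h * D (σ j t)).coeff a = 0) (c : Orb rot) :
    (diffAt σ rot hσk M t h c : k⸨X⸩) =
      expnAt σ rot hσk M c h * D (expnAt σ rot hσk M c t) := by
  haveI : NeZero (ramQ rot M (orbRep rot c)) := ⟨ramQ_ne_zero σ rot hrot hζ hσinj _⟩
  ext b
  rw [PowerSeries.coeff_coe]
  split_ifs with hb
  · -- negative coefficients vanish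
    have h1 := hreg (orbRep rot c)
      ((ramQ rot M (orbRep rot c) : ℤ) * b + ((ramQ rot M (orbRep rot c) : ℤ) - 1)) (by
        have hrpos : (0 : ℤ) < ramQ rot M (orbRep rot c) := by
          exact_mod_cast Nat.pos_of_ne_zero (NeZero.ne _)
        nlinarith)
    rw [sigma_mul_D_sigma σ rot hσk hrot hζ hσinj c h t, coeff_single_mul', add_sub_cancel_right,
      qExpand_coeff_mul] at h1
    rcases mul_eq_zero.mp h1 with h2 | h2
    · exact absurd h2 (natCast_ramQ_ne_zero σ rot hrot hζ hσinj hM _)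
    · exact h2.symm
  · rw [diffAt, PowerSeries.coeff_mk]
    congr 1
    omega

include hrot hζ hσinj hM in
/-- The residue theorem in the local parameters, from the residue theorem for the family. -/
theorem sum_res_expnAt (t : B) {g : ℕ} (h : Fin g → B)
    (hreg : ∀ i j (a : ℤ), a < 0 → (σ j (h i) * D (σ j t)).coeff a = 0)
    (hres : ∀ f : B, ∀ i, ∑ j, res (σ j (f * h i) * D (σ j t)) = 0) (f : B) (i : Fin g) :
    ∑ c : Orb rot, res (expnAt σ rot hσk M c f *
      (diffAt σ rot hσk M t (h i) c : k⸨X⸩)) = 0 := by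
  classical
  have hinv : ∀ j, res (σ (rot j) (f * h i) * D (σ (rot j) t)) =
      res (σ j (f * h i) * D (σ j t)) := by
    intro j
    rw [hrot, hrot, ub_res_twist_mul_D_twist]
  have h1 := hres f i
  rw [sum_eq_sum_orb rot _ hinv] at h1
  have h2 : ∀ c : Orb rot, orbSize rot (orbRep rot c) •
      res (σ (orbRep rot c) (f * h i) * D (σ (orbRep rot c) t)) =
      (M : k) * res (expnAt σ rot hσk M c f * (diffAt σ rot hσk M t (h i) c : k⸨X⸩)) := by
    intro c
    rw [res_sigma_mul_D_sigma σ rot hσk hrot hζ hσinj c, expnAt_mul σ rot hσk hrot hζ hσinj,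
      coe_diffAt σ rot hσk hrot hζ hσinj hM t (h i) (hreg i) c, nsmul_eq_mul, ← mul_assoc,
      ← Nat.cast_mul, orbSize_mul_ramQ σ rot hrot hζ hσinj, mul_assoc]
  rw [Finset.sum_congr rfl fun c _ => h2 c, ← Finset.mul_sum] at h1
  exact (mul_eq_zero.mp h1).resolve_left hM

include hrot hζ hσinj hM in
theorem linearIndependent_diffAt (t : B) {g : ℕ} (h : Fin g → B) (hli : LinearIndependent k h)
    (hreg : ∀ i j (a : ℤ), a < 0 → (σ j (h i) * D (σ j t)).coeff a = 0)
    (c : Orb rot) (hinj : Injective (σ (orbRep rot c))) (hDt : D (σ (orbRep rot c) t) ≠ 0) :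
    LinearIndependent k fun i : Fin g => diffAt σ rot hσk M t (h i) c := by
  haveI : NeZero (ramQ rot M (orbRep rot c)) := ⟨ramQ_ne_zero σ rot hrot hζ hσinj _⟩
  rw [Fintype.linearIndependent_iff]
  intro a ha
  have hDt' : D (expnAt σ rot hσk M c t) ≠ 0 := by
    intro h0
    apply hDt
    rw [← qExpand_expnAt σ rot hσk hrot hζ hσinj c t, D_qExpand, h0, map_zero, mul_zero]
  have h1 : ((∑ i, a i • diffAt σ rot hσk M t (h i) c : PowerSeries k) : k⸨X⸩) = 0 := by
    rw [ha, PowerSeries.coe_zero]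
  have h2 : expnAt σ rot hσk M c (∑ i, a i • h i) * D (expnAt σ rot hσk M c t) = 0 := by
    rw [← h1, map_sum, Finset.sum_mul, map_sum]
    refine Finset.sum_congr rfl fun i _ => ?_
    rw [map_smul, ← HahnSeries.C_mul_eq_smul, mul_assoc,
      ← coe_diffAt σ rot hσk hrot hζ hσinj hM t (h i) (hreg i) c, PowerSeries.coe_smul,
      HahnSeries.C_mul_eq_smul]
  have h3 : expnAt σ rot hσk M c (∑ i, a i • h i) = 0 :=
    (mul_eq_zero.mp h2).resolve_right hDt'
  have h4 : σ (orbRep rot c) (∑ i, a i • h i) = 0 := by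
    rw [← qExpand_expnAt σ rot hσk hrot hζ hσinj c, h3, map_zero]
  have h5 : ∑ i, a i • h i = 0 := hinj (by rw [h4, map_zero])
  exact Fintype.linearIndependent_iff.mp hli a h5

include hrot hζ hσinj hM in
/-- **Cuspidal Riemann inequality** for a twist-stable family of expansions: for every
`rot`-invariant pole bound `P` (in the variable `z`) which is large enough at `j₀`,
`M * (dim (poleSpace σ P) + g) ≤ ∑ j, P j + M * dim (poleSpace σ 0)`. -/
theorem cuspidal_riemann_inequality (t : B) {g : ℕ} (h : Fin g → B)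
    (hli : LinearIndependent k h)
    (hreg : ∀ i j (a : ℤ), a < 0 → (σ j (h i) * D (σ j t)).coeff a = 0)
    (hres : ∀ f : B, ∀ i, ∑ j, res (σ j (f * h i) * D (σ j t)) = 0)
    [Module.Finite k (poleSpace σ hσk fun _ => 0)]
    (hinj : ∀ j, Injective (σ j)) (hDt : ∀ j, D (σ j t) ≠ 0) (j₀ : ι) :
    ∃ m₀ : ℕ, ∀ P : ι → ℕ, (∀ j, P (rot j) = P j) → m₀ ≤ P j₀ →
      Module.Finite k (poleSpace σ hσk P) ∧
        M * (finrank k (poleSpace σ hσk P) + g) ≤
          ∑ j, P j + M * finrank k (poleSpace σ hσk fun _ => 0) := by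
  classical
  set c₀ := orbMk rot j₀ with hc₀
  have hzero : cuspSpace (expnAt σ rot hσk M) (fun _ => 0) = poleSpace σ hσk fun _ => 0 := by
    have := cuspSpace_expnAt_eq_poleSpace σ rot hσk hrot hζ hσinj (fun _ => 0) (fun _ => rfl)
    rw [← this]
    congr 1
    ext c
    simp [cuspMult]
  haveI : Module.Finite k (cuspSpace (expnAt σ rot hσk M) fun _ => 0) := by
    rw [hzero]; infer_instance
  obtain ⟨m₀, hm₀⟩ := exists_bound_finrank_cuspSpace (expnAt σ rot hσk M)
    (fun i c => diffAt σ rot hσk M t (h i) c)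
    (fun f i => sum_res_expnAt σ rot hσk hrot hζ hσinj hM t h hreg hres f i) c₀
    (linearIndependent_diffAt σ rot hσk hrot hζ hσinj hM t h hli hreg c₀ (hinj _) (hDt _))
  refine ⟨M * m₀, fun P hP hPj₀ => ?_⟩
  have hcmp := cuspSpace_expnAt_eq_poleSpace σ rot hσk hrot hζ hσinj P hP
  have hrc : ramQ rot M (orbRep rot c₀) ≠ 0 := ramQ_ne_zero σ rot hrot hζ hσinj _
  have hm : m₀ ≤ cuspMult rot M P c₀ := by
    rw [cuspMult, Nat.le_div_iff_mul_le (Nat.pos_of_ne_zero hrc)]
    have hPj : P j₀ = P (orbRep rot c₀) := eq_orbRep rot hP j₀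
    have hle : ramQ rot M (orbRep rot c₀) ≤ M :=
      Nat.div_le_self _ _
    calc m₀ * ramQ rot M (orbRep rot c₀) ≤ m₀ * M := Nat.mul_le_mul_left _ hle
      _ = M * m₀ := mul_comm _ _
      _ ≤ P j₀ := hPj₀
      _ = P (orbRep rot c₀) := hPj
  obtain ⟨hfin, hle⟩ := hm₀ (cuspMult rot M P) hm
  rw [hcmp] at hfin
  refine ⟨hfin, ?_⟩
  rw [hcmp, hzero] at hle
  have hsum : M * ∑ c : Orb rot, cuspMult rot M P c ≤ ∑ j, P j := by
    rw [sum_eq_sum_orb rot P hP, Finset.mul_sum]
    refine Finset.sum_le_sum fun c _ => ?_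
    have hMc := orbSize_mul_ramQ σ rot hrot hζ hσinj (orbRep rot c)
    have hsplit : M * cuspMult rot M P c = orbSize rot (orbRep rot c) *
        (ramQ rot M (orbRep rot c) * cuspMult rot M P c) := by
      rw [← mul_assoc, hMc]
    rw [smul_eq_mul, hsplit]
    exact Nat.mul_le_mul_left _ (Nat.mul_div_le _ _)
  calc M * (finrank k (poleSpace σ hσk P) + g)
      ≤ M * (∑ c : Orb rot, cuspMult rot M P c + finrank k (poleSpace σ hσk fun _ => 0)) :=
        Nat.mul_le_mul_left _ hle
    _ = M * ∑ c : Orb rot, cuspMult rot M P c + M * finrank k (poleSpace σ hσk fun _ => 0) :=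
        mul_add _ _ _
    _ ≤ ∑ j, P j + M * finrank k (poleSpace σ hσk fun _ => 0) := Nat.add_le_add_right hsum _

end MainThm

end Fermat.Agent.Gateway.GoodRed

end
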