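import Mathlib
import Fermat.Agent.Gateway.GoodRed.UpperBound
import Fermat.Agent.Gateway.GoodRed.SumEmb
import Fermat.Agent.Gateway.GoodRed.ConstantsGen

set_option autoImplicit false

/-!
# P-GATEWAY (c) GoodRed: the cuspidal upper bound, assembled

`E` a function field over `k` with two coordinate functions:

* `x` (the `j`-line): all the embeddings `σ i : E → k((z))` of a twist-stable family send `x` to the
  same series `ξ` of negative order, and there are `[E : k(x)]` of them;
* `t` (the `t`-line, through an `Algebra (RatFunc k) E` structure): the restrictions of the `σ i` to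
  `k(t)` are branches of expansions of the projective `t`-line at finitely many points, and there
  are `(∑ e o) * [E : k(t)]` of them, so that the residue theorem `SumEmb.sum_res_family_eq_zero`
  applies.

`regRing k E x` is the ring of functions regular away from the cusps (the integral closure of
`k[x]` in `E`).  Given `g` linearly independent elements `h i` of it with `h i dt` regular at every
cusp, the space of functions of `regRing` with poles bounded by `P` has dimension at most
`(∑ P) / M + 1 - g`, for `P` large at one cusp (`cuspidal_upper_bound`).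
-/

set_option linter.unusedSectionVars false
set_option linter.style.haveILetI false

noncomputable section

namespace Fermat.Agent.Gateway.GoodRed

open Module HahnSeries LaurentSeries Polynomial Function ModularCurve Fermat.Agent.S28
  Fermat.Agent.Lib.Residue IntermediateField

section RegRing

variable (k : Type*) [Field k] (E : Type*) [Field E] [Algebra k E] (x : E)

/-- The functions regular away from the cusps: the integral closure of `k[x]` in `E`, as a
`k`-subalgebra. -/
def regRing : Subalgebra k E := (integralClosure (Algebra.adjoin k {x}) E).restrictScalars k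

variable {k E x}

theorem mem_regRing_iff {f : E} : f ∈ regRing k E x ↔ IsIntegral (Algebra.adjoin k {x}) f :=
  Iff.rfl

variable {ι : Type*} (σ : ι → E →+* k⸨X⸩)

/-- The restriction of the family to `regRing`. -/
def sigmaReg (j : ι) : regRing k E x →+* k⸨X⸩ := (σ j).comp (algebraMap (regRing k E x) E)

theorem sigmaReg_apply (j : ι) (f : regRing k E x) : sigmaReg σ j f = σ j (f : E) := rfl

theorem sigmaReg_algebraMap (hσk : ∀ j (c : k), σ j (algebraMap k E c) = HahnSeries.C c) (j : ι)
    (c : k) : sigmaReg (x := x) σ j (algebraMap k (regRing k E x) c) = HahnSeries.C c :=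
  hσk j c

theorem sigmaReg_injective_apply (j : ι) : Injective (sigmaReg (x := x) σ j) := by
  intro f f' h
  exact Subtype.ext ((σ j).injective h)

end RegRing

section Fractions

open scoped IntermediateField.algebraAdjoinAdjoin

variable {k : Type*} [Field k] {E : Type*} [Field E] [Algebra k E] {x : E}

/-- Every element of `E` is a quotient of an element of `regRing` by a nonzero element of
`k[x]`. -/
theorem exists_regRing_multiple [FiniteDimensional k⟮x⟯ E] (f : E) :
    ∃ (b : regRing k E x) (y : Algebra.adjoin k {x}), y ≠ 0 ∧ (y : E) * f = b := by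
  have halg : IsAlgebraic (Algebra.adjoin k {x}) f := by
    rw [IsFractionRing.isAlgebraic_iff (Algebra.adjoin k {x}) k⟮x⟯ E]
    exact Algebra.IsAlgebraic.isAlgebraic f
  obtain ⟨y, hy, h⟩ := halg.exists_integral_multiple
  exact ⟨⟨y • f, mem_regRing_iff.mpr h⟩, y, hy, (Algebra.smul_def y f).symm⟩

theorem algebraMap_adjoin_mem_regRing (y : Algebra.adjoin k {x}) : (y : E) ∈ regRing k E x :=
  mem_regRing_iff.mpr isIntegral_algebraMap

variable {ι : Type*} (σ : ι → E →+* k⸨X⸩)

/-- The restricted family is still injective. -/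
theorem sigmaReg_injective [FiniteDimensional k⟮x⟯ E] (hσinj : Injective σ) :
    Injective (sigmaReg (k := k) (x := x) σ) := by
  intro i j hij
  apply hσinj
  refine RingHom.ext fun f => ?_
  obtain ⟨b, y, hy, h⟩ := exists_regRing_multiple (k := k) (x := x) f
  have hy0 : (y : E) ≠ 0 := fun h0 => hy (Subtype.ext h0)
  have h1 : ∀ l, σ l (y : E) * σ l f = sigmaReg σ l b := by
    intro l
    rw [← map_mul, h, sigmaReg_apply]
  have h2 : σ i (y : E) = σ j (y : E) := by
    have := congrFun (congrArg DFunLike.coe hij) ⟨(y : E), algebraMap_adjoin_mem_regRing y⟩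
    exact this
  have h3 : σ i (y : E) * σ i f = σ i (y : E) * σ j f := by
    rw [h1 i, hij, ← h1 j, h2]
  exact mul_left_cancel₀ ((map_ne_zero (σ i)).mpr hy0) h3

end Fractions

section CuspSpaceE

variable {k : Type*} [Field k] {E : Type*} [Field E] [Algebra k E] (x : E)
  {ι : Type*} [Fintype ι] [DecidableEq ι] (σ : ι → E →+* k⸨X⸩)
  (hσk : ∀ j (c : k), σ j (algebraMap k E c) = HahnSeries.C c)

/-- The functions of `E`, regular away from the cusps, with poles of order at most `P j` in the
`j`-th expansion, as a `k`-subspace of `E`. -/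
def cuspSpaceE (P : ι → ℕ) : Submodule k E :=
  Subalgebra.toSubmodule (regRing k E x) ⊓ poleSpace σ hσk P

theorem mem_cuspSpaceE_iff {P : ι → ℕ} {f : E} :
    f ∈ cuspSpaceE x σ hσk P ↔ IsIntegral (Algebra.adjoin k {x}) f ∧
      ∀ j, ∀ a : ℤ, a < -(P j : ℤ) → (σ j f).coeff a = 0 := Iff.rfl

/-- `cuspSpaceE` is the pole space of the restricted family on `regRing`. -/
def poleSpaceRegEquiv (P : ι → ℕ) :
    poleSpace (sigmaReg (x := x) σ) (sigmaReg_algebraMap σ hσk) P ≃ₗ[k] cuspSpaceE x σ hσk P where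
  toFun f := ⟨((f : regRing k E x) : E), ⟨(f : regRing k E x).2, fun j a ha => f.2 j a ha⟩⟩
  invFun g := ⟨⟨(g : E), g.2.1⟩, fun j a ha => g.2.2 j a ha⟩
  map_add' _ _ := rfl
  map_smul' _ _ := rfl
  left_inv _ := rfl
  right_inv _ := rfl

end CuspSpaceE

section Constants

variable {k : Type*} [Field k] {E : Type*} [Field E] [Algebra k E] {x : E}
  {ι : Type*} [Fintype ι] [DecidableEq ι] (σ : ι → E →+* k⸨X⸩)
  (hσk : ∀ j (c : k), σ j (algebraMap k E c) = HahnSeries.C c)
  (ξ : k⸨X⸩) (hξ : ξ.order < 0) (hσx : ∀ j, σ j x = ξ)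

include hξ hσx in
/-- The functions of `regRing` regular at all the cusps are the constants. -/
theorem poleSpace_zero_le [Nonempty ι] [FiniteDimensional k⟮x⟯ E] [Algebra.IsSeparable k⟮x⟯ E]
    (hσinj : Injective σ) (hcard : Fintype.card ι = finrank k⟮x⟯ E) :
    poleSpace (sigmaReg (x := x) σ) (sigmaReg_algebraMap σ hσk) (fun _ => 0) ≤
      Submodule.span k {1} := by
  intro f hf
  obtain ⟨c, hc⟩ := exists_eq_algebraMap_of_regular_adjoin x σ hσk ξ hξ hσx hσinj hcard (f : E)
    f.2 (fun j a ha => hf j a (by simpa using ha))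
  rw [Submodule.mem_span_singleton]
  refine ⟨c, Subtype.ext ?_⟩
  rw [hc, Algebra.smul_def, mul_one]
  rfl

include hξ hσx in
theorem finite_poleSpace_zero [Nonempty ι] [FiniteDimensional k⟮x⟯ E]
    [Algebra.IsSeparable k⟮x⟯ E]
    (hσinj : Injective σ) (hcard : Fintype.card ι = finrank k⟮x⟯ E) :
    Module.Finite k (poleSpace (sigmaReg (x := x) σ) (sigmaReg_algebraMap σ hσk) (fun _ => 0)) := by
  haveI : Module.Finite k (Submodule.span k {(1 : regRing k E x)}) :=
    Module.Finite.span_singleton k 1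
  exact Submodule.finiteDimensional_of_le (poleSpace_zero_le σ hσk ξ hξ hσx hσinj hcard)

include hξ hσx in
theorem finrank_poleSpace_zero_le [Nonempty ι] [FiniteDimensional k⟮x⟯ E]
    [Algebra.IsSeparable k⟮x⟯ E]
    (hσinj : Injective σ) (hcard : Fintype.card ι = finrank k⟮x⟯ E) :
    finrank k (poleSpace (sigmaReg (x := x) σ) (sigmaReg_algebraMap σ hσk) (fun _ => 0)) ≤ 1 := by
  haveI : Module.Finite k (Submodule.span k {(1 : regRing k E x)}) :=
    Module.Finite.span_singleton k 1
  refine (Submodule.finrank_mono (poleSpace_zero_le σ hσk ξ hξ hσx hσinj hcard)).trans ?_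
  exact (finrank_span_singleton (K := k) (one_ne_zero (α := regRing k E x))).le

end Constants

section DBranch

variable {k : Type*} [Field k]

theorem D_ne_zero_of_isParam {π : k⸨X⸩} (h : IsParam π) : D π ≠ 0 := by
  intro h0
  have := res_zpow_mul_D h (-1)
  rw [h0, mul_zero, res_zero, if_pos rfl] at this
  exact zero_ne_one this

theorem D_inv_ne_zero_of_isParam {π : k⸨X⸩} (h : IsParam π) : D π⁻¹ ≠ 0 := by
  intro h0
  have h1 : D (π * π⁻¹) = 0 := by rw [mul_inv_cancel₀ h.ne_zero, D_one]
  rw [D_mul, h0, mul_zero, add_zero] at h1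
  rcases mul_eq_zero.mp h1 with h2 | h2
  · exact D_ne_zero_of_isParam h h2
  · exact inv_ne_zero h.ne_zero h2

theorem D_twist_ne_zero (ζ : kˣ) {f : k⸨X⸩} (hf : D f ≠ 0) : D (twist ζ f) ≠ 0 := by
  rw [ub_D_twist]
  refine mul_ne_zero ?_ ((map_ne_zero (twist ζ)).mpr hf)
  rw [Ne, map_eq_zero_iff _ HahnSeries.C_injective]
  exact ζ.ne_zero

theorem D_qExpand_ne_zero (r : ℕ) [NeZero r] (hr : (r : k) ≠ 0) {f : k⸨X⸩} (hf : D f ≠ 0) :
    D (qExpand k r f) ≠ 0 := by
  rw [D_qExpand, D_single, mul_one]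
  refine mul_ne_zero ?_ ((map_ne_zero (qExpand k r)).mpr hf)
  rw [Ne, HahnSeries.single_eq_zero_iff]
  exact_mod_cast hr

variable (S : Finset k) (ε : Option k → RatFunc k →+* k⸨X⸩) (π : Option k → k⸨X⸩)
  (hπ : ∀ o ∈ Finset.insertNone S, IsParam (π o))
  (hε : ∀ a ∈ S, ε (some a) RatFunc.X = HahnSeries.C a + π (some a))
  (hεinf : ε none RatFunc.X = (π none)⁻¹)
  (m : Option k → ℕ) [∀ o, NeZero (m o)] (ζ : kˣ)

include hπ hε hεinf in
/-- The coordinate `t` is not a `p`-th power in any of its branches. -/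
theorem D_branch_X_ne_zero {o : Option k} (ho : o ∈ Finset.insertNone S) (hm : (m o : k) ≠ 0)
    (b : ℕ) : D (branch ε m ζ o b RatFunc.X) ≠ 0 := by
  rw [branch_apply]
  refine D_twist_ne_zero _ (D_qExpand_ne_zero _ hm ?_)
  cases o with
  | none => rw [hεinf]; exact D_inv_ne_zero_of_isParam (hπ none ho)
  | some a =>
    have ha : a ∈ S := by simpa using ho
    rw [hε a ha, D_add, D_C, zero_add]
    exact D_ne_zero_of_isParam (hπ (some a) ho)

end DBranch

section Main

variable {k : Type*} [Field k] {E : Type*} [Field E] [Algebra k E]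
  [Algebra (RatFunc k) E] [FiniteDimensional (RatFunc k) E] [Algebra.IsSeparable (RatFunc k) E]
  [Algebra (Polynomial k) E] [IsScalarTower (Polynomial k) (RatFunc k) E]
  (S : Finset k) (ε : Option k → RatFunc k →+* k⸨X⸩) (π : Option k → k⸨X⸩)
  (hC : ∀ o ∈ Finset.insertNone S, ∀ c : k, ε o (RatFunc.C c) = HahnSeries.C c)
  (hπ : ∀ o ∈ Finset.insertNone S, IsParam (π o))
  (hε : ∀ a ∈ S, ε (some a) RatFunc.X = HahnSeries.C a + π (some a))
  (hεinf : ε none RatFunc.X = (π none)⁻¹)
  (e m : Option k → ℕ) [∀ o, NeZero (m o)] (M : ℕ) [NeZero M]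
  (hem : ∀ o ∈ Finset.insertNone S, e o * m o = M) (ζ : kˣ) (hζ : IsPrimitiveRoot ζ M)
  (hM : (M : k) ≠ 0)
  {ι : Type*} [Fintype ι] [DecidableEq ι] (σ : ι → E →+* k⸨X⸩) (rot : Equiv.Perm ι)
  (hσk : ∀ j (c : k), σ j (algebraMap k E c) = HahnSeries.C c)
  (hrot : ∀ j f, σ (rot j) f = twist ζ (σ j f)) (hσinj : Injective σ)
  (hcover : ∀ i, ∃ o ∈ Finset.insertNone S, ∃ b < e o,
    (σ i).comp (algebraMap (RatFunc k) E) = branch ε m ζ o b)
  (hcardt : Fintype.card ι = (∑ o ∈ Finset.insertNone S, e o) * finrank (RatFunc k) E)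
  (x : E) (ξ : k⸨X⸩) (hξ : ξ.order < 0) (hσx : ∀ j, σ j x = ξ)
  (hxt : ∀ g : E, IsIntegral (Algebra.adjoin k {x}) g → ∃ n : ℕ,
    IsIntegral (Polynomial k)
      (algebraMap (Polynomial k) E ((∏ a ∈ S, (Polynomial.X - Polynomial.C a)) ^ n) * g))

include hC hπ hε hεinf hem hζ hσinj hcover hcardt hxt in
/-- The residue theorem for a differential `g dt` with `g` regular away from the cusps. -/
theorem sum_res_regRing (g : E) (hg : IsIntegral (Algebra.adjoin k {x}) g) :
    ∑ i, res (σ i g * D (σ i (algebraMap (RatFunc k) E RatFunc.X))) = 0 := by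
  obtain ⟨n, hn⟩ := hxt g hg
  obtain ⟨f, hf⟩ := exists_trace_eq_of_isIntegral S g n hn
  exact sum_res_family_eq_zero S ε π hC hπ hε hεinf e m M hem ζ hζ Finset.univ σ hσinj.injOn
    (fun i _ => hcover i) (by rw [Finset.card_univ, hcardt]) g f (fun _ => n) hf

include hC hπ hε hεinf hem hζ hM hσinj hcover hcardt hxt hrot hξ hσx in
/-- **The cuspidal upper bound.**  For `g` linearly independent functions `h i`, regular away from
the cusps, such that the differentials `h i dt` are regular at every cusp, the functions regular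
away from the cusps with poles of order at most `P j` in the `j`-th expansion form a space of
dimension at most `(∑ P) / M + 1 - g`, as soon as `P` is large at `j₀`. -/
theorem cuspidal_upper_bound [FiniteDimensional k⟮x⟯ E] [Algebra.IsSeparable k⟮x⟯ E]
    (hcardx : Fintype.card ι = finrank k⟮x⟯ E)
    (t : regRing k E x) (ht : (t : E) = algebraMap (RatFunc k) E RatFunc.X)
    {g : ℕ} (h : Fin g → regRing k E x) (hli : LinearIndependent k h)
    (hreg : ∀ i j (a : ℤ), a < 0 → (σ j (h i : E) * D (σ j (t : E))).coeff a = 0)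
    (hDt : ∀ j, D (σ j (t : E)) ≠ 0) (j₀ : ι) :
    ∃ m₀ : ℕ, ∀ P : ι → ℕ, (∀ j, P (rot j) = P j) → m₀ ≤ P j₀ →
      Module.Finite k (poleSpace (sigmaReg (x := x) σ) (sigmaReg_algebraMap σ hσk) P) ∧
        M * (finrank k (poleSpace (sigmaReg (x := x) σ) (sigmaReg_algebraMap σ hσk) P) + g) ≤
          ∑ j, P j + M := by
  haveI : Nonempty ι := ⟨j₀⟩
  haveI := finite_poleSpace_zero (x := x) σ hσk ξ hξ hσx hσinj hcardx
  have hres : ∀ f : regRing k E x, ∀ i,
      ∑ j, res (sigmaReg σ j (f * h i) * D (sigmaReg σ j t)) = 0 := by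
    intro f i
    have := sum_res_regRing S ε π hC hπ hε hεinf e m M hem ζ hζ σ hσinj hcover hcardt x hxt
      ((f * h i : regRing k E x) : E) (f * h i).2
    simp only [sigmaReg_apply, ht]
    exact this
  obtain ⟨m₀, hm₀⟩ := cuspidal_riemann_inequality (sigmaReg (x := x) σ) rot
    (sigmaReg_algebraMap σ hσk) (fun j f => hrot j (f : E)) hζ (sigmaReg_injective σ hσinj) hM t h
    hli hreg hres (fun j => sigmaReg_injective_apply σ j) hDt j₀
  refine ⟨m₀, fun P hP hPj => ?_⟩
  obtain ⟨hfin, hle⟩ := hm₀ P hP hPj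
  refine ⟨hfin, hle.trans ?_⟩
  have := finrank_poleSpace_zero_le (x := x) σ hσk ξ hξ hσx hσinj hcardx
  exact Nat.add_le_add_left (by simpa using Nat.mul_le_mul_left M this) _


include hC hπ hε hεinf hem hζ hM hσinj hcover hcardt hxt hrot hξ hσx in
/-- **The cuspidal upper bound**, in terms of subspaces of `E`, with the nonvanishing of `dt`
derived from the branch structure. -/
theorem cuspidal_upper_bound' [FiniteDimensional k⟮x⟯ E] [Algebra.IsSeparable k⟮x⟯ E]
    (hcardx : Fintype.card ι = finrank k⟮x⟯ E)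
    (ht : IsIntegral (Algebra.adjoin k {x}) (algebraMap (RatFunc k) E RatFunc.X))
    {g : ℕ} (h : Fin g → E) (hint : ∀ i, IsIntegral (Algebra.adjoin k {x}) (h i))
    (hli : LinearIndependent k h)
    (hreg : ∀ i j (a : ℤ), a < 0 →
      (σ j (h i) * D (σ j (algebraMap (RatFunc k) E RatFunc.X))).coeff a = 0)
    (j₀ : ι) :
    ∃ m₀ : ℕ, ∀ P : ι → ℕ, (∀ j, P (rot j) = P j) → m₀ ≤ P j₀ →
      Module.Finite k (cuspSpaceE x σ hσk P) ∧
        M * (finrank k (cuspSpaceE x σ hσk P) + g) ≤ ∑ j, P j + M := by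
  set t : regRing k E x := ⟨algebraMap (RatFunc k) E RatFunc.X, ht⟩ with htdef
  have hDt : ∀ j, D (σ j (t : E)) ≠ 0 := by
    intro j
    obtain ⟨o, ho, b, -, hb⟩ := hcover j
    have h1 : σ j (t : E) = branch ε m ζ o b RatFunc.X := by
      rw [← hb]; rfl
    rw [h1]
    refine D_branch_X_ne_zero S ε π hπ hε hεinf m ζ ho ?_ b
    intro h0
    apply hM
    rw [← hem o ho, Nat.cast_mul, h0, mul_zero]
  have hli' : LinearIndependent k (fun i => (⟨h i, hint i⟩ : regRing k E x)) := by
    refine LinearIndependent.of_comp (Subalgebra.val (regRing k E x)).toLinearMap ?_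
    exact hli
  obtain ⟨m₀, hm₀⟩ := cuspidal_upper_bound S ε π hC hπ hε hεinf e m M hem ζ hζ hM σ rot hσk hrot
    hσinj hcover hcardt x ξ hξ hσx hxt hcardx t rfl (fun i => ⟨h i, hint i⟩) hli' hreg hDt j₀
  refine ⟨m₀, fun P hP hPj => ?_⟩
  obtain ⟨hfin, hle⟩ := hm₀ P hP hPj
  have e' := poleSpaceRegEquiv x σ hσk P
  refine ⟨Module.Finite.equiv e', ?_⟩
  rw [← e'.finrank_eq]
  exact hle

end Main

end Fermat.Agent.Gateway.GoodRed

end
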