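import Mathlib
import Fermat.Agent.S24.PlaceCount
import Fermat.Agent.S24.ZP.PlaceBasics
import Fermat.Agent.Lib.RiemannRoch.DegBound

/-!
helper48 (P-GATEWAY (c), WP-GR10 `PlacesAtInfinity`).  Characteristic-free place counting from
Laurent-series embeddings.

Let `k ⊆ F` be fields, `y : F` with `F / k(y)` finite of degree `n`, and let
`σ i : F →+* k((z))` (`i : X`, `|X| = n`) be `n` distinct `k`-embeddings with `σ i y = η` for a
fixed series `η` of order `M > 0`.  Assume a permutation `g` of `X` ("twisting") preserves the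
`z`-adic orders, its cycle lengths divide `M`, and the orders of `σ i f` are divisible by
`M / (cycle length of i)`.  Then the places of `F` at which `y` has a zero correspond to the
cycles of `g`; they all have degree one, the ramification index is the cycle length and
`ord_z (σ i f) = (M / cycle length) * ord_P f`.

No separability, no hypothesis on `k`: the upper bound on the number of embeddings inducing a given
place comes from Artin's independence of characters, the lower bound from the fundamental
inequality `∑ e_P f_P ≤ n` (`Fermat.Agent.Lib.RiemannRoch.DegBound`).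
-/

set_option autoImplicit false

open AlgebraicCurve IntermediateField

namespace Fermat.Agent.Gateway.GoodRed.PlacesAtInfinity

open Fermat.Agent.S24

variable {k F : Type*} [Field k] [Field F] [Algebra k F]

/-- The `z`-adic order of `σ f`. -/
noncomputable def wOf (σ : F →+* LaurentSeries k) (f : F) : ℤ := (σ f).order

theorem isAddVal_wOf (σ : F →+* LaurentSeries k)
    (hσ : ∀ c : k, σ (algebraMap k F c) = HahnSeries.C c) : IsAddVal k (wOf σ) where
  map_mul f g hf hg := by
    simp only [wOf, map_mul]
    exact HahnSeries.order_mul ((map_ne_zero σ).2 hf) ((map_ne_zero σ).2 hg)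
  map_add f g hf hg hfg := by
    simp only [wOf, map_add]
    exact HahnSeries.min_order_le_order_add (by rw [← map_add]; exact (map_ne_zero σ).2 hfg)
  map_const c _ := by
    simp only [wOf, hσ]
    exact HahnSeries.order_C

/-- `orderTop` of `σ f` in terms of a place inducing the order. -/
theorem orderTop_eq (σ : F →+* LaurentSeries k) (v : Place k F) (c : ℕ)
    (hv : ∀ f, f ≠ 0 → wOf σ f = c * v.ord f) {f : F} (hf : f ≠ 0) :
    (σ f).orderTop = ((c * v.ord f : ℤ) : WithTop ℤ) := by
  rw [← HahnSeries.order_eq_orderTop_of_ne_zero ((map_ne_zero σ).2 hf), ← hv f hf]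
  rfl

/-- The constant-term digit: for `u` in the valuation ring of a place inducing the order of `σ`,
`u - (σ u)₀` lies in the maximal ideal. -/
theorem sub_coeff_zero (σ : F →+* LaurentSeries k)
    (hσ : ∀ c : k, σ (algebraMap k F c) = HahnSeries.C c) (v : Place k F) (c : ℕ) (hc : 0 < c)
    (hv : ∀ f, f ≠ 0 → wOf σ f = c * v.ord f) {u : F} (hu : u = 0 ∨ 0 ≤ v.ord u) :
    u - algebraMap k F ((σ u).coeff 0) = 0 ∨ 0 < v.ord (u - algebraMap k F ((σ u).coeff 0)) := by
  set a : k := (σ u).coeff 0 with ha
  by_cases hd : u - algebraMap k F a = 0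
  · exact Or.inl hd
  right
  have hw := hv _ hd
  have hcz : (0 : ℤ) < c := by exact_mod_cast hc
  -- the order of `σ u - C a` is positive
  have hpos : 0 < wOf σ (u - algebraMap k F a) := by
    have hne : σ (u - algebraMap k F a) ≠ 0 := (map_ne_zero σ).2 hd
    have hcoeff : ∀ n : ℤ, n ≤ 0 → (σ (u - algebraMap k F a)).coeff n = 0 := by
      intro n hn
      rw [map_sub, hσ, HahnSeries.coeff_sub]
      rcases lt_or_eq_of_le hn with hn' | rfl
      · have h1 : (σ u).coeff n = 0 := by
          rcases hu with rfl | hu
          · simp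
          · by_cases hu0 : u = 0
            · simp [hu0]
            apply HahnSeries.coeff_eq_zero_of_lt_order
            have : (σ u).order = c * v.ord u := hv u hu0
            rw [this]
            have : (0 : ℤ) ≤ c * v.ord u := mul_nonneg hcz.le hu
            omega
        have h2 : (HahnSeries.C a : LaurentSeries k).coeff n = 0 := by
          rw [HahnSeries.C_apply, HahnSeries.coeff_single_of_ne hn'.ne]
        rw [h1, h2, sub_zero]
      · rw [HahnSeries.C_apply, HahnSeries.coeff_single_same, ha, sub_self]
    by_contra hle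
    rw [not_lt] at hle
    exact hne (HahnSeries.coeff_order_eq_zero.1 (hcoeff _ hle))
  rw [hw] at hpos
  by_contra hle
  rw [not_lt] at hle
  have : (c : ℤ) * v.ord (u - algebraMap k F a) ≤ 0 := mul_nonpos_of_nonneg_of_nonpos hcz.le hle
  omega

/-- Ultrametric estimate for finite sums. -/
theorem le_orderTop_sum {ι : Type*} (s : Finset ι) (x : ι → LaurentSeries k) (B : WithTop ℤ)
    (h : ∀ i ∈ s, B ≤ (x i).orderTop) : B ≤ (∑ i ∈ s, x i).orderTop := by
  classical
  induction s using Finset.induction_on with
  | empty => simp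
  | insert a s ha ih =>
    rw [Finset.sum_insert ha]
    exact le_trans (le_min (h a (Finset.mem_insert_self a s))
      (ih fun i hi => h i (Finset.mem_insert_of_mem hi))) HahnSeries.min_orderTop_le_orderTop_add

/-- **Artin bound.**  At most `ord_v y` distinct `k`-embeddings `F → k((z))` with the same value
at `y` can induce (the same multiple of) a given place `v`. -/
theorem card_le_ord {ι : Type*} [Fintype ι] (τ : ι → F →+* LaurentSeries k)
    (hinj : Function.Injective τ)
    (hτ : ∀ i (c : k), τ i (algebraMap k F c) = HahnSeries.C c)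
    (y : F) (η : LaurentSeries k) (hη : η ≠ 0) (hy : ∀ i, τ i y = η)
    (v : Place k F) (c : ℕ) (hc : 0 < c) (hv : ∀ i f, f ≠ 0 → wOf (τ i) f = c * v.ord f)
    (hvy : 0 < v.ord y) : (Fintype.card ι : ℤ) ≤ v.ord y := by
  classical
  by_contra hlt
  rw [not_le] at hlt
  obtain ⟨e, he⟩ : ∃ e : ℕ, (e : ℤ) = v.ord y := ⟨(v.ord y).toNat, Int.toNat_of_nonneg hvy.le⟩
  have he0 : 0 < e := by omega
  have hecard : e < Fintype.card ι := by omega
  have hne : Nonempty ι := by
    rcases isEmpty_or_nonempty ι with h | h
    · rw [Fintype.card_eq_zero] at hecard; omega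
    · exact h
  obtain ⟨i₀⟩ := hne
  have hy0 : y ≠ 0 := by rintro rfl; simp at hvy
  have hcz : (0 : ℤ) < c := by exact_mod_cast hc
  obtain ⟨t, ht⟩ : ∃ t : F, v.ord t = 1 := by
    obtain ⟨π, hπ⟩ := IsDiscreteValuationRing.exists_irreducible v.toValuationSubring
    exact ⟨π, v.ord_coe_irreducible hπ⟩
  have ht0 : t ≠ 0 := by rintro rfl; simp at ht
  -- a nontrivial relation between the rows `(τ i (t ^ j))_j`
  set V : ι → (Fin e → LaurentSeries k) := fun i j => τ i (t ^ (j : ℕ)) with hV
  have hdep : ¬ LinearIndependent (LaurentSeries k) V := by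
    intro hli
    have := hli.fintype_card_le_finrank
    rw [Module.finrank_fin_fun] at this
    omega
  obtain ⟨lam, hsum, i₁, hi₁⟩ := Fintype.not_linearIndependent_iff.1 hdep
  have hrel : ∀ j : ℕ, j < e → ∑ i, lam i * τ i (t ^ j) = 0 := by
    intro j hj
    have := congrFun hsum ⟨j, hj⟩
    simpa [hV, Finset.sum_apply, Pi.smul_apply, smul_eq_mul] using this
  set L : F → LaurentSeries k := fun f => ∑ i, lam i * τ i f with hL
  have hLadd : ∀ f g, L (f + g) = L f + L g := by
    intro f g
    simp only [hL, map_add, mul_add, Finset.sum_add_distrib]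
  have hLsub : ∀ f g, L (f - g) = L f - L g := by
    intro f g
    simp only [hL, map_sub, mul_sub, Finset.sum_sub_distrib]
  have hLzero : L 0 = 0 := by simp [hL]
  have hLmul : ∀ (a : k) (q : ℕ) (f : F),
      L (algebraMap k F a * y ^ q * f) = HahnSeries.C a * η ^ q * L f := by
    intro a q f
    simp only [hL, map_mul, map_pow, hτ, hy, Finset.mul_sum]
    apply Finset.sum_congr rfl
    intro i _
    ring
  -- lower bound for the orders of the coefficients
  obtain ⟨B, hB⟩ : ∃ B : ℤ, ∀ i, (B : WithTop ℤ) ≤ (lam i).orderTop := by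
    obtain ⟨B, hB⟩ := (Finset.univ.image fun i => -(lam i).order).exists_le
    refine ⟨-B, fun i => ?_⟩
    by_cases h0 : lam i = 0
    · rw [h0, HahnSeries.orderTop_zero]; exact le_top
    · rw [← HahnSeries.order_eq_orderTop_of_ne_zero h0]
      have := hB _ (Finset.mem_image_of_mem _ (Finset.mem_univ i))
      have h' : -B ≤ (lam i).order := by omega
      exact_mod_cast h'
  have hEST : ∀ u : F, u ≠ 0 → ((B + c * v.ord u : ℤ) : WithTop ℤ) ≤ (L u).orderTop := by
    intro u hu
    apply le_orderTop_sum
    intro i _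
    rw [HahnSeries.orderTop_mul, orderTop_eq (τ i) v c (hv i) hu]
    push_cast
    exact add_le_add (hB i) le_rfl
  -- successive approximation
  have hstep : ∀ n : ℕ, ∀ f : F, (f = 0 ∨ 0 ≤ v.ord f) →
      ∃ s : F, L s = 0 ∧ (f - s = 0 ∨ (n : ℤ) ≤ v.ord (f - s)) := by
    intro n
    induction n with
    | zero =>
      intro f hf
      refine ⟨0, hLzero, ?_⟩
      rw [sub_zero]
      rcases hf with h | h
      · exact Or.inl h
      · exact Or.inr (by simpa using h)
    | succ n ih =>
      intro f hf
      obtain ⟨s, hs, hr⟩ := ih f hf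
      rcases hr with hr | hr
      · exact ⟨s, hs, Or.inl hr⟩
      by_cases hr0 : f - s = 0
      · exact ⟨s, hs, Or.inl hr0⟩
      set r := f - s with hrdef
      set q := n / e with hq
      set j := n % e with hj
      have hjlt : j < e := Nat.mod_lt n he0
      have hnqj : n = e * q + j := (Nat.div_add_mod n e).symm
      set m : F := y ^ q * t ^ j with hm
      have hm0 : m ≠ 0 := mul_ne_zero (pow_ne_zero _ hy0) (pow_ne_zero _ ht0)
      have hordm : v.ord m = n := by
        rw [hm, v.ord_mul (pow_ne_zero _ hy0) (pow_ne_zero _ ht0), ZP.ord_pow, ZP.ord_pow, ht,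
          ← he]
        rw [hnqj]; push_cast; ring
      set r' : F := r / m with hr'
      have hr'0 : r' ≠ 0 := div_ne_zero hr0 hm0
      have hordr' : 0 ≤ v.ord r' := by
        rw [hr', ZP.ord_div v hr0 hm0, hordm]; omega
      set a : k := (τ i₀ r').coeff 0 with ha
      have hdig := sub_coeff_zero (τ i₀) (hτ i₀) v c hc (hv i₀) (Or.inr hordr')
      refine ⟨s + algebraMap k F a * y ^ q * t ^ j, ?_, ?_⟩
      · rw [hLadd, hs, zero_add, hLmul]
        have : L (t ^ j) = 0 := hrel j hjlt
        rw [this, mul_zero]
      · have hid : f - (s + algebraMap k F a * y ^ q * t ^ j) = m * (r' - algebraMap k F a) := by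
          rw [hr', hm]
          field_simp
          rw [hrdef]; ring
        rw [hid]
        rcases hdig with h0 | hpos
        · left; rw [← ha] at h0; rw [h0, mul_zero]
        · right
          rw [← ha] at hpos
          have hne0 : r' - algebraMap k F a ≠ 0 := by
            intro h0; rw [h0] at hpos; simp at hpos
          rw [v.ord_mul hm0 hne0, hordm]
          push_cast; omega
  -- `L` vanishes on the valuation ring
  have hLint : ∀ f : F, (f = 0 ∨ 0 ≤ v.ord f) → L f = 0 := by
    intro f hf
    by_contra hLf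
    set d : ℤ := (L f).order with hd
    obtain ⟨s, hs, hr⟩ := hstep (d - B + 1).toNat f hf
    have hLfs : L f = L (f - s) := by rw [hLsub, hs, sub_zero]
    rcases hr with hr | hr
    · rw [hLfs, hr, hLzero] at hLf; exact hLf rfl
    · have hfs0 : f - s ≠ 0 := by
        intro h0; rw [hLfs, h0, hLzero] at hLf; exact hLf rfl
      have h1 := hEST (f - s) hfs0
      rw [← hLfs, ← HahnSeries.order_eq_orderTop_of_ne_zero hLf] at h1
      have h2 : B + c * v.ord (f - s) ≤ d := by exact_mod_cast h1
      have h3 : d - B + 1 ≤ ((d - B + 1).toNat : ℤ) := Int.self_le_toNat _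
      have h4 : v.ord (f - s) ≤ c * v.ord (f - s) := by
        have : 0 ≤ v.ord (f - s) := le_trans (Int.natCast_nonneg _) hr
        nlinarith
      omega
  -- `L` vanishes everywhere
  have hLall : ∀ f : F, L f = 0 := by
    intro f
    by_cases hf0 : f = 0
    · rw [hf0]; exact hLzero
    set q := (-(v.ord f)).toNat with hq
    have h1 : L (algebraMap k F 1 * y ^ q * f) = 0 := by
      apply hLint
      right
      rw [map_one, one_mul, v.ord_mul (pow_ne_zero _ hy0) hf0, ZP.ord_pow]
      have : -(v.ord f) ≤ (q : ℤ) := Int.self_le_toNat _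
      nlinarith
    rw [hLmul, map_one, one_mul] at h1
    rcases mul_eq_zero.1 h1 with h | h
    · exact absurd (pow_eq_zero_iff (by
        intro hq0; rw [hq0, pow_zero] at h; exact one_ne_zero h) |>.1 h) hη
    · exact h
  -- Artin's theorem
  have hArt := linearIndependent_monoidHom F (LaurentSeries k)
  have hinj' : Function.Injective (fun i : ι => ((τ i : F →+* LaurentSeries k) : F →* LaurentSeries k)) := by
    intro i i' h
    apply hinj
    ext f : 1
    exact congrArg (fun φ : F →* LaurentSeries k => φ f) h
  have hArt' := hArt.comp _ hinj'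
  have hzero := Fintype.linearIndependent_iff.1 hArt' lam (by
    funext f
    have := hLall f
    simpa [hL, Finset.sum_apply, Pi.smul_apply, smul_eq_mul] using this)
  exact hi₁ (hzero i₁)

/-- **Place counting from Laurent-series embeddings (characteristic free).**  See the module
docstring. -/
theorem placeCount_of_embeddings (y : F) [FiniteDimensional k⟮y⟯ F]
    {X : Type*} [Fintype X] (σ : X → F →+* LaurentSeries k) (hinj : Function.Injective σ)
    (hσ : ∀ i (c : k), σ i (algebraMap k F c) = HahnSeries.C c)
    (η : LaurentSeries k) (hy : ∀ i, σ i y = η) (M : ℕ) (hM : 0 < M) (hη : η.order = M)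
    (hcardX : Module.finrank k⟮y⟯ F ≤ Fintype.card X)
    (g : Equiv.Perm X) (hc : ∀ i f, (σ (g i) f).order = (σ i f).order)
    (hper : ∀ i, Function.minimalPeriod g i ∣ M)
    (hd : ∀ i f, f ≠ 0 → ((M / Function.minimalPeriod g i : ℕ) : ℤ) ∣ (σ i f).order) :
    ∃ β : X → ZeroPlace k y, Function.Surjective β ∧
      (∀ i j, β i = β j ↔ g.SameCycle i j) ∧
      (∀ i, (β i).1.ord y = Function.minimalPeriod g i) ∧
      (∀ z : ZeroPlace k y, z.1.deg = 1) ∧
      (∀ i f, (σ i f).order = ((M / Function.minimalPeriod g i : ℕ) : ℤ) * (β i).1.ord f) ∧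
      Fintype.card X = Module.finrank k⟮y⟯ F := by
  classical
  have hMz : (0 : ℤ) < M := by exact_mod_cast hM
  have hη0 : η ≠ 0 := by
    rintro rfl
    rw [HahnSeries.order_zero] at hη
    omega
  have hXne : Nonempty X := by
    rcases isEmpty_or_nonempty X with h | h
    · have h0 : Fintype.card X = 0 := Fintype.card_eq_zero
      have hpos : 0 < Module.finrank k⟮y⟯ F := Module.finrank_pos
      omega
    · exact h
  obtain ⟨i₀⟩ := hXne
  have hy0 : y ≠ 0 := by
    rintro rfl
    exact hη0 (by rw [← hy i₀, map_zero])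
  have hw : ∀ i, IsAddVal k (wOf (σ i)) := fun i => isAddVal_wOf (σ i) (hσ i)
  have hwy : ∀ i, wOf (σ i) y = M := fun i => by rw [wOf, hy i, hη]
  -- Step 1: each `σ i` induces a place
  have h1 : ∀ i, ∃ (v : Place k F) (c : ℕ), 0 < c ∧ ∀ f, f ≠ 0 → wOf (σ i) f = c * v.ord f :=
    fun i => (hw i).exists_place ⟨y, hy0, by rw [hwy i]; exact hMz.ne'⟩
  choose v c hc0 hvc using h1
  have hce : ∀ i, (c i : ℤ) * (v i).ord y = M := fun i => by rw [← hvc i y hy0, hwy i]
  have hcz : ∀ i, (0 : ℤ) < c i := fun i => by exact_mod_cast hc0 i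
  have hvy : ∀ i, 0 < (v i).ord y := by
    intro i
    by_contra hneg
    have : (c i : ℤ) * (v i).ord y ≤ 0 :=
      mul_nonpos_of_nonneg_of_nonpos (hcz i).le (not_lt.mp hneg)
    have := hce i
    omega
  let β : X → ZeroPlace k y := fun i => ⟨v i, hvy i⟩
  have hβ : ∀ i, (β i).1 = v i := fun i => rfl
  -- Step 2: the Artin bound on the fibres
  have hfib_le : ∀ P : Place k F, 0 < P.ord y →
      (Fintype.card {i // v i = P} : ℤ) ≤ P.ord y := by
    intro P hP
    rcases isEmpty_or_nonempty {i // v i = P} with hemp | ⟨⟨j₀, hj₀⟩⟩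
    · rw [Fintype.card_eq_zero]; exact_mod_cast hP.le
    · refine card_le_ord (fun i : {i // v i = P} => σ i.1)
        (fun a b hab => Subtype.ext (hinj hab)) (fun i => hσ i.1) y η hη0 (fun i => hy i.1)
        P (c j₀) (hc0 j₀) ?_ hP
      rintro ⟨i, hi⟩ f hf
      have h1 := hce i
      have h2 := hce j₀
      rw [hi] at h1
      rw [hj₀] at h2
      have hcc : (c i : ℤ) = c j₀ := by
        have : (c i : ℤ) * P.ord y = c j₀ * P.ord y := by rw [h1, h2]
        exact mul_right_cancel₀ hP.ne' this
      show wOf (σ i) f = c j₀ * P.ord f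
      rw [hvc i f hf, hi, hcc]
  -- Step 3: counting
  have hcount : ∀ z : ZeroPlace k y,
      (Fintype.card {i // v i = z.1} : ℤ) = z.1.ord y ∧ z.1.deg = 1 ∧
        (Fintype.card X : ℤ) ≤ Module.finrank k⟮y⟯ F := by
    intro z
    set T : Finset (Place k F) := insert z.1 (Finset.univ.image v) with hT
    have hTpos : ∀ P ∈ T, 0 < P.ord y := by
      intro P hP
      rcases Finset.mem_insert.1 hP with rfl | hP
      · exact z.2
      · obtain ⟨i, -, rfl⟩ := Finset.mem_image.1 hP
        exact hvy i
    have hsumcard : (Fintype.card X : ℤ) = ∑ P ∈ T, (Fintype.card {i // v i = P} : ℤ) := by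
      have h := Finset.card_eq_sum_card_fiberwise (f := v) (s := (Finset.univ : Finset X)) (t := T)
        (fun i _ => Finset.mem_insert_of_mem (Finset.mem_image_of_mem v (Finset.mem_univ i)))
      rw [Finset.card_univ] at h
      rw [h]
      push_cast
      apply Finset.sum_congr rfl
      intro P _
      rw [Fintype.card_subtype]
    have hdeg := Fermat.Agent.Lib.RiemannRoch.DegBound.sum_ord_mul_deg_le_finrank (S := T) y hTpos
    have hdegpos : ∀ P ∈ T, (1 : ℤ) ≤ (P.deg : ℤ) := by
      intro P hP
      have : Module.Finite k P.ResidueField :=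
        Fermat.Agent.Lib.RiemannRoch.DegBound.finite_residueField_of_ord_pos P y (hTpos P hP)
      have : 0 < P.deg := Module.finrank_pos
      exact_mod_cast this
    have hA : ∀ P ∈ T, (Fintype.card {i // v i = P} : ℤ) ≤ P.ord y :=
      fun P hP => hfib_le P (hTpos P hP)
    have hB : ∀ P ∈ T, P.ord y ≤ P.ord y * (P.deg : ℤ) := by
      intro P hP
      have h1 := hdegpos P hP
      have h2 := hTpos P hP
      nlinarith
    have hS1 : ∑ P ∈ T, (Fintype.card {i // v i = P} : ℤ) ≤ ∑ P ∈ T, P.ord y :=
      Finset.sum_le_sum hA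
    have hS2 : ∑ P ∈ T, P.ord y ≤ ∑ P ∈ T, P.ord y * (P.deg : ℤ) := Finset.sum_le_sum hB
    have hcX : (Module.finrank k⟮y⟯ F : ℤ) ≤ Fintype.card X := by exact_mod_cast hcardX
    have hE1 : ∑ P ∈ T, (P.ord y - (Fintype.card {i // v i = P} : ℤ)) = 0 := by
      rw [Finset.sum_sub_distrib]; omega
    have hE2 : ∑ P ∈ T, (P.ord y * (P.deg : ℤ) - P.ord y) = 0 := by
      rw [Finset.sum_sub_distrib]; omega
    have hz : z.1 ∈ T := Finset.mem_insert_self _ _
    have h1 := (Finset.sum_eq_zero_iff_of_nonneg (fun P hP => sub_nonneg.2 (hA P hP))).1 hE1 z.1 hz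
    have h2 := (Finset.sum_eq_zero_iff_of_nonneg (fun P hP => sub_nonneg.2 (hB P hP))).1 hE2 z.1 hz
    refine ⟨by omega, ?_, by omega⟩
    have h3 : z.1.ord y * ((z.1.deg : ℤ) - 1) = 0 := by linarith
    rcases mul_eq_zero.1 h3 with h | h
    · exact absurd h z.2.ne'
    · have : (z.1.deg : ℤ) = 1 := by omega
      exact_mod_cast this
  have hcardEq : Fintype.card X = Module.finrank k⟮y⟯ F := by
    have h := (hcount (β i₀)).2.2
    have : Fintype.card X ≤ Module.finrank k⟮y⟯ F := by exact_mod_cast h
    omega
  have hcard : ∀ z : ZeroPlace k y, (Fintype.card {i // β i = z} : ℤ) = z.1.ord y := by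
    intro z
    rw [← (hcount z).1]
    congr 1
    apply Fintype.card_congr
    exact Equiv.subtypeEquivRight (fun i => by
      constructor
      · intro h; exact congrArg Subtype.val h
      · intro h; exact Subtype.ext h)
  -- Step 4: surjectivity
  have hsurj : Function.Surjective β := by
    intro z
    have h := hcard z
    have hpos : 0 < Fintype.card {i // β i = z} := by
      have := z.2
      omega
    obtain ⟨b⟩ := Fintype.card_pos_iff.mp hpos
    exact ⟨b.1, b.2⟩
  -- Step 5: `β` is `g`-invariant
  have hginv : ∀ i, β (g i) = β i := by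
    intro i
    apply Subtype.ext
    show v (g i) = v i
    refine place_eq_of_ord_proportional (hc0 (g i)) (hc0 i) fun f hf => ?_
    rw [← hvc (g i) f hf, ← hvc i f hf]
    exact hc i f
  -- Step 6: `ord y` divides the period
  have hdvd : ∀ i, (β i).1.ord y ∣ (Function.minimalPeriod g i : ℤ) := by
    intro i
    obtain ⟨t, ht⟩ : ∃ t : F, (v i).ord t = 1 := by
      obtain ⟨π, hπ⟩ := IsDiscreteValuationRing.exists_irreducible (v i).toValuationSubring
      exact ⟨π, (v i).ord_coe_irreducible hπ⟩
    have ht0 : t ≠ 0 := by rintro rfl; simp at ht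
    have h := hd i t ht0
    have hvct := hvc i t ht0
    rw [wOf] at hvct
    rw [hvct, ht, mul_one] at h
    obtain ⟨m', hm'⟩ := hper i
    have hp0 : 0 < Function.minimalPeriod g i := by
      rcases Nat.eq_zero_or_pos (Function.minimalPeriod g i) with h0 | h0
      · rw [h0, zero_mul] at hm'; omega
      · exact h0
    have hm'0 : 0 < m' := by
      rcases Nat.eq_zero_or_pos m' with h0 | h0
      · rw [h0, mul_zero] at hm'; omega
      · exact h0
    have hdiv : M / Function.minimalPeriod g i = m' := by
      rw [hm', Nat.mul_div_cancel_left _ hp0]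
    rw [hdiv] at h
    obtain ⟨q, hq⟩ := h
    have h4 := hce i
    rw [hq, hm'] at h4
    push_cast at h4
    refine ⟨q, ?_⟩
    have hm'z : (m' : ℤ) ≠ 0 := by exact_mod_cast hm'0.ne'
    have h5 : (m' : ℤ) * ((β i).1.ord y * q) = m' * (Function.minimalPeriod g i : ℤ) := by
      rw [hβ]
      linarith
    exact (mul_left_cancel₀ hm'z h5).symm
  -- Step 7: the orbit of `i` fills the fibre
  have hperiod : ∀ i, (β i).1.ord y = Function.minimalPeriod g i ∧
      ∀ j, β j = β i → g.SameCycle i j := by
    intro i
    have hp0' : 0 < Function.minimalPeriod g i := by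
      obtain ⟨m', hm'⟩ := hper i
      rcases Nat.eq_zero_or_pos (Function.minimalPeriod g i) with h0 | h0
      · rw [h0, zero_mul] at hm'; omega
      · exact h0
    set p := Function.minimalPeriod g i with hp
    have hp0 : 0 < p := hp0'
    let S : Finset {j // β j = β i} :=
      (Finset.range p).attach.image fun q =>
        ⟨(g : X → X)^[q.1] i, iterate_preserves g β hginv q.1 i⟩
    have hScard : S.card = p := by
      rw [Finset.card_image_of_injective, Finset.card_attach, Finset.card_range]
      intro q q' hqq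
      have h1 : (g : X → X)^[q.1] i = (g : X → X)^[q'.1] i := congrArg Subtype.val hqq
      have hq := Finset.mem_range.mp q.2
      have hq' := Finset.mem_range.mp q'.2
      exact Subtype.ext (Function.iterate_injOn_Iio_minimalPeriod (Set.mem_Iio.mpr hq)
        (Set.mem_Iio.mpr hq') h1)
    have hle : p ≤ Fintype.card {j // β j = β i} := by
      rw [← hScard]
      exact Finset.card_le_univ S
    have hcardb := hcard (β i)
    have hdv := hdvd i
    have hordpos := (β i).2
    have hple : ((β i).1.ord y) ≤ p := Int.le_of_dvd (by exact_mod_cast hp0) hdv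
    have heq : (β i).1.ord y = p := by
      have : (p : ℤ) ≤ (β i).1.ord y := by rw [← hcardb]; exact_mod_cast hle
      omega
    refine ⟨heq, fun j hj => ?_⟩
    have hSuniv : S = Finset.univ := by
      apply Finset.eq_univ_of_card
      rw [hScard]
      have : (Fintype.card {j // β j = β i} : ℤ) = p := by rw [hcardb, heq]
      exact_mod_cast this.symm
    have hmem : (⟨j, hj⟩ : {j // β j = β i}) ∈ S := by rw [hSuniv]; exact Finset.mem_univ _
    obtain ⟨q, -, hq⟩ := Finset.mem_image.mp hmem
    have hq' : (g : X → X)^[q.1] i = j := congrArg Subtype.val hq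
    refine ⟨(q.1 : ℤ), ?_⟩
    rw [zpow_natCast, Equiv.Perm.coe_pow]
    exact hq'
  refine ⟨β, hsurj, fun i j => ⟨fun h => (hperiod i).2 j h.symm, fun h => ?_⟩,
    fun i => (hperiod i).1, fun z => (hcount z).2.1, ?_, hcardEq⟩
  · exact sameCycle_preserves g β hginv h
  · intro i f
    by_cases hf : f = 0
    · subst hf; simp
    have h1 := hvc i f hf
    rw [wOf] at h1
    rw [h1, hβ]
    congr 1
    -- `c i = M / period`
    have h2 := hce i
    have h3 := (hperiod i).1
    rw [hβ] at h3
    rw [h3] at h2
    have h4 : c i * Function.minimalPeriod g i = M := by exact_mod_cast h2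
    have hp0 : 0 < Function.minimalPeriod g i := by
      rcases Nat.eq_zero_or_pos (Function.minimalPeriod g i) with h0 | h0
      · rw [h0, mul_zero] at h4; omega
      · exact h0
    have : M / Function.minimalPeriod g i = c i := by
      rw [← h4, Nat.mul_div_cancel _ hp0]
    rw [this]

end Fermat.Agent.Gateway.GoodRed.PlacesAtInfinity
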