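/-
helper57 (P-GATEWAY (c), GoodRed, slice of WP-GR10).  Characteristic-free dictionary between
integrality over `k[x]` and the places of a function field `E / k` which are finite with respect
to `x`:  `f` is integral over `k[x]` iff `ord_P f ≥ 0` at every place `P` with `ord_P x ≥ 0`.
-/
import Mathlib
import Fermat.Prelude.Def_AlgebraicCurve_DivisorClassGroup
import Fermat.Agent.S24.ZP.PlaceSum

set_option autoImplicit false

namespace Fermat.Agent.Gateway.GoodRed.PlacesIntegral

open IntermediateField Polynomial AlgebraicCurve IsDedekindDomain WithZero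
open scoped IntermediateField.algebraAdjoinAdjoin
open Fermat.Agent.S24.ZP

variable {k E : Type*} [Field k] [Field E] [Algebra k E] (x : E)

section Separable

variable [FiniteDimensional k⟮x⟯ E] [Algebra.IsSeparable k⟮x⟯ E]

theorem isDedekindDomain_integralClosure_of_separable (hx : Transcendental k x) :
    IsDedekindDomain (integralClosure (Algebra.adjoin k {x}) E) := by
  have := isPrincipalIdealRing_adjoin x hx
  exact IsIntegralClosure.isDedekindDomain (Algebra.adjoin k {x}) k⟮x⟯ E _

omit [Algebra.IsSeparable k⟮x⟯ E] in
theorem isFractionRing_integralClosure_of_finite :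
    IsFractionRing (integralClosure (Algebra.adjoin k {x}) E) E :=
  integralClosure.isFractionRing_of_finite_extension k⟮x⟯ E

/-- **Integrality over `k[x]` in terms of places.** -/
theorem isIntegral_iff_forall_ord_nonneg (hx : Transcendental k x) (f : E) :
    IsIntegral (Algebra.adjoin k {x}) f ↔ ∀ P : Place k E, 0 ≤ P.ord x → 0 ≤ P.ord f := by
  have hx0 : x ≠ 0 := by
    rintro rfl
    exact hx isAlgebraic_zero
  constructor
  · intro hf P hP
    rcases eq_or_ne f 0 with rfl | hf0
    · simp
    rw [ord_nonneg_iff P hf0]
    exact integralClosure_le_place x P ((ord_nonneg_iff P hx0).mp hP) ⟨f, hf⟩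
  · intro h
    have hD := isDedekindDomain_integralClosure_of_separable x hx
    have hFr := isFractionRing_integralClosure_of_finite (k := k) (E := E) x
    have hmem : ∀ w : HeightOneSpectrum (integralClosure (Algebra.adjoin k {x}) E),
        w.valuation E f ≤ 1 := by
      intro w
      set P : Place k E := Place.ofHeightOneSpectrum (K := k) (F := E) w with hPdef
      have hxP : 0 ≤ P.ord x := by
        rw [ord_nonneg_iff P hx0, hPdef, mem_ofHeightOneSpectrum_iff]
        exact w.valuation_le_one
          (⟨x, (isIntegral_algebraMap (x := yA (K := k) x) :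
            IsIntegral (Algebra.adjoin k {x}) (algebraMap (Algebra.adjoin k {x}) E (yA x)))⟩ :
            integralClosure (Algebra.adjoin k {x}) E)
      rcases eq_or_ne f 0 with rfl | hf0
      · simp
      have := h P hxP
      rwa [ord_nonneg_iff P hf0, hPdef, mem_ofHeightOneSpectrum_iff] at this
    obtain ⟨b, hb⟩ := HeightOneSpectrum.mem_integers_of_valuation_le_one E f hmem
    rw [← hb]
    exact b.2

end Separable

end Fermat.Agent.Gateway.GoodRed.PlacesIntegral
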