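import Mathlib
import Fermat.Prelude.Def_AlgebraicCurve_Repartitions
import Fermat.Agent.Gateway.GoodRed.PlacesAtInfinity
import Fermat.Agent.Gateway.GoodRed.PlacesIntegral
import Fermat.Agent.Gateway.GoodRed.UpperBound

/-!
helper48 (P-GATEWAY (c), WP-GR10, second part): the places over `x = ∞` of a function field
`F / k` from a twist-stable family of `k`-embeddings `σ j : F →+* k((z))` (hypotheses exactly as
in `GoodRed/UpperBound.lean`: `σ (rot j) = twist ζ ∘ σ j`, `ζ` a primitive `M`-th root of unity),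
all sending `x` to one series `ξ` of order `-M`, with at least `[F : k(x)]` members.

* `exists_polePlaces`: a map `pl : ι → Place k F` onto the poles of `x`, constant exactly on the
  orbits of `rot`, with `e = orbSize`, degree one and `ord_z (σ j f) = (M / e) * ord_{pl j} f`.
* `mem_riemannRochSpace_iff`: for an effective divisor `D` supported on the poles of `x`,
  the Prelude `riemannRochSpace D` consists of the `f` integral over `k[x]` lying in
  `poleSpace σ (fun j => D (pl j) * (M / e_j))`.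
* `cuspDivisor`, its values and degree.
-/

set_option autoImplicit false
set_option linter.unusedSectionVars false

open AlgebraicCurve IntermediateField Function

namespace Fermat.Agent.Gateway.GoodRed.PlacesAtInfinity

open Fermat.Agent.S24 Fermat.Agent.S28 Fermat.Agent.Gateway.GoodRed

variable {k F : Type*} [Field k] [Field F] [Algebra k F] {M : ℕ} [NeZero M] {ζ : kˣ}
  {ι : Type*} [Fintype ι] [DecidableEq ι] (σ : ι → F →+* LaurentSeries k) (rot : Equiv.Perm ι)
  (hσk : ∀ j (c : k), σ j (algebraMap k F c) = HahnSeries.C c)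
  (hrot : ∀ j f, σ (rot j) f = twist ζ (σ j f)) (hζ : IsPrimitiveRoot ζ M)
  (hσinj : Injective σ)

omit [Fintype ι] [DecidableEq ι] in
theorem orbMk_eq_iff_sameCycle (i j : ι) : orbMk rot i = orbMk rot j ↔ rot.SameCycle i j := by
  rw [orbMk_eq_iff, Equiv.Perm.sameCycle_comm]
  rfl

/-- `pl : ι → Place k F` enumerates the poles of `x` compatibly with the family `σ`:
it is onto the poles of `x`, constant exactly on the `rot`-orbits, `e (pl j) = orbSize rot j`,
all `pl j` have degree one and `ord_z (σ j f) = (M / e) * ord_{pl j} f`. -/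
def IsPolePlaces (M : ℕ) (x : F) (pl : ι → Place k F) : Prop :=
  (∀ P : Place k F, P.ord x < 0 ↔ ∃ j, pl j = P) ∧
  (∀ i j, pl i = pl j ↔ orbMk rot i = orbMk rot j) ∧
  (∀ j, (pl j).ord x = -(orbSize rot j : ℤ)) ∧
  (∀ j, (pl j).deg = 1) ∧
  (∀ j f, (σ j f).order = (ramQ rot M j : ℤ) * (pl j).ord f)

include hσk hrot hζ hσinj in
/-- **The places over `x = ∞` are the twist orbits of the embeddings.** -/
theorem exists_polePlaces (x : F) [FiniteDimensional k⟮x⟯ F] (ξ : LaurentSeries k)
    (hx : ∀ j, σ j x = ξ) (hξ : ξ.order = -(M : ℤ))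
    (hcard : Module.finrank k⟮x⟯ F ≤ Fintype.card ι) :
    ∃ pl : ι → Place k F, IsPolePlaces σ rot M x pl ∧
      Fintype.card ι = Module.finrank k⟮x⟯ F := by
  have hinv : k⟮x⁻¹⟯ = k⟮x⟯ := Fermat.Agent.Lib.RiemannRoch.DegBound.adjoin_simple_inv x
  have hfd : FiniteDimensional k⟮x⁻¹⟯ F := by
    rw [hinv]
    infer_instance
  have hfr : Module.finrank k⟮x⁻¹⟯ F = Module.finrank k⟮x⟯ F := by
    rw [hinv]
  have hMpos : 0 < M := Nat.pos_of_ne_zero (NeZero.ne M)
  have hrotM : rot ^ M = 1 := rot_pow_eq_one σ rot hrot hζ hσinj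
  have hσne : ∀ j f, f ≠ 0 → σ j f ≠ 0 := fun j f hf =>
    (map_ne_zero_iff _ (σ j).injective).mpr hf
  obtain ⟨β, hsurj, hcyc, hordy, hdeg, hord, hcardeq⟩ :=
    placeCount_of_embeddings (k := k) (F := F) x⁻¹ σ hσinj hσk ξ⁻¹
      (fun j => by rw [map_inv₀, hx]) M hMpos
      (by rw [Fermat.Agent.S28.order_inv, hξ, neg_neg])
      (by rw [hfr]; exact hcard) rot
      (fun i f => by rw [hrot, twist_order])
      (fun i => orbSize_dvd rot hrotM i)
      (fun i f hf => by
        by_contra hnd
        exact hσne i f hf (HahnSeries.coeff_order_eq_zero.mp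
          (coeff_sigma_eq_zero_of_not_dvd σ rot hrot hζ hσinj i f hnd)))
  refine ⟨fun j => (β j).1, ⟨?_, ?_, ?_, ?_, ?_⟩, ?_⟩
  · intro P
    constructor
    · intro hP
      have hP' : 0 < P.ord x⁻¹ := by
        rw [Place.ord_inv]
        omega
      obtain ⟨j, hj⟩ := hsurj ⟨P, hP'⟩
      exact ⟨j, congrArg Subtype.val hj⟩
    · rintro ⟨j, rfl⟩
      have := (β j).2
      rw [Place.ord_inv] at this
      show (β j).1.ord x < 0
      omega
  · intro i j
    rw [orbMk_eq_iff_sameCycle, ← hcyc, Subtype.ext_iff]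
  · intro j
    have := hordy j
    rw [Place.ord_inv] at this
    show (β j).1.ord x = -(minimalPeriod rot j : ℤ)
    omega
  · intro j
    exact hdeg (β j)
  · intro j f
    exact hord j f
  · rw [hcardeq, hfr]

/-- An element of `F` whose expansion has a pole is transcendental over `k`. -/
theorem transcendental_of_order_neg (τ : F →+* LaurentSeries k)
    (hτ : ∀ c : k, τ (algebraMap k F c) = HahnSeries.C c) {x : F} (hx : (τ x).order < 0) :
    Transcendental k x := by
  intro halg
  have hT : Transcendental k (τ x) := Fermat.Agent.S28.transcendental_of_order_neg hx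
  apply hT
  have hcomm : ∀ c : k, τ (algebraMap k F c) = algebraMap k (LaurentSeries k) c := fun c => by
    rw [hτ, Fermat.Agent.S28.C_eq_algebraMap_laurent]
  let τa : F →ₐ[k] LaurentSeries k := { τ with commutes' := hcomm }
  exact IsAlgebraic.algHom τa halg

section RR

variable {σ rot} {x : F} {pl : ι → Place k F}

omit [NeZero M] [Fintype ι] [DecidableEq ι] in
theorem IsPolePlaces.ord_neg (hpl : IsPolePlaces σ rot M x pl) (j : ι) : (pl j).ord x < 0 :=
  (hpl.1 _).mpr ⟨j, rfl⟩

include hrot hζ hσinj in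
/-- **`L(D)` for an effective divisor supported on the poles of `x`.** -/
theorem mem_riemannRochSpace_iff [FiniteDimensional k⟮x⟯ F] [Algebra.IsSeparable k⟮x⟯ F]
    (hxt : Transcendental k x) (hpl : IsPolePlaces σ rot M x pl) (D : Divisor k F)
    (hD : ∀ P : Place k F, 0 ≤ P.ord x → D P = 0) (hD0 : ∀ P, 0 ≤ D P) (f : F) :
    f ∈ riemannRochSpace D ↔
      IsIntegral (Algebra.adjoin k {x}) f ∧
        f ∈ poleSpace σ hσk (fun j => (D (pl j)).toNat * ramQ rot M j) := by
  have hr : ∀ j, (0 : ℤ) < ramQ rot M j := fun j => by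
    exact_mod_cast Nat.pos_of_ne_zero (ramQ_ne_zero σ rot hrot hζ hσinj j)
  rcases eq_or_ne f 0 with rfl | hf0
  · exact ⟨fun _ => ⟨isIntegral_zero, Submodule.zero_mem _⟩, fun _ => Submodule.zero_mem _⟩
  have hσne : ∀ j, σ j f ≠ 0 := fun j => (map_ne_zero_iff _ (σ j).injective).mpr hf0
  rw [AlgebraicCurve.mem_riemannRochSpace_iff,
    PlacesIntegral.isIntegral_iff_forall_ord_nonneg x hxt]
  constructor
  · intro h
    have h' : ∀ v : Place k F, -D v ≤ v.ord f := fun v => (h v).resolve_left hf0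
    refine ⟨fun P hP => ?_, fun j a ha => ?_⟩
    · have := h' P
      rw [hD P hP] at this
      simpa using this
    · apply HahnSeries.coeff_eq_zero_of_lt_order
      refine lt_of_lt_of_le ha ?_
      rw [hpl.2.2.2.2 j f]
      have h1 := h' (pl j)
      have h2 : ((D (pl j)).toNat : ℤ) = D (pl j) := Int.toNat_of_nonneg (hD0 _)
      push_cast
      rw [h2]
      nlinarith [hr j]
  · rintro ⟨hint, hpole⟩ v
    right
    by_cases hv : 0 ≤ v.ord x
    · rw [hD v hv]
      simpa using hint v hv
    · obtain ⟨j, rfl⟩ := (hpl.1 v).mp (not_le.mp hv)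
      have h1 : ¬ (σ j f).order < -(((D (pl j)).toNat * ramQ rot M j : ℕ) : ℤ) := fun hlt =>
        hσne j (HahnSeries.coeff_order_eq_zero.mp (hpole j _ hlt))
      rw [not_lt, hpl.2.2.2.2 j f] at h1
      have h2 : ((D (pl j)).toNat : ℤ) = D (pl j) := Int.toNat_of_nonneg (hD0 _)
      push_cast at h1
      rw [h2] at h1
      nlinarith [hr j]

/-! ### The divisor of a `rot`-invariant multiplicity function -/

variable (rot) in
/-- The divisor `∑_c m_c • P_c` over the orbits (cusps) `c`. -/
noncomputable def cuspDivisor (pl : ι → Place k F) (m : ι → ℕ) : Divisor k F :=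
  ∑ c : Orb rot, Finsupp.single (pl (orbRep rot c)) (m (orbRep rot c) : ℤ)

omit [NeZero M] in
theorem cuspDivisor_apply_pl (hpl : IsPolePlaces σ rot M x pl) (m : ι → ℕ)
    (hm : ∀ j, m (rot j) = m j) (j : ι) : cuspDivisor rot pl m (pl j) = m j := by
  classical
  rw [cuspDivisor, Finsupp.finsetSum_apply]
  rw [Finset.sum_eq_single (orbMk rot j)]
  · have h1 : pl (orbRep rot (orbMk rot j)) = pl j :=
      (hpl.2.1 _ _).mpr (orbMk_orbRep rot _)
    rw [h1, Finsupp.single_eq_same, ← eq_orbRep rot hm j]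
  · intro c _ hc
    rw [Finsupp.single_apply, if_neg]
    intro h
    apply hc
    rw [← (hpl.2.1 _ _).mp h, orbMk_orbRep]
  · intro h
    exact absurd (Finset.mem_univ _) h

omit [NeZero M] in
theorem cuspDivisor_apply_of_ord_nonneg (hpl : IsPolePlaces σ rot M x pl) (m : ι → ℕ)
    {P : Place k F} (hP : 0 ≤ P.ord x) : cuspDivisor rot pl m P = 0 := by
  classical
  rw [cuspDivisor, Finsupp.finsetSum_apply]
  refine Finset.sum_eq_zero fun c _ => ?_
  rw [Finsupp.single_apply, if_neg]
  rintro rfl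
  exact absurd (hpl.ord_neg _) (not_lt.mpr hP)

omit [NeZero M] in
theorem cuspDivisor_nonneg (m : ι → ℕ) (P : Place k F) : 0 ≤ cuspDivisor rot pl m P := by
  classical
  rw [cuspDivisor, Finsupp.finsetSum_apply]
  refine Finset.sum_nonneg fun c _ => ?_
  rw [Finsupp.single_apply]
  split_ifs
  · exact Int.natCast_nonneg _
  · exact le_rfl

omit [NeZero M] in
theorem degree_cuspDivisor (hpl : IsPolePlaces σ rot M x pl) (m : ι → ℕ) :
    Divisor.degree (cuspDivisor rot pl m) = ∑ c : Orb rot, (m (orbRep rot c) : ℤ) := by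
  rw [cuspDivisor, map_sum]
  refine Finset.sum_congr rfl fun c _ => ?_
  rw [Divisor.degree_single, hpl.2.2.2.1, Nat.cast_one, mul_one]

include hrot hζ hσinj in
/-- `M * deg D = ∑_j m_j * (M / e_j)`, the total pole bound of `poleSpace`. -/
theorem mul_degree_cuspDivisor (hpl : IsPolePlaces σ rot M x pl) (m : ι → ℕ)
    (hm : ∀ j, m (rot j) = m j) :
    (M : ℤ) * Divisor.degree (cuspDivisor rot pl m) = ∑ j, ((m j * ramQ rot M j : ℕ) : ℤ) := by
  classical
  rw [degree_cuspDivisor hpl, Finset.mul_sum,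
    sum_eq_sum_orb rot (fun j => ((m j * ramQ rot M j : ℕ) : ℤ))
      (fun j => by rw [hm, ramQ_rot])]
  refine Finset.sum_congr rfl fun c _ => ?_
  have := orbSize_mul_ramQ σ rot hrot hζ hσinj (orbRep rot c)
  have hM : (M : ℤ) = (orbSize rot (orbRep rot c) : ℤ) * (ramQ rot M (orbRep rot c) : ℤ) := by
    exact_mod_cast this.symm
  rw [nsmul_eq_mul]
  push_cast
  rw [hM]
  ring

include hrot hζ hσinj in
/-- **`L(∑ m_c P_c)` = functions integral over `k[x]` with `ord_z (σ j f) ≥ - m_j (M / e_j)`.** -/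
theorem mem_riemannRochSpace_cuspDivisor_iff [FiniteDimensional k⟮x⟯ F]
    [Algebra.IsSeparable k⟮x⟯ F] (hxt : Transcendental k x) (hpl : IsPolePlaces σ rot M x pl)
    (m : ι → ℕ) (hm : ∀ j, m (rot j) = m j) (f : F) :
    f ∈ riemannRochSpace (cuspDivisor rot pl m) ↔
      IsIntegral (Algebra.adjoin k {x}) f ∧
        f ∈ poleSpace σ hσk (fun j => m j * ramQ rot M j) := by
  rw [mem_riemannRochSpace_iff hσk hrot hζ hσinj hxt hpl (cuspDivisor rot pl m)
    (fun P hP => cuspDivisor_apply_of_ord_nonneg hpl m hP) (cuspDivisor_nonneg m)]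
  have : (fun j => (cuspDivisor rot pl m (pl j)).toNat * ramQ rot M j) =
      fun j => m j * ramQ rot M j := by
    funext j
    rw [cuspDivisor_apply_pl hpl m hm, Int.toNat_natCast]
  rw [this]

end RR

end Fermat.Agent.Gateway.GoodRed.PlacesAtInfinity
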