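import Mathlib
import Fermat.Agent.Gateway.GoodRed.PolePlaces
import Fermat.Agent.Lib.RiemannRoch.FunctionFieldRR

/-!
helper30 (P-GATEWAY (c), WP-GR12): the Riemann inequality in the language of a twist-stable
family of expansions, in every characteristic.

`F / k` is a function field, `x : F`, `F / k(x)` finite separable, `σ j : F →+* k((z))` a family of
`k`-embeddings with `σ (rot j) = twist ζ ∘ σ j` (`ζ` a primitive `M`-th root of unity), all sending
`x` to one series `ξ` of order `-M`, with at least `[F : k(x)]` members (hypotheses exactly as in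
`GoodRed/UpperBound.lean` and `GoodRed/PolePlaces.lean`).  For a `rot`-invariant pole bound
`P : ι → ℕ` (in the variable `z`) with `(M / e_j) ∣ P j`,

  `∑ j, P j + M ≤ M * (dim {f integral over k[x] | ord_z (σ j f) ≥ - P j} + genusFF k F)`.

This is the Riemann inequality `l(D) ≥ deg D + 1 - g` of the Riemann-Roch library for
`D = ∑_c (P_c / (M / e_c)) • P_c`, transported through `PolePlaces.lean`.

* `integralPoleSpace σ hσk x P`: the `k`-subspace of `F` of the functions integral over `k[x]`
  in `poleSpace σ hσk P`;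
* `riemannRochSpace_cuspDivisor`: it is the Prelude `L(D)`;
* `lowerBound_integralPoleSpace`: the inequality in `F`;
* `poleSpaceEquiv`, `lowerBound_poleSpace`: the same for `poleSpace` of the restricted family on
  any `k`-algebra `B` mapping isomorphically onto the integral closure of `k[x]` in `F`;
* `lowerBound_integralClosure`: the case `B = integralClosure k[x] F`.
-/

set_option autoImplicit false
set_option linter.unusedSectionVars false
set_option linter.style.haveILetI false

open AlgebraicCurve IntermediateField Function Module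

namespace Fermat.Agent.Gateway.GoodRed.LowerBound

open Fermat.Agent.S24 Fermat.Agent.S28 Fermat.Agent.Gateway.GoodRed
  Fermat.Agent.Gateway.GoodRed.PlacesAtInfinity Fermat.Agent.Lib.RiemannRoch

variable {k F : Type*} [Field k] [Field F] [Algebra k F] {M : ℕ} [NeZero M] {ζ : kˣ}
  {ι : Type*} [Fintype ι] [DecidableEq ι] (σ : ι → F →+* LaurentSeries k) (rot : Equiv.Perm ι)
  (hσk : ∀ j (c : k), σ j (algebraMap k F c) = HahnSeries.C c)
  (hrot : ∀ j f, σ (rot j) f = twist ζ (σ j f)) (hζ : IsPrimitiveRoot ζ M)
  (hσinj : Injective σ)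

/-- The functions integral over `k[x]` whose expansions `σ j f` have a pole of order at most
`P j` (in the variable `z`). -/
def integralPoleSpace (x : F) (P : ι → ℕ) : Submodule k F :=
  ((integralClosure (Algebra.adjoin k {x}) F).toSubmodule.restrictScalars k) ⊓ poleSpace σ hσk P

omit [NeZero M] [Fintype ι] [DecidableEq ι] in
theorem mem_integralPoleSpace_iff (x : F) (P : ι → ℕ) (f : F) :
    f ∈ integralPoleSpace σ hσk x P ↔
      IsIntegral (Algebra.adjoin k {x}) f ∧ f ∈ poleSpace σ hσk P := by
  rw [integralPoleSpace, Submodule.mem_inf]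
  rfl

include hrot hζ hσinj in
/-- **`L(∑ m_c P_c)` is the integral pole space.** -/
theorem riemannRochSpace_cuspDivisor {x : F} {pl : ι → Place k F} [FiniteDimensional k⟮x⟯ F]
    [Algebra.IsSeparable k⟮x⟯ F] (hxt : Transcendental k x) (hpl : IsPolePlaces σ rot M x pl)
    (m : ι → ℕ) (hm : ∀ j, m (rot j) = m j) :
    riemannRochSpace (cuspDivisor rot pl m) =
      integralPoleSpace σ hσk x (fun j => m j * ramQ rot M j) := by
  ext f
  rw [mem_integralPoleSpace_iff]
  exact mem_riemannRochSpace_cuspDivisor_iff hσk hrot hζ hσinj hxt hpl m hm f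

/-! ### The constants -/

omit [NeZero M] [Fintype ι] [DecidableEq ι] in
/-- An element of `F` algebraic over `k` is a constant, as soon as `F` has one `k`-embedding into
`k((z))`. -/
theorem exists_eq_algebraMap_of_isAlgebraic (τ : F →+* LaurentSeries k)
    (hτ : ∀ c : k, τ (algebraMap k F c) = HahnSeries.C c) {f : F} (hf : IsAlgebraic k f) :
    ∃ c : k, f = algebraMap k F c := by
  have hnn : ∀ g : F, IsAlgebraic k g → 0 ≤ (τ g).order := by
    intro g hg
    by_contra hcon
    exact PlacesAtInfinity.transcendental_of_order_neg τ hτ (not_le.mp hcon) hg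
  have hpos : ∀ g : F, IsAlgebraic k g → 0 < (τ g).order → g = 0 := by
    intro g hg hgpos
    by_contra hg0
    have h1 := hnn g⁻¹ hg.inv
    rw [map_inv₀, Fermat.Agent.S28.order_inv] at h1
    omega
  refine ⟨(τ f).coeff 0, ?_⟩
  have halg : IsAlgebraic k (f - algebraMap k F ((τ f).coeff 0)) :=
    hf.sub (isAlgebraic_algebraMap _)
  rw [← sub_eq_zero]
  by_contra hne
  have hτne : τ (f - algebraMap k F ((τ f).coeff 0)) ≠ 0 :=
    (map_ne_zero_iff _ τ.injective).mpr hne
  have h0 := hnn _ halg
  rcases h0.lt_or_eq with h1 | h1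
  · exact hne (hpos _ halg h1)
  · have h2 : (τ (f - algebraMap k F ((τ f).coeff 0))).coeff
        (τ (f - algebraMap k F ((τ f).coeff 0))).order ≠ 0 := fun h =>
      hτne (HahnSeries.coeff_order_eq_zero.mp h)
    rw [← h1, map_sub, hτ, HahnSeries.coeff_sub, HahnSeries.C_apply,
      HahnSeries.coeff_single_same, sub_self] at h2
    exact h2 rfl

/-- `l(0) = 1` as soon as `F` has one `k`-embedding into `k((z))`. -/
theorem finrank_riemannRochSpace_zero (τ : F →+* LaurentSeries k)
    (hτ : ∀ c : k, τ (algebraMap k F c) = HahnSeries.C c) [∀ v : Place k F, v.FiniteResidue]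
    [HasPrincipalDivisors k F] [Nonempty (Place k F)] :
    finrank k (riemannRochSpace (0 : Divisor k F)) = 1 := by
  apply le_antisymm _ one_le_ell_zero
  have h1 : (1 : F) ∈ riemannRochSpace (0 : Divisor k F) := by
    intro v
    simp
  refine finrank_le_one (⟨1, h1⟩ : riemannRochSpace (0 : Divisor k F)) fun w => ?_
  obtain ⟨a, ha⟩ := exists_eq_algebraMap_of_isAlgebraic τ hτ (isAlgebraic_of_mem_zero w.2)
  refine ⟨a, Subtype.ext ?_⟩
  simp [ha, Algebra.smul_def]

/-! ### The Riemann inequality for the integral pole space -/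

include hrot hζ hσinj in
/-- **Riemann's inequality in the embedding language** (any characteristic): for a
`rot`-invariant pole bound `P` with `(M / e_j) ∣ P j`,
`∑ j, P j + M ≤ M * (dim (integralPoleSpace σ x P) + genusFF k F)`; moreover equality holds
as soon as `M * (2 g - 2) < ∑ j, P j`. -/
theorem lowerBound_integralPoleSpace (x : F) [FiniteDimensional k⟮x⟯ F]
    [Algebra.IsSeparable k⟮x⟯ F] (ξ : LaurentSeries k) (hx : ∀ j, σ j x = ξ)
    (hξ : ξ.order = -(M : ℤ)) (hcard : Module.finrank k⟮x⟯ F ≤ Fintype.card ι)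
    (P : ι → ℕ) (hP : ∀ j, P (rot j) = P j) (hdvd : ∀ j, ramQ rot M j ∣ P j) :
    Module.Finite k (integralPoleSpace σ hσk x P) ∧
      ∑ j, P j + M ≤ M * (finrank k (integralPoleSpace σ hσk x P) + genusFF k F) ∧
      ((M : ℤ) * (2 * (genusFF k F : ℤ) - 2) < ∑ j, (P j : ℤ) →
        M * (finrank k (integralPoleSpace σ hσk x P) + genusFF k F) = ∑ j, P j + M) := by
  classical
  obtain ⟨pl, hpl, hcardeq⟩ := exists_polePlaces σ rot hσk hrot hζ hσinj x ξ hx hξ hcard
  have hpos : 0 < Module.finrank k⟮x⟯ F := Module.finrank_pos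
  have hne : Nonempty ι := by
    rw [← Fintype.card_pos_iff]
    omega
  obtain ⟨j₀⟩ := hne
  have hMpos : 0 < M := Nat.pos_of_ne_zero (NeZero.ne M)
  have hxt : Transcendental k x :=
    PlacesAtInfinity.transcendental_of_order_neg (σ j₀) (hσk j₀) (by rw [hx, hξ]; omega)
  set m : ι → ℕ := fun j => P j / ramQ rot M j with hm
  have hmrot : ∀ j, m (rot j) = m j := fun j => by
    simp only [hm]
    rw [hP, ramQ_rot]
  have hmP : (fun j => m j * ramQ rot M j) = P := by
    funext j
    exact Nat.div_mul_cancel (hdvd j)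
  have hL := riemannRochSpace_cuspDivisor σ rot hσk hrot hζ hσinj hxt hpl m hmrot
  rw [hmP] at hL
  have hdeg : (M : ℤ) * Divisor.degree (cuspDivisor rot pl m) = ∑ j, (P j : ℤ) := by
    rw [mul_degree_cuspDivisor hrot hζ hσinj hpl m hmrot]
    refine Finset.sum_congr rfl fun j _ => ?_
    rw [Nat.div_mul_cancel (hdvd j)]
  haveI := FunctionFieldRR.nonempty_place hxt
  haveI : ∀ v : Place k F, v.FiniteResidue := FunctionFieldRR.finiteResidue x
  haveI := FunctionFieldRR.hasPrincipalDivisors hxt
  have hl0 : finrank k (riemannRochSpace (0 : Divisor k F)) = 1 :=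
    finrank_riemannRochSpace_zero (σ j₀) (hσk j₀)
  obtain ⟨W, hWdeg, -, hW⟩ := FunctionFieldRR.riemannRoch_sep hxt
  obtain ⟨hfin, -, -, heq⟩ := hW (cuspDivisor rot pl m)
  rw [hl0] at heq hWdeg
  rw [hL] at hfin heq
  have key : (M : ℤ) * ((finrank k (integralPoleSpace σ hσk x P) : ℤ) + (genusFF k F : ℤ)) =
      ∑ j, (P j : ℤ) + M +
        M * (finrank k (riemannRochSpace (W - cuspDivisor rot pl m)) : ℤ) := by
    rw [heq, ← hdeg]
    push_cast
    ring
  refine ⟨hfin, ?_, ?_⟩
  · have h0 : (0 : ℤ) ≤ M * (finrank k (riemannRochSpace (W - cuspDivisor rot pl m)) : ℤ) := by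
      positivity
    have : ((∑ j, P j + M : ℕ) : ℤ) ≤
        ((M * (finrank k (integralPoleSpace σ hσk x P) + genusFF k F) : ℕ) : ℤ) := by
      push_cast
      linarith
    exact_mod_cast this
  · intro hbig
    have hnegdeg : Divisor.degree (W - cuspDivisor rot pl m) < 0 := by
      rw [map_sub, hWdeg]
      have hMz : (0 : ℤ) < M := by exact_mod_cast hMpos
      by_contra hcon
      rw [not_lt] at hcon
      have h3 : (M : ℤ) * Divisor.degree (cuspDivisor rot pl m) ≤
          M * (2 * (genusFF k F : ℤ) - 2 * ((1 : ℕ) : ℤ)) :=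
        mul_le_mul_of_nonneg_left (by linarith) hMz.le
      rw [hdeg] at h3
      push_cast at h3
      linarith
    have h0 : riemannRochSpace (W - cuspDivisor rot pl m) = ⊥ :=
      riemannRochSpace_eq_bot_of_degree_neg hnegdeg
    rw [h0, finrank_bot] at key
    have : ((M * (finrank k (integralPoleSpace σ hσk x P) + genusFF k F) : ℕ) : ℤ) =
        ((∑ j, P j + M : ℕ) : ℤ) := by
      push_cast
      push_cast at key
      linarith
    exact_mod_cast this

/-! ### The restricted family on a model `B` of the integral closure of `k[x]` -/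

section Restrict

variable (B : Type*) [CommRing B] [Algebra k B] [Algebra B F] [IsScalarTower k B F]

/-- The family `σ` restricted to `B`. -/
noncomputable def restrictFamily (j : ι) : B →+* LaurentSeries k := (σ j).comp (algebraMap B F)

omit [NeZero M] [Fintype ι] [DecidableEq ι] in
theorem restrictFamily_apply (j : ι) (b : B) :
    restrictFamily σ B j b = σ j (algebraMap B F b) := rfl

include hσk in
omit [NeZero M] [Fintype ι] [DecidableEq ι] in
theorem restrictFamily_algebraMap (j : ι) (c : k) :
    restrictFamily σ B j (algebraMap k B c) = HahnSeries.C c := by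
  rw [restrictFamily_apply, ← IsScalarTower.algebraMap_apply, hσk]

omit [NeZero M] [Fintype ι] [DecidableEq ι] in
theorem map_poleSpace_restrictFamily (x : F)
    (hB : ∀ f : F, f ∈ (algebraMap B F).range ↔ IsIntegral (Algebra.adjoin k {x}) f)
    (P : ι → ℕ) :
    (poleSpace (restrictFamily σ B) (restrictFamily_algebraMap σ hσk B) P).map
        (IsScalarTower.toAlgHom k B F).toLinearMap = integralPoleSpace σ hσk x P := by
  ext f
  rw [mem_integralPoleSpace_iff, Submodule.mem_map]
  constructor
  · rintro ⟨b, hb, rfl⟩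
    exact ⟨(hB _).mp ⟨b, rfl⟩, hb⟩
  · rintro ⟨hint, hf⟩
    obtain ⟨b, rfl⟩ := (hB f).mpr hint
    exact ⟨b, hf, rfl⟩

/-- The pole space of the restricted family is the integral pole space. -/
noncomputable def poleSpaceEquiv (x : F) (hinj : Injective (algebraMap B F))
    (hB : ∀ f : F, f ∈ (algebraMap B F).range ↔ IsIntegral (Algebra.adjoin k {x}) f)
    (P : ι → ℕ) :
    poleSpace (restrictFamily σ B) (restrictFamily_algebraMap σ hσk B) P ≃ₗ[k]
      integralPoleSpace σ hσk x P :=
  (Submodule.equivMapOfInjective (IsScalarTower.toAlgHom k B F).toLinearMap hinj _).trans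
    (LinearEquiv.ofEq _ _ (map_poleSpace_restrictFamily σ hσk B x hB P))

omit [NeZero M] [Fintype ι] [DecidableEq ι] in
theorem coe_poleSpaceEquiv (x : F) (hinj : Injective (algebraMap B F))
    (hB : ∀ f : F, f ∈ (algebraMap B F).range ↔ IsIntegral (Algebra.adjoin k {x}) f)
    (P : ι → ℕ) (b : poleSpace (restrictFamily σ B) (restrictFamily_algebraMap σ hσk B) P) :
    (poleSpaceEquiv σ hσk B x hinj hB P b : F) = algebraMap B F b := rfl

include hrot hζ hσinj in
/-- **Riemann's inequality for the pole spaces of the restricted family** (any characteristic):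
`B` any `k`-algebra mapping isomorphically onto the integral closure of `k[x]` in `F`. -/
theorem lowerBound_poleSpace (x : F) [FiniteDimensional k⟮x⟯ F]
    [Algebra.IsSeparable k⟮x⟯ F] (ξ : LaurentSeries k) (hx : ∀ j, σ j x = ξ)
    (hξ : ξ.order = -(M : ℤ)) (hcard : Module.finrank k⟮x⟯ F ≤ Fintype.card ι)
    (hinj : Injective (algebraMap B F))
    (hB : ∀ f : F, f ∈ (algebraMap B F).range ↔ IsIntegral (Algebra.adjoin k {x}) f)
    (P : ι → ℕ) (hP : ∀ j, P (rot j) = P j) (hdvd : ∀ j, ramQ rot M j ∣ P j) :
    Module.Finite k (poleSpace (restrictFamily σ B) (restrictFamily_algebraMap σ hσk B) P) ∧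
      ∑ j, P j + M ≤ M * (finrank k
        (poleSpace (restrictFamily σ B) (restrictFamily_algebraMap σ hσk B) P) + genusFF k F) ∧
      ((M : ℤ) * (2 * (genusFF k F : ℤ) - 2) < ∑ j, (P j : ℤ) →
        M * (finrank k (poleSpace (restrictFamily σ B) (restrictFamily_algebraMap σ hσk B) P) +
          genusFF k F) = ∑ j, P j + M) := by
  obtain ⟨hfin, h1, h2⟩ := lowerBound_integralPoleSpace σ rot hσk hrot hζ hσinj x ξ hx hξ hcard
    P hP hdvd
  have e := poleSpaceEquiv σ hσk B x hinj hB P
  rw [e.finrank_eq]
  exact ⟨Module.Finite.equiv e.symm, h1, h2⟩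

end Restrict

/-! ### The case `B = integralClosure k[x] F` -/

section IntegralClosure

include hrot hζ hσinj in
/-- **Riemann's inequality for the pole spaces of the family on the integral closure of `k[x]`
in `F`** (any characteristic). -/
theorem lowerBound_integralClosure (x : F) [FiniteDimensional k⟮x⟯ F]
    [Algebra.IsSeparable k⟮x⟯ F] (ξ : LaurentSeries k) (hx : ∀ j, σ j x = ξ)
    (hξ : ξ.order = -(M : ℤ)) (hcard : Module.finrank k⟮x⟯ F ≤ Fintype.card ι)
    (P : ι → ℕ) (hP : ∀ j, P (rot j) = P j) (hdvd : ∀ j, ramQ rot M j ∣ P j) :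
    Module.Finite k (poleSpace (restrictFamily σ (integralClosure (Algebra.adjoin k {x}) F))
        (restrictFamily_algebraMap σ hσk (integralClosure (Algebra.adjoin k {x}) F)) P) ∧
      ∑ j, P j + M ≤ M * (finrank k
        (poleSpace (restrictFamily σ (integralClosure (Algebra.adjoin k {x}) F))
          (restrictFamily_algebraMap σ hσk (integralClosure (Algebra.adjoin k {x}) F)) P) +
            genusFF k F) ∧
      ((M : ℤ) * (2 * (genusFF k F : ℤ) - 2) < ∑ j, (P j : ℤ) →
        M * (finrank k
          (poleSpace (restrictFamily σ (integralClosure (Algebra.adjoin k {x}) F))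
            (restrictFamily_algebraMap σ hσk (integralClosure (Algebra.adjoin k {x}) F)) P) +
              genusFF k F) = ∑ j, P j + M) := by
  refine lowerBound_poleSpace σ rot hσk hrot hζ hσinj
    (integralClosure (Algebra.adjoin k {x}) F) x ξ hx hξ hcard Subtype.val_injective
    (fun f => ?_) P hP hdvd
  constructor
  · rintro ⟨b, rfl⟩
    exact b.2
  · intro hf
    exact ⟨⟨f, hf⟩, rfl⟩

end IntegralClosure

end Fermat.Agent.Gateway.GoodRed.LowerBound
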