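import Fermat.Agent.Gateway.GoodRed.TLine
import Fermat.Agent.Gateway.AuxLevel.Level4Haupt
import Fermat.Prelude.Thm_ModularCurve_coeffMap_qExpand
import Fermat.Prelude.Def_ModularCurve_X0ModL

set_option autoImplicit false

/-!
# The `t`-line data of `GoodRed/SumEmb` for the level-4 Hauptmodul `x₄`

`j = (t² + 224 t + 256)³ / (t (t - 16)⁴)`; base cusps `t = ∞` (width 1), `t = 0` (width 1),
`t = 16` (width 4), over any field `k` in which `2` is invertible.
-/

namespace Fermat.Agent.Gateway.GoodRed.TLine4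

open HahnSeries LaurentSeries ModularCurve Fermat.Agent.Lib.Residue Fermat.Agent.S28
open Fermat.Agent.Gateway.AuxLevel

section Series

variable (k : Type*) [Field k]

/-- The unit part of `x₄` over `k`. -/
noncomputable def u4k : PowerSeries k := PowerSeries.map (Int.castRingHom k) L4.u4

/-- The Hauptmodul `x₄ = q⁻¹ + 8 + 20 q + ⋯` over `k`. -/
noncomputable def x4k : k⸨X⸩ := coeffMap (Int.castRingHom k) L4.x4

theorem constantCoeff_u4k : PowerSeries.constantCoeff (u4k k) = 1 := by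
  rw [u4k, ← PowerSeries.coeff_zero_eq_constantCoeff_apply, PowerSeries.coeff_map,
    PowerSeries.coeff_zero_eq_constantCoeff_apply, L4.constantCoeff_u4, map_one]

theorem x4k_eq : x4k k = single (-1 : ℤ) (1 : k) * (u4k k : k⸨X⸩) := by
  rw [x4k, L4.x4, map_mul, coeffMap_ofPowerSeries, Fermat.Agent.S28.H2.qInv, coeffMap_single,
    map_one, u4k]

theorem coeffMap_C_int (n : ℤ) :
    coeffMap (Int.castRingHom k) (HahnSeries.C n) = HahnSeries.C (n : k) := by
  rw [HahnSeries.C_apply, coeffMap_single, HahnSeries.C_apply]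
  rfl

/-- `j(q) x (x - 16)⁴ = (x² + 224 x + 256)³` over `k`. -/
theorem jq_x4k : jqModC k * (x4k k * (x4k k - HahnSeries.C 16) ^ 4) =
    (x4k k ^ 2 + HahnSeries.C 224 * x4k k + HahnSeries.C 256) ^ 3 := by
  have h := congrArg (coeffMap (Int.castRingHom k)) L4.jq_x4
  simp only [map_mul, map_pow, map_sub, map_add, coeffMap_jqModC, coeffMap_C_int] at h
  simpa [x4k] using h

/-- `j(q⁴) x (x - 16) = (x² - 16 x + 16)³` over `k`. -/
theorem jq4_x4k : qExpand k 4 (jqModC k) * (x4k k * (x4k k - HahnSeries.C 16)) =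
    (x4k k ^ 2 - HahnSeries.C 16 * x4k k + HahnSeries.C 16) ^ 3 := by
  have h := congrArg (coeffMap (Int.castRingHom k)) L4.jq4_x4
  simp only [map_mul, map_pow, map_sub, map_add, coeffMap_jqModC, coeffMap_C_int,
    coeffMap_qExpand] at h
  simpa [x4k] using h

end Series

section Param

variable {k : Type*} [Field k]

theorem coe_inv_powerSeries {w : PowerSeries k} (hw : PowerSeries.constantCoeff w ≠ 0) :
    ((w : k⸨X⸩))⁻¹ = ((w⁻¹ : PowerSeries k) : k⸨X⸩) := by
  apply inv_eq_of_mul_eq_one_right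
  rw [← PowerSeries.coe_mul, PowerSeries.mul_inv_cancel w hw, PowerSeries.coe_one]

/-- `c / (q⁻¹ w)` is a local parameter when `c ≠ 0` and `w(0) = 1`. -/
theorem isParam_C_mul_inv {c : k} (hc : c ≠ 0) {w : PowerSeries k}
    (hw : PowerSeries.constantCoeff w = 1) :
    IsParam (HahnSeries.C c * (single (-1 : ℤ) (1 : k) * (w : k⸨X⸩))⁻¹) := by
  have hw0 : PowerSeries.constantCoeff w ≠ 0 := by rw [hw]; exact one_ne_zero
  refine ⟨c, w⁻¹, hc, ?_, ?_⟩
  · rw [PowerSeries.constantCoeff_inv, hw, inv_one]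
  · have h1 : (single (-1 : ℤ) (1 : k))⁻¹ = single (1 : ℤ) (1 : k) := by
      apply inv_eq_of_mul_eq_one_right
      rw [single_mul_single, mul_one]
      rfl
    rw [mul_inv, h1, coe_inv_powerSeries hw0, ← mul_assoc, HahnSeries.C_apply, single_mul_single,
      zero_add, mul_one]

end Param

section Data

variable (k : Type*) [Field k]

/-- The unit part of `x₄ - 16`. -/
noncomputable def w16 : PowerSeries k := u4k k - PowerSeries.C 16 * PowerSeries.X

theorem constantCoeff_w16 : PowerSeries.constantCoeff (w16 k) = 1 := by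
  rw [w16, map_sub, map_mul, PowerSeries.constantCoeff_X, mul_zero, sub_zero, constantCoeff_u4k]

theorem x4k_sub_eq : x4k k - HahnSeries.C 16 = single (-1 : ℤ) (1 : k) * (w16 k : k⸨X⸩) := by
  rw [w16, PowerSeries.coe_sub, PowerSeries.coe_mul, PowerSeries.coe_C, PowerSeries.coe_X, mul_sub,
    ← x4k_eq, mul_left_comm, single_mul_single, mul_one]
  congr 1
  rw [show (-1 : ℤ) + 1 = 0 by norm_num]
  change HahnSeries.C 16 = HahnSeries.C 16 * 1
  rw [mul_one]

/-- The local parameter at `t = ∞`: `1 / x₄`. -/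
noncomputable def pInf : k⸨X⸩ := (x4k k)⁻¹

/-- The local parameter at `t = 0`: `256 / x₄`. -/
noncomputable def p0 : k⸨X⸩ := HahnSeries.C 256 * (x4k k)⁻¹

/-- The local parameter at `t = 16`: `256 / (x₄ - 16)`. -/
noncomputable def p16 : k⸨X⸩ := HahnSeries.C 256 * (x4k k - HahnSeries.C 16)⁻¹

theorem isParam_pInf : IsParam (pInf k) := by
  have := isParam_C_mul_inv (one_ne_zero (α := k)) (constantCoeff_u4k k)
  rwa [map_one, one_mul, ← x4k_eq] at this

variable {k} in
theorem ne_zero_256 (h2 : (2 : k) ≠ 0) : (256 : k) ≠ 0 := by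
  have : (256 : k) = 2 ^ 8 := by norm_num
  rw [this]
  exact pow_ne_zero 8 h2

variable {k} in
theorem ne_zero_16 (h2 : (2 : k) ≠ 0) : (16 : k) ≠ 0 := by
  have : (16 : k) = 2 ^ 4 := by norm_num
  rw [this]
  exact pow_ne_zero 4 h2

variable {k} in
theorem isParam_p0 (h2 : (2 : k) ≠ 0) : IsParam (p0 k) := by
  have := isParam_C_mul_inv (ne_zero_256 h2) (constantCoeff_u4k k)
  rwa [← x4k_eq] at this

variable {k} in
theorem isParam_p16 (h2 : (2 : k) ≠ 0) : IsParam (p16 k) := by
  have := isParam_C_mul_inv (ne_zero_256 h2) (constantCoeff_w16 k)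
  rwa [← x4k_sub_eq] at this

end Data

section Relations

open Polynomial

variable (k : Type*) [Field k]

/-- Numerator of `J(t) = (t² + 224 t + 256)³ / (t (t - 16)⁴)`. -/
noncomputable def JP : k[X] := (X ^ 2 + 224 * X + 256) ^ 3

/-- Denominator of `J(t)`. -/
noncomputable def JQ : k[X] := X * (X - 16) ^ 4

theorem aeval_JP (y : k⸨X⸩) : aeval y (JP k) = (y ^ 2 + 224 * y + 256) ^ 3 := by
  simp only [JP, map_pow, map_add, map_mul, aeval_X, map_ofNat]

theorem aeval_JQ (y : k⸨X⸩) : aeval y (JQ k) = y * (y - 16) ^ 4 := by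
  simp only [JQ, map_pow, map_sub, map_mul, aeval_X, map_ofNat]

theorem C_ofNat (n : ℕ) [n.AtLeastTwo] :
    (HahnSeries.C (OfNat.ofNat n : k) : k⸨X⸩) = OfNat.ofNat n := map_ofNat _ n

variable {k}

theorem x4k_ne_zero : x4k k ≠ 0 := by
  have h := isParam_pInf k
  intro h0
  apply h.ne_zero
  rw [pInf, h0, inv_zero]

theorem x4k_sub_ne_zero (h2 : (2 : k) ≠ 0) : x4k k - HahnSeries.C 16 ≠ 0 := by
  have h := isParam_p16 h2
  intro h0
  apply h.ne_zero
  rw [p16, h0, inv_zero, mul_zero]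

/-- The relation at `t = ∞`. -/
theorem rel_inf : aeval (x4k k) (JP k) = jqModC k * aeval (x4k k) (JQ k) := by
  have h := jq_x4k k
  simp only [map_ofNat] at h
  rw [aeval_JP, aeval_JQ]
  exact h.symm

/-- The relation at `t = 0`: `J(256 / x) = J(x)`. -/
theorem rel_zero : aeval (p0 k) (JP k) = jqModC k * aeval (p0 k) (JQ k) := by
  have h := jq_x4k k
  simp only [map_ofNat] at h
  rw [aeval_JP, aeval_JQ, p0, C_ofNat]
  have hx : x4k k * (x4k k)⁻¹ = 1 := mul_inv_cancel₀ x4k_ne_zero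
  set x := x4k k
  set xi := x⁻¹
  set j := jqModC k
  have hA : (256 * xi) ^ 2 + 224 * (256 * xi) + 256 = 256 * xi ^ 2 * (x ^ 2 + 224 * x + 256) := by
    linear_combination (-(256 * (x * xi + 1) + 224 * 256 * xi)) * hx
  have hB : 256 * xi - 16 = -16 * xi * (x - 16) := by
    linear_combination 16 * hx
  have hC : 256 * xi = 256 * xi ^ 2 * x := by
    linear_combination (-256 * xi) * hx
  rw [hA, hB]
  conv_rhs => rw [hC]
  linear_combination (-(2 : k⸨X⸩) ^ 24 * xi ^ 6) * h

/-- The relation at `t = 16`: `J(16 + 256 / (x - 16)) = J₄(x)`. -/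
theorem rel_sixteen (h2 : (2 : k) ≠ 0) :
    aeval (HahnSeries.C 16 + p16 k) (JP k) =
      qExpand k 4 (jqModC k) * aeval (HahnSeries.C 16 + p16 k) (JQ k) := by
  have h := jq4_x4k k
  simp only [map_ofNat] at h
  rw [aeval_JP, aeval_JQ, p16, C_ofNat, C_ofNat]
  have hz : (x4k k - 16) * (x4k k - 16)⁻¹ = 1 := by
    have := x4k_sub_ne_zero h2
    rw [C_ofNat] at this
    exact mul_inv_cancel₀ this
  set x := x4k k
  set z := (x - 16)⁻¹
  set j := qExpand k 4 (jqModC k)
  have hA : (16 + 256 * z) ^ 2 + 224 * (16 + 256 * z) + 256 =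
      4096 * z ^ 2 * (x ^ 2 - 16 * x + 16) := by
    linear_combination (-4096 * (x * z + 1)) * hz
  have hB : 16 + 256 * z - 16 = 256 * z := by ring
  have hC : 16 + 256 * z = 16 * x * z := by
    linear_combination (-16 : k⸨X⸩) * hz
  rw [hA, hB]
  conv_rhs => rw [hC]
  have hD : 16 * x * z * (256 * z) ^ 4 = (2 : k⸨X⸩) ^ 36 * z ^ 6 * (x * (x - 16)) := by
    linear_combination (-(2 : k⸨X⸩) ^ 36 * x * z ^ 5) * hz
  rw [hD]
  linear_combination (-(2 : k⸨X⸩) ^ 36 * z ^ 6) * h

end Relations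

section Assembly

open Polynomial

open scoped Classical in
/-- The finite base cusps `t = 0, 16` of the `x₄`-line. -/
noncomputable def S4 (k : Type*) [Field k] : Finset k := {0, 16}

open scoped Classical in
/-- The local parameters at the base cusps. -/
noncomputable def π4 (k : Type*) [Field k] : Option k → k⸨X⸩
  | none => pInf k
  | some a => if a = 16 then p16 k else p0 k

open scoped Classical in
/-- The widths of the base cusps: `1, 1, 4` at `∞, 0, 16`. -/
noncomputable def e4 (k : Type*) [Field k] : Option k → ℕ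
  | none => 1
  | some a => if a = 16 then 4 else 1

open scoped Classical in
/-- The ramification exponents `m o = 4 N' / e o` of `z = q^(1/(4N'))` over the base cusps. -/
noncomputable def m4 (k : Type*) [Field k] (N' : ℕ) : Option k → ℕ
  | none => 4 * N'
  | some a => if a = 16 then N' else 4 * N'

variable {k : Type*} [Field k]

open scoped Classical in
theorem π4_some (a : k) : π4 k (some a) = if a = 16 then p16 k else p0 k := rfl

theorem π4_none : π4 k none = pInf k := rfl

open scoped Classical in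
theorem e4_some (a : k) : e4 k (some a) = if a = 16 then 4 else 1 := rfl

theorem e4_none : e4 k none = 1 := rfl

open scoped Classical in
theorem m4_some (N' : ℕ) (a : k) : m4 k N' (some a) = if a = 16 then N' else 4 * N' := rfl

theorem m4_none (N' : ℕ) : m4 k N' none = 4 * N' := rfl

instance neZero_m4 (N' : ℕ) [NeZero N'] (o : Option k) : NeZero (m4 k N' o) := by
  have h4 : 4 * N' ≠ 0 := mul_ne_zero (by norm_num) (NeZero.ne N')
  cases o with
  | none => exact ⟨h4⟩
  | some a =>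
    rw [m4_some]
    split_ifs
    · exact ⟨NeZero.ne N'⟩
    · exact ⟨h4⟩

theorem e4_mul_m4 (N' : ℕ) (o : Option k) : e4 k o * m4 k N' o = 4 * N' := by
  cases o with
  | none => rw [e4_none, m4_none, one_mul]
  | some a =>
    rw [e4_some, m4_some]
    split_ifs
    · rfl
    · rw [one_mul]

theorem isParam_π4 (h2 : (2 : k) ≠ 0) (o : Option k) : IsParam (π4 k o) := by
  cases o with
  | none => exact isParam_pInf k
  | some a =>
    rw [π4_some]
    split_ifs
    · exact isParam_p16 h2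
    · exact isParam_p0 h2

/-- The expansions of the `x₄`-line at its base cusps. -/
noncomputable def ε4 (h2 : (2 : k) ≠ 0) : Option k → RatFunc k →+* k⸨X⸩ :=
  tExp (π4 k) (isParam_π4 h2)

theorem ε4_C (h2 : (2 : k) ≠ 0) (o : Option k) (c : k) :
    ε4 h2 o (RatFunc.C c) = HahnSeries.C c := tExp_C _ _ o c

theorem ε4_X_some (h2 : (2 : k) ≠ 0) (a : k) :
    ε4 h2 (some a) RatFunc.X = HahnSeries.C a + π4 k (some a) := tExp_X_some _ _ a

theorem ε4_X_none (h2 : (2 : k) ≠ 0) : ε4 h2 none RatFunc.X = (π4 k none)⁻¹ := tExp_X_none _ _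

theorem ε4_X_inf (h2 : (2 : k) ≠ 0) : ε4 h2 none RatFunc.X = x4k k := by
  rw [ε4_X_none, π4_none, pInf, inv_inv]

theorem ε4_X_zero (h2 : (2 : k) ≠ 0) : ε4 h2 (some 0) RatFunc.X = p0 k := by
  rw [ε4_X_some, π4_some, if_neg (ne_zero_16 h2).symm, map_zero, zero_add]

theorem ε4_X_sixteen (h2 : (2 : k) ≠ 0) :
    ε4 h2 (some 16) RatFunc.X = HahnSeries.C 16 + p16 k := by
  rw [ε4_X_some, π4_some, if_pos rfl]

theorem mem_insertNone_S4 {o : Option k} (ho : o ∈ Finset.insertNone (S4 k)) :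
    o = none ∨ o = some 0 ∨ o = some 16 := by
  classical
  cases o with
  | none => exact Or.inl rfl
  | some a =>
    rw [Finset.mem_insertNone] at ho
    have := ho a rfl
    rw [S4, Finset.mem_insert, Finset.mem_singleton] at this
    rcases this with rfl | rfl
    · exact Or.inr (Or.inl rfl)
    · exact Or.inr (Or.inr rfl)

theorem sum_e4 (h2 : (2 : k) ≠ 0) : ∑ o ∈ Finset.insertNone (S4 k), e4 k o = 6 := by
  classical
  have h : ∑ o ∈ Finset.insertNone (S4 k), e4 k o = 1 + (1 + 4) := by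
    rw [Finset.sum_insertNone, S4, Finset.sum_pair (ne_zero_16 h2).symm, e4_none, e4_some,
      e4_some, if_neg (ne_zero_16 h2).symm, if_pos rfl]
  rw [h]

theorem natDegree_JP : (JP k).natDegree = 6 := by
  have h : (X ^ 2 + 224 * X + 256 : k[X]).Monic := by monicity!
  have hd : (X ^ 2 + 224 * X + 256 : k[X]).natDegree = 2 := by compute_degree!
  rw [JP, h.natDegree_pow, hd]

theorem natDegree_JQ_lt : (JQ k).natDegree < (JP k).natDegree := by
  rw [natDegree_JP]
  have h : (JQ k).natDegree ≤ 5 := by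
    rw [JQ]
    compute_degree
  omega

end Assembly

section Main

open Polynomial Module

variable {k : Type*} [Field k] (h2 : (2 : k) ≠ 0) (N' : ℕ) [NeZero N'] (ζ : kˣ)
  (hζ : IsPrimitiveRoot ζ (4 * N'))

/-- The relations `P(t) = j(X^(e o)) Q(t)` at the three base cusps. -/
theorem hrel4 : ∀ o ∈ Finset.insertNone (S4 k), ∃ jo : k⸨X⸩,
    qExpand k (m4 k N' o) jo = qExpand k (4 * N') (jqModC k) ∧
      aeval (ε4 h2 o RatFunc.X) (JP k) = jo * aeval (ε4 h2 o RatFunc.X) (JQ k) := by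
  intro o ho
  rcases mem_insertNone_S4 ho with rfl | rfl | rfl
  · refine ⟨jqModC k, qExpand_congr (m4_none N') _, ?_⟩
    rw [ε4_X_inf]
    exact rel_inf
  · refine ⟨jqModC k, qExpand_congr ?_ _, ?_⟩
    · rw [m4_some, if_neg (ne_zero_16 h2).symm]
    · rw [ε4_X_zero]
      exact rel_zero
  · refine ⟨qExpand k 4 (jqModC k), ?_, ?_⟩
    · rw [qExpand_qExpand]
      apply qExpand_congr
      rw [m4_some, if_pos rfl, mul_comm]
    · rw [ε4_X_sixteen]
      exact rel_sixteen h2

include hζ in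
theorem hbranch4 : ∀ i ∈ branchIndex (S4 k) (e4 k),
    aeval (branch (ε4 h2) (m4 k N') ζ i.1 i.2 RatFunc.X) (JP k) =
      qExpand k (4 * N') (jqModC k) *
        aeval (branch (ε4 h2) (m4 k N') ζ i.1 i.2 RatFunc.X) (JQ k) :=
  aeval_branch_eq (S4 k) (ε4 h2) (e4 k) (m4 k N') ζ (JP k) (JQ k) _
    (twist_qExpand_of_pow_eq_one ζ (4 * N') hζ.pow_eq_one _) (hrel4 h2 N')

variable {E : Type*} [Field E] [Algebra (RatFunc k) E] (jE : E)
  (hj : jE * algebraMap (RatFunc k) E (algebraMap k[X] (RatFunc k) (JQ k)) =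
    algebraMap (RatFunc k) E (algebraMap k[X] (RatFunc k) (JP k)))

include hζ hj in
/-- **Cover at level 4.**  Every embedding of `E` over the constants with `j ↦ j(z^(4N'))`
restricts on `k(x₄)` to one of the six branches. -/
theorem exists_branch4 (s : E →+* k⸨X⸩)
    (hsC : ∀ c : k, s (algebraMap (RatFunc k) E (RatFunc.C c)) = HahnSeries.C c)
    (hsj : s jE = qExpand k (4 * N') (jqModC k)) :
    ∃ o ∈ Finset.insertNone (S4 k), ∃ b < e4 k o,
      s.comp (algebraMap (RatFunc k) E) = branch (ε4 h2) (m4 k N') ζ o b :=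
  exists_branch_of_map_j (S4 k) (ε4 h2) (π4 k) (fun o _ c => ε4_C h2 o c)
    (fun o _ => isParam_π4 h2 o) (fun a _ => ε4_X_some h2 a) (ε4_X_none h2) (e4 k) (m4 k N')
    (4 * N') (fun o _ => e4_mul_m4 N' o) ζ hζ (JP k) (JQ k) natDegree_JQ_lt
    (by rw [natDegree_JP, sum_e4 h2]) _ (hbranch4 h2 N' ζ hζ) jE hj s hsC hsj

variable [Algebra k E] [IsScalarTower k (RatFunc k) E]

include h2 hζ hj in
/-- **Count at level 4**: `[E : k(j)] = 6 [E : k(x₄)]`. -/
theorem finrank_adjoin_eq4 :
    finrank (IntermediateField.adjoin k {jE}) E = 6 * finrank (RatFunc k) E := by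
  rw [← sum_e4 h2]
  exact finrank_adjoin_eq_sum_mul_finrank (S4 k) (ε4 h2) (π4 k) (fun o _ c => ε4_C h2 o c)
    (fun o _ => isParam_π4 h2 o) (fun a _ => ε4_X_some h2 a) (ε4_X_none h2) (e4 k) (m4 k N')
    (4 * N') (fun o _ => e4_mul_m4 N' o) ζ hζ (JP k) (JQ k) natDegree_JQ_lt
    (by rw [natDegree_JP, sum_e4 h2]) _ (hbranch4 h2 N' ζ hζ) jE hj

end Main

section Final

open Polynomial Module

variable {k : Type*} [Field k] (h2 : (2 : k) ≠ 0) (N' : ℕ) [NeZero N'] (ζ : kˣ)
  (hζ : IsPrimitiveRoot ζ (4 * N'))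
  {E : Type*} [Field E] [Algebra k E] [Algebra (RatFunc k) E] [IsScalarTower k (RatFunc k) E]
  [FiniteDimensional (RatFunc k) E] [Algebra.IsSeparable (RatFunc k) E] (jE : E)
  (hj : jE * algebraMap (RatFunc k) E (algebraMap k[X] (RatFunc k) (JQ k)) =
    algebraMap (RatFunc k) E (algebraMap k[X] (RatFunc k) (JP k)))

theorem JQ_ne_zero : JQ k ≠ 0 := by
  have h : (JQ k).Monic := by
    rw [JQ]
    monicity!
  exact h.ne_zero

include h2 in
theorem JQ_dvd : JQ k ∣ (∏ a ∈ S4 k, (X - Polynomial.C a)) ^ 4 := by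
  classical
  rw [S4, Finset.prod_pair (ne_zero_16 h2).symm, map_zero, sub_zero, JQ]
  refine ⟨X ^ 3, ?_⟩
  rw [show (Polynomial.C (16 : k) : k[X]) = 16 from map_ofNat Polynomial.C 16]
  ring

include h2 hζ hj in
/-- **The residue theorem over all embeddings at a level `4 N'`**, in consumer form: `E ⊇ k(x₄)`
finite separable, `j = J(x₄) ∈ E`; `s i : E → k⸨z⸩` (`i ∈ I`) pairwise distinct embeddings over
the constants with `s i j = j(z^(4N'))`, as many as `[E : k(j)]`; `g ∈ E` integral over `k[j]`.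
Then `∑ i ∈ I, res (s i g d(s i x₄)) = 0`. -/
theorem sum_res_eq_zero4 {ι : Type*} (I : Finset ι) (s : ι → E →+* k⸨X⸩) (hs : Set.InjOn s I)
    (hsC : ∀ i ∈ I, ∀ c : k, s i (algebraMap (RatFunc k) E (RatFunc.C c)) = HahnSeries.C c)
    (hsj : ∀ i ∈ I, s i jE = qExpand k (4 * N') (jqModC k))
    (hcard : I.card = finrank (IntermediateField.adjoin k {jE}) E)
    (g : E) (hg : IsIntegral (Algebra.adjoin k {jE}) g) :
    ∑ i ∈ I, res (s i g * D (s i (algebraMap (RatFunc k) E RatFunc.X))) = 0 := by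
  classical
  let _ : Algebra k[X] E :=
    ((algebraMap (RatFunc k) E).comp (algebraMap k[X] (RatFunc k))).toAlgebra
  have : IsScalarTower k[X] (RatFunc k) E := IsScalarTower.of_algebraMap_eq fun _ => rfl
  have : IsScalarTower k k[X] E := IsScalarTower.of_algebraMap_eq fun c => by
    change algebraMap k E c =
      algebraMap (RatFunc k) E (algebraMap k[X] (RatFunc k) (algebraMap k k[X] c))
    rw [IsScalarTower.algebraMap_apply k (RatFunc k) E,
      ← IsScalarTower.algebraMap_apply k k[X] (RatFunc k)]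
  obtain ⟨f, N, hf⟩ := exists_trace_eq_of_isIntegral_adjoin (S4 k) (JP k) (JQ k) JQ_ne_zero 4
    (JQ_dvd h2) jE hj g hg
  refine sum_res_family_eq_zero (S4 k) (ε4 h2) (π4 k) (fun o _ c => ε4_C h2 o c)
    (fun o _ => isParam_π4 h2 o) (fun a _ => ε4_X_some h2 a) (ε4_X_none h2) (e4 k) (m4 k N')
    (4 * N') (fun o _ => e4_mul_m4 N' o) ζ hζ I s hs
    (fun i hi => exists_branch4 h2 N' ζ hζ jE hj (s i) (hsC i hi) (hsj i hi)) ?_ g f
    (fun _ => N) hf
  rw [hcard, finrank_adjoin_eq4 h2 N' ζ hζ jE hj, sum_e4 h2]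

end Final

end Fermat.Agent.Gateway.GoodRed.TLine4
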