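import Fermat.Agent.Gateway.GoodRed.CuspPersist

/-!
# P-GATEWAY (c) GoodRed, WP-GR4: adapter for the consumers of `CuspData`

The natural setting: `F / L` a field extension, `x : F` transcendental over `L`, `K := L⟮x⟯ ⊆ F`.

* `polyAlgebra x : Algebra L[X] F`, `adjoinPolyAlgebra x : Algebra L[X] L⟮x⟯` (`X ↦ x`; reducible
  defs, to be declared as local instances with `letI`), `isScalarTower_poly`, `isFractionRing_poly`.
* `isIntegral_poly_iff`: integrality over `L[X]` is integrality over `Algebra.adjoin L {x}`.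
* `CuspData.ofAlgHoms`: constructor of `CuspData A L⟮x⟯ F` from `L`-algebra homs `σ i`.
* `qint_ofAlgHoms`: QINT in unbundled form (template for the use of the adapter).
-/

set_option autoImplicit false

noncomputable section

namespace Fermat.Agent.Gateway.GoodRed

open Polynomial IntermediateField Fermat.Agent.Gateway.Red

section Adapter

variable {L : Type*} [Field L] {F : Type*} [Field F] [Algebra L F] (x : F)

/-- the generator of `L⟮x⟯`. -/
def adjGen : L⟮x⟯ := ⟨x, mem_adjoin_simple_self L x⟩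

@[simp] theorem coe_adjGen : ((adjGen x : L⟮x⟯) : F) = x := rfl

/-- the `L[X]`-algebra structure on `F` given by `X ↦ x` (to be used as a local instance). -/
@[reducible] def polyAlgebra : Algebra L[X] F := (aeval x : L[X] →ₐ[L] F).toRingHom.toAlgebra

/-- the `L[X]`-algebra structure on `L⟮x⟯` given by `X ↦ x` (to be used as a local instance). -/
@[reducible] def adjoinPolyAlgebra : Algebra L[X] L⟮x⟯ :=
  (aeval (adjGen x) : L[X] →ₐ[L] L⟮x⟯).toRingHom.toAlgebra

theorem polyAlgebra_algebraMap_apply (P : L[X]) :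
    @algebraMap L[X] F _ _ (polyAlgebra x) P = aeval x P := rfl

theorem adjoinPolyAlgebra_algebraMap_apply (P : L[X]) :
    @algebraMap L[X] L⟮x⟯ _ _ (adjoinPolyAlgebra x) P = aeval (adjGen x) P := rfl

theorem isScalarTower_poly :
    @IsScalarTower L[X] L⟮x⟯ F (adjoinPolyAlgebra x).toSMul _ (polyAlgebra x).toSMul := by
  let _ := polyAlgebra (L := L) x
  let _ := adjoinPolyAlgebra (L := L) x
  refine IsScalarTower.of_algebraMap_eq fun P => ?_
  rw [polyAlgebra_algebraMap_apply, adjoinPolyAlgebra_algebraMap_apply,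
    ← aeval_algebraMap_apply, IntermediateField.algebraMap_apply, coe_adjGen]

theorem aeval_adjGen_injective (hx : Transcendental L x) :
    Function.Injective (aeval (adjGen x) : L[X] →ₐ[L] L⟮x⟯) := by
  have h1 : Function.Injective (aeval x : L[X] →ₐ[L] F) := transcendental_iff_injective.mp hx
  intro P Q hPQ
  apply h1
  have := congrArg (algebraMap L⟮x⟯ F) hPQ
  rwa [← aeval_algebraMap_apply, ← aeval_algebraMap_apply, IntermediateField.algebraMap_apply,
    coe_adjGen] at this

/-- `L⟮x⟯` is the fraction field of `L[X]` for `x` transcendental. -/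
theorem isFractionRing_poly (hx : Transcendental L x) :
    @IsFractionRing L[X] _ L⟮x⟯ _ (adjoinPolyAlgebra x) := by
  let _ := adjoinPolyAlgebra (L := L) x
  have : FaithfulSMul L[X] L⟮x⟯ :=
    (faithfulSMul_iff_algebraMap_injective L[X] L⟮x⟯).mpr (aeval_adjGen_injective x hx)
  refine IsFractionRing.of_field L[X] L⟮x⟯ fun z => ?_
  obtain ⟨r, s, h⟩ := (mem_adjoin_simple_iff L (z : F)).mp z.2
  refine ⟨r, s, ?_⟩
  apply Subtype.ext
  rw [h, adjoinPolyAlgebra_algebraMap_apply, adjoinPolyAlgebra_algebraMap_apply]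
  have e : ∀ P : L[X], algebraMap L⟮x⟯ F (aeval (adjGen x) P) = aeval x P := fun P => by
    rw [← aeval_algebraMap_apply, IntermediateField.algebraMap_apply, coe_adjGen]
  rw [← e r, ← e s]
  rfl

/-- `aeval x`, with codomain `Algebra.adjoin L {x}`. -/
def toAdjoin : L[X] →+* Algebra.adjoin L {x} :=
  ((aeval x : L[X] →ₐ[L] F).toRingHom).codRestrict (Algebra.adjoin L {x}) fun P => by
    rw [Algebra.adjoin_singleton_eq_range_aeval]
    exact ⟨P, rfl⟩

theorem coe_toAdjoin (P : L[X]) : ((toAdjoin x P : Algebra.adjoin L {x}) : F) = aeval x P := rfl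

theorem toAdjoin_surjective : Function.Surjective (toAdjoin (L := L) x) := by
  rintro ⟨y, hy⟩
  rw [Algebra.adjoin_singleton_eq_range_aeval] at hy
  obtain ⟨P, hP⟩ := hy
  exact ⟨P, Subtype.ext hP⟩

theorem algebraMap_comp_toAdjoin :
    (algebraMap (Algebra.adjoin L {x}) F).comp (toAdjoin x) =
      @algebraMap L[X] F _ _ (polyAlgebra x) := rfl

/-- integrality over `L[X]` (acting through `X ↦ x`) is integrality over `L[x]`. -/
theorem isIntegral_poly_iff (f : F) :
    @IsIntegral L[X] F _ _ (polyAlgebra x) f ↔ IsIntegral (Algebra.adjoin L {x}) f := by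
  let _ := polyAlgebra (L := L) x
  constructor
  · rintro ⟨p, hp, h⟩
    refine ⟨p.map (toAdjoin x), hp.map _, ?_⟩
    rw [eval₂_map, algebraMap_comp_toAdjoin]
    exact h
  · rintro ⟨q, hq, h⟩
    have hl : q ∈ lifts (toAdjoin (L := L) x) := by
      rw [lifts_iff_coeff_lifts]
      intro n
      exact toAdjoin_surjective x _
    obtain ⟨p, hpq, -, hp⟩ := lifts_and_natDegree_eq_and_monic hl hq
    refine ⟨p, hp, ?_⟩
    rw [← hpq, eval₂_map, algebraMap_comp_toAdjoin] at h
    exact h

/-- **Constructor of `CuspData`** in the natural setting `K = L⟮x⟯ ⊆ F`, `x` transcendental over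
`L`, from `L`-algebra homs `σ i : F → L((z))` with `σ i x = ξ`. The `L[X]`-algebra structures are
`polyAlgebra x`, `adjoinPolyAlgebra x` (declare them with `letI` before using the result). -/
def CuspData.ofAlgHoms (A : ValuationSubring L) (hx : Transcendental L x)
    (pb : PowerBasis L⟮x⟯ F) (hint : IsIntegral (Algebra.adjoin L {x}) pb.gen)
    (ξ : LaurentSeries A) (hξ : IsUnit ξ) (hξo : ξ.order < 0)
    (σ : Fin pb.dim → (F →ₐ[L] LaurentSeries L)) (hσx : ∀ i, σ i x = embA A ξ)
    (t : Fin pb.dim → LaurentSeries A) (hσθ : ∀ i, σ i pb.gen = embA A (t i))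
    (ht : ∀ i i', i ≠ i' → IsUnit (t i - t i')) :
    letI := adjoinPolyAlgebra (L := L) x
    letI := polyAlgebra (L := L) x
    haveI := isFractionRing_poly x hx
    haveI := isScalarTower_poly (L := L) x
    CuspData A L⟮x⟯ F :=
  letI := adjoinPolyAlgebra (L := L) x
  letI := polyAlgebra (L := L) x
  haveI := isFractionRing_poly x hx
  haveI := isScalarTower_poly (L := L) x
  { pb := pb
    gen_int := (isIntegral_poly_iff x pb.gen).mpr hint
    ξ := ξ
    ξ_unit := hξ
    ξ_order := hξo
    σ := fun i => (σ i : F →+* LaurentSeries L)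
    σ_poly := fun i P => by
      show σ i (aeval x P) = aeval (embA A ξ) P
      rw [← aeval_algHom_apply, hσx]
    t := t
    σ_gen := hσθ
    t_unit := ht }

/-- QINT in unbundled form, for `K = L⟮x⟯ ⊆ F` (no exotic instances in the statement): template
for the use of `CuspData.ofAlgHoms`. -/
theorem qint_ofAlgHoms {k : Type*} [Field k] (A : ValuationSubring L) (π : A →+* k)
    (hπ : ∀ a : A, a ∈ IsLocalRing.maximalIdeal A → π a = 0)
    (hx : Transcendental L x) [FiniteDimensional L⟮x⟯ F] [Algebra.IsSeparable L⟮x⟯ F]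
    (pb : PowerBasis L⟮x⟯ F) (hint : IsIntegral (Algebra.adjoin L {x}) pb.gen)
    (ξ : LaurentSeries A) (hξ : IsUnit ξ) (hξo : ξ.order < 0)
    (σ : Fin pb.dim → (F →ₐ[L] LaurentSeries L)) (hσx : ∀ i, σ i x = embA A ξ)
    (t : Fin pb.dim → LaurentSeries A) (hσθ : ∀ i, σ i pb.gen = embA A (t i))
    (ht : ∀ i i', i ≠ i' → IsUnit (t i - t i')) (i₀ : Fin pb.dim)
    (higusa : ∀ c : Fin pb.dim → k[X],
      ∑ j, aeval (redA A π ξ) (c j) * redA A π (t i₀) ^ (j : ℕ) = 0 → ∀ j, c j = 0)
    {f : F} (hf : IsIntegral (Algebra.adjoin L {x}) f) (hf0 : σ i₀ f ∈ gaussRing A π)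
    (i : Fin pb.dim) : σ i f ∈ intLS A := by
  let _ := adjoinPolyAlgebra (L := L) x
  let _ := polyAlgebra (L := L) x
  have := isFractionRing_poly x hx
  have := isScalarTower_poly (L := L) x
  exact (CuspData.ofAlgHoms x A hx pb hint ξ hξ hξo σ hσx t hσθ ht).qint π hπ i₀ higusa
    ((isIntegral_poly_iff x f).mpr hf) hf0 i

end Adapter

end Fermat.Agent.Gateway.GoodRed
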