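import Fermat.Agent.Gateway.GoodRed.RedFamily
import Fermat.Agent.Gateway.GoodRed.CuspAdapter

/-!
# P-GATEWAY (c) GoodRed, (S5): the reduction `Emb L N → Emb k N` of the cusp embeddings

Setting: `L` algebraically closed of characteristic zero, `A ⊆ L` a valuation subring,
`π : A →+* k` surjective onto an algebraically closed field of characteristic `ℓ ∤ N`.
`ConjFamily.Emb K N` (helper83) is the finite set of all cusp embeddings
`τ : modularFunctionFieldFullC K N →+* K((z))` (identity on `K`, `j ↦ j(z^N)`), in every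
characteristic; `resFk : OvVal → Fk k N` is the residue map of the Gauss valuation (helper82).

* `persists_embF` (Q4), `embF_mem_intLS` (Q3): every cusp embedding over `L` maps `Ov` into the
  Gauss ring compatibly with the reductions, and elements of `Ov` integral over `L[j]` have
  `A`-integral expansions at all cusps.
* `redEmb : Emb L N → Emb k N` with `redEmb_resFk : (redEmb τ).1 (resFk f) = gaussRed (τ f)`;
  `redEmb_of_eq_embA`, `redEmb_jdF` (values), `redEmb_embInfty`, `redEmb_rot` (twists),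
  `redEmb_coeff_eq_zero` (Q5: pole orders do not grow), `redEmb_order_eq` (orders of units are
  preserved), `redEmb_injective`, `redEmb_bijective`, `redEmbEquiv : Emb L N ≃ Emb k N`.
* `isPrimitiveRoot_map_pi`, `exists_primitiveRoot_A` : primitive `N`-th roots of unity of `L` lie in
  `A` and reduce to primitive `N`-th roots of unity of `k`.
* `isIntegral_polyF_iff` : `IsIntegral L[X] f ↔ IsIntegral (Algebra.adjoin L {j}) f`.
* `exists_persists_of_emb` : every `τ : Emb k N` is `redHom hs` for a persisting `s` over `L` with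
  (Q3), in unbundled form.
-/

set_option autoImplicit false
set_option linter.unusedSectionVars false
set_option linter.style.haveILetI false

noncomputable section

namespace Fermat.Agent.Gateway.GoodRed

open Polynomial ModularCurve Fermat.Agent.S28 Fermat.Agent.S28.Tower Fermat.Agent.Gateway.Red
open IntermediateField

section RedEmb

variable {L : Type} [Field L] [Algebra ℚ L] [IsAlgClosed L] (A : ValuationSubring L)
  {k : Type} [Field k] (π : A →+* k) (N : ℕ)
  [IsAlgClosed k] (ℓ : ℕ) [Fact ℓ.Prime] [CharP k ℓ] [NeZero N]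
  (hπ : Function.Surjective π) (hℓN : ¬ ℓ ∣ N)

attribute [local instance] algebraRF algebraPolyF

theorem natCast_ne_zero_L : ((N : ℕ) : L) ≠ 0 := by
  haveI : CharZero L := algebraRat.charZero L
  exact_mod_cast NeZero.ne N

theorem embF_algebraMap (τ : ConjFamily.Emb L N) (c : L) :
    embF τ (algebraMap L (FBar L N) c) = HahnSeries.C c := by
  rw [embF_apply, toFullC_algebraMap, ConjFamily.emb_algebraMap]

theorem embF_j (τ : ConjFamily.Emb L N) :
    embF τ (jSF L N one_ne_zero (one_dvd N)) = qExpand L N (jqModC L) := by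
  rw [embF_apply, toFullC_jSF, ConjFamily.jdF_one, ConjFamily.emb_jFk]

include hπ hℓN in
theorem embF_family :
    (∀ τ : ConjFamily.Emb L N, Persists A π N (embF τ)) ∧
    (∀ f : FBar L N, IsIntegral L[X] f → f ∈ Ov A π (FBar L N) →
      ∀ τ : ConjFamily.Emb L N, embF τ f ∈ intLS A) := by
  have hNL : ((N : ℕ) : L) ≠ 0 := natCast_ne_zero_L N
  letI := ConjFamily.fintypeEmb (k := L) (N := N) hNL
  refine family_persists A π N ℓ hπ hℓN (fun τ : ConjFamily.Emb L N => embF τ)
    (embF_algebraMap N) (embF_j N) (fun τ d hd0 hd => ?_) embF_injective ?_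
    ConjFamily.embInfty embF_embInfty
  · obtain ⟨ξ, c, hξ, hc, h⟩ := ConjFamily.emb_jdF' hNL τ d hd
    exact ⟨ξ, c, hξ, hc, by rw [embF_apply, toFullC_jSF, h]⟩
  · rw [ConjFamily.card_emb_fintype hNL, ConjFamily.finrank_Fk_eq_dedekindPsi hNL]

include hπ hℓN in
/-- **(Q4)** every cusp embedding of the function field over `L` persists to the residue
fields. -/
theorem persists_embF (τ : ConjFamily.Emb L N) : Persists A π N (embF τ) :=
  (embF_family A π N ℓ hπ hℓN).1 τ

include hπ hℓN in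
/-- **(Q3)** an element of `Ov`, integral over `L[j]`, has `A`-integral expansions at all
cusps. -/
theorem embF_mem_intLS {f : FBar L N} (hf : IsIntegral L[X] f) (hfO : f ∈ Ov A π (FBar L N))
    (τ : ConjFamily.Emb L N) : embF τ f ∈ intLS A :=
  (embF_family A π N ℓ hπ hℓN).2 f hf hfO τ

variable {A π N}

theorem redHom_congr {s s' : FBar L N →+* LaurentSeries L} (h : s = s')
    (hs : Persists A π N s) (hs' : Persists A π N s') :
    redHom ℓ hπ hℓN hs = redHom ℓ hπ hℓN hs' := by
  subst h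
  rfl

variable (A π N)

/-- **the reduction of a cusp embedding** `τ : Fk L N →+* L((z))` to a cusp embedding
`Fk k N →+* k((z))`. -/
def redEmb (τ : ConjFamily.Emb L N) : ConjFamily.Emb k N :=
  ⟨redHom ℓ hπ hℓN (persists_embF A π N ℓ hπ hℓN τ),
    fun c => redHom_algebraMap ℓ hπ hℓN _ (embF_algebraMap N τ) c, by
      have h := redHom_of_eq_embA ℓ hπ hℓN (persists_embF A π N ℓ hπ hℓN τ)
        (jSO A π N ℓ hπ hℓN one_ne_zero (one_dvd N)) (g := xiA A N)
        (by rw [embA_xiA]; exact embF_j N τ)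
      rw [resFk_jSO, redA_xiA] at h
      have h2 : (⟨jS k 1 1, jS_mem_fullC k one_ne_zero (one_dvd N)⟩ :
          modularFunctionFieldFullC k N) = ConjFamily.jFk k N := Subtype.ext jS_one_one
      rw [h2] at h
      exact h⟩

variable {A π N}

theorem redEmb_val (τ : ConjFamily.Emb L N) :
    (redEmb A π N ℓ hπ hℓN τ).1 = redHom ℓ hπ hℓN (persists_embF A π N ℓ hπ hℓN τ) := rfl

/-- **compatibility**: `τ̄ (resFk f) = gaussRed (τ f)`. -/
theorem redEmb_resFk (τ : ConjFamily.Emb L N) (f : OvVal A π N ℓ hπ hℓN) :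
    (redEmb A π N ℓ hπ hℓN τ).1 (resFk A π N ℓ hπ hℓN f)
      = gaussRed A π ⟨embF τ f, (persists_embF A π N ℓ hπ hℓN τ).mem f f.2⟩ :=
  redHom_resFk ℓ hπ hℓN _ f

theorem redEmb_of_eq_embA (τ : ConjFamily.Emb L N) (f : OvVal A π N ℓ hπ hℓN)
    {g : LaurentSeries A} (hg : embF τ f = embA A g) :
    (redEmb A π N ℓ hπ hℓN τ).1 (resFk A π N ℓ hπ hℓN f) = redA A π g :=
  redHom_of_eq_embA ℓ hπ hℓN _ f hg

/-- values on the generators. -/
theorem redEmb_jdF (τ : ConjFamily.Emb L N) {d : ℕ} (hd : d ∣ N) (ζ : Aˣ) (e : ℕ)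
    (h : τ.1 (ConjFamily.jdF d hd) = jS L (Units.map (A.subtype : A →* L) ζ) e) :
    (redEmb A π N ℓ hπ hℓN τ).1 (ConjFamily.jdF d hd) = jS k (Units.map (π : A →* k) ζ) e := by
  have hd0 : d ≠ 0 := ConjFamily.ne_zero_of_dvd_N hd
  have := redHom_jS ℓ hπ hℓN (persists_embF A π N ℓ hπ hℓN τ) hd0 hd ζ e
    (by rw [embF_apply, toFullC_jSF]; exact h)
  exact this

/-- the cusp `∞` reduces to the cusp `∞`. -/
theorem redEmb_embInfty :
    redEmb A π N ℓ hπ hℓN (ConjFamily.embInfty (k := L) (N := N)) = ConjFamily.embInfty := by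
  apply Subtype.ext
  refine RingHom.ext fun y => ?_
  rw [redEmb_val, redHom_congr ℓ hπ hℓN embF_embInfty _ persists_sInfty, redHom_sInfty,
    ConjFamily.embInfty_apply]

/-- the reduction commutes with the twists by `N`-th roots of unity. -/
theorem redEmb_rot (ζ : Aˣ) (hζ : ζ ^ N = 1) (τ : ConjFamily.Emb L N) :
    redEmb A π N ℓ hπ hℓN
        (ConjFamily.rot (Units.map (A.subtype : A →* L) ζ) (by rw [← map_pow, hζ, map_one]) τ)
      = ConjFamily.rot (Units.map (π : A →* k) ζ) (by rw [← map_pow, hζ, map_one])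
          (redEmb A π N ℓ hπ hℓN τ) := by
  apply Subtype.ext
  refine RingHom.ext fun y => ?_
  rw [ConjFamily.rot_apply, redEmb_val, redEmb_val]
  exact redHom_twist ℓ hπ hℓN _ _ ζ (fun f => rfl) y

/-- (Q5) pole orders do not grow under reduction. -/
theorem redEmb_coeff_eq_zero (τ : ConjFamily.Emb L N) (f : OvVal A π N ℓ hπ hℓN)
    (hf : IsIntegral L[X] (f : FBar L N)) {n : ℤ} (hn : (embF τ f).coeff n = 0) :
    ((redEmb A π N ℓ hπ hℓN τ).1 (resFk A π N ℓ hπ hℓN f)).coeff n = 0 :=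
  redHom_coeff_eq_zero ℓ hπ hℓN _ f (embF_mem_intLS A π N ℓ hπ hℓN hf f.2 τ) hn

include hπ hℓN in
/-- reduction is injective on the `N`-th roots of unity; in particular it preserves primitive
`N`-th roots of unity. -/
theorem isPrimitiveRoot_map_pi {ζ : Aˣ} (hζ : IsPrimitiveRoot ζ N) :
    IsPrimitiveRoot (Units.map (π : A →* k) ζ) N := by
  have hNA := isUnit_natCast_A A π N ℓ hπ hℓN
  refine IsPrimitiveRoot.mk_of_lt _ (Nat.pos_of_ne_zero (NeZero.ne N))
    (by rw [← map_pow, hζ.pow_eq_one, map_one]) fun l hl0 hlN h1 => ?_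
  have hne : ζ ^ l ≠ 1 := hζ.pow_ne_one_of_pos_of_lt hl0.ne' hlN
  have hpow : (ζ ^ l) ^ N = 1 := by rw [← pow_mul, mul_comm, pow_mul, hζ.pow_eq_one, one_pow]
  have hu := ConjFamily.isUnit_one_sub_of_pow_eq_one hNA (ζ ^ l) hpow hne
  have h2 := (hu.map π).ne_zero
  apply h2
  rw [map_sub, map_one, sub_eq_zero]
  have h3 := congrArg (fun u : kˣ => (u : k)) h1
  simp only [Units.val_pow_eq_pow_val, Units.coe_map, MonoidHom.coe_coe, Units.val_one] at h3
  rw [Units.val_pow_eq_pow_val, map_pow, h3]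

theorem exists_primitiveRoot_A (A : ValuationSubring L) (N : ℕ) [NeZero N] :
    ∃ ζ : Aˣ, IsPrimitiveRoot ζ N := by
  haveI : CharZero L := algebraRat.charZero L
  obtain ⟨ζ, hζ⟩ := HasEnoughRootsOfUnity.exists_primitiveRoot L N
  have hu : IsUnit ζ := hζ.isUnit (NeZero.ne N)
  have hζ' : IsPrimitiveRoot hu.unit N := by
    rw [← IsPrimitiveRoot.coe_units_iff]
    simpa using hζ
  refine ⟨unitOfRoot A hu.unit (NeZero.ne N) hζ'.pow_eq_one, ?_⟩
  have h := map_unitOfRoot A hu.unit (NeZero.ne N) hζ'.pow_eq_one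
  rw [← h] at hζ'
  exact IsPrimitiveRoot.of_map_of_injective (f := Units.map (A.subtype : A →* L)) hζ'
    (Units.map_injective A.subtype_injective)

/-- **the reduction of cusp embeddings is injective.** -/
theorem redEmb_injective : Function.Injective (redEmb A π N ℓ hπ hℓN) := by
  intro τ τ' h
  have hNL : ((N : ℕ) : L) ≠ 0 := natCast_ne_zero_L N
  have hN0 : N ≠ 0 := NeZero.ne N
  have hNA := isUnit_natCast_A A π N ℓ hπ hℓN
  apply ConjFamily.emb_ext_of_jdF
  intro d hd
  obtain ⟨ξ, c, hξ, hc, h1⟩ := ConjFamily.emb_jdF' hNL τ d hd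
  obtain ⟨ξ', c', hξ', hc', h1'⟩ := ConjFamily.emb_jdF' hNL τ' d hd
  have e1 := redEmb_jdF ℓ hπ hℓN τ hd (unitOfRoot A ξ hN0 hξ) c
    (by rw [map_unitOfRoot]; exact h1)
  have e2 := redEmb_jdF ℓ hπ hℓN τ' hd (unitOfRoot A ξ' hN0 hξ') c'
    (by rw [map_unitOfRoot]; exact h1')
  rw [h] at e1
  have e3 : redA A π (jS A (unitOfRoot A ξ hN0 hξ) c - jS A (unitOfRoot A ξ' hN0 hξ') c') = 0 := by
    rw [map_sub, redA_jS, redA_jS, ← e1, ← e2, sub_self]
  by_cases hne : unitOfRoot A ξ hN0 hξ ≠ unitOfRoot A ξ' hN0 hξ' ∨ c ≠ c'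
  · exfalso
    have hu := ConjFamily.isUnit_jS_sub hNA (unitOfRoot_pow A ξ hN0 hξ)
      (unitOfRoot_pow A ξ' hN0 hξ') hc hc' hne
    have := hu.map (redA A π)
    rw [e3] at this
    exact not_isUnit_zero this
  · simp only [not_or, not_not] at hne
    have hξξ' : ξ = ξ' := by
      rw [← map_unitOfRoot A ξ hN0 hξ, ← map_unitOfRoot A ξ' hN0 hξ', hne.1]
    rw [h1, h1', hξξ', hne.2]

/-- **the reduction of cusp embeddings is bijective.** -/
theorem redEmb_bijective : Function.Bijective (redEmb A π N ℓ hπ hℓN) := by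
  have hNk : ((N : ℕ) : k) ≠ 0 := natCast_ne_zero_of_not_dvd N ℓ hℓN
  haveI := ConjFamily.finite_emb (k := k) (N := N) hNk
  refine (redEmb_injective ℓ hπ hℓN).bijective_of_nat_card_le ?_
  rw [ConjFamily.card_emb_eq_dedekindPsi hNk,
    ConjFamily.card_emb_eq_dedekindPsi (natCast_ne_zero_L (L := L) N)]

variable (A π N) in
/-- the cusp embeddings in characteristic zero and in characteristic `ℓ` correspond bijectively
under reduction. -/
def redEmbEquiv : ConjFamily.Emb L N ≃ ConjFamily.Emb k N :=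
  Equiv.ofBijective _ (redEmb_bijective (A := A) (π := π) (N := N) ℓ hπ hℓN)

theorem redEmbEquiv_apply (τ : ConjFamily.Emb L N) :
    redEmbEquiv A π N ℓ hπ hℓN τ = redEmb A π N ℓ hπ hℓN τ := rfl

/-- orders of units (regular and invertible away from the cusps) are preserved by reduction. -/
theorem redEmb_order_eq (τ : ConjFamily.Emb L N) (f : OvVal A π N ℓ hπ hℓN)
    (hf0 : (f : FBar L N) ≠ 0)
    (hf : IsIntegral L[X] (f : FBar L N)) (hfinv : IsIntegral L[X] (f : FBar L N)⁻¹)
    (hinvO : (f : FBar L N)⁻¹ ∈ Ov A π (FBar L N)) :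
    ((redEmb A π N ℓ hπ hℓN τ).1 (resFk A π N ℓ hπ hℓN f)).order = (embF τ f).order := by
  obtain ⟨g, hg⟩ := embF_mem_intLS A π N ℓ hπ hℓN hf f.2 τ
  obtain ⟨g', hg'⟩ := embF_mem_intLS A π N ℓ hπ hℓN hfinv hinvO τ
  have h1 : g * g' = 1 := by
    apply embA_injective A
    rw [map_mul, hg, hg', ← map_mul, mul_inv_cancel₀ hf0, map_one, map_one]
  have hu : IsUnit g := IsUnit.of_mul_eq_one _ h1
  rw [redEmb_of_eq_embA ℓ hπ hℓN τ f hg.symm, redA_order_of_isUnit π hu, ← hg, embA_order]

/-- integrality over `L[X]` (acting through `X ↦ j`) is integrality over `L[j]`. -/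
theorem isIntegral_polyF_iff (x : FBar L N) (hx : (x : LaurentSeries L) = jqModC L)
    (f : FBar L N) : IsIntegral L[X] f ↔ IsIntegral (Algebra.adjoin L {x}) f := by
  rw [← isIntegral_poly_iff x f]
  have h : algebraMap L[X] (FBar L N) = @algebraMap L[X] (FBar L N) _ _ (polyAlgebra x) := by
    refine Polynomial.ringHom_ext (fun c => ?_) ?_
    · apply Subtype.ext
      rw [coe_algebraMap_polyF, polyAlgebra_algebraMap_apply, aeval_C, aeval_C]
      rfl
    · apply Subtype.ext
      rw [coe_algebraMap_polyF, polyAlgebra_algebraMap_apply, aeval_X, aeval_X, hx]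
  show (algebraMap L[X] (FBar L N)).IsIntegralElem f ↔
    (@algebraMap L[X] (FBar L N) _ _ (polyAlgebra x)).IsIntegralElem f
  rw [h]

theorem jSF_one_eq (x : FBar L N) (hx : (x : LaurentSeries L) = jqModC L) :
    jSF L N one_ne_zero (one_dvd N) = x := by
  apply Subtype.ext
  rw [coe_jSF, jS_one_one, hx]

/-- **every cusp embedding in characteristic `ℓ` is the reduction of a persisting cusp embedding
in characteristic zero** (with (Q3) for it), in unbundled form. -/
theorem exists_persists_of_emb' (x : FBar L N) (hx : (x : LaurentSeries L) = jqModC L)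
    (τ : ConjFamily.Emb k N) :
    ∃ (s : FBar L N →+* LaurentSeries L) (hs : Persists A π N s),
      (∀ c : L, s (algebraMap L (FBar L N) c) = HahnSeries.C c) ∧
      s x = qExpand L N (jqModC L) ∧
      redHom ℓ hπ hℓN hs = τ.1 ∧
      (∀ f : OvVal A π N ℓ hπ hℓN, IsIntegral (Algebra.adjoin L {x}) (f : FBar L N) →
        s f ∈ intLS A) := by
  obtain ⟨σ, rfl⟩ := (redEmb_bijective (A := A) (π := π) (N := N) ℓ hπ hℓN).2 τ
  refine ⟨embF σ, persists_embF A π N ℓ hπ hℓN σ, embF_algebraMap N σ, ?_, rfl, fun f hf => ?_⟩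
  · rw [← jSF_one_eq x hx]
    exact embF_j N σ
  · exact embF_mem_intLS A π N ℓ hπ hℓN ((isIntegral_polyF_iff x hx _).mpr hf) f.2 σ

/-- `exists_persists_of_emb'` for `x = ⟨jqModC L, _⟩`. -/
theorem exists_persists_of_emb (τ : ConjFamily.Emb k N) :
    ∃ (s : FBar L N →+* LaurentSeries L) (hs : Persists A π N s),
      (∀ c : L, s (algebraMap L (FBar L N) c) = HahnSeries.C c) ∧
      s ⟨jqModC L, jqModC_mem_FBar L N⟩ = qExpand L N (jqModC L) ∧
      redHom ℓ hπ hℓN hs = τ.1 ∧
      (∀ f : OvVal A π N ℓ hπ hℓN,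
        IsIntegral (Algebra.adjoin L {(⟨jqModC L, jqModC_mem_FBar L N⟩ : FBar L N)})
          (f : FBar L N) → s f ∈ intLS A) :=
  exists_persists_of_emb' ℓ hπ hℓN ⟨jqModC L, jqModC_mem_FBar L N⟩ rfl τ

end RedEmb

end Fermat.Agent.Gateway.GoodRed
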