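import Fermat.Agent.Gateway.GoodRed.GaussBar
import Fermat.Agent.Gateway.Kummer.RedBridge

/-!
# P-GATEWAY (c): (Hnorm) `GaussNormalisable` from (G0)

* `exists_integral_ratio_FBar` : every nonzero `f ∈ F` is, up to a constant, a quotient of two
  elements of `F` with `A`-integral `q`-expansions and nonzero reductions;
* `residueField_isAlgClosed` : the residue field of a valuation subring of an algebraically
  closed field is algebraically closed;
* `gaussNormalisable` : the hypothesis `hnorm` of `Kummer/Export.lean`.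
-/

set_option autoImplicit false
set_option linter.unusedSectionVars false

noncomputable section

namespace Fermat.Agent.Gateway.GoodRed

open Polynomial ModularCurve Fermat.Agent.S28 Fermat.Agent.S28.Tower Fermat.Agent.Gateway.Red

section Ratio

variable {L : Type*} [Field L] [Algebra ℚ L] (A : ValuationSubring L)
  {k : Type} [Field k] (π : A →+* k)
  [IsAlgClosed k] (ℓ : ℕ) [Fact ℓ.Prime] [CharP k ℓ] {N : ℕ} [NeZero N]

theorem pev_jqModC_mem_FBar (Q : L[X]) : pev (jqModC L) Q ∈ FBar L N := by
  rw [pev, Polynomial.eval₂_eq_sum_range]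
  refine sum_mem fun i _ => mul_mem (hahnC_mem_FBar N _) (pow_mem ?_ _)
  have h := jS_mem_FBar (L := L) (N := N) one_ne_zero (one_dvd N)
  rwa [jS_one_one] at h

/-- every nonzero `f ∈ F` is, up to a constant, a quotient `a / b` of two elements of `F` with
`A`-integral `q`-expansions and nonzero reductions. -/
theorem exists_integral_ratio_FBar (hℓN : ¬ ℓ ∣ N) {f : LaurentSeries L} (hf : f ∈ FBar L N)
    (hf0 : f ≠ 0) :
    ∃ c : L, c ≠ 0 ∧ ∃ a b : LaurentSeries A, embA A a ∈ FBar L N ∧ embA A b ∈ FBar L N ∧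
      redA A π a ≠ 0 ∧ redA A π b ≠ 0 ∧ (HahnSeries.C c * f) * embA A b = embA A a := by
  obtain ⟨Q, hQ, P, hrel⟩ := baseChange_span_poly L N hf
  have hrel' : pev (embA A (jqModC A)) Q * f
      = ∑ μ : box N, pev (embA A (jqModC A)) (P μ) * embA A (ev A (μ : ℕ →₀ ℕ)) := by
    rw [embA_jqModC, ← aeval_eq_pev_field, hrel]
    refine Finset.sum_congr rfl fun μ _ => ?_
    rw [embA_ev, aeval_eq_pev_field]
  have hind := indepMod_box (N := N) A π ℓ hℓN
  obtain ⟨c, P', Q', hc, hPπ, hQπ, hnf⟩ := exists_normal_form hind hf0 hQ hrel'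
  refine ⟨c⁻¹, inv_ne_zero hc, ∑ μ : box N, pev (jqModC A) (P' μ) * ev A (μ : ℕ →₀ ℕ),
    pev (jqModC A) Q', ?_, ?_, hind.redA_sum_ne_zero hPπ, hind.redA_pev_ne_zero hQπ, ?_⟩
  · rw [map_sum]
    refine sum_mem fun μ _ => ?_
    rw [map_mul, embA_pev, embA_jqModC, embA_ev]
    exact mul_mem (pev_jqModC_mem_FBar _) (ev_mem_FBar N μ)
  · rw [embA_pev, embA_jqModC]
    exact pev_jqModC_mem_FBar _
  · rw [mul_assoc, hnf, ← mul_assoc, ← map_mul, inv_mul_cancel₀ hc, map_one, one_mul]

end Ratio

section AlgClosed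

variable {L : Type*} [Field L] (A : ValuationSubring L)

/-- the residue field of a valuation subring of an algebraically closed field is algebraically
closed. -/
theorem residueField_isAlgClosed [IsAlgClosed L] : IsAlgClosed (IsLocalRing.ResidueField A) := by
  apply IsAlgClosed.of_exists_root
  intro p hp hirr
  have hsurj : Function.Surjective (IsLocalRing.residue A) := IsLocalRing.residue_surjective
  have hlift : p ∈ Polynomial.lifts (IsLocalRing.residue A) := by
    rw [Polynomial.lifts_iff_coeff_lifts]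
    intro n
    exact hsurj _
  obtain ⟨P, hPmap, hPdeg, hPmonic⟩ := Polynomial.lifts_and_degree_eq_and_monic hlift hp
  have hdeg : (P.map A.subtype).degree ≠ 0 := by
    rw [Polynomial.degree_map_eq_of_injective A.subtype_injective, hPdeg]
    exact (Polynomial.degree_pos_of_irreducible hirr).ne'
  obtain ⟨x, hx⟩ := IsAlgClosed.exists_root (P.map A.subtype) hdeg
  have hxint : IsIntegral A x := by
    refine ⟨P, hPmonic, ?_⟩
    rw [Polynomial.IsRoot, Polynomial.eval_map] at hx
    exact hx
  have hxA : x ∈ A := by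
    obtain ⟨y, hy⟩ := IsIntegrallyClosed.algebraMap_eq_of_integral (R := A) (K := L) hxint
    rw [← hy]
    exact y.2
  refine ⟨IsLocalRing.residue A ⟨x, hxA⟩, ?_⟩
  rw [← hPmap, Polynomial.eval_map, Polynomial.eval₂_at_apply]
  have h1 : P.eval (⟨x, hxA⟩ : A) = 0 := by
    apply A.subtype_injective
    rw [map_zero, ← Polynomial.eval₂_at_apply]
    rw [Polynomial.IsRoot, Polynomial.eval_map] at hx
    exact hx
  rw [h1, map_zero]

end AlgClosed

section Hnorm

open Fermat.Agent.Gateway.Kummer

/-- **(Hnorm)**: Gauss normalisability of the level-`N` function field over any algebraically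
closed field `L` of characteristic zero (in `Type`) with a valuation subring over `ℓ ∤ N`. -/
theorem gaussNormalisable_of_algClosed {L : Type} [Field L] [Algebra ℚ L] [IsAlgClosed L]
    (N : ℕ) [NeZero N] {ℓ : ℕ} (hℓ : ℓ.Prime) (hℓN : ¬ ℓ ∣ N)
    (A : ValuationSubring L) (hA : A.LiesOverPrime ℓ) : GaussNormalisable N A := by
  have : Fact ℓ.Prime := ⟨hℓ⟩
  have : CharP (IsLocalRing.ResidueField A) ℓ := charP_residueField hℓ A hA
  have : IsAlgClosed (IsLocalRing.ResidueField A) := residueField_isAlgClosed A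
  refine gaussNormalisable_of_Oq N A fun f hf => ?_
  have hf0 : (f : LaurentSeries L) ≠ 0 := fun h => hf (Subtype.ext h)
  obtain ⟨c, hc, a, b, ha, hb, hra, hrb, hab⟩ :=
    exists_integral_ratio_FBar A (IsLocalRing.residue A) ℓ hℓN f.2 hf0
  refine ⟨c, hc, a, b, ha, hb, hra, hrb, ?_⟩
  rw [← hab]
  congr 1
  show ((algebraMap L (FBar L N) c : FBar L N) : LaurentSeries L) * (f : LaurentSeries L) = _
  rw [coe_algebraMap_FBar]

/-- the hypothesis `hnorm` of `Kummer.torsionUnramified` / `Kummer.torsionEichlerShimura`. -/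
theorem gaussNormalisable (N : ℕ) [NeZero N] :
    ∀ ℓ : ℕ, ℓ.Prime → ¬ ℓ ∣ N → ∀ A : ValuationSubring (AlgebraicClosure ℚ),
      A.LiesOverPrime ℓ → GaussNormalisable N A :=
  fun _ hℓ hℓN A hA => gaussNormalisable_of_algClosed N hℓ hℓN A hA

end Hnorm

end Fermat.Agent.Gateway.GoodRed
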