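import Mathlib
import Fermat.Agent.Gateway.GoodRed.Count

set_option autoImplicit false
set_option linter.unusedSectionVars false

/-!
# The cuspidal Riemann inequality with JOINT independence of the differentials (helper74)

`Count.lean` proves `finrank (cuspSpace expn m) + g ≤ ∑ m c + finrank (cuspSpace expn 0)` when the
`g` differentials are linearly independent modulo `X ^ m c₀` at ONE cusp `c₀`.  For a reducible
special fibre (P-S34: two components, the cusps are distributed over both components, a
differential can vanish identically on one component) one only has independence of the expansions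
at ALL cusps taken together.  This file proves the same inequality under that weaker hypothesis:

* `le_finrank_range_resPairing_joint`, `finrank_ker_resPairing_add_le_joint`;
* `finrank_cuspSpace_add_le_joint` : the inequality for a pole bound `m`;
* `exists_linearIndependent_trunc_joint` : jointly independent families of power series are
  jointly independent modulo `X ^ m₀`;
* `exists_bound_finrank_cuspSpace_joint` : the uniform form (all `m` with `m₀ ≤ m c` for all `c`).
-/

noncomputable section

namespace Fermat.Agent.Gateway.GoodRed

open HahnSeries LaurentSeries Module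
open Fermat.Agent.Lib.Residue

variable {k : Type*} [Field k]

section Functionals

variable {C : Type*} [Fintype C] {g : ℕ}

/-- The vector of truncated expansions of the `i`-th differential, in sigma form. -/
def truncVec (m : C → ℕ) (φ : Fin g → C → PowerSeries k) (i : Fin g) :
    (Σ c : C, Fin (m c)) → k :=
  fun x => PowerSeries.coeff (x.2 : ℕ) (φ i x.1)

theorem linearIndependent_truncVec_of_curried (m : C → ℕ) (φ : Fin g → C → PowerSeries k)
    (hind : LinearIndependent k fun i : Fin g => fun c : C => fun n : Fin (m c) =>
      PowerSeries.coeff (n : ℕ) (φ i c)) :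
    LinearIndependent k (truncVec m φ) := by
  have h := hind.map' ((LinearEquiv.piCurry k (fun (c : C) (_ : Fin (m c)) => k)).symm :
    ((c : C) → Fin (m c) → k) →ₗ[k] ((x : Σ c : C, Fin (m c)) → k))
    (LinearEquiv.ker _)
  exact h

/-- If the differentials are JOINTLY independent modulo `X ^ m c` at the cusps, the residue pairing
has rank `g`. -/
theorem le_finrank_range_resPairing_joint [DecidableEq C] (m : C → ℕ)
    (φ : Fin g → C → PowerSeries k) (hind : LinearIndependent k (truncVec m φ)) :
    g ≤ finrank k (LinearMap.range (resPairing m φ)) := by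
  set B : Matrix (Fin g) (Σ c : C, Fin (m c)) k := Matrix.of (truncVec m φ) with hB
  have hrank : B.rank = g := by
    have := LinearIndependent.rank_matrix (M := B) hind
    rwa [Fintype.card_fin] at this
  have hcomp : (resPairing m φ).comp
      ((LinearEquiv.piCurry k (fun (c : C) (_ : Fin (m c)) => k)) :
        ((x : Σ c : C, Fin (m c)) → k) →ₗ[k] ((c : C) → Fin (m c) → k)) = B.mulVecLin := by
    refine LinearMap.ext fun p => funext fun i => ?_
    rw [LinearMap.comp_apply, resPairing_apply, Matrix.mulVecLin_apply, Matrix.mulVec,
      dotProduct, Fintype.sum_sigma]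
    refine Finset.sum_congr rfl fun c _ => Finset.sum_congr rfl fun n _ => ?_
    rw [hB, Matrix.of_apply, truncVec, mul_comm]
    rfl
  have hle : LinearMap.range B.mulVecLin ≤ LinearMap.range (resPairing m φ) := by
    rw [← hcomp]
    exact LinearMap.range_comp_le_range _ _
  calc g = B.rank := hrank.symm
    _ = finrank k (LinearMap.range B.mulVecLin) := rfl
    _ ≤ finrank k (LinearMap.range (resPairing m φ)) := Submodule.finrank_mono hle

theorem finrank_ker_resPairing_add_le_joint [DecidableEq C] (m : C → ℕ)
    (φ : Fin g → C → PowerSeries k) (hind : LinearIndependent k (truncVec m φ)) :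
    finrank k (LinearMap.ker (resPairing m φ)) + g ≤ ∑ c, m c := by
  have h1 := LinearMap.finrank_range_add_finrank_ker (resPairing m φ)
  have h2 := le_finrank_range_resPairing_joint m φ hind
  have h3 : finrank k ((c : C) → Fin (m c) → k) = ∑ c, m c := by
    rw [Module.finrank_pi_fintype]
    refine Finset.sum_congr rfl fun c _ => ?_
    rw [Module.finrank_fin_fun]
  omega

end Functionals

/-! ### Joint independence of truncations -/

section Trunc

variable {C : Type*} [Fintype C] {g : ℕ}

/-- The relations between the truncations modulo `X ^ m` (at every cusp) of the families `φ i`. -/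
def truncKerJoint (φ : Fin g → C → PowerSeries k) (m : ℕ) : Submodule k (Fin g → k) where
  carrier := {a | ∀ c, ∀ n, n < m → ∑ i, a i * PowerSeries.coeff n (φ i c) = 0}
  add_mem' := by
    intro a b ha hb c n hn
    simp only [Pi.add_apply, add_mul, Finset.sum_add_distrib, ha c n hn, hb c n hn, add_zero]
  zero_mem' := by
    intro c n _
    simp
  smul_mem' := by
    intro r a ha c n hn
    simp only [Pi.smul_apply, smul_eq_mul, mul_assoc, ← Finset.mul_sum, ha c n hn, mul_zero]

theorem truncKerJoint_antitone (φ : Fin g → C → PowerSeries k) {m m' : ℕ} (h : m ≤ m') :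
    truncKerJoint φ m' ≤ truncKerJoint φ m :=
  fun _ ha c n hn => ha c n (lt_of_lt_of_le hn h)

/-- Jointly linearly independent families of power series are jointly independent modulo `X ^ m₀`
for `m₀` large. -/
theorem exists_truncKerJoint_eq_bot (φ : Fin g → C → PowerSeries k)
    (h : LinearIndependent k φ) : ∃ m₀, truncKerJoint φ m₀ = ⊥ := by
  let f : ℕ →o (Submodule k (Fin g → k))ᵒᵈ :=
    ⟨fun m => OrderDual.toDual (truncKerJoint φ m), fun _ _ hmm => truncKerJoint_antitone φ hmm⟩
  obtain ⟨n₀, hn₀⟩ := IsArtinian.monotone_stabilizes f
  refine ⟨n₀, ?_⟩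
  rw [eq_bot_iff]
  intro a ha
  rw [Submodule.mem_bot]
  have hall : ∀ c n, ∑ i, a i * PowerSeries.coeff n (φ i c) = 0 := by
    intro c n
    have h1 : truncKerJoint φ n₀ = truncKerJoint φ (max n₀ (n + 1)) :=
      congrArg OrderDual.ofDual (hn₀ (max n₀ (n + 1)) (le_max_left _ _))
    rw [h1] at ha
    exact ha c n (lt_of_lt_of_le (Nat.lt_succ_self n) (le_max_right _ _))
  have hsum : ∑ i, a i • φ i = 0 := by
    funext c
    ext n
    rw [Finset.sum_apply, map_sum, Pi.zero_apply, map_zero, ← hall c n]
    refine Finset.sum_congr rfl fun i _ => ?_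
    rw [Pi.smul_apply, PowerSeries.coeff_smul, smul_eq_mul]
  exact funext (Fintype.linearIndependent_iff.mp h a hsum)

theorem linearIndependent_truncVec_of_truncKerJoint_eq_bot (φ : Fin g → C → PowerSeries k)
    {m₀ : ℕ} (h : truncKerJoint φ m₀ = ⊥) (m : C → ℕ) (hm : ∀ c, m₀ ≤ m c) :
    LinearIndependent k (truncVec m φ) := by
  rw [Fintype.linearIndependent_iff]
  intro a ha i
  have hmem : a ∈ truncKerJoint φ m₀ := by
    intro c n hn
    have := congrFun ha ⟨c, ⟨n, lt_of_lt_of_le hn (hm c)⟩⟩
    simpa [truncVec, Finset.sum_apply, Pi.smul_apply, smul_eq_mul] using this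
  rw [h, Submodule.mem_bot] at hmem
  rw [hmem, Pi.zero_apply]

theorem exists_linearIndependent_trunc_joint (φ : Fin g → C → PowerSeries k)
    (h : LinearIndependent k φ) :
    ∃ m₀, ∀ m : C → ℕ, (∀ c, m₀ ≤ m c) → LinearIndependent k (truncVec m φ) := by
  obtain ⟨m₀, hm₀⟩ := exists_truncKerJoint_eq_bot φ h
  exact ⟨m₀, fun m hm => linearIndependent_truncVec_of_truncKerJoint_eq_bot φ hm₀ m hm⟩

end Trunc

/-! ### The inequality -/

section Main

variable {V : Type*} [AddCommGroup V] [Module k V] {C : Type*} [Fintype C] {g : ℕ}

/-- **Cuspidal Riemann inequality, joint form.**  Given the residue theorem for the `g`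
differentials `φ`, jointly independent modulo `X ^ m c` at the cusps, the space of functions with
poles of order at most `m` at the cusps is finite dimensional, of dimension at most
`∑ m c + dim (regular functions) - g`. -/
theorem finrank_cuspSpace_add_le_joint [DecidableEq C] (expn : C → V →ₗ[k] k⸨X⸩) (m : C → ℕ)
    (φ : Fin g → C → PowerSeries k)
    (hres : ∀ f ∈ cuspSpace expn m, ∀ i, ∑ c, res (expn c f * (φ i c : k⸨X⸩)) = 0)
    [Module.Finite k (cuspSpace expn fun _ => 0)]
    (hind : LinearIndependent k (truncVec m φ)) :
    Module.Finite k (cuspSpace expn m) ∧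
      finrank k (cuspSpace expn m) + g ≤
        ∑ c, m c + finrank k (cuspSpace expn fun _ => 0) := by
  set PP := principalPart expn m with hPP
  let ι : LinearMap.ker PP →ₗ[k] cuspSpace expn (fun _ => 0) :=
    { toFun := fun f => ⟨((f : cuspSpace expn m) : V),
        mem_cuspSpace_zero_of_principalPart_eq_zero f.1 (LinearMap.mem_ker.mp f.2)⟩
      map_add' := fun _ _ => rfl
      map_smul' := fun _ _ => rfl }
  have hι : Function.Injective ι := by
    intro f f' h
    have : ((f : cuspSpace expn m) : V) = ((f' : cuspSpace expn m) : V) :=
      congrArg (fun x : cuspSpace expn (fun _ => 0) => (x : V)) h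
    exact Subtype.ext (Subtype.ext this)
  have : Module.Finite k (LinearMap.ker PP) := Module.Finite.of_injective ι hι
  have hfin : Module.Finite k (cuspSpace expn m) := by
    have hex : Function.Exact (LinearMap.ker PP.rangeRestrict).subtype PP.rangeRestrict :=
      LinearMap.exact_subtype_ker_map _
    have : Module.Finite k (LinearMap.ker PP.rangeRestrict) := by
      rw [LinearMap.ker_rangeRestrict]
      infer_instance
    exact Module.Finite.of_exact hex PP.surjective_rangeRestrict
  refine ⟨hfin, ?_⟩
  have h1 := LinearMap.finrank_range_add_finrank_ker PP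
  have h2 : finrank k (LinearMap.range PP) ≤ finrank k (LinearMap.ker (resPairing m φ)) :=
    Submodule.finrank_mono (range_principalPart_le_ker expn m φ hres)
  have h3 := finrank_ker_resPairing_add_le_joint m φ hind
  have h4 : finrank k (LinearMap.ker PP) ≤ finrank k (cuspSpace expn fun _ => 0) :=
    LinearMap.finrank_le_finrank_of_injective hι
  omega

/-- **Cuspidal Riemann inequality, joint and uniform form**: if the residue theorem holds for every
`f` and the families of expansions `c ↦ φ i c` of the `g` differentials are linearly independent,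
there is `m₀` such that the inequality holds for every `m` with `m₀ ≤ m c` for all `c`. -/
theorem exists_bound_finrank_cuspSpace_joint [DecidableEq C] (expn : C → V →ₗ[k] k⸨X⸩)
    (φ : Fin g → C → PowerSeries k)
    (hres : ∀ f : V, ∀ i, ∑ c, res (expn c f * (φ i c : k⸨X⸩)) = 0)
    [Module.Finite k (cuspSpace expn fun _ => 0)]
    (hind : LinearIndependent k φ) :
    ∃ m₀ : ℕ, ∀ m : C → ℕ, (∀ c, m₀ ≤ m c) →
      Module.Finite k (cuspSpace expn m) ∧
        finrank k (cuspSpace expn m) + g ≤
          ∑ c, m c + finrank k (cuspSpace expn fun _ => 0) := by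
  obtain ⟨m₀, hm₀⟩ := exists_linearIndependent_trunc_joint φ hind
  exact ⟨m₀, fun m hm =>
    finrank_cuspSpace_add_le_joint expn m φ (fun f _ i => hres f i) (hm₀ m hm)⟩

end Main

end Fermat.Agent.Gateway.GoodRed
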