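import Mathlib
import Fermat.Agent.Gateway.Red.Defs

/-!
# P-GATEWAY (c) GoodRed, WP-GR4 = QINT: bounded denominators at every cusp (pure algebra)

`L` a field, `A` a valuation subring (not necessarily discrete), `π : A →+* k` its reduction.
`K` a fraction field of `L[X]` (`x` = image of `X`), `F / K` finite separable with power basis `θ`,
`σ i : F → L((z))` the `n = [F : K]` cusp expansions over `x ↦ ξ`, with `σ i θ = t i ∈ A((z))` and all
differences `t i - t i'` units of `A((z))` (`CuspData`).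

* `mem_range_polyEmb_of_aeval_mem_intLS` (Q2'): `P ∈ L[X]`, `P(ξ) ∈ A((z))` ⟹ `P ∈ A[X]`.
* `exists_normalization`: Gauss normalisation of a finite family of polynomials.
* `CuspData.σ_discr` (Q1): `σ i (discr) = ∏_{i<i'} (t i' - t i)^2`, a unit of `A((z))`.
* `CuspData.exists_coeffs_of_mem_gaussRing`, `CuspData.qint` (Q3 = QINT): `f` integral over `L[x]`
  with `σ i₀ f` in the Gauss ring ⟹ `discr * f = ∑ c_j θ^j` with `c_j ∈ A[x]` and `σ i f ∈ A((z))`
  for every `i`, under (IGUSA): `1, θ̄, …` independent over `k[x̄]` at the cusp `i₀`.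
* `CuspData.lagrange` (Q2): `f` integral over `L[x]` with all `σ i f ∈ A((z))` ⟹
  `discr * f = ∑ c_j θ^j` with `c_j ∈ A[x]` (Vandermonde inversion, no reduction hypothesis).
* `CuspData.redA_eq_zero_of_gaussRed_eq_zero` (Q3'), `CuspData.σ_mem_gaussRing`,
  `CuspData.gaussRed_σ_eq_zero` (Q4): for every `f ∈ F` with `σ i₀ f` in the Gauss ring, all `σ i f` are
  in the Gauss ring, and reduce to zero if `σ i₀ f` does.
* `CuspData.RedHyp`, `CuspData.O` (abstract `Ov`), `CuspData.σbar i : O → k((z))`, `CuspData.Fk`,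
  `CuspData.σFk i : Fk → k((z))` (pairwise distinct: `σFk_injective`; `σFk_i₀` is the inclusion),
  `CuspData.σbar_coeff_eq_zero` (Q5: pole orders do not grow under reduction).
-/

set_option autoImplicit false

noncomputable section

namespace Fermat.Agent.Gateway.GoodRed

open Polynomial Fermat.Agent.Gateway.Red

variable {L : Type*} [Field L] (A : ValuationSubring L) {k : Type*} [Field k] (π : A →+* k)

/-- `A[X] → L[X]`. -/
abbrev polyEmb : A[X] →+* L[X] := Polynomial.mapRingHom A.subtype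

variable {A}

theorem mem_range_polyEmb_iff {P : L[X]} :
    P ∈ (polyEmb A).range ↔ ∀ n, P.coeff n ∈ A := by
  rw [polyEmb, Polynomial.mem_map_range]
  refine forall_congr' fun n => ?_
  constructor
  · rintro ⟨a, ha⟩
    rw [← ha]
    exact a.2
  · intro h
    exact ⟨⟨_, h⟩, rfl⟩

theorem algebraMap_laurent_eq_C {R : Type*} [CommRing R] (c : R) :
    algebraMap R (LaurentSeries R) c = HahnSeries.C c := by
  have h1 : algebraMap R (PowerSeries R) c = PowerSeries.C c := by simp
  rw [HahnSeries.algebraMap_apply', h1, HahnSeries.ofPowerSeries_C]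

theorem embA_comp_algebraMap :
    (embA A).comp (algebraMap A (LaurentSeries A)) =
      (algebraMap L (LaurentSeries L)).comp A.subtype := by
  ext a : 1
  simp only [RingHom.comp_apply]
  rw [algebraMap_laurent_eq_C, algebraMap_laurent_eq_C, embA_C]
  rfl

theorem redA_comp_algebraMap :
    (redA A π).comp (algebraMap A (LaurentSeries A)) =
      (algebraMap k (LaurentSeries k)).comp π := by
  ext a : 1
  simp only [RingHom.comp_apply]
  rw [algebraMap_laurent_eq_C, algebraMap_laurent_eq_C, redA_C]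

/-- evaluation commutes with `embA`. -/
theorem aeval_embA_polyEmb (ξ : LaurentSeries A) (P : A[X]) :
    aeval (embA A ξ) (polyEmb A P) = embA A (aeval ξ P) := by
  rw [polyEmb, coe_mapRingHom, aeval_def, eval₂_map, aeval_def, hom_eval₂,
    embA_comp_algebraMap]

/-- evaluation commutes with `redA`. -/
theorem aeval_redA_map (ξ : LaurentSeries A) (P : A[X]) :
    aeval (redA A π ξ) (P.map π) = redA A π (aeval ξ P) := by
  rw [aeval_def, eval₂_map, aeval_def, hom_eval₂, redA_comp_algebraMap]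

theorem leadingCoeff_pow' {R : Type*} [CommRing R] [IsDomain R] (x : LaurentSeries R) (n : ℕ) :
    (x ^ n).leadingCoeff = x.leadingCoeff ^ n := by
  induction n with
  | zero => simp
  | succ n ih => rw [pow_succ, HahnSeries.leadingCoeff_mul, ih, pow_succ]

theorem isUnit_leadingCoeff {ξ : LaurentSeries A} (hξ : IsUnit ξ) : IsUnit ξ.leadingCoeff := by
  obtain ⟨η, hη⟩ := hξ.exists_right_inv
  have := congrArg HahnSeries.leadingCoeff hη
  rw [HahnSeries.leadingCoeff_mul, HahnSeries.leadingCoeff_one] at this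
  exact IsUnit.of_mul_eq_one _ this

theorem embA_order (ξ : LaurentSeries A) : (embA A ξ).order = ξ.order := by
  by_cases h : ξ = 0
  · simp [h]
  have h' : embA A ξ ≠ 0 := fun h0 => h ((embA_eq_zero_iff A ξ).mp h0)
  rw [HahnSeries.order_of_ne h, HahnSeries.order_of_ne h']
  congr 1
  ext n
  simp only [HahnSeries.mem_support, embA_coeff, ne_eq]
  exact not_congr ⟨fun h0 => Subtype.ext h0, fun h0 => by rw [h0]; rfl⟩

theorem embA_leadingCoeff (ξ : LaurentSeries A) :
    (embA A ξ).leadingCoeff = (ξ.leadingCoeff : L) := by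
  rw [HahnSeries.leadingCoeff_eq, HahnSeries.leadingCoeff_eq, embA_order, embA_coeff]

theorem C_mem_intLS {a : L} (ha : a ∈ A) : (HahnSeries.C a : LaurentSeries L) ∈ intLS A :=
  ⟨HahnSeries.C ⟨a, ha⟩, embA_C A ⟨a, ha⟩⟩

theorem coeff_algebraMap_mul_laurent {R : Type*} [CommRing R] (c : R) (g : LaurentSeries R)
    (a : ℤ) : (algebraMap R (LaurentSeries R) c * g).coeff a = c * g.coeff a := by
  rw [algebraMap_laurent_eq_C, HahnSeries.C_apply, HahnSeries.coeff_single_zero_mul]

/-- the coefficient of `P(ξ)` at `deg P • ord ξ`, for `ξ` of negative order. -/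
theorem coeff_aeval_top {ξ' : LaurentSeries L} (hξo : ξ'.order < 0) (P : L[X]) :
    (aeval ξ' P).coeff (P.natDegree • ξ'.order) =
      P.leadingCoeff * ξ'.leadingCoeff ^ P.natDegree := by
  set n := P.natDegree with hn
  rw [Polynomial.aeval_eq_sum_range, HahnSeries.coeff_sum, Finset.sum_eq_single_of_mem n
    (Finset.mem_range.mpr (Nat.lt_succ_self n))]
  · rw [Algebra.smul_def, coeff_algebraMap_mul_laurent, ← leadingCoeff_pow', HahnSeries.leadingCoeff_eq,
      HahnSeries.order_pow]
    rfl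
  · intro i hi hin
    have hi' : i < n := lt_of_le_of_ne (Nat.lt_succ_iff.mp (Finset.mem_range.mp hi)) hin
    have h2 : n • ξ'.order < (ξ' ^ i).order := by
      rw [HahnSeries.order_pow, nsmul_eq_mul, nsmul_eq_mul]
      exact mul_lt_mul_of_neg_right (by exact_mod_cast hi') hξo
    rw [Algebra.smul_def, coeff_algebraMap_mul_laurent,
      HahnSeries.coeff_eq_zero_of_lt_order h2, mul_zero]

theorem C_mul_X_pow_mem_range_polyEmb {a : L} (ha : a ∈ A) (n : ℕ) :
    C a * X ^ n ∈ (polyEmb A).range :=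
  ⟨C ⟨a, ha⟩ * X ^ n, by simp [polyEmb]⟩

/-- the leading coefficient of a polynomial over `L` whose value at `ξ` (negative order, unit
lowest coefficient) is `A`-integral lies in `A`. -/
theorem leadingCoeff_mem_of_aeval_mem_intLS {ξ : LaurentSeries A} (hξ : IsUnit ξ)
    (hξo : ξ.order < 0) {P : L[X]} (hP : aeval (embA A ξ) P ∈ intLS A) :
    P.leadingCoeff ∈ A := by
  have hξo' : (embA A ξ).order < 0 := by rwa [embA_order]
  have h1 := coeff_aeval_top hξo' P
  have h2 : (aeval (embA A ξ) P).coeff (P.natDegree • (embA A ξ).order) ∈ A :=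
    mem_intLS_iff_coeff A |>.mp hP _
  rw [h1, embA_leadingCoeff] at h2
  obtain ⟨u, hu⟩ := isUnit_leadingCoeff hξ
  have h3 : P.leadingCoeff =
      (P.leadingCoeff * (ξ.leadingCoeff : L) ^ P.natDegree) * ((↑(u⁻¹ : Aˣ) : A) : L) ^ P.natDegree := by
    rw [mul_assoc, ← mul_pow, ← hu]
    have : ((u : A) : L) * ((↑(u⁻¹ : Aˣ) : A) : L) = 1 := by
      rw [← MulMemClass.coe_mul, Units.mul_inv]; rfl
    rw [this, one_pow, mul_one]
  rw [h3]
  exact A.mul_mem _ _ h2 (pow_mem (↑(u⁻¹ : Aˣ) : A).2 _)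

/-- (Q2') a polynomial over `L` whose value at `ξ` (negative order, unit lowest coefficient) is
`A`-integral has coefficients in `A`. -/
theorem mem_range_polyEmb_of_aeval_mem_intLS {ξ : LaurentSeries A} (hξ : IsUnit ξ)
    (hξo : ξ.order < 0) {P : L[X]} (hP : aeval (embA A ξ) P ∈ intLS A) :
    P ∈ (polyEmb A).range := by
  suffices H : ∀ (N : ℕ) (P : L[X]), P.natDegree ≤ N → aeval (embA A ξ) P ∈ intLS A →
      P ∈ (polyEmb A).range from H _ P le_rfl hP
  intro N
  induction N with
  | zero =>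
    intro P hN hP
    have hp := leadingCoeff_mem_of_aeval_mem_intLS hξ hξo hP
    rw [Polynomial.eq_C_of_natDegree_le_zero hN] at hp ⊢
    rw [leadingCoeff_C] at hp
    simpa using C_mul_X_pow_mem_range_polyEmb hp 0
  | succ N ih =>
    intro P hN hP
    have hp := leadingCoeff_mem_of_aeval_mem_intLS hξ hξo hP
    have hmono := C_mul_X_pow_mem_range_polyEmb hp P.natDegree
    have hP1 : aeval (embA A ξ) P.eraseLead ∈ intLS A := by
      have : P.eraseLead = P - C P.leadingCoeff * X ^ P.natDegree := by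
        rw [eq_sub_iff_add_eq, eraseLead_add_C_mul_X_pow]
      rw [this, map_sub]
      refine Subring.sub_mem _ hP ?_
      obtain ⟨Q, hQ⟩ := hmono
      rw [← hQ, aeval_embA_polyEmb]
      exact embA_mem_intLS A _
    have h1 : P.eraseLead ∈ (polyEmb A).range := by
      rcases eraseLead_natDegree_lt_or_eraseLead_eq_zero P with h | h
      · exact ih _ (by omega) hP1
      · rw [h]; exact Subring.zero_mem _
    rw [← eraseLead_add_C_mul_X_pow P]
    exact Subring.add_mem _ h1 hmono

/-- **Gauss normalisation** of a finite family of polynomials over `L`: if not all of them have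
coefficients in `A`, some multiple by a constant of the maximal ideal has coefficients in `A`,
one of them equal to `1`. -/
theorem exists_normalization {ι : Type*} [Fintype ι] (c : ι → L[X])
    (h : ¬ ∀ j, c j ∈ (polyEmb A).range) :
    ∃ a : A, a ∈ IsLocalRing.maximalIdeal A ∧ ∃ c' : ι → A[X],
      (∀ j, polyEmb A (c' j) = C (a : L) * c j) ∧ ∃ j m, (c' j).coeff m = 1 := by
  classical
  push Not at h
  obtain ⟨jb, hjb⟩ := h
  rw [mem_range_polyEmb_iff] at hjb
  push Not at hjb
  obtain ⟨nb, hnb⟩ := hjb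
  let S : Finset (Σ _ : ι, ℕ) := Finset.univ.sigma fun j => (c j).support
  have hbS : (⟨jb, nb⟩ : Σ _ : ι, ℕ) ∈ S := by
    rw [Finset.mem_sigma]
    refine ⟨Finset.mem_univ _, ?_⟩
    rw [mem_support_iff]
    intro h0
    exact hnb (by rw [h0]; exact A.zero_mem)
  obtain ⟨⟨j₀, m₀⟩, h₀S, hmax⟩ :=
    Finset.exists_max_image S (fun p => A.valuation ((c p.1).coeff p.2)) ⟨_, hbS⟩
  set s := (c j₀).coeff m₀ with hs
  have hvb : 1 < A.valuation ((c jb).coeff nb) := by
    rw [← not_le, A.valuation_le_one_iff]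
    exact hnb
  have hvs : 1 < A.valuation s := lt_of_lt_of_le hvb (hmax _ hbS)
  have hs0 : s ≠ 0 := by
    intro h0
    rw [h0, map_zero] at hvs
    exact not_lt_of_ge zero_le_one hvs
  have hsA : s ∉ A := by
    rw [← A.valuation_le_one_iff, not_le]
    exact hvs
  have hsinv : s⁻¹ ∈ A := (A.mem_or_inv_mem s).resolve_left hsA
  have hmem : (⟨s⁻¹, hsinv⟩ : A) ∈ IsLocalRing.maximalIdeal A := by
    rw [A.valuation_lt_one_iff]
    show A.valuation s⁻¹ < 1
    rw [map_inv₀]
    exact inv_lt_one_of_one_lt₀ hvs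
  have hcoef : ∀ j n, s⁻¹ * (c j).coeff n ∈ A := by
    intro j n
    by_cases h0 : (c j).coeff n = 0
    · rw [h0, mul_zero]; exact A.zero_mem
    · have hS : (⟨j, n⟩ : Σ _ : ι, ℕ) ∈ S := by
        rw [Finset.mem_sigma]
        exact ⟨Finset.mem_univ _, mem_support_iff.mpr h0⟩
      rw [← A.valuation_le_one_iff, map_mul, map_inv₀]
      have := hmax _ hS
      have hvs0 : A.valuation s ≠ 0 := (Valuation.ne_zero_iff _).mpr hs0
      rw [inv_mul_le_iff₀ (lt_of_le_of_ne zero_le hvs0.symm), mul_one]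
      exact this
  have hrange : ∀ j, C s⁻¹ * c j ∈ (polyEmb A).range := by
    intro j
    rw [mem_range_polyEmb_iff]
    intro n
    rw [coeff_C_mul]
    exact hcoef j n
  choose c' hc' using hrange
  refine ⟨⟨s⁻¹, hsinv⟩, hmem, c', hc', j₀, m₀, ?_⟩
  apply Subtype.ext
  have := congrArg (fun P : L[X] => P.coeff m₀) (hc' j₀)
  simp only [polyEmb, coe_mapRingHom, coeff_map, coeff_C_mul] at this
  rw [← hs, inv_mul_cancel₀ hs0] at this
  exact this

variable (A) in
/-- The data of the cusp expansions of a finite separable extension `F / L(x)` with a power basis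
`θ`: `n = [F : L(x)]` ring homs `σ i : F → L((z))` over `x ↦ ξ`, with `σ i θ = t i ∈ A((z))`,
all differences `t i - t i'` units of `A((z))` (unit lowest coefficient). -/
structure CuspData (K F : Type*) [Field K] [Field F] [Algebra L[X] K] [IsFractionRing L[X] K]
    [Algebra K F] [Algebra L[X] F] [IsScalarTower L[X] K F] where
  pb : PowerBasis K F
  gen_int : IsIntegral L[X] pb.gen
  ξ : LaurentSeries A
  ξ_unit : IsUnit ξ
  ξ_order : ξ.order < 0
  σ : Fin pb.dim → (F →+* LaurentSeries L)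
  σ_poly : ∀ i (P : L[X]), σ i (algebraMap L[X] F P) = aeval (embA A ξ) P
  t : Fin pb.dim → LaurentSeries A
  σ_gen : ∀ i, σ i pb.gen = embA A (t i)
  t_unit : ∀ i i', i ≠ i' → IsUnit (t i - t i')

variable {K F : Type*} [Field K] [Field F] [Algebra L[X] K] [IsFractionRing L[X] K]
    [Algebra K F] [Algebra L[X] F] [IsScalarTower L[X] K F]

namespace CuspData

variable (D : CuspData A K F)

/-- the discriminant series `∏_{i<i'} (t i' - t i)^2`, a unit of `A((z))`. -/
def disc : LaurentSeries A := ∏ i : Fin D.pb.dim, ∏ j ∈ Finset.Ioi i, (D.t j - D.t i) ^ 2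

theorem isUnit_disc : IsUnit D.disc := by
  unfold disc
  refine (IsUnit.prod_univ_iff).mpr fun i => ?_
  refine (IsUnit.prod_iff).mpr fun j hj => ?_
  exact (D.t_unit j i (ne_of_gt (Finset.mem_Ioi.mp hj))).pow 2

theorem t_injective : Function.Injective D.t := by
  intro i j h
  by_contra hij
  have := D.t_unit i j hij
  rw [h, sub_self] at this
  exact not_isUnit_zero this

theorem embA_ξ_order : (embA A D.ξ).order < 0 := by
  rw [embA_order]; exact D.ξ_order

/-- evaluation at `ξ`, as a ring hom. -/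
def evξ : L[X] →+* LaurentSeries L :=
  (aeval (embA A D.ξ) : L[X] →ₐ[L] LaurentSeries L).toRingHom

theorem evξ_apply (P : L[X]) : D.evξ P = aeval (embA A D.ξ) P := rfl

theorem evξ_injective : Function.Injective D.evξ := by
  rw [injective_iff_map_eq_zero]
  intro P hP
  rw [evξ_apply] at hP
  by_contra hP0
  have h1 := coeff_aeval_top D.embA_ξ_order P
  rw [hP, HahnSeries.coeff_zero] at h1
  have hξ0 : embA A D.ξ ≠ 0 := by
    intro h0
    have := D.embA_ξ_order
    rw [h0, HahnSeries.order_zero] at this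
    exact lt_irrefl _ this
  exact mul_ne_zero (leadingCoeff_ne_zero.mpr hP0)
    (pow_ne_zero _ (HahnSeries.leadingCoeff_ne_zero.mpr hξ0)) h1.symm

/-- the ring hom `K → L((z))`, `x ↦ ξ`. -/
def φ : K →+* LaurentSeries L := IsFractionRing.lift D.evξ_injective

theorem φ_algebraMap (P : L[X]) : D.φ (algebraMap L[X] K P) = aeval (embA A D.ξ) P := by
  rw [φ, IsFractionRing.lift_algebraMap, evξ_apply]

theorem σ_comp_algebraMap (i : Fin D.pb.dim) : (D.σ i).comp (algebraMap K F) = D.φ := by
  apply IsLocalization.ringHom_ext (nonZeroDivisors L[X])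
  refine RingHom.ext fun P => ?_
  rw [RingHom.comp_apply, RingHom.comp_apply, RingHom.comp_apply,
    ← IsScalarTower.algebraMap_apply, D.σ_poly, D.φ_algebraMap]

theorem σ_algebraMap (i : Fin D.pb.dim) (c : K) : D.σ i (algebraMap K F c) = D.φ c :=
  RingHom.congr_fun (D.σ_comp_algebraMap i) c

/-- (Q1) every cusp embedding maps the discriminant of the power basis to `disc`. -/
theorem σ_discr [FiniteDimensional K F] [Algebra.IsSeparable K F] (i : Fin D.pb.dim) :
    D.σ i (algebraMap K F (Algebra.discr K D.pb.basis)) = embA A D.disc := by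
  rw [D.σ_algebraMap]
  -- the algebraic closure of `L((z))` as a `K`-algebra
  let E := AlgebraicClosure (LaurentSeries L)
  let _ : Algebra K E := ((algebraMap (LaurentSeries L) E).comp D.φ).toAlgebra
  have halg : ∀ c : K, algebraMap K E c = algebraMap (LaurentSeries L) E (D.φ c) := fun _ => rfl
  -- the embeddings as `K`-algebra homs
  let τ : Fin D.pb.dim → (F →ₐ[K] E) := fun j =>
    { ((algebraMap (LaurentSeries L) E).comp (D.σ j)) with
      commutes' := fun c => by
        show algebraMap (LaurentSeries L) E (D.σ j (algebraMap K F c)) = _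
        rw [D.σ_algebraMap, halg] }
  have hτ : ∀ j f, τ j f = algebraMap (LaurentSeries L) E (D.σ j f) := fun _ _ => rfl
  have hinj : Function.Injective τ := by
    intro a b hab
    have h1 := congrArg (fun g : F →ₐ[K] E => g D.pb.gen) hab
    simp only [hτ, D.σ_gen] at h1
    exact D.t_injective (embA_injective A ((algebraMap (LaurentSeries L) E).injective h1))
  have hbij : Function.Bijective τ := by
    rw [Fintype.bijective_iff_injective_and_card]
    refine ⟨hinj, ?_⟩
    rw [Fintype.card_fin, AlgHom.card, D.pb.finrank]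
  have h := Algebra.discr_powerBasis_eq_prod K E D.pb (Equiv.ofBijective τ hbij)
  apply (algebraMap (LaurentSeries L) E).injective
  rw [← halg, h, disc, map_prod, map_prod]
  refine Finset.prod_congr rfl fun a _ => ?_
  rw [map_prod, map_prod]
  refine Finset.prod_congr rfl fun b _ => ?_
  simp only [Equiv.ofBijective_apply, hτ, D.σ_gen, map_pow, map_sub]

/-- `discr * f ∈ L[x][θ]` for `f` integral over `L[x]`, with explicit coefficients. -/
theorem exists_coeffs [FiniteDimensional K F] [Algebra.IsSeparable K F] {f : F}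
    (hf : IsIntegral L[X] f) :
    ∃ c : Fin D.pb.dim → L[X], algebraMap K F (Algebra.discr K D.pb.basis) * f =
      ∑ j, algebraMap L[X] F (c j) * D.pb.gen ^ (j : ℕ) := by
  have h1 := Algebra.discr_mul_isIntegral_mem_adjoin K D.gen_int hf
  have h2 : Algebra.discr K D.pb.basis • f ∈
      Submodule.span L[X] (Set.range fun i : Fin (minpoly L[X] D.pb.gen).natDegree =>
        D.pb.gen ^ (i : ℕ)) := by
    refine IsIntegral.mem_span_pow D.gen_int ?_
    rw [Algebra.adjoin_singleton_eq_range_aeval] at h1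
    obtain ⟨g, hg⟩ := h1
    exact ⟨g, hg.symm⟩
  have hdeg : (minpoly L[X] D.pb.gen).natDegree = D.pb.dim := by
    have h3 := minpoly.isIntegrallyClosed_eq_field_fractions' K D.gen_int
    have h4 := D.pb.natDegree_minpoly
    rw [h3, (minpoly.monic D.gen_int).natDegree_map] at h4
    exact h4
  rw [hdeg] at h2
  obtain ⟨c, hc⟩ := (Submodule.mem_span_range_iff_exists_fun L[X]).mp h2
  refine ⟨c, ?_⟩
  rw [← Algebra.smul_def, ← hc]
  refine Finset.sum_congr rfl fun j _ => ?_
  rw [Algebra.smul_def]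

/-- the expansion at the cusp `i` of `discr * f = ∑ c_j θ^j`. -/
theorem σ_sum (i : Fin D.pb.dim) (c : Fin D.pb.dim → A[X]) :
    D.σ i (∑ j, algebraMap L[X] F (polyEmb A (c j)) * D.pb.gen ^ (j : ℕ)) =
      embA A (∑ j, aeval D.ξ (c j) * D.t i ^ (j : ℕ)) := by
  rw [map_sum, map_sum]
  refine Finset.sum_congr rfl fun j _ => ?_
  rw [map_mul, map_pow, D.σ_poly, D.σ_gen, aeval_embA_polyEmb, map_mul, map_pow]

/-- if `discr * f = ∑ c_j θ^j` with `c_j ∈ A[x]` then all cusp expansions of `f` are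
`A`-integral. -/
theorem σ_mem_intLS_of_coeffs [FiniteDimensional K F] [Algebra.IsSeparable K F] {f : F}
    (c : Fin D.pb.dim → A[X])
    (hc : algebraMap K F (Algebra.discr K D.pb.basis) * f =
      ∑ j, algebraMap L[X] F (polyEmb A (c j)) * D.pb.gen ^ (j : ℕ)) (i : Fin D.pb.dim) :
    D.σ i f ∈ intLS A := by
  have h1 := congrArg (D.σ i) hc
  rw [map_mul, D.σ_discr, D.σ_sum] at h1
  obtain ⟨u, hu⟩ := D.isUnit_disc.exists_left_inv
  refine ⟨u * ∑ j, aeval D.ξ (c j) * D.t i ^ (j : ℕ), ?_⟩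
  rw [map_mul, ← h1, ← mul_assoc, ← map_mul, hu, map_one, one_mul]

/-- (Q3) = QINT: `f` integral over `L[x]` whose expansion at the cusp `i₀` lies in the Gauss ring
has `A`-integral expansions at all cusps, provided (IGUSA) the powers of `θ̄` are independent over
`k[x̄]` at `i₀`. More precisely `discr * f = ∑ c_j θ^j` with `c_j ∈ A[x]`. -/
theorem exists_coeffs_of_mem_gaussRing [FiniteDimensional K F] [Algebra.IsSeparable K F]
    (hπ : ∀ a : A, a ∈ IsLocalRing.maximalIdeal A → π a = 0) (i₀ : Fin D.pb.dim)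
    (higusa : ∀ c : Fin D.pb.dim → k[X],
      ∑ j, aeval (redA A π D.ξ) (c j) * redA A π (D.t i₀) ^ (j : ℕ) = 0 → ∀ j, c j = 0)
    {f : F} (hf : IsIntegral L[X] f) (hf0 : D.σ i₀ f ∈ gaussRing A π) :
    ∃ c : Fin D.pb.dim → A[X], algebraMap K F (Algebra.discr K D.pb.basis) * f =
      ∑ j, algebraMap L[X] F (polyEmb A (c j)) * D.pb.gen ^ (j : ℕ) := by
  obtain ⟨c, hc⟩ := D.exists_coeffs hf
  by_cases hall : ∀ j, c j ∈ (polyEmb A).range
  · choose c' hc' using hall
    refine ⟨c', ?_⟩
    rw [hc]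
    refine Finset.sum_congr rfl fun j _ => ?_
    rw [hc']
  exfalso
  obtain ⟨a, ha, c', hc', j₀, m₀, h1⟩ := exists_normalization c hall
  -- multiply the relation by `a` and expand at the cusp `i₀`
  have h2 : algebraMap L[X] F (C (a : L)) * (algebraMap K F (Algebra.discr K D.pb.basis) * f) =
      ∑ j, algebraMap L[X] F (polyEmb A (c' j)) * D.pb.gen ^ (j : ℕ) := by
    rw [hc, Finset.mul_sum]
    refine Finset.sum_congr rfl fun j _ => ?_
    rw [hc', map_mul, mul_assoc]
  have h3 := congrArg (D.σ i₀) h2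
  rw [map_mul, map_mul, D.σ_discr, D.σ_sum, D.σ_poly, aeval_C, algebraMap_laurent_eq_C] at h3
  -- reduce
  set W := ∑ j, aeval D.ξ (c' j) * D.t i₀ ^ (j : ℕ) with hW
  have hCa : (HahnSeries.C (a : L) : LaurentSeries L) = embA A (HahnSeries.C a) := (embA_C A a).symm
  have hu : (HahnSeries.C (a : L) : LaurentSeries L) * embA A D.disc ∈ gaussRing A π := by
    rw [hCa, ← map_mul]
    exact embA_mem_gaussRing A π _
  have hured : gaussRed A π ⟨_, hu⟩ = 0 := by
    rw [gaussRed_of_eq_embA A π ⟨_, hu⟩ (a := HahnSeries.C a * D.disc)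
      (by show HahnSeries.C (a : L) * embA A D.disc = _
          rw [map_mul, hCa]), map_mul, redA_C, hπ a ha, map_zero, zero_mul]
  have hprod : (⟨_, hu⟩ * ⟨_, hf0⟩ : gaussRing A π) = ⟨embA A W, embA_mem_gaussRing A π W⟩ := by
    apply Subtype.ext
    show HahnSeries.C (a : L) * embA A D.disc * D.σ i₀ f = embA A W
    rw [← h3, mul_assoc]
  have hred := congrArg (gaussRed A π) hprod
  rw [map_mul, hured, zero_mul, gaussRed_embA] at hred
  have hW0 : ∑ j, aeval (redA A π D.ξ) ((c' j).map π) * redA A π (D.t i₀) ^ (j : ℕ) = 0 := by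
    rw [hred, hW, map_sum]
    refine Finset.sum_congr rfl fun j _ => ?_
    rw [map_mul, map_pow, aeval_redA_map]
  have h4 := higusa (fun j => (c' j).map π) hW0 j₀
  have h5 := congrArg (fun P : k[X] => P.coeff m₀) h4
  simp only [coeff_map, h1, map_one, coeff_zero] at h5
  exact one_ne_zero h5

/-- (Q3) = QINT. -/
theorem qint [FiniteDimensional K F] [Algebra.IsSeparable K F]
    (hπ : ∀ a : A, a ∈ IsLocalRing.maximalIdeal A → π a = 0) (i₀ : Fin D.pb.dim)
    (higusa : ∀ c : Fin D.pb.dim → k[X],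
      ∑ j, aeval (redA A π D.ξ) (c j) * redA A π (D.t i₀) ^ (j : ℕ) = 0 → ∀ j, c j = 0)
    {f : F} (hf : IsIntegral L[X] f) (hf0 : D.σ i₀ f ∈ gaussRing A π) (i : Fin D.pb.dim) :
    D.σ i f ∈ intLS A := by
  obtain ⟨c, hc⟩ := D.exists_coeffs_of_mem_gaussRing π hπ i₀ higusa hf hf0
  exact D.σ_mem_intLS_of_coeffs c hc i

end CuspData

/-! ## Part 2: Lagrange (Q2), reduction zero (Q3'), general elements (Q4), pole orders (Q5) -/

section Part2

open Matrix

namespace CuspData

variable (D : CuspData A K F)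

theorem isUnit_det_vandermonde : IsUnit (Matrix.vandermonde D.t).det := by
  rw [Matrix.det_vandermonde]
  refine (IsUnit.prod_univ_iff).mpr fun i => ?_
  refine (IsUnit.prod_iff).mpr fun j hj => ?_
  exact D.t_unit j i (ne_of_gt (Finset.mem_Ioi.mp hj))

/-- Vandermonde inversion over `A((z))`: if `∑_j w_j (t i)^j` is `A`-integral for every `i`, so is
every `w_j`. -/
theorem mem_intLS_of_vandermonde (w : Fin D.pb.dim → LaurentSeries L)
    (h : ∀ i, ∑ j, w j * embA A (D.t i) ^ (j : ℕ) ∈ intLS A) (j : Fin D.pb.dim) :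
    w j ∈ intLS A := by
  classical
  choose b hb using h
  set V := Matrix.vandermonde D.t with hV
  have h1 : (V.map (embA A)) *ᵥ w = (embA A) ∘ b := by
    funext i
    rw [Function.comp_apply, hb i, Matrix.mulVec, dotProduct]
    refine Finset.sum_congr rfl fun j _ => ?_
    rw [Matrix.map_apply, hV, Matrix.vandermonde_apply, map_pow, mul_comm]
  have h2 : V⁻¹ * V = 1 := Matrix.nonsing_inv_mul V D.isUnit_det_vandermonde
  have h3 : w = (embA A) ∘ (V⁻¹ *ᵥ b) := by
    funext j
    rw [Function.comp_apply, RingHom.map_mulVec, ← h1, Matrix.mulVec_mulVec, ← Matrix.map_mul, h2,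
      Matrix.map_one _ (map_zero _) (map_one _), Matrix.one_mulVec]
  rw [h3]
  exact embA_mem_intLS A _

/-- (Q2) LAGRANGE: `f` integral over `L[x]` with all cusp expansions `A`-integral:
`discr * f = ∑ c_j θ^j` with `c_j ∈ A[x]`. -/
theorem lagrange [FiniteDimensional K F] [Algebra.IsSeparable K F] {f : F}
    (hf : IsIntegral L[X] f) (hσ : ∀ i, D.σ i f ∈ intLS A) :
    ∃ c : Fin D.pb.dim → A[X], algebraMap K F (Algebra.discr K D.pb.basis) * f =
      ∑ j, algebraMap L[X] F (polyEmb A (c j)) * D.pb.gen ^ (j : ℕ) := by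
  obtain ⟨c, hc⟩ := D.exists_coeffs hf
  have hall : ∀ j, c j ∈ (polyEmb A).range := by
    intro j
    refine mem_range_polyEmb_of_aeval_mem_intLS D.ξ_unit D.ξ_order ?_
    refine D.mem_intLS_of_vandermonde (fun j => aeval (embA A D.ξ) (c j)) (fun i => ?_) j
    have h1 := congrArg (D.σ i) hc
    rw [map_mul, D.σ_discr, map_sum] at h1
    have h2 : ∑ j, aeval (embA A D.ξ) (c j) * embA A (D.t i) ^ (j : ℕ) =
        embA A D.disc * D.σ i f := by
      rw [h1]
      refine Finset.sum_congr rfl fun j _ => ?_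
      rw [map_mul, map_pow, D.σ_poly, D.σ_gen]
    rw [h2]
    exact Subring.mul_mem _ (embA_mem_intLS A _) (hσ i)
  choose c' hc' using hall
  refine ⟨c', ?_⟩
  rw [hc]
  refine Finset.sum_congr rfl fun j _ => ?_
  rw [hc']

end CuspData

/-- a nonzero polynomial over `L` has a constant multiple with coefficients in `A`, one of them
equal to `1` (a primitive multiple). -/
theorem exists_primitive_multiple {a : L[X]} (ha : a ≠ 0) :
    ∃ s : L, s ≠ 0 ∧ ∃ a' : A[X], polyEmb A a' = C s * a ∧ ∃ m, a'.coeff m = 1 := by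
  classical
  have hne : a.support.Nonempty := by
    rw [Finset.nonempty_iff_ne_empty, Ne, Polynomial.support_eq_empty]
    exact ha
  obtain ⟨m₀, hm₀, hmax⟩ := Finset.exists_max_image a.support (fun n => A.valuation (a.coeff n)) hne
  set s := a.coeff m₀ with hs
  have hs0 : s ≠ 0 := mem_support_iff.mp hm₀
  have hvs0 : A.valuation s ≠ 0 := (Valuation.ne_zero_iff _).mpr hs0
  have hcoef : ∀ n, s⁻¹ * a.coeff n ∈ A := by
    intro n
    by_cases h0 : a.coeff n = 0
    · rw [h0, mul_zero]; exact A.zero_mem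
    · rw [← A.valuation_le_one_iff, map_mul, map_inv₀,
        inv_mul_le_iff₀ (lt_of_le_of_ne zero_le hvs0.symm), mul_one]
      exact hmax n (mem_support_iff.mpr h0)
  have hrange : C s⁻¹ * a ∈ (polyEmb A).range := by
    rw [mem_range_polyEmb_iff]
    intro n
    rw [coeff_C_mul]
    exact hcoef n
  obtain ⟨a', ha'⟩ := hrange
  refine ⟨s⁻¹, inv_ne_zero hs0, a', ha', m₀, ?_⟩
  apply Subtype.ext
  have := congrArg (fun P : L[X] => P.coeff m₀) ha'
  simp only [polyEmb, coe_mapRingHom, coeff_map, coeff_C_mul] at this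
  rw [← hs, inv_mul_cancel₀ hs0] at this
  exact this

/-- reduction preserves the order of a unit of `A((z))`. -/
theorem redA_order_of_isUnit {ξ : LaurentSeries A} (hξ : IsUnit ξ) :
    (redA A π ξ).order = ξ.order := by
  have hu := isUnit_leadingCoeff hξ
  have hπu : π ξ.leadingCoeff ≠ 0 := (hu.map π).ne_zero
  have hc : (redA A π ξ).coeff ξ.order ≠ 0 := by
    rw [redA_coeff, ← HahnSeries.leadingCoeff_eq]
    exact hπu
  have h0 : redA A π ξ ≠ 0 := fun h => hc (by rw [h, HahnSeries.coeff_zero])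
  refine le_antisymm (HahnSeries.order_le_of_coeff_ne_zero hc) ?_
  by_contra hlt
  rw [not_le] at hlt
  have h1 : (redA A π ξ).coeff (redA A π ξ).order ≠ 0 := by
    rw [Ne, HahnSeries.coeff_order_eq_zero]
    exact h0
  rw [redA_coeff, HahnSeries.coeff_eq_zero_of_lt_order hlt, map_zero] at h1
  exact h1 rfl

/-- the reduction of `ξ` (negative order, unit lowest coefficient) is transcendental over `k`. -/
theorem aeval_redA_ne_zero {ξ : LaurentSeries A} (hξ : IsUnit ξ) (hξo : ξ.order < 0)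
    {P : k[X]} (hP : P ≠ 0) : aeval (redA A π ξ) P ≠ 0 := by
  intro h0
  have ho : (redA A π ξ).order < 0 := by rwa [redA_order_of_isUnit π hξ]
  have h1 := coeff_aeval_top ho P
  rw [h0, HahnSeries.coeff_zero] at h1
  have hξ0 : redA A π ξ ≠ 0 := by
    intro h
    rw [h, HahnSeries.order_zero] at ho
    exact lt_irrefl _ ho
  exact mul_ne_zero (leadingCoeff_ne_zero.mpr hP)
    (pow_ne_zero _ (HahnSeries.leadingCoeff_ne_zero.mpr hξ0)) h1.symm

namespace CuspData

variable (D : CuspData A K F)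

theorem redA_sum (i : Fin D.pb.dim) (c : Fin D.pb.dim → A[X]) :
    redA A π (∑ j, aeval D.ξ (c j) * D.t i ^ (j : ℕ)) =
      ∑ j, aeval (redA A π D.ξ) ((c j).map π) * redA A π (D.t i) ^ (j : ℕ) := by
  rw [map_sum]
  refine Finset.sum_congr rfl fun j _ => ?_
  rw [map_mul, map_pow, aeval_redA_map]

theorem redA_disc_ne_zero : redA A π D.disc ≠ 0 := (D.isUnit_disc.map (redA A π)).ne_zero

/-- (Q3') if moreover the expansion of `f` at `i₀` reduces to zero, then the coefficients `c_j` of
`discr * f = ∑ c_j θ^j` reduce to zero. -/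
theorem coeffs_map_eq_zero [FiniteDimensional K F] [Algebra.IsSeparable K F]
    (i₀ : Fin D.pb.dim)
    (higusa : ∀ c : Fin D.pb.dim → k[X],
      ∑ j, aeval (redA A π D.ξ) (c j) * redA A π (D.t i₀) ^ (j : ℕ) = 0 → ∀ j, c j = 0)
    {f : F} (hf0 : D.σ i₀ f ∈ gaussRing A π) (h0 : gaussRed A π ⟨_, hf0⟩ = 0)
    (c : Fin D.pb.dim → A[X])
    (hc : algebraMap K F (Algebra.discr K D.pb.basis) * f =
      ∑ j, algebraMap L[X] F (polyEmb A (c j)) * D.pb.gen ^ (j : ℕ)) (j : Fin D.pb.dim) :
    (c j).map π = 0 := by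
  have h1 := congrArg (D.σ i₀) hc
  rw [map_mul, D.σ_discr, D.σ_sum] at h1
  set W := ∑ j, aeval D.ξ (c j) * D.t i₀ ^ (j : ℕ) with hW
  have hprod : (⟨_, embA_mem_gaussRing A π D.disc⟩ * ⟨_, hf0⟩ : gaussRing A π) =
      ⟨embA A W, embA_mem_gaussRing A π W⟩ := Subtype.ext h1
  have hred := congrArg (gaussRed A π) hprod
  rw [map_mul, h0, mul_zero, gaussRed_embA, hW, D.redA_sum] at hred
  exact higusa (fun j => (c j).map π) hred.symm j

/-- (Q3') `f` integral over `L[x]` whose expansion at `i₀` lies in the Gauss ring and reduces to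
zero: all cusp expansions of `f` (which are `A`-integral by `qint`) reduce to zero. -/
theorem redA_eq_zero_of_gaussRed_eq_zero [FiniteDimensional K F] [Algebra.IsSeparable K F]
    (hπ : ∀ a : A, a ∈ IsLocalRing.maximalIdeal A → π a = 0) (i₀ : Fin D.pb.dim)
    (higusa : ∀ c : Fin D.pb.dim → k[X],
      ∑ j, aeval (redA A π D.ξ) (c j) * redA A π (D.t i₀) ^ (j : ℕ) = 0 → ∀ j, c j = 0)
    {f : F} (hf : IsIntegral L[X] f) (hf0 : D.σ i₀ f ∈ gaussRing A π)
    (h0 : gaussRed A π ⟨_, hf0⟩ = 0) (i : Fin D.pb.dim) {g : LaurentSeries A}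
    (hg : D.σ i f = embA A g) : redA A π g = 0 := by
  obtain ⟨c, hc⟩ := D.exists_coeffs_of_mem_gaussRing π hπ i₀ higusa hf hf0
  have hc0 := D.coeffs_map_eq_zero π i₀ higusa hf0 h0 c hc
  have h1 := congrArg (D.σ i) hc
  rw [map_mul, D.σ_discr, D.σ_sum, hg, ← map_mul] at h1
  have h2 := congrArg (redA A π) (embA_injective A h1)
  rw [map_mul, D.redA_sum] at h2
  simp only [hc0, map_zero, zero_mul, Finset.sum_const_zero] at h2
  exact (mul_eq_zero.mp h2).resolve_left (D.redA_disc_ne_zero π)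

/-- every element of `F` has a multiple by a primitive polynomial in `x` which is integral over
`L[x]`. -/
theorem exists_primitive_mul_integral [FiniteDimensional K F] (f : F) :
    ∃ a' : A[X], (∃ m, a'.coeff m = 1) ∧
      IsIntegral L[X] (algebraMap L[X] F (polyEmb A a') * f) := by
  have hK : IsIntegral K f := Algebra.IsIntegral.isIntegral f
  obtain ⟨⟨a, ha⟩, hint⟩ :=
    IsIntegral.exists_multiple_integral_of_isLocalization (nonZeroDivisors L[X]) f hK
  have ha0 : a ≠ 0 := nonZeroDivisors.ne_zero ha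
  obtain ⟨s, -, a', ha', hm⟩ := exists_primitive_multiple (A := A) ha0
  refine ⟨a', hm, ?_⟩
  rw [ha', map_mul, mul_assoc]
  refine IsIntegral.mul isIntegral_algebraMap ?_
  rw [← Algebra.smul_def]
  exact hint

/-- the value at `ξ` of a primitive polynomial has nonzero reduction. -/
theorem redA_aeval_ne_zero {a' : A[X]} (hm : ∃ m, a'.coeff m = 1) :
    redA A π (aeval D.ξ a') ≠ 0 := by
  rw [← aeval_redA_map]
  refine aeval_redA_ne_zero π D.ξ_unit D.ξ_order ?_
  obtain ⟨m, hm⟩ := hm
  intro h0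
  have := congrArg (fun P : k[X] => P.coeff m) h0
  simp only [coeff_map, hm, map_one, coeff_zero] at this
  exact one_ne_zero this

/-- (Q4), first half: if the expansion of `f ∈ F` at the cusp `i₀` lies in the Gauss ring, so do
its expansions at all cusps. -/
theorem σ_mem_gaussRing [FiniteDimensional K F] [Algebra.IsSeparable K F]
    (hπ : ∀ a : A, a ∈ IsLocalRing.maximalIdeal A → π a = 0) (i₀ : Fin D.pb.dim)
    (higusa : ∀ c : Fin D.pb.dim → k[X],
      ∑ j, aeval (redA A π D.ξ) (c j) * redA A π (D.t i₀) ^ (j : ℕ) = 0 → ∀ j, c j = 0)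
    {f : F} (hf0 : D.σ i₀ f ∈ gaussRing A π) (i : Fin D.pb.dim) :
    D.σ i f ∈ gaussRing A π := by
  obtain ⟨a', hm, hint⟩ := exists_primitive_mul_integral (A := A) (K := K) f
  have hσg : ∀ i, D.σ i (algebraMap L[X] F (polyEmb A a') * f) =
      embA A (aeval D.ξ a') * D.σ i f := by
    intro i
    rw [map_mul, D.σ_poly, aeval_embA_polyEmb]
  have hg0 : D.σ i₀ (algebraMap L[X] F (polyEmb A a') * f) ∈ gaussRing A π := by
    rw [hσg]
    exact Subring.mul_mem _ (embA_mem_gaussRing A π _) hf0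
  obtain ⟨G, hG⟩ := D.qint π hπ i₀ higusa hint hg0 i
  refine ⟨G, aeval D.ξ a', D.redA_aeval_ne_zero π hm, ?_⟩
  rw [hG, hσg, mul_comm]

/-- (Q4), second half: if moreover the expansion at `i₀` reduces to zero, so do all the others. -/
theorem gaussRed_σ_eq_zero [FiniteDimensional K F] [Algebra.IsSeparable K F]
    (hπ : ∀ a : A, a ∈ IsLocalRing.maximalIdeal A → π a = 0) (i₀ : Fin D.pb.dim)
    (higusa : ∀ c : Fin D.pb.dim → k[X],
      ∑ j, aeval (redA A π D.ξ) (c j) * redA A π (D.t i₀) ^ (j : ℕ) = 0 → ∀ j, c j = 0)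
    {f : F} (hf0 : D.σ i₀ f ∈ gaussRing A π) (h0 : gaussRed A π ⟨_, hf0⟩ = 0)
    (i : Fin D.pb.dim) (hfi : D.σ i f ∈ gaussRing A π) :
    gaussRed A π ⟨_, hfi⟩ = 0 := by
  obtain ⟨a', hm, hint⟩ := exists_primitive_mul_integral (A := A) (K := K) f
  have hσg : ∀ i, D.σ i (algebraMap L[X] F (polyEmb A a') * f) =
      embA A (aeval D.ξ a') * D.σ i f := by
    intro i
    rw [map_mul, D.σ_poly, aeval_embA_polyEmb]
  have hg0 : D.σ i₀ (algebraMap L[X] F (polyEmb A a') * f) ∈ gaussRing A π := by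
    rw [hσg]
    exact Subring.mul_mem _ (embA_mem_gaussRing A π _) hf0
  have hg00 : gaussRed A π ⟨_, hg0⟩ = 0 := by
    have : (⟨_, hg0⟩ : gaussRing A π) = ⟨_, embA_mem_gaussRing A π (aeval D.ξ a')⟩ * ⟨_, hf0⟩ :=
      Subtype.ext (hσg i₀)
    rw [this, map_mul, h0, mul_zero]
  obtain ⟨G, hG⟩ := D.qint π hπ i₀ higusa hint hg0 i
  have hG0 := D.redA_eq_zero_of_gaussRed_eq_zero π hπ i₀ higusa hint hg0 hg00 i hG.symm
  have hspec := gaussRed_spec A π ⟨_, hfi⟩ (a := G) (b := aeval D.ξ a')
    (D.redA_aeval_ne_zero π hm) (by rw [hG, hσg, mul_comm])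
  rw [hG0] at hspec
  exact (mul_eq_zero.mp hspec).resolve_right (D.redA_aeval_ne_zero π hm)

/-- the reduction hypotheses: `π` kills the maximal ideal, and (IGUSA) the powers of `θ̄` are
linearly independent over `k[x̄]` at the cusp `i₀`. -/
structure RedHyp (i₀ : Fin D.pb.dim) : Prop where
  ker : ∀ a : A, a ∈ IsLocalRing.maximalIdeal A → π a = 0
  igusa : ∀ c : Fin D.pb.dim → k[X],
    ∑ j, aeval (redA A π D.ξ) (c j) * redA A π (D.t i₀) ^ (j : ℕ) = 0 → ∀ j, c j = 0

/-- the abstract `Ov`: the elements of `F` whose expansion at the cusp `i₀` lies in the Gauss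
ring. -/
def O (i₀ : Fin D.pb.dim) : Subring F := (gaussRing A π).comap (D.σ i₀)

theorem mem_O_iff {i₀ : Fin D.pb.dim} {f : F} : f ∈ D.O π i₀ ↔ D.σ i₀ f ∈ gaussRing A π := Iff.rfl

section Reduction

variable [FiniteDimensional K F] [Algebra.IsSeparable K F] {i₀ : Fin D.pb.dim}
  (H : D.RedHyp π i₀)

include H in
theorem σ_mem_gaussRing_of_mem_O {f : F} (hf : f ∈ D.O π i₀) (i : Fin D.pb.dim) :
    D.σ i f ∈ gaussRing A π :=
  D.σ_mem_gaussRing π H.ker i₀ H.igusa hf i

/-- (Q4) the reduction of the expansion at the cusp `i`, on the ring `O`. -/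
def σbar (i : Fin D.pb.dim) : D.O π i₀ →+* LaurentSeries k :=
  (gaussRed A π).comp
    ((D.σ i).restrict (D.O π i₀) (gaussRing A π) fun _ hf => D.σ_mem_gaussRing_of_mem_O π H hf i)

theorem σbar_apply (i : Fin D.pb.dim) (f : D.O π i₀) :
    D.σbar π H i f = gaussRed A π ⟨D.σ i f, D.σ_mem_gaussRing_of_mem_O π H f.2 i⟩ := rfl

/-- `σbar` of an element with `A`-integral expansion. -/
theorem σbar_of_eq_embA (i : Fin D.pb.dim) (f : D.O π i₀) {g : LaurentSeries A}
    (hg : D.σ i f = embA A g) : D.σbar π H i f = redA A π g := by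
  rw [σbar_apply]
  exact gaussRed_of_eq_embA A π _ hg

theorem ker_σbar_le (i : Fin D.pb.dim) :
    RingHom.ker (D.σbar π H i₀) ≤ RingHom.ker (D.σbar π H i) := by
  intro f hf
  rw [RingHom.mem_ker, σbar_apply] at hf ⊢
  exact D.gaussRed_σ_eq_zero π H.ker i₀ H.igusa f.2 hf i _

/-- the residue ring `Fk`: the image of the reduction at `i₀`. -/
abbrev Fk : Subring (LaurentSeries k) := (D.σbar π H i₀).range

/-- (Q4) the reduced cusp expansions `Fk → k((z))`. -/
def σFk (i : Fin D.pb.dim) : D.Fk π H →+* LaurentSeries k :=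
  RingHom.liftOfSurjective (D.σbar π H i₀).rangeRestrict
    (D.σbar π H i₀).rangeRestrict_surjective
    ⟨D.σbar π H i, by
      intro f hf
      refine D.ker_σbar_le π H i ?_
      rw [RingHom.mem_ker] at hf ⊢
      exact congrArg Subtype.val hf⟩

theorem σFk_apply (i : Fin D.pb.dim) (f : D.O π i₀) :
    D.σFk π H i ⟨D.σbar π H i₀ f, ⟨f, rfl⟩⟩ = D.σbar π H i f :=
  RingHom.liftOfSurjective_comp_apply (D.σbar π H i₀).rangeRestrict _ _ f

theorem σFk_i₀ (y : D.Fk π H) : D.σFk π H i₀ y = y := by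
  obtain ⟨y, f, rfl⟩ := y
  exact D.σFk_apply π H i₀ f

omit [FiniteDimensional K F] [Algebra.IsSeparable K F] in
theorem gen_mem_O : D.pb.gen ∈ D.O π i₀ := by
  rw [mem_O_iff, D.σ_gen]
  exact embA_mem_gaussRing A π _

omit [FiniteDimensional K F] [Algebra.IsSeparable K F] in
theorem algebraMap_polyEmb_mem_O (P : A[X]) : algebraMap L[X] F (polyEmb A P) ∈ D.O π i₀ := by
  rw [mem_O_iff, D.σ_poly, aeval_embA_polyEmb]
  exact embA_mem_gaussRing A π _

theorem σbar_gen (i : Fin D.pb.dim) : D.σbar π H i ⟨D.pb.gen, D.gen_mem_O π⟩ = redA A π (D.t i) :=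
  D.σbar_of_eq_embA π H i _ (D.σ_gen i)

theorem σbar_algebraMap_polyEmb (i : Fin D.pb.dim) (P : A[X]) :
    D.σbar π H i ⟨_, D.algebraMap_polyEmb_mem_O π P⟩ = aeval (redA A π D.ξ) (P.map π) := by
  rw [aeval_redA_map]
  refine D.σbar_of_eq_embA π H i _ ?_
  rw [D.σ_poly, aeval_embA_polyEmb]

omit [FiniteDimensional K F] [Algebra.IsSeparable K F] in
theorem redA_t_injective : Function.Injective fun i => redA A π (D.t i) := by
  intro i j h
  by_contra hij
  have h1 := (D.t_unit i j hij).map (redA A π)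
  rw [map_sub, show redA A π (D.t i) = redA A π (D.t j) from h, sub_self] at h1
  exact not_isUnit_zero h1

/-- (Q4) the reduced cusp expansions are pairwise distinct. -/
theorem σFk_injective : Function.Injective (D.σFk π H) := by
  intro i j h
  apply D.redA_t_injective π
  show redA A π (D.t i) = redA A π (D.t j)
  rw [← D.σbar_gen π H i, ← D.σbar_gen π H j, ← D.σFk_apply π H i, ← D.σFk_apply π H j, h]

/-- (Q5) pole orders do not grow under reduction: for `f` integral over `L[x]` in `O`, the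
coefficients of the reduced expansion at `i` vanish wherever those of the expansion at `i` do. -/
theorem σbar_coeff_eq_zero (i : Fin D.pb.dim) (f : D.O π i₀) (hf : IsIntegral L[X] (f : F))
    {n : ℤ} (hn : (D.σ i f).coeff n = 0) : (D.σbar π H i f).coeff n = 0 := by
  obtain ⟨g, hg⟩ := D.qint π H.ker i₀ H.igusa hf f.2 i
  rw [D.σbar_of_eq_embA π H i f hg.symm, redA_coeff]
  rw [← hg, embA_coeff] at hn
  have : g.coeff n = 0 := Subtype.ext hn
  rw [this, map_zero]

end Reduction

end CuspData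

end Part2

end Fermat.Agent.Gateway.GoodRed
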