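import Mathlib
import Fermat.Agent.Gateway.GoodRed.CuspPersist

/-!
# P-GATEWAY (c) GoodRed: integrality persists under reduction at the cusps

Setting of `CuspPersist.lean` (`D : CuspData A K F`).  If `f ∈ F` is integral over `L[x]` and all
its cusp expansions `σ i f` are `A`-integral (the conclusion of `CuspData.qint`), then the minimal
polynomial of `f` over `L[x]` has all its coefficients in `A[x]`; consequently the reduction of
every cusp expansion of `f` is integral over `k[ξ̄]`.

* `CuspData.exists_map_embA_eq_minpoly_map` : `(minpoly K f).map φ = Q.map embA`, `Q ∈ A((z))[T]`;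
* `CuspData.minpoly_coeff_mem` : coefficients of `minpoly L[x] f` lie in `A[x]`;
* `CuspData.exists_monic_lift` : `∃ P ∈ A[x][T]` monic with `P.map polyEmb = minpoly L[x] f`;
* `CuspData.eval₂_red_eq_zero`, `CuspData.isIntegral_red` : the reduction of `f` at each cusp is a
  root of the monic polynomial `P̄ ∈ k[x][T]` (through `x ↦ ξ̄`).
-/

set_option autoImplicit false

noncomputable section

namespace Fermat.Agent.Gateway.GoodRed

open Polynomial Fermat.Agent.Gateway.Red

variable {L : Type*} [Field L] {A : ValuationSubring L} {k : Type*} [Field k] (π : A →+* k)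

variable {K F : Type*} [Field K] [Field F] [Algebra L[X] K] [IsFractionRing L[X] K]
    [Algebra K F] [Algebra L[X] F] [IsScalarTower L[X] K F]

/-- a product of linear factors whose roots lift along `ι` lifts to a monic polynomial. -/
theorem exists_monic_map_eq_prod {R E : Type*} [CommRing R] [CommRing E] (ι : R →+* E)
    (m : Multiset E) (hm : ∀ r ∈ m, ∃ s, ι s = r) :
    ∃ Q : R[X], Q.Monic ∧ Q.map ι = (m.map fun a => X - C a).prod := by
  induction m using Multiset.induction with
  | empty => exact ⟨1, monic_one, by simp⟩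
  | cons a m ih =>
    obtain ⟨s, hs⟩ := hm a (Multiset.mem_cons_self a m)
    obtain ⟨Q, hQ, hQm⟩ := ih fun r hr => hm r (Multiset.mem_cons_of_mem hr)
    refine ⟨(X - C s) * Q, (monic_X_sub_C s).mul hQ, ?_⟩
    rw [Multiset.map_cons, Multiset.prod_cons, Polynomial.map_mul, hQm, Polynomial.map_sub,
      Polynomial.map_X, Polynomial.map_C, hs]

namespace CuspData

variable (D : CuspData A K F)

/-- The minimal polynomial over `K` of an element all of whose cusp expansions are `A`-integral
has, after `x ↦ ξ`, coefficients in `A((z))`. -/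
theorem exists_map_embA_eq_minpoly_map [FiniteDimensional K F] [Algebra.IsSeparable K F] {f : F}
    (hσ : ∀ i, D.σ i f ∈ intLS A) :
    ∃ Q : (LaurentSeries A)[X], Q.Monic ∧ Q.map (embA A) = (minpoly K f).map D.φ := by
  classical
  -- the algebraic closure of `L((z))` as a `K`-algebra
  let E := AlgebraicClosure (LaurentSeries L)
  let _ : Algebra K E := ((algebraMap (LaurentSeries L) E).comp D.φ).toAlgebra
  have halg : ∀ c : K, algebraMap K E c = algebraMap (LaurentSeries L) E (D.φ c) := fun _ => rfl
  have halg' : algebraMap K E = (algebraMap (LaurentSeries L) E).comp D.φ := rfl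
  -- the embeddings as `K`-algebra homs
  let τ : Fin D.pb.dim → (F →ₐ[K] E) := fun j =>
    { ((algebraMap (LaurentSeries L) E).comp (D.σ j)) with
      commutes' := fun c => by
        show algebraMap (LaurentSeries L) E (D.σ j (algebraMap K F c)) = _
        rw [D.σ_algebraMap, halg] }
  have hτ : ∀ j g, τ j g = algebraMap (LaurentSeries L) E (D.σ j g) := fun _ _ => rfl
  have hinj : Function.Injective τ := by
    intro a b hab
    have h1 := congrArg (fun g : F →ₐ[K] E => g D.pb.gen) hab
    simp only [hτ, D.σ_gen] at h1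
    exact D.t_injective (embA_injective A ((algebraMap (LaurentSeries L) E).injective h1))
  have hbij : Function.Bijective τ := by
    rw [Fintype.bijective_iff_injective_and_card]
    refine ⟨hinj, ?_⟩
    rw [Fintype.card_fin, AlgHom.card, D.pb.finrank]
  -- the ring hom `A((z)) → E`
  let ι : LaurentSeries A →+* E := (algebraMap (LaurentSeries L) E).comp (embA A)
  -- every root of the minimal polynomial is the image of an `A`-integral series
  have hint : IsIntegral K f := Algebra.IsIntegral.isIntegral f
  have hroot : ∀ r ∈ ((minpoly K f).map (algebraMap K E)).roots, ∃ s : LaurentSeries A, ι s = r := by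
    intro r hr
    have hr' : aeval r (minpoly K f) = 0 := by
      rw [mem_roots (Polynomial.map_ne_zero (minpoly.ne_zero hint)), IsRoot, eval_map,
        ← aeval_def] at hr
      exact hr
    obtain ⟨ψ, hψ⟩ := IntermediateField.exists_algHom_of_splits_of_aeval
      (F := K) (E := F) (K := E)
      (fun s => ⟨Algebra.IsIntegral.isIntegral s, IsAlgClosed.splits _⟩) hr'
    obtain ⟨j, rfl⟩ := hbij.2 ψ
    obtain ⟨s, hs⟩ := hσ j
    exact ⟨s, by rw [← hψ, hτ, ← hs]; rfl⟩
  -- the product formula
  have hsplit : ((minpoly K f).map (algebraMap K E)).Splits := IsAlgClosed.splits _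
  have hmonic : ((minpoly K f).map (algebraMap K E)).Monic := (minpoly.monic hint).map _
  have hprod := hsplit.eq_prod_roots_of_monic hmonic
  obtain ⟨Q, hQ, hQm⟩ := exists_monic_map_eq_prod ι _ hroot
  refine ⟨Q, hQ, ?_⟩
  apply Polynomial.map_injective _ (algebraMap (LaurentSeries L) E).injective
  rw [Polynomial.map_map, Polynomial.map_map, ← halg']
  show Q.map ι = _
  rw [hQm, ← hprod]

/-- The minimal polynomial over `L[x]` of an element integral over `L[x]`, all of whose cusp
expansions are `A`-integral, has coefficients in `A[x]`. -/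
theorem minpoly_coeff_mem [FiniteDimensional K F] [Algebra.IsSeparable K F] {f : F}
    (hf : IsIntegral L[X] f) (hσ : ∀ i, D.σ i f ∈ intLS A) (m : ℕ) :
    (minpoly L[X] f).coeff m ∈ (polyEmb A).range := by
  obtain ⟨Q, -, hQ⟩ := D.exists_map_embA_eq_minpoly_map hσ
  rw [minpoly.isIntegrallyClosed_eq_field_fractions' K hf, Polynomial.map_map] at hQ
  apply mem_range_polyEmb_of_aeval_mem_intLS D.ξ_unit D.ξ_order
  have h1 := congrArg (fun p => Polynomial.coeff p m) hQ
  simp only [Polynomial.coeff_map, RingHom.comp_apply, D.φ_algebraMap] at h1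
  rw [← h1]
  exact embA_mem_intLS A _

/-- a monic lift to `A[x][T]` of the minimal polynomial over `L[x]`. -/
theorem exists_monic_lift [FiniteDimensional K F] [Algebra.IsSeparable K F] {f : F}
    (hf : IsIntegral L[X] f) (hσ : ∀ i, D.σ i f ∈ intLS A) :
    ∃ P : (A[X])[X], P.Monic ∧ P.map (polyEmb A) = minpoly L[X] f := by
  have hlift : minpoly L[X] f ∈ Polynomial.lifts (polyEmb A) := by
    rw [Polynomial.lifts_iff_coeff_lifts]
    intro m
    exact D.minpoly_coeff_mem hf hσ m
  obtain ⟨P, hP, -, hPm⟩ := Polynomial.lifts_and_natDegree_eq_and_monic hlift (minpoly.monic hf)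
  exact ⟨P, hPm, hP⟩

/-- evaluation at `ξ̄`, `k[x] → k((z))`. -/
def evξbar : k[X] →+* LaurentSeries k :=
  (aeval (redA A π D.ξ) : k[X] →ₐ[k] LaurentSeries k).toRingHom

theorem evξbar_apply (P : k[X]) : D.evξbar π P = aeval (redA A π D.ξ) P := rfl

/-- the reduction at the cusp `i` of an element killed by `P ∈ A[x][T]` is killed by `P̄`. -/
theorem eval₂_red_eq_zero {f : F} (P : (A[X])[X])
    (hP : eval₂ (algebraMap L[X] F) f (P.map (polyEmb A)) = 0) (i : Fin D.pb.dim)
    (s : LaurentSeries A) (hs : D.σ i f = embA A s) :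
    eval₂ (D.evξbar π) (redA A π s) (P.map (Polynomial.mapRingHom π)) = 0 := by
  -- expand at the cusp `i`
  have h1 := congrArg (D.σ i) hP
  rw [hom_eval₂, map_zero, eval₂_map, hs] at h1
  have hcomp : ((D.σ i).comp (algebraMap L[X] F)).comp (polyEmb A) =
      (embA A).comp ((aeval D.ξ : A[X] →ₐ[A] LaurentSeries A).toRingHom) := by
    refine RingHom.ext fun c => ?_
    simp only [RingHom.comp_apply, D.σ_poly, aeval_embA_polyEmb]
    rfl
  rw [hcomp, ← hom_eval₂] at h1
  have h2 : eval₂ ((aeval D.ξ : A[X] →ₐ[A] LaurentSeries A).toRingHom) s P = 0 :=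
    embA_injective A (by rw [h1, map_zero])
  -- reduce
  have h3 := congrArg (redA A π) h2
  rw [hom_eval₂, map_zero] at h3
  have hcomp' : (redA A π).comp ((aeval D.ξ : A[X] →ₐ[A] LaurentSeries A).toRingHom) =
      (D.evξbar π).comp (Polynomial.mapRingHom π) := by
    refine RingHom.ext fun c => ?_
    simp only [RingHom.comp_apply, evξbar_apply, coe_mapRingHom, aeval_redA_map]
    rfl
  rw [hcomp'] at h3
  rw [eval₂_map]
  exact h3

/-- **Integrality persists**: if `f` is integral over `L[x]` with `A`-integral cusp expansions,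
the reduction of each cusp expansion is integral over `k[x]` (acting through `x ↦ ξ̄`). -/
theorem isIntegralElem_red [FiniteDimensional K F] [Algebra.IsSeparable K F] {f : F}
    (hf : IsIntegral L[X] f) (hσ : ∀ i, D.σ i f ∈ intLS A) (i : Fin D.pb.dim)
    (s : LaurentSeries A) (hs : D.σ i f = embA A s) :
    (D.evξbar π).IsIntegralElem (redA A π s) := by
  obtain ⟨P, hP, hPm⟩ := D.exists_monic_lift hf hσ
  refine ⟨P.map (Polynomial.mapRingHom π), hP.map _, ?_⟩
  apply D.eval₂_red_eq_zero π P _ i s hs
  rw [hPm, ← aeval_def, minpoly.aeval]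

/-- One monic polynomial over `k[x]` kills the reductions of `f` at all cusps simultaneously. -/
theorem exists_monic_eval₂_red_eq_zero [FiniteDimensional K F] [Algebra.IsSeparable K F] {f : F}
    (hf : IsIntegral L[X] f) (hσ : ∀ i, D.σ i f ∈ intLS A) :
    ∃ Pbar : (k[X])[X], Pbar.Monic ∧ ∀ (i : Fin D.pb.dim) (s : LaurentSeries A),
      D.σ i f = embA A s → eval₂ (D.evξbar π) (redA A π s) Pbar = 0 := by
  obtain ⟨P, hP, hPm⟩ := D.exists_monic_lift hf hσ
  refine ⟨P.map (Polynomial.mapRingHom π), hP.map _, fun i s hs => ?_⟩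
  apply D.eval₂_red_eq_zero π P _ i s hs
  rw [hPm, ← aeval_def, minpoly.aeval]

end CuspData

end Fermat.Agent.Gateway.GoodRed
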