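import Fermat.Agent.Gateway.GoodRed.CuspPersist

/-!
# P-GATEWAY (c) GoodRed, WP-GR4: a primitive element whose cusp expansions have unit differences

`CuspData` needs a primitive element `θ` of `F / K` whose `n = [F : K]` cusp expansions are
`A`-integral with pairwise unit differences. In the modular setting the natural generators are the
`j_d` (`d ∣ N`), none of which is known (algebraically) to be primitive. This file produces `θ` as a
generic `A`-linear combination of any finite family of integral elements which separates the cusp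
expansions and whose nonzero differences of expansions are units of `A((z))`; the residue field has
to be infinite.

* `exists_forall_sum_mul_ne_zero`: finitely many nonzero linear forms over an infinite field have a
  common non-zero.
* `isUnit_sum_C_mul`, `exists_lam_isUnit`: the generic combination.
* `exists_cuspData_of_family`: the resulting `CuspData`.
-/

set_option autoImplicit false

noncomputable section

namespace Fermat.Agent.Gateway.GoodRed

open Polynomial Fermat.Agent.Gateway.Red

variable {L : Type*} [Field L] {A : ValuationSubring L} {k : Type*} [Field k] (π : A →+* k)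

/-- a finite family of nonzero linear forms on `ι → k` (`k` infinite) has a common non-zero. -/
theorem exists_forall_sum_mul_ne_zero {ι P : Type*} [Fintype ι] [Finite P] [Infinite k]
    (c : P → ι → k) (hc : ∀ p, ∃ d, c p d ≠ 0) :
    ∃ v : ι → k, ∀ p, ∑ d, v d * c p d ≠ 0 := by
  classical
  let ℓ : P → ((ι → k) →ₗ[k] k) := fun p =>
    { toFun := fun v => ∑ d, v d * c p d
      map_add' := fun v w => by simp [add_mul, Finset.sum_add_distrib]
      map_smul' := fun a v => by simp [Finset.mul_sum, mul_assoc] }
  have hℓ : ∀ p, LinearMap.ker (ℓ p) ≠ ⊤ := by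
    intro p h
    obtain ⟨d, hd⟩ := hc p
    have : Pi.single d (1 : k) ∈ LinearMap.ker (ℓ p) := by rw [h]; trivial
    rw [LinearMap.mem_ker] at this
    apply hd
    simpa [ℓ, Pi.single_apply] using this
  have hfin : (Set.range fun p => LinearMap.ker (ℓ p)).Finite := Set.finite_range _
  have hne := Subspace.biUnion_ne_univ_of_top_notMem (s := hfin.toFinset) (by
    intro h
    rw [Set.Finite.mem_toFinset] at h
    obtain ⟨p, hp⟩ := h
    exact hℓ p hp)
  rw [Ne, Set.eq_univ_iff_forall] at hne
  push Not at hne
  obtain ⟨v, hv⟩ := hne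
  refine ⟨v, fun p h0 => hv ?_⟩
  simp only [Set.mem_iUnion]
  exact ⟨LinearMap.ker (ℓ p), by rw [Set.Finite.mem_toFinset]; exact ⟨p, rfl⟩, h0⟩

theorem coeff_C_mul_laurent {R : Type*} [CommRing R] (a : R) (x : LaurentSeries R) (n : ℤ) :
    (HahnSeries.C a * x).coeff n = a * x.coeff n := by
  rw [HahnSeries.C_apply, HahnSeries.coeff_single_zero_mul]

/-- a finite `A`-combination of series, each zero or of order `≥ o`, whose coefficient at `o` is a
unit of `A`, is a unit of `A((z))`. -/
theorem isUnit_sum_C_mul {ι : Type*} [Fintype ι] (lam : ι → A) (h : ι → LaurentSeries A) (o : ℤ)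
    (ho : ∀ d, h d ≠ 0 → o ≤ (h d).order) (hu : IsUnit (∑ d, lam d * (h d).coeff o)) :
    IsUnit (∑ d, HahnSeries.C (lam d) * h d) := by
  set S := ∑ d, HahnSeries.C (lam d) * h d with hS
  have hcoeff : ∀ n, S.coeff n = ∑ d, lam d * (h d).coeff n := by
    intro n
    rw [hS, HahnSeries.coeff_sum]
    refine Finset.sum_congr rfl fun d _ => ?_
    rw [coeff_C_mul_laurent]
  have hlow : ∀ n, n < o → S.coeff n = 0 := by
    intro n hn
    rw [hcoeff]
    refine Finset.sum_eq_zero fun d _ => ?_
    by_cases hd : h d = 0
    · rw [hd, HahnSeries.coeff_zero, mul_zero]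
    · rw [HahnSeries.coeff_eq_zero_of_lt_order (lt_of_lt_of_le hn (ho d hd)), mul_zero]
  have hco : S.coeff o ≠ 0 := by
    rw [hcoeff]
    exact hu.ne_zero
  have hS0 : S ≠ 0 := fun h0 => hco (by rw [h0, HahnSeries.coeff_zero])
  have hord : S.order = o := by
    refine le_antisymm (HahnSeries.order_le_of_coeff_ne_zero hco) ?_
    by_contra hlt
    rw [not_le] at hlt
    exact (HahnSeries.coeff_order_eq_zero.not.mpr hS0) (hlow _ hlt)
  rw [HahnSeries.isUnit_iff, HahnSeries.leadingCoeff_eq, hord, hcoeff]
  exact hu

/-- **Generic combination.** Given finitely many families `g i : ι → A((z))` (`i ∈ ι'`), any two of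
which differ at some `d`, and such that every nonzero difference `g i d - g i' d` is a unit of
`A((z))`: if the residue field is infinite there are `lam d ∈ A` such that all differences of the
combinations `∑ d, lam d * g i d` are units of `A((z))`. -/
theorem exists_lam_isUnit {ι ι' : Type*} [Fintype ι] [Finite ι'] [Infinite k]
    (hπs : Function.Surjective π) (hπu : ∀ a : A, π a ≠ 0 → IsUnit a)
    (g : ι' → ι → LaurentSeries A)
    (hsep : ∀ i i', i ≠ i' → ∃ d, g i d ≠ g i' d)
    (hunit : ∀ i i' d, g i d ≠ g i' d → IsUnit (g i d - g i' d)) :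
    ∃ lam : ι → A, ∀ i i', i ≠ i' →
      IsUnit (∑ d, HahnSeries.C (lam d) * (g i d - g i' d)) := by
  classical
  -- for each pair, the minimal order of the nonzero differences
  have hmin : ∀ p : {p : ι' × ι' // p.1 ≠ p.2}, ∃ d₀, g p.1.1 d₀ ≠ g p.1.2 d₀ ∧
      ∀ d, g p.1.1 d ≠ g p.1.2 d →
        (g p.1.1 d₀ - g p.1.2 d₀).order ≤ (g p.1.1 d - g p.1.2 d).order := by
    intro p
    obtain ⟨d₁, hd₁⟩ := hsep p.1.1 p.1.2 p.2
    obtain ⟨d₀, hd₀, hle⟩ := Finset.exists_min_image
      (Finset.univ.filter fun d => g p.1.1 d ≠ g p.1.2 d)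
      (fun d => (g p.1.1 d - g p.1.2 d).order) ⟨d₁, by simp [hd₁]⟩
    refine ⟨d₀, (Finset.mem_filter.mp hd₀).2, fun d hd => hle d ?_⟩
    simp [hd]
  choose d₀ hd₀ hle using hmin
  let o : {p : ι' × ι' // p.1 ≠ p.2} → ℤ := fun p => (g p.1.1 (d₀ p) - g p.1.2 (d₀ p)).order
  let c : {p : ι' × ι' // p.1 ≠ p.2} → ι → k := fun p d =>
    π ((g p.1.1 d - g p.1.2 d).coeff (o p))
  have hc : ∀ p, ∃ d, c p d ≠ 0 := by
    intro p
    refine ⟨d₀ p, ?_⟩
    have hu := isUnit_leadingCoeff (hunit p.1.1 p.1.2 (d₀ p) (hd₀ p))
    rw [HahnSeries.leadingCoeff_eq] at hu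
    exact (hu.map π).ne_zero
  obtain ⟨v, hv⟩ := exists_forall_sum_mul_ne_zero c hc
  choose lam hlam using fun d => hπs (v d)
  refine ⟨lam, fun i i' hii' => ?_⟩
  let p : {p : ι' × ι' // p.1 ≠ p.2} := ⟨(i, i'), hii'⟩
  refine isUnit_sum_C_mul lam (fun d => g i d - g i' d) (o p) (fun d hd => ?_) ?_
  · exact hle p d (sub_ne_zero.mp hd)
  · refine hπu _ ?_
    rw [map_sum]
    have := hv p
    simp only [c, ← hlam] at this
    simpa only [map_mul] using this

variable {K F : Type*} [Field K] [Field F] [Algebra L[X] K] [IsFractionRing L[X] K]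
    [Algebra K F] [Algebra L[X] F] [IsScalarTower L[X] K F]

omit [IsScalarTower L[X] K F] in
/-- two ring homs out of `F` which agree on `L[X]` agree on `K`. -/
theorem comp_algebraMap_eq_of_poly [IsScalarTower L[X] K F] {S : Type*} [Semiring S]
    (σ σ' : F →+* S)
    (h : ∀ P : L[X], σ (algebraMap L[X] F P) = σ' (algebraMap L[X] F P)) :
    σ.comp (algebraMap K F) = σ'.comp (algebraMap K F) := by
  apply IsLocalization.ringHom_ext (nonZeroDivisors L[X])
  refine RingHom.ext fun P => ?_
  rw [RingHom.comp_apply, RingHom.comp_apply, RingHom.comp_apply, RingHom.comp_apply,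
    ← IsScalarTower.algebraMap_apply, h]

/-- **Primitive element with unit differences.** From `n = [F : K]` cusp expansions `σ i` over
`x ↦ ξ` and a finite family `y d` of elements of `F`, integral over `L[x]`, with `A`-integral
expansions `g i d` which separate the `σ i` and whose nonzero differences are units of `A((z))`:
a generic `A`-linear combination `θ = ∑ lam d • y d` is a primitive element of `F / K` and all
differences of its expansions are units of `A((z))`, i.e. we get a `CuspData`. (The residue field
must be infinite.) -/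
theorem exists_cuspData_of_family [FiniteDimensional K F] [Infinite k]
    {ι ι' : Type*} [Fintype ι] [Fintype ι']
    (hπs : Function.Surjective π) (hπu : ∀ a : A, π a ≠ 0 → IsUnit a)
    (ξ : LaurentSeries A) (hξ : IsUnit ξ) (hξo : ξ.order < 0)
    (σ : ι' → (F →+* LaurentSeries L))
    (hσ : ∀ i (P : L[X]), σ i (algebraMap L[X] F P) = aeval (embA A ξ) P)
    (hcard : Fintype.card ι' = Module.finrank K F)
    (y : ι → F) (hy : ∀ d, IsIntegral L[X] (y d))
    (g : ι' → ι → LaurentSeries A) (hg : ∀ i d, σ i (y d) = embA A (g i d))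
    (hsep : ∀ i i', i ≠ i' → ∃ d, g i d ≠ g i' d)
    (hunit : ∀ i i' d, g i d ≠ g i' d → IsUnit (g i d - g i' d)) :
    ∃ (D : CuspData A K F) (e : Fin D.pb.dim ≃ ι') (lam : ι → A),
      D.ξ = ξ ∧ (∀ j, D.σ j = σ (e j)) ∧
      D.pb.gen = ∑ d, algebraMap L[X] F (C ((lam d : A) : L)) * y d ∧
      ∀ j, D.t j = ∑ d, HahnSeries.C (lam d) * g (e j) d := by
  classical
  obtain ⟨lam, hlam⟩ := exists_lam_isUnit π hπs hπu g hsep hunit
  set θ : F := ∑ d, algebraMap L[X] F (C ((lam d : A) : L)) * y d with hθ
  set t : ι' → LaurentSeries A := fun i => ∑ d, HahnSeries.C (lam d) * g i d with ht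
  have hσθ : ∀ i, σ i θ = embA A (t i) := by
    intro i
    rw [hθ, ht, map_sum, map_sum]
    refine Finset.sum_congr rfl fun d _ => ?_
    rw [map_mul, map_mul, hσ, hg, aeval_C, algebraMap_laurent_eq_C, embA_C]
  have hdiff : ∀ i i', i ≠ i' → IsUnit (t i - t i') := by
    intro i i' hii'
    have : t i - t i' = ∑ d, HahnSeries.C (lam d) * (g i d - g i' d) := by
      rw [ht]
      simp only [mul_sub, Finset.sum_sub_distrib]
    rw [this]
    exact hlam i i' hii'
  have htinj : Function.Injective t := by
    intro i i' h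
    by_contra hii'
    have := hdiff i i' hii'
    rw [h, sub_self] at this
    exact not_isUnit_zero this
  -- `θ` is integral
  have hθint : IsIntegral L[X] θ :=
    IsIntegral.sum _ fun d _ => IsIntegral.mul isIntegral_algebraMap (hy d)
  have hθK : IsIntegral K θ := hθint.tower_top
  -- the degree of the minimal polynomial
  have hpos : 0 < Module.finrank K F := Module.finrank_pos
  have hne : Nonempty ι' := by
    rw [← Fintype.card_pos_iff, hcard]
    exact hpos
  obtain ⟨i₁⟩ := hne
  set φ : K →+* LaurentSeries L := (σ i₁).comp (algebraMap K F) with hφ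
  have hφi : ∀ i, (σ i).comp (algebraMap K F) = φ := fun i =>
    comp_algebraMap_eq_of_poly (σ i) (σ i₁) fun P => by rw [hσ, hσ]
  set m := minpoly K θ with hm
  have hroot : ∀ i, (m.map φ).IsRoot (embA A (t i)) := by
    intro i
    rw [IsRoot.def, eval_map, ← hφi i, ← hσθ i, ← hom_eval₂, ← aeval_def, hm, minpoly.aeval,
      map_zero]
  have hmap0 : m.map φ ≠ 0 := ((minpoly.monic hθK).map φ).ne_zero
  have hdeg1 : Fintype.card ι' ≤ m.natDegree := by
    have h1 := card_le_degree_of_subset_roots (p := m.map φ)
      (Z := Finset.univ.image fun i => embA A (t i)) (by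
        intro z hz
        rw [Finset.mem_val, Finset.mem_image] at hz
        obtain ⟨i, -, rfl⟩ := hz
        exact (mem_roots hmap0).mpr (hroot i))
    have hinj : Function.Injective fun i => embA A (t i) := (embA_injective A).comp htinj
    rw [Finset.card_image_of_injective _ hinj, Finset.card_univ, natDegree_map] at h1
    exact h1
  have hdeg : m.natDegree = Module.finrank K F :=
    le_antisymm (minpoly.natDegree_le θ) (hcard ▸ hdeg1)
  have htop : IntermediateField.adjoin K {θ} = ⊤ :=
    (Field.primitive_element_iff_minpoly_natDegree_eq K θ).mpr hdeg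
  have hadj : Algebra.adjoin K {θ} = ⊤ := by
    rw [← IntermediateField.adjoin_simple_toSubalgebra_of_isAlgebraic hθK.isAlgebraic, htop,
      IntermediateField.top_toSubalgebra]
  let pb : PowerBasis K F := PowerBasis.ofAdjoinEqTop hθK hadj
  have hdim : Fintype.card ι' = pb.dim := by
    rw [hcard, ← hdeg]
    rfl
  let e : Fin pb.dim ≃ ι' := (Fintype.equivFinOfCardEq hdim).symm
  refine ⟨{ pb := pb
            gen_int := hθint
            ξ := ξ
            ξ_unit := hξ
            ξ_order := hξo
            σ := fun j => σ (e j)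
            σ_poly := fun j P => hσ (e j) P
            t := fun j => t (e j)
            σ_gen := fun j => hσθ (e j)
            t_unit := fun j j' hjj' => hdiff _ _ fun h => hjj' (e.injective h) },
    e, lam, rfl, fun _ => rfl, rfl, fun _ => rfl⟩

end Fermat.Agent.Gateway.GoodRed
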