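import Mathlib
import Fermat.Agent.Gateway.Red.Defs

/-!
# P-GATEWAY (c), GoodRed: the Gauss valuation on a finitely generated module of Laurent series

Abstract part of (G0).  `L` a field, `A` a valuation subring, `π : A →+* k` a ring hom to a field.
Given `x : A((q))` and a finite family `e i : A((q))` whose reductions are linearly independent
over `k[x̄]` (`IndepMod`), every nonzero `f ∈ L((q))` with `Q(x) f = ∑ P_i(x) e_i`
(`Q, P_i ∈ L[X]`, `Q ≠ 0`) is `c * u` with `c ∈ Lˣ` and `u` a unit of the Gauss ring with nonzero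
reduction (`exists_normal_form`, `exists_const_mul_unit`).
-/

set_option autoImplicit false

noncomputable section

namespace Fermat.Agent.Gateway.GoodRed

open Polynomial ModularCurve Fermat.Agent.Gateway.Red

section Pev

variable {R S : Type*} [CommRing R] [CommRing S]

/-- evaluation of a polynomial at a Laurent series, constants via `HahnSeries.C`. -/
def pev (x : LaurentSeries R) (P : R[X]) : LaurentSeries R := P.eval₂ HahnSeries.C x

theorem coeffMap_hahnC (f : R →+* S) (r : R) :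
    coeffMap f (HahnSeries.C r : LaurentSeries R) = HahnSeries.C (f r) :=
  coeffMap_single f 0 r

theorem coeffMap_pev (f : R →+* S) (x : LaurentSeries R) (P : R[X]) :
    coeffMap f (pev x P) = pev (coeffMap f x) (P.map f) := by
  unfold pev
  rw [Polynomial.hom_eval₂, Polynomial.eval₂_map]
  congr 1
  ext r : 1
  simp only [RingHom.comp_apply]
  exact coeffMap_hahnC f r

@[simp] theorem pev_zero (x : LaurentSeries R) : pev x 0 = 0 := by simp [pev]

@[simp] theorem pev_one (x : LaurentSeries R) : pev x 1 = 1 := by simp [pev]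

@[simp] theorem pev_C (x : LaurentSeries R) (r : R) : pev x (C r) = HahnSeries.C r := by
  simp [pev]

@[simp] theorem pev_X (x : LaurentSeries R) : pev x X = x := by simp [pev]

theorem pev_mul (x : LaurentSeries R) (P Q : R[X]) : pev x (P * Q) = pev x P * pev x Q := by
  simp [pev, Polynomial.eval₂_mul]

theorem pev_add (x : LaurentSeries R) (P Q : R[X]) : pev x (P + Q) = pev x P + pev x Q := by
  simp [pev, Polynomial.eval₂_add]

theorem pev_neg (x : LaurentSeries R) (P : R[X]) : pev x (-P) = -pev x P := by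
  simp [pev, Polynomial.eval₂_neg]

theorem pev_sum {ι : Type*} (s : Finset ι) (x : LaurentSeries R) (P : ι → R[X]) :
    pev x (∑ i ∈ s, P i) = ∑ i ∈ s, pev x (P i) := by
  simp [pev, Polynomial.eval₂_finsetSum]

/-- `pev` as a ring homomorphism. -/
def pevHom (x : LaurentSeries R) : R[X] →+* LaurentSeries R := Polynomial.eval₂RingHom HahnSeries.C x

theorem pevHom_apply (x : LaurentSeries R) (P : R[X]) : pevHom x P = pev x P := rfl

/-- `pev` agrees with `aeval` for any algebra structure whose `algebraMap` is `HahnSeries.C`. -/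
theorem aeval_eq_pev [Algebra R (LaurentSeries R)]
    (h : ∀ r : R, algebraMap R (LaurentSeries R) r = HahnSeries.C r)
    (x : LaurentSeries R) (P : R[X]) : aeval x P = pev x P := by
  rw [aeval_def, pev]
  congr 1
  ext r : 1
  exact h r

theorem aeval_eq_pev_field {K : Type*} [Field K] (x : LaurentSeries K) (P : K[X]) :
    aeval x P = pev x P :=
  aeval_eq_pev (fun r => algebraMap_laurentSeries_eq_single K r) x P

end Pev

variable {L : Type*} [Field L] (A : ValuationSubring L) {k : Type*} [Field k] (π : A →+* k)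

theorem embA_pev (x : LaurentSeries A) (P : A[X]) :
    embA A (pev x P) = pev (embA A x) (P.map A.subtype) := coeffMap_pev _ x P

theorem redA_pev (x : LaurentSeries A) (P : A[X]) :
    redA A π (pev x P) = pev (redA A π x) (P.map π) := coeffMap_pev _ x P

/-! ### Constants -/

theorem hahnC_mem_gaussRing_iff (hπ : ∀ a : A, π a ≠ 0 → IsUnit a) (c : L) :
    (HahnSeries.C c : LaurentSeries L) ∈ gaussRing A π ↔ c ∈ A := by
  constructor
  · rintro ⟨a, b, hb, h⟩
    obtain ⟨n, hn⟩ : ∃ n, π (b.coeff n) ≠ 0 := by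
      by_contra hcon
      push Not at hcon
      exact hb (HahnSeries.ext (funext fun n => by simpa using hcon n))
    have hu := hπ _ hn
    have h1 := congrArg (fun s => HahnSeries.coeff s n) h
    simp only [HahnSeries.C_mul_eq_smul, HahnSeries.coeff_smul, embA_coeff, smul_eq_mul] at h1
    obtain ⟨u, hu'⟩ := hu
    have hne : ((b.coeff n : A) : L) ≠ 0 := by
      rw [← hu']
      intro h0
      exact u.ne_zero (Subtype.ext h0)
    have : c = ((a.coeff n : A) : L) * ((u⁻¹ : Aˣ) : A) := by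
      have h2 : ((u : A) : L) * (((u⁻¹ : Aˣ) : A) : L) = 1 := by
        have h3 : (u : A) * ((u⁻¹ : Aˣ) : A) = 1 := Units.mul_inv u
        have h4 : ((u : A) : L) * (((u⁻¹ : Aˣ) : A) : L)
            = (((u : A) * ((u⁻¹ : Aˣ) : A) : A) : L) := rfl
        rw [h4, h3]
        rfl
      rw [← h1, ← hu', mul_assoc, h2, mul_one]
    rw [this]
    exact A.mul_mem _ _ (a.coeff n).2 (((u⁻¹ : Aˣ) : A)).2
  · intro hc
    refine ⟨HahnSeries.C ⟨c, hc⟩, 1, by rw [map_one]; exact one_ne_zero, ?_⟩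
    rw [map_one, mul_one, embA_C]

theorem gaussRed_hahnC (a : A) (h : (HahnSeries.C (a : L) : LaurentSeries L) ∈ gaussRing A π) :
    gaussRed A π ⟨HahnSeries.C (a : L), h⟩ = HahnSeries.C (π a) := by
  rw [gaussRed_of_eq_embA A π _ (a := HahnSeries.C a) (embA_C A a).symm, redA_C]

/-! ### Content of a finite family of polynomials -/

theorem exists_content {ι' : Type*} [Fintype ι'] (P : ι' → L[X]) (hP : ∃ i, P i ≠ 0) :
    ∃ c : L, c ≠ 0 ∧ ∃ P' : ι' → A[X],
      (∀ i, (P' i).map A.subtype = C c⁻¹ * P i) ∧ ∃ i, (P' i).map π ≠ 0 := by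
  classical
  let S : Finset (Σ _ : ι', ℕ) := Finset.univ.sigma fun i => (P i).support
  have hS : S.Nonempty := by
    obtain ⟨i, hi⟩ := hP
    obtain ⟨n, hn⟩ := Polynomial.nonempty_support_iff.mpr hi
    exact ⟨⟨i, n⟩, Finset.mem_sigma.mpr ⟨Finset.mem_univ _, hn⟩⟩
  obtain ⟨s₀, hs₀, hmax⟩ := Finset.exists_max_image S
    (fun s => A.valuation ((P s.1).coeff s.2)) hS
  set c := (P s₀.1).coeff s₀.2 with hc
  have hc0 : c ≠ 0 := Polynomial.mem_support_iff.mp (Finset.mem_sigma.mp hs₀).2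
  have hlift : ∀ i, ∃ p : A[X], p.map A.subtype = C c⁻¹ * P i := by
    intro i
    rw [← Polynomial.mem_lifts, Polynomial.lifts_iff_coeff_lifts]
    intro n
    rw [Polynomial.coeff_C_mul]
    by_cases h0 : (P i).coeff n = 0
    · rw [h0, mul_zero]; exact ⟨0, map_zero _⟩
    · have hin : (⟨i, n⟩ : Σ _ : ι', ℕ) ∈ S :=
        Finset.mem_sigma.mpr ⟨Finset.mem_univ _, Polynomial.mem_support_iff.mpr h0⟩
      have hle := hmax _ hin
      have hmem : c⁻¹ * (P i).coeff n ∈ A := by
        rw [← A.valuation_le_one_iff, map_mul, map_inv₀]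
        have hvc : A.valuation c ≠ 0 := (A.valuation.ne_zero_iff).mpr hc0
        rw [inv_mul_le_iff₀ (zero_lt_iff.mpr hvc), mul_one]
        exact hle
      exact ⟨⟨_, hmem⟩, rfl⟩
  choose P' hP' using hlift
  refine ⟨c, hc0, P', hP', s₀.1, ?_⟩
  intro h0
  have h1 : ((P' s₀.1).coeff s₀.2 : L) = 1 := by
    have := congrArg (fun p => Polynomial.coeff p s₀.2) (hP' s₀.1)
    simp only [Polynomial.coeff_map, Polynomial.coeff_C_mul] at this
    rw [← hc, inv_mul_cancel₀ hc0] at this
    exact this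
  have h2 : (P' s₀.1).coeff s₀.2 = 1 := Subtype.ext h1
  have h3 := congrArg (fun p => Polynomial.coeff p s₀.2) h0
  simp only [Polynomial.coeff_map, Polynomial.coeff_zero] at h3
  rw [h2, map_one] at h3
  exact one_ne_zero h3

theorem exists_content_single (Q : L[X]) (hQ : Q ≠ 0) :
    ∃ c : L, c ≠ 0 ∧ ∃ Q' : A[X], Q'.map A.subtype = C c⁻¹ * Q ∧ Q'.map π ≠ 0 := by
  obtain ⟨c, hc, P', hP', ⟨_, hi⟩⟩ := exists_content A π (fun _ : Unit => Q) ⟨(), hQ⟩
  exact ⟨c, hc, P' (), hP' (), hi⟩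

/-! ### Independence modulo `π` and the normal form -/

variable {ι : Type*} [Fintype ι] (x : LaurentSeries A) (e : ι → LaurentSeries A)

/-- the reductions of the `e i` are linearly independent over `k[x̄]`. -/
def IndepMod : Prop :=
  ∀ c : ι → k[X], ∑ i, pev (redA A π x) (c i) * redA A π (e i) = 0 → ∀ i, c i = 0

variable {A π x e}

theorem IndepMod.pev_ne_zero [Nonempty ι] (h : IndepMod A π x e) {Q : k[X]} (hQ : Q ≠ 0) :
    pev (redA A π x) Q ≠ 0 := by
  classical
  intro h0
  obtain ⟨i₀⟩ := ‹Nonempty ι›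
  have := h (fun i => if i = i₀ then Q else 0) (by
    rw [Finset.sum_eq_single i₀]
    · rw [if_pos rfl, h0, zero_mul]
    · intro j _ hj
      rw [if_neg hj, pev_zero, zero_mul]
    · intro hi
      exact absurd (Finset.mem_univ _) hi) i₀
  rw [if_pos rfl] at this
  exact hQ this

theorem IndepMod.redA_pev_ne_zero [Nonempty ι] (h : IndepMod A π x e) {Q' : A[X]}
    (hQ : Q'.map π ≠ 0) : redA A π (pev x Q') ≠ 0 := by
  rw [redA_pev]
  exact h.pev_ne_zero hQ

theorem IndepMod.redA_sum_ne_zero (h : IndepMod A π x e) {P' : ι → A[X]}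
    (hP : ∃ i, (P' i).map π ≠ 0) : redA A π (∑ i, pev x (P' i) * e i) ≠ 0 := by
  intro h0
  rw [map_sum] at h0
  obtain ⟨i, hi⟩ := hP
  refine hi (h (fun i => (P' i).map π) ?_ i)
  rw [← h0]
  refine Finset.sum_congr rfl fun j _ => ?_
  rw [map_mul, redA_pev]

/-- `x` (as a series over `L`) is transcendental over `L`, in `pev` form. -/
theorem IndepMod.pev_embA_ne_zero [Nonempty ι] (h : IndepMod A π x e) {Q : L[X]} (hQ : Q ≠ 0) :
    pev (embA A x) Q ≠ 0 := by
  obtain ⟨c, hc, Q', hQ', hQπ⟩ := exists_content_single A π Q hQ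
  intro h0
  have h1 : embA A (pev x Q') = 0 := by
    rw [embA_pev, hQ', pev_mul, h0, mul_zero]
  rw [embA_eq_zero_iff] at h1
  exact h.redA_pev_ne_zero hQπ (by rw [h1, map_zero])

/-- **Normal form.** A nonzero `f` with `Q(x) f = ∑ P_i(x) e_i` is `c * n / d` with `n, d`
`A`-integral with nonzero reductions of the same shape. -/
theorem exists_normal_form [Nonempty ι] (h : IndepMod A π x e) {f : LaurentSeries L} (hf : f ≠ 0)
    {Q : L[X]} (hQ : Q ≠ 0) {P : ι → L[X]}
    (hrel : pev (embA A x) Q * f = ∑ i, pev (embA A x) (P i) * embA A (e i)) :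
    ∃ (c : L) (P' : ι → A[X]) (Q' : A[X]), c ≠ 0 ∧ (∃ i, (P' i).map π ≠ 0) ∧ Q'.map π ≠ 0 ∧
      f * embA A (pev x Q') = HahnSeries.C c * embA A (∑ i, pev x (P' i) * e i) := by
  have hP : ∃ i, P i ≠ 0 := by
    by_contra hcon
    push Not at hcon
    have h0 : pev (embA A x) Q * f = 0 := by
      rw [hrel]
      refine Finset.sum_eq_zero fun i _ => ?_
      rw [hcon i, pev_zero, zero_mul]
    rcases mul_eq_zero.mp h0 with h1 | h1
    · exact h.pev_embA_ne_zero hQ h1
    · exact hf h1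
  obtain ⟨cp, hcp, P', hP', hPπ⟩ := exists_content A π P hP
  obtain ⟨cq, hcq, Q', hQ', hQπ⟩ := exists_content_single A π Q hQ
  refine ⟨cp / cq, P', Q', div_ne_zero hcp hcq, hPπ, hQπ, ?_⟩
  have e1 : embA A (pev x Q') = HahnSeries.C cq⁻¹ * pev (embA A x) Q := by
    rw [embA_pev, hQ', pev_mul, pev_C]
  have e2 : embA A (∑ i, pev x (P' i) * e i)
      = HahnSeries.C cp⁻¹ * ∑ i, pev (embA A x) (P i) * embA A (e i) := by
    rw [map_sum, Finset.mul_sum]
    refine Finset.sum_congr rfl fun i _ => ?_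
    rw [map_mul, embA_pev, hP', pev_mul, pev_C, mul_assoc]
  have hcc : cp / cq * cp⁻¹ = cq⁻¹ := by field_simp
  rw [e1, e2, ← hrel, ← mul_assoc (HahnSeries.C (cp / cq)), ← map_mul, hcc]
  ring

/-- **Gauss normalisation.** A nonzero `f` with `Q(x) f = ∑ P_i(x) e_i` is `c * u`, `c ≠ 0`,
with `u` in the Gauss ring and `gaussRed u ≠ 0` (so `u⁻¹` is in the Gauss ring too); moreover
`gaussRed u` lies in any subfield of `k((q))` containing the constants, `x̄` and the `ē i`. -/
theorem exists_const_mul_unit [Nonempty ι] (h : IndepMod A π x e) {f : LaurentSeries L}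
    (hf : f ≠ 0) {Q : L[X]} (hQ : Q ≠ 0) {P : ι → L[X]}
    (hrel : pev (embA A x) Q * f = ∑ i, pev (embA A x) (P i) * embA A (e i))
    (Kk : Subfield (LaurentSeries k)) (hC : ∀ a : k, (HahnSeries.C a : LaurentSeries k) ∈ Kk)
    (hx : redA A π x ∈ Kk) (he : ∀ i, redA A π (e i) ∈ Kk) :
    ∃ (c : L) (u : gaussRing A π), c ≠ 0 ∧ gaussRed A π u ≠ 0 ∧ gaussRed A π u ∈ Kk ∧
      f = HahnSeries.C c * (u : LaurentSeries L) := by
  obtain ⟨c, P', Q', hc, hPπ, hQπ, hnf⟩ := exists_normal_form h hf hQ hrel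
  have hd : redA A π (pev x Q') ≠ 0 := h.redA_pev_ne_zero hQπ
  have hn : redA A π (∑ i, pev x (P' i) * e i) ≠ 0 := h.redA_sum_ne_zero hPπ
  have hd0 : embA A (pev x Q') ≠ 0 := by
    intro h0
    rw [embA_eq_zero_iff] at h0
    exact hd (by rw [h0, map_zero])
  have hCc : (HahnSeries.C c : LaurentSeries L) ≠ 0 := by
    rw [Ne, map_eq_zero_iff _ HahnSeries.C_injective]
    exact hc
  obtain ⟨u₀, hu₀⟩ : ∃ u₀ : LaurentSeries L,
      u₀ = embA A (∑ i, pev x (P' i) * e i) / embA A (pev x Q') := ⟨_, rfl⟩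
  have hmul : u₀ * embA A (pev x Q') = embA A (∑ i, pev x (P' i) * e i) := by
    rw [hu₀, div_mul_cancel₀ _ hd0]
  have hu₀mem : u₀ ∈ gaussRing A π := ⟨∑ i, pev x (P' i) * e i, pev x Q', hd, hmul⟩
  have hpevmem : ∀ R : k[X], pev (redA A π x) R ∈ Kk := by
    intro R
    rw [pev, Polynomial.eval₂_eq_sum_range]
    exact Kk.sum_mem fun i _ => Kk.mul_mem (hC _) (Kk.pow_mem hx _)
  refine ⟨c, ⟨u₀, hu₀mem⟩, hc, ?_, ?_, ?_⟩
  · rw [gaussRed_eq_div A π ⟨u₀, hu₀mem⟩ hd hmul]
    exact div_ne_zero hn hd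
  · rw [gaussRed_eq_div A π ⟨u₀, hu₀mem⟩ hd hmul]
    refine Kk.div_mem ?_ ?_
    · rw [map_sum]
      refine Kk.sum_mem fun i _ => ?_
      rw [map_mul, redA_pev]
      exact Kk.mul_mem (hpevmem _) (he i)
    · rw [redA_pev]
      exact hpevmem _
  · show f = HahnSeries.C c * u₀
    rw [hu₀, mul_div_assoc', ← hnf, mul_div_assoc, div_self hd0, mul_one]

end Fermat.Agent.Gateway.GoodRed
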