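import Mathlib
import Fermat.Agent.Gateway.GoodRed.Instantiate.GaussData

/-!
# P-GATEWAY (c) GoodRed, slice (S1): consequences of the Gauss residue data of `F / L(j)`

Setting of `GaussBar` / `Instantiate/GaussData`: `F = FBar L N`, `O = OvVal A π N ℓ hπ hℓN`,
`resFk : O →+* Fk = modularFunctionFieldFullC k N`, `Kx = RatFunc L` acting on `F` by `X ↦ j`
(`attribute [local instance] algebraRF algebraKj` needed to state the `RatFunc`-linear facts).

* (`FBar L N = modularFunctionFieldFullC L N` is `FBar_eq_fullC` in `ConjFamily/FBarEq.lean`);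
* `mem_OvVal_iff_isIntegral : f ∈ O ↔ IsIntegral (baseVal (RatFunc L) O) f`;
* `finrank_kj_eq_finrank_RF`, `finrank_kj_eq_dedekindPsi`, `finiteDimensional_kj` :
  `[Fk : k(j̄)] = [F : L(j)] = ψ(N)`;
* `isIntegral_resFk` : `f ∈ O` integral over `L[j]` ⟹ `resFk f` integral over `k[j̄]`
  (`Algebra.adjoin` form; `isIntegral_resFk_poly` is the `L[X]`-algebra form);
* `isIntegral_resFk_inv` : the same for the chart `1/j` (`PolyInv` = `K[X]` acting by `X ↦ 1/X`);
* `redx_algebraMap_poly`, `redx_algebraMap_polyInv`, `redx_X` : `O_x ∩ L[j] = A[j]`,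
  `O_x ∩ L[1/j] = A[1/j]` with the reductions.
-/

set_option autoImplicit false

noncomputable section

namespace Fermat.Agent.Gateway.GoodRed

open Polynomial ModularCurve Fermat.Agent.S28 Fermat.Agent.S28.Tower Fermat.Agent.Gateway.Red
open IntermediateField

section Ext

variable {L : Type*} [Field L] [Algebra ℚ L] (A : ValuationSubring L)
  {k : Type} [Field k] (π : A →+* k) (N : ℕ)
  [IsAlgClosed k] (ℓ : ℕ) [Fact ℓ.Prime] [CharP k ℓ] [NeZero N]
  (hπ : Function.Surjective π) (hℓN : ¬ ℓ ∣ N)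

attribute [local instance] algebraKj algebraRF

/-- **(S1.1)** `O` is the integral closure of `O_x = O ∩ L(j)` in `F`. -/
theorem mem_OvVal_iff_isIntegral (f : FBar L N) :
    f ∈ OvVal A π N ℓ hπ hℓN ↔
      IsIntegral (GaussExt.baseVal (RatFunc L) (OvVal A π N ℓ hπ hℓN)) f := by
  have := finiteDimensional_RF L N
  exact GaussExt.ResidueData.FullResidueDegree.mem_iff_isIntegral (gaussData A π N ℓ hπ hℓN)
    (gaussData_full A π N ℓ hπ hℓN) f

include hπ hℓN in
/-- **(S1.4)** the residue extension has the same degree. -/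
theorem finrank_kj_eq_finrank_RF :
    Module.finrank (k⟮jqModC k⟯) (modularFunctionFieldFullC k N)
      = Module.finrank (RatFunc L) (FBar L N) := by
  have := finiteDimensional_RF L N
  exact GaussExt.ResidueData.FullResidueDegree.finrank_residue (gaussData A π N ℓ hπ hℓN)
    (gaussData_full A π N ℓ hπ hℓN) (gaussData_red_surjective A π N ℓ hπ hℓN)

include hπ hℓN in
theorem finrank_kj_eq_dedekindPsi :
    Module.finrank (k⟮jqModC k⟯) (modularFunctionFieldFullC k N) = dedekindPsi N := by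
  rw [finrank_kj_eq_finrank_RF A π N ℓ hπ hℓN, finrank_RF_eq_dedekindPsi A π N ℓ hπ hℓN]

include hπ hℓN in
theorem finiteDimensional_kj :
    FiniteDimensional (k⟮jqModC k⟯) (modularFunctionFieldFullC k N) := by
  have := finiteDimensional_RF L N
  exact GaussExt.ResidueData.FullResidueDegree.finiteDimensional_residue (gaussData A π N ℓ hπ hℓN)
    (gaussData_full A π N ℓ hπ hℓN) (gaussData_red_surjective A π N ℓ hπ hℓN)

end Ext

section General

/-- integrality only depends on the image of the base ring. -/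
theorem isIntegral_of_range_le {R S B : Type*} [CommRing R] [CommRing S] [CommRing B]
    [Algebra R B] [Algebra S B]
    (h : ∀ s : S, ∃ r : R, algebraMap R B r = algebraMap S B s) {x : B} (hx : IsIntegral S x) :
    IsIntegral R x := by
  obtain ⟨p, hp, hpx⟩ := hx
  have hl : p.map (algebraMap S B) ∈ Polynomial.lifts (algebraMap R B) := by
    rw [Polynomial.lifts_iff_coeff_lifts]
    intro n
    rw [Polynomial.coeff_map]
    obtain ⟨r, hr⟩ := h (p.coeff n)
    exact ⟨r, hr⟩
  obtain ⟨q, hq, -, hqm⟩ := Polynomial.lifts_and_natDegree_eq_and_monic hl (hp.map _)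
  refine ⟨q, hqm, ?_⟩
  rw [← Polynomial.eval_map, hq, Polynomial.eval_map]
  exact hpx

end General

section Reflect

variable {K E : Type*} [Field K] [Field E] [Algebra K E]

theorem aeval_inv_reflect_mul_pow {x : E} (hx : x ≠ 0) (n : ℕ) (P : K[X]) (hP : P.natDegree ≤ n) :
    aeval x⁻¹ (P.reflect n) * x ^ n = aeval x P := by
  let _ : Invertible x := invertibleOfNonzero hx
  have h := Polynomial.eval₂_reflect_mul_pow (algebraMap K E) x n P hP
  rw [invOf_eq_inv] at h
  exact h

theorem aeval_inv_mul_pow {x : E} (hx : x ≠ 0) (n : ℕ) (P : K[X]) (hP : P.natDegree ≤ n) :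
    aeval x⁻¹ P * x ^ n = aeval x (P.reflect n) := by
  have h2 := aeval_inv_reflect_mul_pow (inv_ne_zero hx) n P hP
  rw [inv_inv] at h2
  rw [← h2, mul_assoc, ← mul_pow, inv_mul_cancel₀ hx, one_pow, mul_one]

end Reflect

section PolyInv

variable (K : Type*) [Field K]

/-- the polynomial ring `K[X]`, mapped to `K(X)` by `X ↦ 1/X`. -/
def PolyInv : Type _ := K[X]

instance : CommRing (PolyInv K) := inferInstanceAs (CommRing K[X])
instance : IsDomain (PolyInv K) := inferInstanceAs (IsDomain K[X])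
instance : IsIntegrallyClosed (PolyInv K) := inferInstanceAs (IsIntegrallyClosed K[X])

/-- the identity `K[X] → PolyInv K`. -/
def PolyInv.of : K[X] ≃+* PolyInv K := RingEquiv.refl _

instance PolyInv.algebraRatFunc : Algebra (PolyInv K) (RatFunc K) :=
  ((aeval (R := K) (RatFunc.X : RatFunc K)⁻¹).toRingHom.comp (PolyInv.of K).symm.toRingHom).toAlgebra

theorem PolyInv.algebraMap_of (P : K[X]) :
    algebraMap (PolyInv K) (RatFunc K) (PolyInv.of K P) = aeval (RatFunc.X : RatFunc K)⁻¹ P := rfl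

theorem PolyInv.algebraMap_injective : Function.Injective (algebraMap (PolyInv K) (RatFunc K)) := by
  rw [injective_iff_map_eq_zero]
  intro P hP
  obtain ⟨P, rfl⟩ := (PolyInv.of K).surjective P
  rw [PolyInv.algebraMap_of] at hP
  have h := aeval_inv_mul_pow (RatFunc.X_ne_zero (K := K)) P.natDegree P le_rfl
  rw [hP, zero_mul] at h
  have h2 : P.reflect P.natDegree = 0 := by
    have h3 : algebraMap K[X] (RatFunc K) (P.reflect P.natDegree) = 0 := by
      rw [← RatFunc.aeval_X_left_eq_algebraMap]; exact h.symm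
    exact (map_eq_zero_iff _ (IsFractionRing.injective K[X] (RatFunc K))).mp h3
  have h4 : P = 0 := by
    rw [← Polynomial.reflect_reflect (N := P.natDegree) (p := P), h2, Polynomial.reflect_zero]
  rw [h4, map_zero]

instance : FaithfulSMul (PolyInv K) (RatFunc K) :=
  (faithfulSMul_iff_algebraMap_injective _ _).mpr (PolyInv.algebraMap_injective K)

instance : IsFractionRing (PolyInv K) (RatFunc K) := by
  refine IsFractionRing.of_field (R := PolyInv K) (K := RatFunc K) (fun z => ?_)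
  set p := z.num with hp
  set q := z.denom with hq
  set n := max p.natDegree q.natDegree with hn
  refine ⟨PolyInv.of K (p.reflect n), PolyInv.of K (q.reflect n), ?_⟩
  rw [PolyInv.algebraMap_of, PolyInv.algebraMap_of]
  have hX : (RatFunc.X : RatFunc K) ≠ 0 := RatFunc.X_ne_zero
  have h1 := aeval_inv_reflect_mul_pow hX n p (le_max_left _ _)
  have h2 := aeval_inv_reflect_mul_pow hX n q (le_max_right _ _)
  have hXn : (RatFunc.X : RatFunc K) ^ n ≠ 0 := pow_ne_zero n hX
  rw [RatFunc.aeval_X_left_eq_algebraMap] at h1 h2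
  rw [← mul_div_mul_right _ _ hXn, h1, h2]
  exact (RatFunc.num_div_denom z).symm

end PolyInv

section ChartJ

variable {L : Type*} [Field L] [Algebra ℚ L] (A : ValuationSubring L)
  {k : Type} [Field k] (π : A →+* k) (N : ℕ)
  [IsAlgClosed k] (ℓ : ℕ) [Fact ℓ.Prime] [CharP k ℓ] [NeZero N]
  (hπ : Function.Surjective π) (hℓN : ¬ ℓ ∣ N)

attribute [local instance] algebraKj algebraRF

/-- `j̄` as an element of `Fk`. -/
def jBarFk (k : Type) [Field k] (N : ℕ) [NeZero N] : modularFunctionFieldFullC k N :=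
  ⟨jqModC k, jqModC_mem_full k N⟩

/-- `L[X] → F`, `X ↦ j`. -/
@[reducible] def algebraPolyJ (L : Type*) [Field L] [Algebra ℚ L] (N : ℕ) [NeZero N] :
    Algebra L[X] (FBar L N) :=
  ((algebraMap (RatFunc L) (FBar L N)).comp (algebraMap L[X] (RatFunc L))).toAlgebra

/-- `k[X] → k(j̄)`, `X ↦ j̄`. -/
@[reducible] def algebraPolyKj (k : Type) [Field k] : Algebra k[X] (k⟮jqModC k⟯) :=
  (aeval (AdjoinSimple.gen k (jqModC k))).toRingHom.toAlgebra

attribute [local instance] algebraPolyJ algebraPolyKj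

/-- `k[X] → Fk`, `X ↦ j̄`. -/
@[reducible] def algebraPolyFk (k : Type) [Field k] [IsAlgClosed k] (N : ℕ) [NeZero N] :
    Algebra k[X] (modularFunctionFieldFullC k N) :=
  ((algebraMap (k⟮jqModC k⟯) (modularFunctionFieldFullC k N)).comp
    (algebraMap k[X] (k⟮jqModC k⟯))).toAlgebra

attribute [local instance] algebraPolyFk

theorem isScalarTower_polyJ : IsScalarTower L[X] (RatFunc L) (FBar L N) :=
  IsScalarTower.of_algebraMap_eq fun _ => rfl

theorem isScalarTower_polyFk : IsScalarTower k[X] (k⟮jqModC k⟯) (modularFunctionFieldFullC k N) :=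
  IsScalarTower.of_algebraMap_eq fun _ => rfl

theorem coe_algebraMap_polyJ (P : L[X]) :
    ((algebraMap L[X] (FBar L N) P : FBar L N) : LaurentSeries L) = aeval (jqModC L) P := by
  show GaussRing.evalRF (jqModC L) (transcendental_jqModC (k := L)) (algebraMap L[X] (RatFunc L) P) = _
  rw [GaussRing.evalRF_algebraMap]

omit [IsAlgClosed k] in
theorem coe_algebraMap_polyKj (P : k[X]) :
    ((algebraMap k[X] (k⟮jqModC k⟯) P : k⟮jqModC k⟯) : LaurentSeries k) = aeval (jqModC k) P := by
  show ((aeval (AdjoinSimple.gen k (jqModC k)) P : k⟮jqModC k⟯) : LaurentSeries k) = _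
  rw [← IntermediateField.coe_val, ← Polynomial.aeval_algHom_apply]
  rfl

theorem coe_algebraMap_polyFk (P : k[X]) :
    ((algebraMap k[X] (modularFunctionFieldFullC k N) P : modularFunctionFieldFullC k N) :
      LaurentSeries k) = aeval (jqModC k) P := by
  have h1 : algebraMap k[X] (modularFunctionFieldFullC k N) P
      = algebraMap (k⟮jqModC k⟯) (modularFunctionFieldFullC k N)
          (algebraMap k[X] (k⟮jqModC k⟯) P) := by
    rw [RingHom.algebraMap_toAlgebra, RingHom.comp_apply]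
  have h2 : ∀ x : k⟮jqModC k⟯, ((algebraMap (k⟮jqModC k⟯) (modularFunctionFieldFullC k N) x :
      modularFunctionFieldFullC k N) : LaurentSeries k) = x := fun x => by
    rw [RingHom.algebraMap_toAlgebra]
    rfl
  rw [h1, h2, coe_algebraMap_polyKj]

/-- `O_x ∩ L[X] = A[X]`, and the reduction of `P(j)`, `P ∈ A[X]`, is `P̄(j̄)`. -/
theorem redx_algebraMap_poly (c : GaussExt.baseVal (RatFunc L) (OvVal A π N ℓ hπ hℓN)) (P : L[X])
    (hc : algebraMap L[X] (RatFunc L) P = (c : RatFunc L)) :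
    ∃ P₀ : A[X], P = P₀.map A.subtype ∧
      (gaussData A π N ℓ hπ hℓN).redx c = algebraMap k[X] (k⟮jqModC k⟯) (P₀.map π) := by
  have hmem : algebraMap L[X] (RatFunc L) P ∈
      GaussRing.Ox (ξ := jqModC A) hπ (jqModC_order_neg A) (jqModC_isUnit_leadingCoeff A) := by
    rw [hc, ← baseVal_eq_Ox A π N ℓ hπ hℓN]
    exact c.2
  rw [GaussRing.algebraMap_mem_Ox_iff] at hmem
  obtain ⟨P₀, rfl⟩ := GaussRing.exists_map_subtype_eq A hmem
  refine ⟨P₀, rfl, ?_⟩
  apply Subtype.ext
  rw [coe_algebraMap_polyKj]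
  show redxHom A π N ℓ hπ hℓN c = _
  rw [redxHom_apply]
  have h1 : GaussRing.evalRF (jqModC L) (transcendental_jqModC (k := L)) (c : RatFunc L)
      = embA A (aeval (jqModC A) P₀) := by
    rw [← hc, GaussRing.evalRF_algebraMap, GaussRing.embA_aeval, embA_jqModC]
  rw [gaussRed_of_eq_embA A π _ h1, GaussRing.redA_aeval, redA_jqModC]

/-- **(S1.3), polynomial form.** -/
theorem isIntegral_resFk_poly (f : OvVal A π N ℓ hπ hℓN) (hf : IsIntegral L[X] (f : FBar L N)) :
    IsIntegral k[X] (resFk A π N ℓ hπ hℓN f) := by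
  have := finiteDimensional_RF L N
  have := isScalarTower_polyJ (L := L) N
  have := isScalarTower_polyFk (k := k) N
  refine GaussExt.ResidueData.FullResidueDegree.isIntegral_red (gaussData A π N ℓ hπ hℓN)
    (gaussData_full A π N ℓ hπ hℓN) (R0 := L[X]) (R0k := k[X]) ?_ f hf
  rintro c ⟨P, hP⟩
  obtain ⟨P₀, -, h⟩ := redx_algebraMap_poly A π N ℓ hπ hℓN c P hP
  exact ⟨_, h.symm⟩

theorem algebraMap_polyJ_eq_aeval (P : L[X]) :
    algebraMap L[X] (FBar L N) P = aeval (jF L N) P := by
  apply Subtype.ext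
  rw [coe_algebraMap_polyJ, ← IntermediateField.coe_val, ← Polynomial.aeval_algHom_apply]
  rfl

theorem algebraMap_polyFk_eq_aeval (P : k[X]) :
    algebraMap k[X] (modularFunctionFieldFullC k N) P = aeval (jBarFk k N) P := by
  apply Subtype.ext
  rw [coe_algebraMap_polyFk, ← IntermediateField.coe_val, ← Polynomial.aeval_algHom_apply]
  rfl

/-- **(S1.3)** functions of `O` integral over `L[j]` reduce to functions integral over `k[j̄]`. -/
theorem isIntegral_resFk (f : OvVal A π N ℓ hπ hℓN)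
    (hf : IsIntegral (Algebra.adjoin L {jF L N}) (f : FBar L N)) :
    IsIntegral (Algebra.adjoin k {jBarFk k N}) (resFk A π N ℓ hπ hℓN f) := by
  have h1 : IsIntegral L[X] (f : FBar L N) := by
    refine isIntegral_of_range_le (fun s => ?_) hf
    obtain ⟨s, hs⟩ := s
    have hs' : s ∈ (aeval (R := L) (jF L N)).range := by
      rw [← Algebra.adjoin_singleton_eq_range_aeval]; exact hs
    obtain ⟨P, hP⟩ := hs'
    exact ⟨P, by rw [algebraMap_polyJ_eq_aeval]; exact hP⟩
  have h2 := isIntegral_resFk_poly A π N ℓ hπ hℓN f h1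
  refine isIntegral_of_range_le (fun P => ?_) h2
  refine ⟨⟨aeval (jBarFk k N) P, ?_⟩, ?_⟩
  · rw [Algebra.adjoin_singleton_eq_range_aeval]
    exact ⟨P, rfl⟩
  · rw [algebraMap_polyFk_eq_aeval]
    rfl

end ChartJ

section ChartJInv

variable {L : Type*} [Field L] [Algebra ℚ L] (A : ValuationSubring L)
  {k : Type} [Field k] (π : A →+* k) (N : ℕ)
  [IsAlgClosed k] (ℓ : ℕ) [Fact ℓ.Prime] [CharP k ℓ] [NeZero N]
  (hπ : Function.Surjective π) (hℓN : ¬ ℓ ∣ N)

attribute [local instance] algebraKj algebraRF algebraPolyJ algebraPolyKj algebraPolyFk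

/-- `PolyInv L → F`, `X ↦ 1/j`. -/
@[reducible] def algebraPolyInvF (L : Type*) [Field L] [Algebra ℚ L] (N : ℕ) [NeZero N] :
    Algebra (PolyInv L) (FBar L N) :=
  ((algebraMap (RatFunc L) (FBar L N)).comp (algebraMap (PolyInv L) (RatFunc L))).toAlgebra

/-- `PolyInv k → k(j̄)`, `X ↦ 1/j̄`. -/
@[reducible] def algebraPolyInvKj (k : Type) [Field k] : Algebra (PolyInv k) (k⟮jqModC k⟯) :=
  ((aeval (R := k) (AdjoinSimple.gen k (jqModC k))⁻¹).toRingHom.comp
    (PolyInv.of k).symm.toRingHom).toAlgebra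

attribute [local instance] algebraPolyInvF algebraPolyInvKj

/-- `PolyInv k → Fk`, `X ↦ 1/j̄`. -/
@[reducible] def algebraPolyInvFk (k : Type) [Field k] [IsAlgClosed k] (N : ℕ) [NeZero N] :
    Algebra (PolyInv k) (modularFunctionFieldFullC k N) :=
  ((algebraMap (k⟮jqModC k⟯) (modularFunctionFieldFullC k N)).comp
    (algebraMap (PolyInv k) (k⟮jqModC k⟯))).toAlgebra

attribute [local instance] algebraPolyInvFk

theorem isScalarTower_polyInvF : IsScalarTower (PolyInv L) (RatFunc L) (FBar L N) :=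
  IsScalarTower.of_algebraMap_eq fun _ => rfl

theorem isScalarTower_polyInvFk :
    IsScalarTower (PolyInv k) (k⟮jqModC k⟯) (modularFunctionFieldFullC k N) :=
  IsScalarTower.of_algebraMap_eq fun _ => rfl

omit [IsAlgClosed k] in
theorem algebraMap_polyInvKj_of (P : k[X]) :
    algebraMap (PolyInv k) (k⟮jqModC k⟯) (PolyInv.of k P)
      = aeval (AdjoinSimple.gen k (jqModC k))⁻¹ P := rfl

omit [IsAlgClosed k] in
theorem gen_jqModC_ne_zero : AdjoinSimple.gen k (jqModC k) ≠ 0 := by
  intro h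
  have h2 := congrArg (fun x : k⟮jqModC k⟯ => (x : LaurentSeries k)) h
  simp only [AdjoinSimple.coe_gen, ZeroMemClass.coe_zero] at h2
  exact jqModC_ne_zero_of_nontrivial k h2

theorem X_mem_baseVal :
    (RatFunc.X : RatFunc L) ∈ GaussExt.baseVal (RatFunc L) (OvVal A π N ℓ hπ hℓN) := by
  rw [baseVal_eq_Ox]
  exact GaussRing.X_mem_Ox _ _ _

theorem redx_X :
    (gaussData A π N ℓ hπ hℓN).redx ⟨RatFunc.X, X_mem_baseVal A π N ℓ hπ hℓN⟩
      = AdjoinSimple.gen k (jqModC k) := by
  obtain ⟨P₀, hP₀, h⟩ := redx_algebraMap_poly A π N ℓ hπ hℓN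
    ⟨RatFunc.X, X_mem_baseVal A π N ℓ hπ hℓN⟩ Polynomial.X (RatFunc.algebraMap_X)
  have hX : P₀ = Polynomial.X := by
    apply Polynomial.map_injective _ A.subtype_injective
    rw [← hP₀, Polynomial.map_X]
  rw [h, hX, Polynomial.map_X]
  show aeval (AdjoinSimple.gen k (jqModC k)) (Polynomial.X : k[X]) = _
  rw [aeval_X]

/-- `O_x ∩ L[1/X] = A[1/X]`, and the reduction of `P(1/j)`, `P ∈ A[X]`, is `P̄(1/j̄)`. -/
theorem redx_algebraMap_polyInv (c : GaussExt.baseVal (RatFunc L) (OvVal A π N ℓ hπ hℓN))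
    (P : L[X]) (hc : aeval (RatFunc.X : RatFunc L)⁻¹ P = (c : RatFunc L)) :
    ∃ P₀ : A[X], P = P₀.map A.subtype ∧
      (gaussData A π N ℓ hπ hℓN).redx c
        = aeval (AdjoinSimple.gen k (jqModC k))⁻¹ (P₀.map π) := by
  set n := P.natDegree with hn
  set Xb : GaussExt.baseVal (RatFunc L) (OvVal A π N ℓ hπ hℓN) :=
    ⟨RatFunc.X, X_mem_baseVal A π N ℓ hπ hℓN⟩ with hXb
  have hcX : algebraMap L[X] (RatFunc L) (P.reflect n) = ((c * Xb ^ n : GaussExt.baseVal (RatFunc L)
      (OvVal A π N ℓ hπ hℓN)) : RatFunc L) := by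
    rw [← RatFunc.aeval_X_left_eq_algebraMap, ← aeval_inv_mul_pow RatFunc.X_ne_zero n P le_rfl, hc]
    rfl
  obtain ⟨P₁, hP₁, h⟩ := redx_algebraMap_poly A π N ℓ hπ hℓN (c * Xb ^ n) (P.reflect n) hcX
  have hdeg : (P₁.map π).natDegree ≤ n := by
    refine le_trans (Polynomial.natDegree_map_le) ?_
    rw [← Polynomial.natDegree_map_eq_of_injective A.subtype_injective P₁, ← hP₁]
    rw [Polynomial.natDegree_le_iff_coeff_eq_zero]
    intro m hm
    rw [Polynomial.coeff_reflect, Polynomial.revAt_eq_self_of_lt hm]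
    exact Polynomial.coeff_eq_zero_of_natDegree_lt hm
  refine ⟨P₁.reflect n, ?_, ?_⟩
  · rw [← Polynomial.reflect_map, ← hP₁, Polynomial.reflect_reflect]
  · have hg := gen_jqModC_ne_zero (k := k)
    have hgn : (AdjoinSimple.gen k (jqModC k)) ^ n ≠ 0 := pow_ne_zero n hg
    apply mul_right_cancel₀ hgn
    rw [← Polynomial.reflect_map, aeval_inv_reflect_mul_pow hg n _ hdeg]
    rw [map_mul, map_pow, redx_X] at h
    exact h

/-- **(S1.3'), polynomial form**, chart `1/j`. -/
theorem isIntegral_resFk_polyInv (f : OvVal A π N ℓ hπ hℓN)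
    (hf : IsIntegral (PolyInv L) (f : FBar L N)) :
    IsIntegral (PolyInv k) (resFk A π N ℓ hπ hℓN f) := by
  have := finiteDimensional_RF L N
  have := isScalarTower_polyInvF (L := L) N
  have := isScalarTower_polyInvFk (k := k) N
  refine GaussExt.ResidueData.FullResidueDegree.isIntegral_red (gaussData A π N ℓ hπ hℓN)
    (gaussData_full A π N ℓ hπ hℓN) (R0 := PolyInv L) (R0k := PolyInv k) ?_ f hf
  rintro c ⟨P, hP⟩
  obtain ⟨P, rfl⟩ := (PolyInv.of L).surjective P
  rw [PolyInv.algebraMap_of] at hP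
  obtain ⟨P₀, -, h⟩ := redx_algebraMap_polyInv A π N ℓ hπ hℓN c P hP
  exact ⟨PolyInv.of k (P₀.map π), by rw [algebraMap_polyInvKj_of]; exact h.symm⟩

theorem algebraMap_polyInvF_eq_aeval (P : L[X]) :
    algebraMap (PolyInv L) (FBar L N) (PolyInv.of L P) = aeval (jF L N)⁻¹ P := by
  apply Subtype.ext
  have h1 : ((algebraMap (PolyInv L) (FBar L N) (PolyInv.of L P) : FBar L N) : LaurentSeries L)
      = GaussRing.evalRF (jqModC L) (transcendental_jqModC (k := L))
          (aeval (RatFunc.X : RatFunc L)⁻¹ P) := rfl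
  rw [h1, ← Polynomial.aeval_algHom_apply, map_inv₀, GaussRing.evalRF_X,
    ← IntermediateField.coe_val, ← Polynomial.aeval_algHom_apply, map_inv₀]
  rfl

theorem algebraMap_polyInvFk_eq_aeval (P : k[X]) :
    algebraMap (PolyInv k) (modularFunctionFieldFullC k N) (PolyInv.of k P)
      = aeval (jBarFk k N)⁻¹ P := by
  have h1 : algebraMap (PolyInv k) (modularFunctionFieldFullC k N) (PolyInv.of k P)
      = algebraMap (k⟮jqModC k⟯) (modularFunctionFieldFullC k N)
          (aeval (AdjoinSimple.gen k (jqModC k))⁻¹ P) := by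
    rw [RingHom.algebraMap_toAlgebra, RingHom.comp_apply]
    rfl
  have h2 : ∀ x : k⟮jqModC k⟯, ((algebraMap (k⟮jqModC k⟯) (modularFunctionFieldFullC k N) x :
      modularFunctionFieldFullC k N) : LaurentSeries k) = x := fun x => by
    rw [RingHom.algebraMap_toAlgebra]
    rfl
  apply Subtype.ext
  rw [h1, h2, ← IntermediateField.coe_val, ← Polynomial.aeval_algHom_apply, map_inv₀,
    ← IntermediateField.coe_val (modularFunctionFieldFullC k N), ← Polynomial.aeval_algHom_apply,
    map_inv₀]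
  rfl

/-- **(S1.3')** functions of `O` integral over `L[1/j]` reduce to functions integral over
`k[1/j̄]`. -/
theorem isIntegral_resFk_inv (f : OvVal A π N ℓ hπ hℓN)
    (hf : IsIntegral (Algebra.adjoin L {(jF L N)⁻¹}) (f : FBar L N)) :
    IsIntegral (Algebra.adjoin k {(jBarFk k N)⁻¹}) (resFk A π N ℓ hπ hℓN f) := by
  have h1 : IsIntegral (PolyInv L) (f : FBar L N) := by
    refine isIntegral_of_range_le (fun s => ?_) hf
    obtain ⟨s, hs⟩ := s
    have hs' : s ∈ (aeval (R := L) (jF L N)⁻¹).range := by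
      rw [← Algebra.adjoin_singleton_eq_range_aeval]; exact hs
    obtain ⟨P, hP⟩ := hs'
    exact ⟨PolyInv.of L P, by rw [algebraMap_polyInvF_eq_aeval]; exact hP⟩
  have h2 := isIntegral_resFk_polyInv A π N ℓ hπ hℓN f h1
  refine isIntegral_of_range_le (fun P => ?_) h2
  obtain ⟨P, rfl⟩ := (PolyInv.of k).surjective P
  refine ⟨⟨aeval (jBarFk k N)⁻¹ P, ?_⟩, ?_⟩
  · rw [Algebra.adjoin_singleton_eq_range_aeval]
    exact ⟨P, rfl⟩
  · rw [algebraMap_polyInvFk_eq_aeval]
    rfl

end ChartJInv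

end Fermat.Agent.Gateway.GoodRed
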