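/-
P-S16 block U2, WP-U2-TOWER (helper86): full residue degree over `Kx` implies full residue degree
over any intermediate field `Ky` (pure valuation-ring algebra on top of `GaussExt.lean`).
-/
import Mathlib
import Fermat.Agent.Gateway.GoodRed.GaussExt

set_option autoImplicit false

noncomputable section

namespace Fermat.Agent.Gateway.GoodRed.GaussExt

open ResidueData

section Subfields

variable {E : Type*} [Field E]

/-- the tower law for three subfields `A ≤ B ≤ C` of a field. -/
theorem finrank_subfield_tower {A B C : Subfield E} (hAB : A ≤ B) (hBC : B ≤ C) :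
    @Module.finrank A B _ _ (Subfield.inclusion hAB).toAlgebra.toModule *
      @Module.finrank B C _ _ (Subfield.inclusion hBC).toAlgebra.toModule =
    @Module.finrank A C _ _ (Subfield.inclusion (hAB.trans hBC)).toAlgebra.toModule := by
  let i1 : Algebra A B := (Subfield.inclusion hAB).toAlgebra
  let i2 : Algebra B C := (Subfield.inclusion hBC).toAlgebra
  let i3 : Algebra A C := (Subfield.inclusion (hAB.trans hBC)).toAlgebra
  have : IsScalarTower A B C := IsScalarTower.of_algebraMap_eq (fun x => rfl)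
  exact Module.finrank_mul_finrank A B C

theorem finrank_subfield_congr {A A' B : Subfield E} (hA : A ≤ B) (hA' : A' ≤ B) (h : A = A') :
    @Module.finrank A B _ _ (Subfield.inclusion hA).toAlgebra.toModule =
      @Module.finrank A' B _ _ (Subfield.inclusion hA').toAlgebra.toModule := by
  subst h
  rfl

end Subfields

section Tower

variable {Kx Ky F E : Type*} [Field Kx] [Field Ky] [Field F] [Field E]
  [Algebra Kx Ky] [Algebra Ky F] [Algebra Kx F] [IsScalarTower Kx Ky F]
  {O : ValuationSubring F} (ρ : O →+* E) (h : ∀ f : O, ρ f ≠ 0 → ((f : F))⁻¹ ∈ O)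

/-- the reduction map on `O_y = O ∩ Ky`. -/
def rhoY : baseVal Ky O →+* E := ρ.comp (baseIncl Ky O)

omit [Field Kx] [Algebra Kx Ky] [Algebra Kx F] [IsScalarTower Kx Ky F] in
@[simp] theorem rhoY_apply (c : baseVal Ky O) : rhoY (Ky := Ky) ρ c = ρ (baseIncl Ky O c) := rfl

omit [Field Kx] [Algebra Kx Ky] [Algebra Kx F] [IsScalarTower Kx Ky F] in
include h in
theorem rhoY_inv_mem (f : baseVal Ky O) (hf : rhoY (Ky := Ky) ρ f ≠ 0) :
    ((f : Ky))⁻¹ ∈ baseVal Ky O := by
  have h1 := h (baseIncl Ky O f) hf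
  show algebraMap Ky F ((f : Ky))⁻¹ ∈ O
  rw [map_inv₀]
  exact h1

omit [Field Kx] [Algebra Kx Ky] [Algebra Kx F] [IsScalarTower Kx Ky F] in
/-- the residue field of `O_y` is `resFieldx Ky ρ h`. -/
theorem resField_rhoY :
    resField (rhoY (Ky := Ky) ρ) (rhoY_inv_mem ρ h) = resFieldx Ky ρ h := rfl

theorem mem_baseVal_tower (c : Kx) :
    c ∈ baseVal Kx (baseVal Ky O) ↔ c ∈ baseVal Kx O := by
  show algebraMap Ky F (algebraMap Kx Ky c) ∈ O ↔ algebraMap Kx F c ∈ O
  rw [← IsScalarTower.algebraMap_apply]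

theorem baseIncl_tower (c : baseVal Kx (baseVal Ky O)) :
    baseIncl Ky O (baseIncl Kx (baseVal Ky O) c)
      = baseIncl Kx O ⟨(c : Kx), (mem_baseVal_tower (Kx := Kx) (Ky := Ky) (c : Kx)).1 c.2⟩ := by
  apply Subtype.ext
  show algebraMap Ky F (algebraMap Kx Ky (c : Kx)) = algebraMap Kx F (c : Kx)
  exact (IsScalarTower.algebraMap_apply Kx Ky F _).symm

/-- the residue field of `O_x` computed through `O_y` is `resFieldx Kx ρ h`. -/
theorem resFieldx_rhoY :
    resFieldx Kx (rhoY (Ky := Ky) ρ) (rhoY_inv_mem ρ h) = resFieldx Kx ρ h := by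
  ext y
  rw [mem_resFieldx, mem_resFieldx]
  constructor
  · rintro ⟨c, rfl⟩
    refine ⟨⟨(c : Kx), (mem_baseVal_tower (Kx := Kx) (Ky := Ky) (c : Kx)).1 c.2⟩, ?_⟩
    rw [rhoY_apply (Ky := Ky) ρ, baseIncl_tower (Kx := Kx) (Ky := Ky) c]
  · rintro ⟨c, rfl⟩
    refine ⟨⟨(c : Kx), (mem_baseVal_tower (Ky := Ky) (c : Kx)).2 c.2⟩, ?_⟩
    rw [rhoY_apply (Ky := Ky) ρ, baseIncl_tower (Kx := Kx) (Ky := Ky)]

theorem resFieldx_le_resFieldx : resFieldx Kx ρ h ≤ resFieldx Ky ρ h := by
  rw [← resFieldx_rhoY (Ky := Ky) ρ h, ← resField_rhoY ρ h]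
  exact resFieldx_le _ _

variable [FiniteDimensional Kx F] [FiniteDimensional Ky F]

omit [FiniteDimensional Ky F] in
/-- `[k_y : k_x] ≤ [K_y : K_x]`. -/
theorem finrank_resFieldx_le :
    @Module.finrank (resFieldx Kx ρ h) (resFieldx Ky ρ h) _ _
      (Subfield.inclusion (resFieldx_le_resFieldx ρ h)).toAlgebra.toModule
      ≤ Module.finrank Kx Ky := by
  have : FiniteDimensional Kx Ky := FiniteDimensional.left Kx Ky F
  have h1 := (ofRingHom (Kx := Kx) (rhoY (Ky := Ky) ρ) (rhoY_inv_mem ρ h)).finrank_residue_le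
    (ofRingHom_red_surjective _ _)
  have h2 := finrank_subfield_congr (A := resFieldx Kx (rhoY (Ky := Ky) ρ) (rhoY_inv_mem ρ h))
    (A' := resFieldx Kx ρ h) (B := resFieldx Ky ρ h)
    (resFieldx_le (rhoY (Ky := Ky) ρ) (rhoY_inv_mem ρ h)) (resFieldx_le_resFieldx ρ h)
    (resFieldx_rhoY ρ h)
  rw [← h2]
  exact h1

/-- (U2-TOWER) full residue degree over `Kx` implies full residue degree over any intermediate
field `Ky`. -/
theorem fullResidueDegree_tower
    (H : (ofRingHom (Kx := Kx) ρ h).FullResidueDegree) :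
    (ofRingHom (Kx := Ky) ρ h).FullResidueDegree := by
  apply fullResidueDegree_of_le _ (ofRingHom_red_surjective ρ h)
  have h1 : Module.finrank (resFieldx Kx ρ h) (resField ρ h) = Module.finrank Kx F :=
    H.finrank_residue _ (ofRingHom_red_surjective ρ h)
  have h2 := finrank_resFieldx_le (Kx := Kx) (Ky := Ky) ρ h
  have h3 := finrank_subfield_tower (resFieldx_le_resFieldx (Kx := Kx) (Ky := Ky) ρ h)
    (resFieldx_le (Kx := Ky) ρ h)
  have h4 : Module.finrank Kx Ky * Module.finrank Ky F = Module.finrank Kx F :=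
    Module.finrank_mul_finrank Kx Ky F
  have h5 : 0 < Module.finrank Kx Ky := by
    have : FiniteDimensional Kx Ky := FiniteDimensional.left Kx Ky F
    exact Module.finrank_pos
  have h6 : @Module.finrank (resFieldx Kx ρ h) (resField ρ h) _ _
      (Subfield.inclusion ((resFieldx_le_resFieldx (Kx := Kx) (Ky := Ky) ρ h).trans
        (resFieldx_le (Kx := Ky) ρ h))).toAlgebra.toModule = Module.finrank Kx F := h1
  rw [h6] at h3
  -- `m * d = n = [ky:kx] * [Fk:ky] ≤ m * [Fk:ky]`
  have h7 : Module.finrank Kx Ky * Module.finrank Ky F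
      ≤ Module.finrank Kx Ky * Module.finrank (resFieldx Ky ρ h) (resField ρ h) := by
    rw [h4, ← h3]
    exact Nat.mul_le_mul_right _ h2
  exact Nat.le_of_mul_le_mul_left h7 h5

end Tower

end Fermat.Agent.Gateway.GoodRed.GaussExt
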