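import Mathlib
import Fermat.Agent.Lib.RiemannRoch.Modular

/-!
# P-GATEWAY (c), Hurwitz backup route for (G2): numerics at good levels  (B4)(i)

* `nuTwo_nuThree_eq_zero` : `nuTwo M = 0 ∧ nuThree M = 0` when `4 ∣ M` or `9 ∣ M`;
* `genusFF_good` : `12 g - 12 = ψ(M) - 6 ν_∞(M)` for `g = genusFF Qbar (modularFunctionFieldBar M)`
  (`= FBar Qbar M`) at such a level (from `Lib/RiemannRoch/Modular.genusFF_modular` = S24);
* `genus_le_of_hurwitz_four/nine` : the final integer arithmetic of the Hurwitz route.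
-/

set_option autoImplicit false

noncomputable section

namespace Fermat.Agent.Gateway.GoodRed.GoodLevelNumerics

open ModularCurve

section Nu

/-- no solutions of a polynomial equation mod `d` ⟹ none mod `M` for `d ∣ M`. -/
theorem nuTwo_eq_zero_of_dvd {d M : ℕ} (hd : d ∣ M)
    (h : ∀ x : ZMod d, x ^ 2 + 1 ≠ 0) : nuTwo M = 0 := by
  rw [nuTwo]
  have : IsEmpty {x : ZMod M // x ^ 2 + 1 = 0} := by
    refine ⟨fun ⟨x, hx⟩ => h (ZMod.castHom hd (ZMod d) x) ?_⟩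
    rw [← map_pow, ← map_one (ZMod.castHom hd (ZMod d)), ← map_add, hx, map_zero]
  exact Nat.card_of_isEmpty

theorem nuThree_eq_zero_of_dvd {d M : ℕ} (hd : d ∣ M)
    (h : ∀ x : ZMod d, x ^ 2 + x + 1 ≠ 0) : nuThree M = 0 := by
  rw [nuThree]
  have : IsEmpty {x : ZMod M // x ^ 2 + x + 1 = 0} := by
    refine ⟨fun ⟨x, hx⟩ => h (ZMod.castHom hd (ZMod d) x) ?_⟩
    rw [← map_pow, ← map_one (ZMod.castHom hd (ZMod d)), ← map_add, ← map_add, hx, map_zero]
  exact Nat.card_of_isEmpty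

theorem nuTwo_eq_zero_of_four_dvd {M : ℕ} (h : 4 ∣ M) : nuTwo M = 0 :=
  nuTwo_eq_zero_of_dvd h (by decide)

theorem nuTwo_eq_zero_of_three_dvd {M : ℕ} (h : 3 ∣ M) : nuTwo M = 0 :=
  nuTwo_eq_zero_of_dvd h (by decide)

theorem nuThree_eq_zero_of_two_dvd {M : ℕ} (h : 2 ∣ M) : nuThree M = 0 :=
  nuThree_eq_zero_of_dvd h (by decide)

theorem nuThree_eq_zero_of_nine_dvd {M : ℕ} (h : 9 ∣ M) : nuThree M = 0 :=
  nuThree_eq_zero_of_dvd h (by decide)

theorem nuTwo_nuThree_eq_zero {M : ℕ} (h : 4 ∣ M ∨ 9 ∣ M) : nuTwo M = 0 ∧ nuThree M = 0 := by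
  rcases h with h | h
  · exact ⟨nuTwo_eq_zero_of_four_dvd h, nuThree_eq_zero_of_two_dvd (dvd_trans (by norm_num) h)⟩
  · exact ⟨nuTwo_eq_zero_of_three_dvd (dvd_trans (by norm_num) h), nuThree_eq_zero_of_nine_dvd h⟩

end Nu

section Genus

variable (M : ℕ) [NeZero M]

/-- the genus formula at a good level, cleared of denominators: `12 g - 12 = ψ(M) - 6 ν_∞(M)`. -/
theorem genusFF_good (h : 4 ∣ M ∨ 9 ∣ M) :
    12 * (AlgebraicCurve.genusFF (AlgebraicClosure ℚ) ↥(modularFunctionFieldBar M) : ℤ) - 12 =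
      (dedekindPsi M : ℤ) - 6 * (cuspCount M : ℤ) := by
  have h1 := Fermat.Agent.Lib.RiemannRoch.Modular.genusFF_modular M
  obtain ⟨h2, h3⟩ := nuTwo_nuThree_eq_zero h
  rw [genusFormula, h2, h3] at h1
  have h4 : ((12 * (AlgebraicCurve.genusFF (AlgebraicClosure ℚ) ↥(modularFunctionFieldBar M) : ℤ) - 12 : ℤ) : ℚ) =
      (((dedekindPsi M : ℤ) - 6 * (cuspCount M : ℤ) : ℤ) : ℚ) := by
    push_cast
    rw [h1]
    ring
  exact_mod_cast h4

end Genus

section Arith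

/-- the final arithmetic of the Hurwitz route at a level divisible by `4`
(`s = 2` finite cusp values of `x₄`, `ψ(4) = 6`). -/
theorem genus_le_of_hurwitz_four {g gk n T ψ c : ℤ} (hH : ((2 : ℤ) - 1) * n - T ≤ 2 * gk - 2)
    (hn : n * 6 = ψ) (hT : T ≤ c) (hg : 12 * g - 12 = ψ - 6 * c) : g ≤ gk := by
  omega

/-- the final arithmetic of the Hurwitz route at a level divisible by `9`
(`s = 3` finite cusp values of `y₉`, `ψ(9) = 12`). -/
theorem genus_le_of_hurwitz_nine {g gk n T ψ c : ℤ} (hH : ((3 : ℤ) - 1) * n - T ≤ 2 * gk - 2)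
    (hn : n * 12 = ψ) (hT : T ≤ c) (hg : 12 * g - 12 = ψ - 6 * c) : g ≤ gk := by
  omega

end Arith

end Fermat.Agent.Gateway.GoodRed.GoodLevelNumerics
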