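import Fermat.Agent.Gateway.GoodRed.PolesOfRel
import Fermat.Agent.Gateway.GoodRed.Instantiate.HauptRed
import Fermat.Agent.Gateway.GoodRed.ConjFamily.Degree

/-!
# Hurwitz backup route for (G2): inputs (iii) + (iv) at the good levels (helper90)

`k : Type` a field, `Fk k N` the level-`N` function field over `k` (`ConjFamily.Fk`), `jFk k N` its
`j`.  For ANY `t : Fk k N` whose underlying series is the reduced level-4 Hauptmodul
`TLine4.x4k k` (e.g. `HauptRed.t4`), and `(2 : k) ≠ 0`: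

* `rel4 : jFk k N * aeval t (TLine4.JQ k) = aeval t (TLine4.JP k)`;
* `poles4` : every pole of `t` and every zero of `t - a`, `a ∈ TLine4.S4 k = {0, 16}`, is a pole of
  `jFk k N` (helper24's abstract `PolesOfRel.ord_neg_of_rel` + coprimality of `JP`, `JQ`);
* `card_S4 : (TLine4.S4 k).card = 2`;
* `jFk_mem_adjoin4 : jFk k N ∈ k⟮t⟯`, `isSeparable4 : Algebra.IsSeparable k⟮t⟯ (Fk k N)`.

The same at level 9 for `t` with underlying series `TLine9.y9k k`, `(3 : k) ≠ 0`, and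
`w ^ 2 + w + 1 = 0`, `TLine9.S9 w = {3, 3 w, 3 w²}`.
-/

set_option autoImplicit false
set_option linter.unusedSectionVars false

noncomputable section

open AlgebraicCurve Polynomial IntermediateField ModularCurve

namespace Fermat.Agent.Gateway.GoodRed.GoodLevelPoles

open Fermat.Agent.Gateway.GoodRed Fermat.Agent.Gateway.GoodRed.ConjFamily

section Abstract

variable {K F : Type*} [Field K] [Field F] [Algebra K F]

/-- Bezout with a nonzero constant. -/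
theorem isCoprime_of_eq_C {A B U V : K[X]} {c : K} (hc : c ≠ 0) (h : U * A + V * B = C c) :
    IsCoprime A B :=
  ⟨C c⁻¹ * U, C c⁻¹ * V, by
    rw [mul_assoc, mul_assoc, ← mul_add, h, ← C_mul, inv_mul_cancel₀ hc, C_1]⟩

theorem aeval_mem_adjoin_simple (x : F) (R : K[X]) : aeval x R ∈ K⟮x⟯ :=
  IntermediateField.algebra_adjoin_le_adjoin K {x} (aeval_mem_adjoin_singleton K x)

/-- `y = P(x) / Q(x) ∈ K(x)`. -/
theorem mem_adjoin_of_rel {P Q : K[X]} {x y : F} (hQ : aeval x Q ≠ 0)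
    (hrel : y * aeval x Q = aeval x P) : y ∈ K⟮x⟯ := by
  have hy : y = aeval x P / aeval x Q := by rw [eq_div_iff hQ, hrel]
  rw [hy]
  exact div_mem (aeval_mem_adjoin_simple x P) (aeval_mem_adjoin_simple x Q)

/-- in a relation `y * Q(x) = P(x)` with `P`, `Q` coprime, `Q(x) ≠ 0`. -/
theorem aeval_ne_zero_of_rel {P Q : K[X]} (hcop : IsCoprime P Q) {x y : F}
    (hrel : y * aeval x Q = aeval x P) : aeval x Q ≠ 0 := by
  intro h0
  have h1 : aeval x P = 0 := by rw [← hrel, h0, mul_zero]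
  obtain ⟨u, v, huv⟩ := hcop
  have h2 := congrArg (aeval x) huv
  rw [map_add, map_mul, map_mul, h0, h1, mul_zero, mul_zero, add_zero, map_one] at h2
  exact zero_ne_one h2

/-- separability over `K(y)` passes to the bigger simple subextension `K(x) ∋ y`. -/
theorem isSeparable_adjoin_of_mem {x y : F} (hy : y ∈ K⟮x⟯) [Algebra.IsSeparable K⟮y⟯ F] :
    Algebra.IsSeparable K⟮x⟯ F := by
  have hle : K⟮y⟯ ≤ K⟮x⟯ := adjoin_simple_le_iff.mpr hy
  let _ : Algebra K⟮y⟯ K⟮x⟯ := (inclusion hle).toRingHom.toAlgebra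
  have : IsScalarTower K⟮y⟯ K⟮x⟯ F := IsScalarTower.of_algebraMap_eq (fun _ => rfl)
  exact Algebra.isSeparable_tower_top_of_isSeparable K⟮y⟯ K⟮x⟯ F

end Abstract

section Coe

variable {k : Type} [Field k] {N : ℕ}

theorem coe_aeval_Fk (t : Fk k N) (R : k[X]) :
    ((aeval t R : Fk k N) : LaurentSeries k) = aeval (t : LaurentSeries k) R :=
  (Polynomial.aeval_algHom_apply (Fk k N).val t R).symm

theorem coe_jFk : ((jFk k N : Fk k N) : LaurentSeries k) = jqModC k := rfl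

end Coe

/-! ## Level 4 -/

section Level4

variable {k : Type} [Field k] {N : ℕ} [NeZero N]

theorem isCoprime_JP_JQ4 (h2 : (2 : k) ≠ 0) : IsCoprime (TLine4.JP k) (TLine4.JQ k) := by
  have h256 : (256 : k) ≠ 0 := TLine4.ne_zero_256 h2
  have h4096 : (4096 : k) ≠ 0 := by
    have : (4096 : k) = 2 ^ 12 := by norm_num
    rw [this]
    exact pow_ne_zero _ h2
  have hA : IsCoprime (X ^ 2 + 224 * X + 256 : k[X]) X :=
    isCoprime_of_eq_C h256 (U := 1) (V := -(X + 224)) (by rw [map_ofNat]; ring)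
  have hB : IsCoprime (X ^ 2 + 224 * X + 256 : k[X]) (X - 16) :=
    isCoprime_of_eq_C h4096 (U := 1) (V := -(X + 240)) (by rw [map_ofNat]; ring)
  exact (hA.mul_right hB.pow_right).pow_left

theorem isRoot_JQ4 {a : k} (ha : a ∈ TLine4.S4 k) : (TLine4.JQ k).IsRoot a := by
  classical
  rw [TLine4.S4, Finset.mem_insert, Finset.mem_singleton] at ha
  rcases ha with rfl | rfl <;> simp [TLine4.JQ]

theorem card_S4 (h2 : (2 : k) ≠ 0) : (TLine4.S4 k).card = 2 := by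
  classical
  rw [TLine4.S4]
  exact Finset.card_pair (TLine4.ne_zero_16 h2).symm

variable {t : Fk k N} (ht : (t : LaurentSeries k) = TLine4.x4k k)
include ht

/-- **The level-4 relation in `Fk k N`**: `j * JQ(t) = JP(t)`. -/
theorem rel4 : jFk k N * aeval t (TLine4.JQ k) = aeval t (TLine4.JP k) := by
  apply Subtype.ext
  rw [MulMemClass.coe_mul, coe_aeval_Fk, coe_aeval_Fk, ht, coe_jFk]
  exact TLine4.rel_inf.symm

theorem aeval_JQ4_ne_zero (h2 : (2 : k) ≠ 0) : aeval t (TLine4.JQ k) ≠ 0 :=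
  aeval_ne_zero_of_rel (isCoprime_JP_JQ4 h2) (rel4 ht)

/-- **(iii) at level 4**: the poles of `t` and the zeros of `t`, `t - 16` are poles of `j`. -/
theorem poles4 (h2 : (2 : k) ≠ 0) (v : Place k (Fk k N))
    (h : v.ord t < 0 ∨ ∃ a ∈ TLine4.S4 k, 0 < v.ord (t - algebraMap k (Fk k N) a)) :
    v.ord (jFk k N) < 0 := by
  refine PolesOfRel.ord_neg_of_rel v (TLine4.JP k) (TLine4.JQ k) (isCoprime_JP_JQ4 h2)
    TLine4.natDegree_JQ_lt t (jFk k N) (rel4 ht) ?_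
  rcases h with h | ⟨a, ha, h⟩
  · exact Or.inl h
  · exact Or.inr ⟨a, isRoot_JQ4 ha, h⟩

/-- `j ∈ k(t)` at level 4. -/
theorem jFk_mem_adjoin4 (h2 : (2 : k) ≠ 0) : jFk k N ∈ k⟮t⟯ :=
  mem_adjoin_of_rel (aeval_JQ4_ne_zero ht h2) (rel4 ht)

/-- **(iv) at level 4**: `Fk / k(t)` is separable. -/
theorem isSeparable4 [IsAlgClosed k] (h2 : (2 : k) ≠ 0) (hNk : (N : k) ≠ 0) :
    Algebra.IsSeparable k⟮t⟯ (Fk k N) := by
  have := isSeparable_Fk (k := k) (N := N) hNk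
  exact isSeparable_adjoin_of_mem (jFk_mem_adjoin4 ht h2)

end Level4

/-! ## Level 9 -/

section Level9

variable {k : Type} [Field k] {N : ℕ} [NeZero N]

theorem ne_zero_pow_three (h3 : (3 : k) ≠ 0) (n : ℕ) : ((3 : k) ^ n) ≠ 0 := pow_ne_zero _ h3

theorem isCoprime_JP_JQ9 (h3 : (3 : k) ≠ 0) : IsCoprime (TLine9.JP k) (TLine9.JQ k) := by
  have h9 : (9 : k) ≠ 0 := by
    have : (9 : k) = 3 ^ 2 := by norm_num
    rw [this]
    exact pow_ne_zero _ h3
  have h243 : (-243 : k) ≠ 0 := by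
    have : (-243 : k) = -(3 ^ 5) := by norm_num
    rw [this]
    exact neg_ne_zero.mpr (pow_ne_zero _ h3)
  have h6561 : (6561 : k) ≠ 0 := by
    have : (6561 : k) = 3 ^ 8 := by norm_num
    rw [this]
    exact pow_ne_zero _ h3
  have h177147 : (177147 : k) ≠ 0 := by
    have : (177147 : k) = 3 ^ 11 := by norm_num
    rw [this]
    exact pow_ne_zero _ h3
  have hA1 : IsCoprime (X + 6 : k[X]) (X - 3) :=
    isCoprime_of_eq_C h9 (U := 1) (V := -1) (by rw [map_ofNat]; ring)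
  have hA2 : IsCoprime (X + 6 : k[X]) (X ^ 3 - 27) :=
    isCoprime_of_eq_C h243 (U := -(X ^ 2 - 6 * X + 36)) (V := 1)
      (by rw [map_neg, map_ofNat]; ring)
  have hB1 : IsCoprime (X ^ 3 + 234 * X ^ 2 + 756 * X + 2160 : k[X]) (X - 3) :=
    isCoprime_of_eq_C h6561 (U := 1) (V := -(X ^ 2 + 237 * X + 1467))
      (by rw [map_ofNat]; ring)
  have hB2 : IsCoprime (X ^ 3 + 234 * X ^ 2 + 756 * X + 2160 : k[X]) (X ^ 3 - 27) :=
    isCoprime_of_eq_C h177147 (U := 82 * X ^ 2 - 240 * X + 9)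
      (V := -(82 * X ^ 2 + 18948 * X + 5841)) (by rw [map_ofNat]; ring)
  have hA : IsCoprime (X + 6 : k[X]) (TLine9.JQ k) := hA1.pow_right.mul_right hA2
  have hB : IsCoprime (X ^ 3 + 234 * X ^ 2 + 756 * X + 2160 : k[X]) (TLine9.JQ k) :=
    hB1.pow_right.mul_right hB2
  exact hA.pow_left.mul_left hB.pow_left

theorem isRoot_JQ9 {w : k} (hw : w ^ 2 + w + 1 = 0) {a : k} (ha : a ∈ TLine9.S9 w) :
    (TLine9.JQ k).IsRoot a := by
  classical
  have hw3 : w ^ 3 = 1 := TLine9.w_cube hw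
  rw [TLine9.S9, Finset.mem_insert, Finset.mem_insert, Finset.mem_singleton] at ha
  rw [IsRoot.def, TLine9.JQ, eval_mul, eval_pow, eval_sub, eval_sub, eval_pow, eval_X]
  have e3 : eval a (3 : k[X]) = 3 := by
    rw [show (3 : k[X]) = C 3 from (map_ofNat C 3).symm, eval_C]
  have e27 : eval a (27 : k[X]) = 27 := by
    rw [show (27 : k[X]) = C 27 from (map_ofNat C 27).symm, eval_C]
  rw [e3, e27]
  rcases ha with rfl | rfl | rfl
  · rw [sub_self, zero_pow (by norm_num), zero_mul]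
  · have : (3 * w) ^ 3 - 27 = 0 := by linear_combination 27 * hw3
    rw [this, mul_zero]
  · have : (3 * w ^ 2) ^ 3 - 27 = 0 := by linear_combination 27 * (w ^ 3 + 1) * hw3
    rw [this, mul_zero]

theorem card_S9 (h3 : (3 : k) ≠ 0) {w : k} (hw : w ^ 2 + w + 1 = 0) : (TLine9.S9 w).card = 3 := by
  classical
  rw [TLine9.S9, Finset.card_insert_of_notMem, Finset.card_pair]
  · exact (TLine9.three_w_sq_ne_three_w h3 hw).symm
  · rw [Finset.mem_insert, Finset.mem_singleton, not_or]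
    exact ⟨(TLine9.three_w_ne_three h3 hw).symm, (TLine9.three_w_sq_ne_three h3 hw).symm⟩

variable {t : Fk k N} (ht : (t : LaurentSeries k) = TLine9.y9k k)
include ht

/-- **The level-9 relation in `Fk k N`**: `j * JQ(t) = JP(t)`. -/
theorem rel9 : jFk k N * aeval t (TLine9.JQ k) = aeval t (TLine9.JP k) := by
  apply Subtype.ext
  rw [MulMemClass.coe_mul, coe_aeval_Fk, coe_aeval_Fk, ht, coe_jFk]
  exact TLine9.rel_inf.symm

theorem aeval_JQ9_ne_zero (h3 : (3 : k) ≠ 0) : aeval t (TLine9.JQ k) ≠ 0 :=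
  aeval_ne_zero_of_rel (isCoprime_JP_JQ9 h3) (rel9 ht)

/-- **(iii) at level 9**: the poles of `t` and the zeros of `t - a`, `a ∈ {3, 3w, 3w²}`, are poles
of `j`. -/
theorem poles9 (h3 : (3 : k) ≠ 0) {w : k} (hw : w ^ 2 + w + 1 = 0) (v : Place k (Fk k N))
    (h : v.ord t < 0 ∨ ∃ a ∈ TLine9.S9 w, 0 < v.ord (t - algebraMap k (Fk k N) a)) :
    v.ord (jFk k N) < 0 := by
  refine PolesOfRel.ord_neg_of_rel v (TLine9.JP k) (TLine9.JQ k) (isCoprime_JP_JQ9 h3)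
    TLine9.natDegree_JQ_lt t (jFk k N) (rel9 ht) ?_
  rcases h with h | ⟨a, ha, h⟩
  · exact Or.inl h
  · exact Or.inr ⟨a, isRoot_JQ9 hw ha, h⟩

/-- `j ∈ k(t)` at level 9. -/
theorem jFk_mem_adjoin9 (h3 : (3 : k) ≠ 0) : jFk k N ∈ k⟮t⟯ :=
  mem_adjoin_of_rel (aeval_JQ9_ne_zero ht h3) (rel9 ht)

/-- **(iv) at level 9**: `Fk / k(t)` is separable. -/
theorem isSeparable9 [IsAlgClosed k] (h3 : (3 : k) ≠ 0) (hNk : (N : k) ≠ 0) :
    Algebra.IsSeparable k⟮t⟯ (Fk k N) := by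
  have := isSeparable_Fk (k := k) (N := N) hNk
  exact isSeparable_adjoin_of_mem (jFk_mem_adjoin9 ht h3)

end Level9

/-! ## The reduced Hauptmoduln `HauptRed.t4`, `HauptRed.t9` -/

section Haupt

open Fermat.Agent.S24.Setup Fermat.Agent.Gateway.GoodRed.HauptRed

variable (A : ValuationSubring Kbar) {k : Type} [Field k] (π : A →+* k) (N : ℕ)
  [IsAlgClosed k] (ℓ : ℕ) [Fact ℓ.Prime] [CharP k ℓ] [NeZero N]

omit [IsAlgClosed k] [Fact ℓ.Prime] [NeZero N] in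
theorem levelCast_ne_zero (hℓN : ¬ ℓ ∣ N) : (N : k) ≠ 0 := by
  intro h
  rw [CharP.cast_eq_zero_iff k ℓ] at h
  exact hℓN h

omit [IsAlgClosed k] [Fact ℓ.Prime] [NeZero N] in
theorem two_ne_zero_of_four_dvd (hℓN : ¬ ℓ ∣ N) (h4 : 4 ∣ N) : (2 : k) ≠ 0 := by
  intro h
  have h' : ((2 : ℕ) : k) = 0 := by exact_mod_cast h
  rw [CharP.cast_eq_zero_iff k ℓ] at h'
  exact hℓN (h'.trans ((by norm_num : 2 ∣ 4).trans h4))

omit [IsAlgClosed k] [Fact ℓ.Prime] [NeZero N] in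
theorem three_ne_zero_of_nine_dvd (hℓN : ¬ ℓ ∣ N) (h9 : 9 ∣ N) : (3 : k) ≠ 0 := by
  intro h
  have h' : ((3 : ℕ) : k) = 0 := by exact_mod_cast h
  rw [CharP.cast_eq_zero_iff k ℓ] at h'
  exact hℓN (h'.trans ((by norm_num : 3 ∣ 9).trans h9))

/-- (iii) for `HauptRed.t4`. -/
theorem poles_t4 (hπ : Function.Surjective π) (hℓN : ¬ ℓ ∣ N) (h4 : 4 ∣ N)
    (v : Place k (Fk k N))
    (h : v.ord (t4 A π N ℓ hπ hℓN h4) < 0 ∨ ∃ a ∈ TLine4.S4 k,
      0 < v.ord (t4 A π N ℓ hπ hℓN h4 - algebraMap k (Fk k N) a)) :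
    v.ord (jFk k N) < 0 :=
  poles4 (coe_t4 A π N ℓ hπ hℓN h4) (two_ne_zero_of_four_dvd N ℓ hℓN h4) v h

/-- (iv) for `HauptRed.t4`. -/
theorem isSeparable_t4 (hπ : Function.Surjective π) (hℓN : ¬ ℓ ∣ N) (h4 : 4 ∣ N) :
    Algebra.IsSeparable k⟮t4 A π N ℓ hπ hℓN h4⟯ (Fk k N) :=
  isSeparable4 (coe_t4 A π N ℓ hπ hℓN h4) (two_ne_zero_of_four_dvd N ℓ hℓN h4)
    (levelCast_ne_zero N ℓ hℓN)

/-- (iii) for `HauptRed.t9`. -/
theorem poles_t9 (hπ : Function.Surjective π) (hℓN : ¬ ℓ ∣ N) (h9 : 9 ∣ N)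
    {w : k} (hw : w ^ 2 + w + 1 = 0) (v : Place k (Fk k N))
    (h : v.ord (t9 A π N ℓ hπ hℓN h9) < 0 ∨ ∃ a ∈ TLine9.S9 w,
      0 < v.ord (t9 A π N ℓ hπ hℓN h9 - algebraMap k (Fk k N) a)) :
    v.ord (jFk k N) < 0 :=
  poles9 (coe_t9 A π N ℓ hπ hℓN h9) (three_ne_zero_of_nine_dvd N ℓ hℓN h9) hw v h

/-- (iv) for `HauptRed.t9`. -/
theorem isSeparable_t9 (hπ : Function.Surjective π) (hℓN : ¬ ℓ ∣ N) (h9 : 9 ∣ N) :
    Algebra.IsSeparable k⟮t9 A π N ℓ hπ hℓN h9⟯ (Fk k N) :=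
  isSeparable9 (coe_t9 A π N ℓ hπ hℓN h9) (three_ne_zero_of_nine_dvd N ℓ hℓN h9)
    (levelCast_ne_zero N ℓ hℓN)

end Haupt

end Fermat.Agent.Gateway.GoodRed.GoodLevelPoles
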