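import Fermat.Agent.Gateway.GoodRed.HurwitzIneq

/-!
# P-GATEWAY (c), helper47: a lower bound for the genus from a covering of the `t`-line

Corollaries of the Hurwitz inequality `HurwitzIneq.two_genusFF_sub_two_ge`, in the shape used for
input (G2) of (C0) (the genus does not drop under reduction at a good level):

* `finite_poles` : a function has finitely many poles (`x`-setting);
* `two_genusFF_sub_two_ge_of_card` : the Hurwitz inequality with the set `T` replaced by a bound
  `c` on the number of poles of a function `y` all of whose poles contain the fibres of `x` over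
  `∞` and over the values in `S`;
* `le_genusFF_of_cover` : the numerical conclusion `g₀ ≤ genusFF K F`.
-/

set_option autoImplicit false
set_option linter.unusedSectionVars false
set_option linter.style.haveILetI false

noncomputable section

namespace Fermat.Agent.Gateway.GoodRed.HurwitzIneq

open AlgebraicCurve Polynomial IntermediateField Module
open Fermat.Agent.Lib.RiemannRoch Fermat.Agent.Lib.RiemannRoch.XSetting

variable {K F : Type*} [Field K] [Field F] [Algebra K F] {x : F}
  (hx : Transcendental K x) [FiniteDimensional K⟮x⟯ F] [Algebra.IsSeparable K⟮x⟯ F]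

attribute [local instance] polyAlgebra

include hx in
/-- A function has finitely many poles. -/
theorem finite_poles (y : F) : {v : Place K F | v.ord y < 0}.Finite := by
  haveI := isFractionRing_polyAlgebra hx
  have h := Fermat.Agent.S20.RR.SerreDuality.finite_poles K K⟮x⟯ F y
  refine h.subset fun v hv => ?_
  exact v.not_adicValuation_le_one_iff.mpr hv

variable [IsAlgClosed K]

include hx in
/-- The Hurwitz inequality with a bound on the number of poles of an auxiliary function `y`
(`y = j` in the application) whose pole set contains the fibres of `x` over `∞` and over `S`. -/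
theorem two_genusFF_sub_two_ge_of_card (S : Finset K) (y : F)
    (hpoles : ∀ v : Place K F,
      (v.ord x < 0 ∨ ∃ a ∈ S, 0 < v.ord (x - algebraMap K F a)) → v.ord y < 0)
    {c : ℕ} (hc : Nat.card {v : Place K F // v.ord y < 0} ≤ c) :
    ((S.card : ℤ) - 1) * (finrank K⟮x⟯ F : ℤ) - (c : ℤ) ≤ 2 * (genusFF K F : ℤ) - 2 := by
  classical
  have hfin := finite_poles hx y
  have h1 := two_genusFF_sub_two_ge hx S hfin.toFinset
    (fun v hv => hfin.mem_toFinset.mpr (hpoles v hv))
  have h2 : hfin.toFinset.card = Nat.card {v : Place K F // v.ord y < 0} := by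
    rw [← Set.ncard_eq_toFinset_card _ hfin]
    exact (Nat.card_coe_set_eq {v : Place K F | v.ord y < 0}).symm
  have h3 : (hfin.toFinset.card : ℤ) ≤ c := by
    rw [h2]
    exact_mod_cast hc
  linarith

include hx in
/-- **The genus bound.**  If `6 (|S| - 1) [F : K(x)] = ψ`, the function `y` has at most `c` poles
and these contain the fibres of `x` over `∞` and `S`, then every `g₀` with
`6 (2 g₀ - 2) = ψ - 6 c` satisfies `g₀ ≤ genusFF K F`. -/
theorem le_genusFF_of_cover (S : Finset K) (y : F)
    (hpoles : ∀ v : Place K F,
      (v.ord x < 0 ∨ ∃ a ∈ S, 0 < v.ord (x - algebraMap K F a)) → v.ord y < 0)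
    {c ψ g₀ : ℕ} (hc : Nat.card {v : Place K F // v.ord y < 0} ≤ c)
    (hn : 6 * (((S.card : ℤ) - 1) * (finrank K⟮x⟯ F : ℤ)) = ψ)
    (hg₀ : 6 * (2 * (g₀ : ℤ) - 2) = (ψ : ℤ) - 6 * c) :
    g₀ ≤ genusFF K F := by
  have h := two_genusFF_sub_two_ge_of_card hx S y hpoles hc
  have : (g₀ : ℤ) ≤ genusFF K F := by linarith
  exact_mod_cast this

include hx in
/-- **The genus bound, general numerical form.**  If `y` has at most `c` poles, these contain the
fibres of `x` over `∞` and `S`, and `2 g₀ - 2 = (|S| - 1) [F : K(x)] - c` (the characteristic zero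
Hurwitz formula for a covering of the `x`-line branched only over `S ∪ {∞}` with `c` points above),
then `g₀ ≤ genusFF K F`. -/
theorem le_genusFF_of_cover' (S : Finset K) (y : F)
    (hpoles : ∀ v : Place K F,
      (v.ord x < 0 ∨ ∃ a ∈ S, 0 < v.ord (x - algebraMap K F a)) → v.ord y < 0)
    {c g₀ : ℕ} (hc : Nat.card {v : Place K F // v.ord y < 0} ≤ c)
    (hg₀ : 2 * (g₀ : ℤ) - 2 = ((S.card : ℤ) - 1) * (finrank K⟮x⟯ F : ℤ) - c) :
    g₀ ≤ genusFF K F := by
  have h := two_genusFF_sub_two_ge_of_card hx S y hpoles hc
  have : (g₀ : ℤ) ≤ genusFF K F := by linarith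
  exact_mod_cast this

end Fermat.Agent.Gateway.GoodRed.HurwitzIneq
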