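/-
P-GATEWAY (c), helper47: Hurwitz INEQUALITY, characteristic free.

Generic AKLB Dedekind setting of `S20/RR/DualCount.lean`: the exponent of the different at a prime
`w` of `B` is at least `e_w - 1` (wild ramification allowed).
-/
import Fermat.Agent.Lib.RiemannRoch.FunctionFieldRR

set_option autoImplicit false
set_option linter.unusedSectionVars false
set_option linter.style.haveILetI false

noncomputable section

namespace Fermat.Agent.Gateway.GoodRed.HurwitzIneq

open IsDedekindDomain IsDedekindDomain.HeightOneSpectrum FractionalIdeal nonZeroDivisors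
open Fermat.Agent.S20.RR.DedekindMem Fermat.Agent.S20.RR.DualCount

section Generic

variable (A E : Type*) (F : Type*) {B : Type*} [CommRing A] [Field E] [CommRing B] [Field F]
  [Algebra A E] [Algebra B F] [Algebra A B] [Algebra E F] [Algebra A F]
  [IsScalarTower A E F] [IsScalarTower A B F]
  [IsFractionRing A E] [FiniteDimensional E F] [Algebra.IsSeparable E F] [IsIntegralClosure B A F]
  [IsDedekindDomain A] [IsDedekindDomain B] [IsFractionRing B F] [Module.IsTorsionFree A B]

include E in
/-- `e_w - 1 ≤ d_w` (exponent of the different), in every characteristic. -/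
theorem ramificationIdx_sub_one_le_count_differentIdeal (w : HeightOneSpectrum B) :
    (w.asIdeal.ramificationIdx A : ℤ) - 1 ≤
      count F w ((differentIdeal A B : Ideal B) : FractionalIdeal B⁰ F) := by
  have hfin : Module.Finite A B := IsIntegralClosure.finite A E F B
  have hd := differentIdeal_ne_bot' A E F B
  rw [count_differentIdeal A E F]
  set p : Ideal A := w.asIdeal.under A with hp
  have hint : Algebra.IsIntegral A B := Algebra.IsIntegral.of_finite A B
  have hpne : p ≠ ⊥ := mt Ideal.eq_bot_of_comap_eq_bot w.ne_bot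
  have hpmax : p.IsMaximal := Ideal.IsPrime.isMaximal inferInstance hpne
  set e := w.asIdeal.ramificationIdx A with he
  have hlo : w.asIdeal.LiesOver p := ⟨rfl⟩
  have hee : p.ramificationIdx' w.asIdeal = e :=
    Ideal.ramificationIdx'_eq_ramificationIdx p w.asIdeal hpne
  have hdvd : w.asIdeal ^ e ∣ p.map (algebraMap A B) := by
    rw [Ideal.dvd_iff_le, ← hee]
    exact Ideal.le_pow_ramificationIdx'
  have h1 : w.asIdeal ^ (e - 1) ∣ differentIdeal A B := by
    by_cases he0 : e = 0
    · rw [he0]; simp
    · exact pow_sub_one_dvd_differentIdeal_aux A E F w.asIdeal he0 hpne hdvd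
  have hfinmult : FiniteMultiplicity w.asIdeal (differentIdeal A B) := by
    apply FiniteMultiplicity.of_not_isUnit
    · intro hu
      exact w.isPrime.ne_top (Ideal.isUnit_iff.mp hu)
    · exact hd
  have h2 : e - 1 ≤ multiplicity w.asIdeal (differentIdeal A B) :=
    hfinmult.le_multiplicity_of_pow_dvd h1
  have : ((e - 1 : ℕ) : ℤ) ≤ (multiplicity w.asIdeal (differentIdeal A B) : ℤ) := by
    exact_mod_cast h2
  omega

end Generic

section ESetting

open AlgebraicCurve Polynomial
open Fermat.Agent.S20.RR.SerreDuality Fermat.Agent.S20.RR.Dictionary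
  Fermat.Agent.S20.RR.LineDataFrac Fermat.Agent.S24.ZD.PlaceLemmas

variable (K E F : Type*) [Field K] [Field E] [Field F]
  [Algebra K[X] E] [IsFractionRing K[X] E] [Algebra K E] [IsScalarTower K K[X] E]
  [Algebra K F] [Algebra E F] [IsScalarTower K E F] [FiniteDimensional E F]
  [Algebra.IsSeparable E F]

/-- At a place where `x` is regular the canonical divisor `W_x` is nonnegative. -/
theorem canonicalDiv_nonneg_of_mem {v : Place K F} (h : xF K E F ∈ v.toValuationSubring) :
    0 ≤ canonicalDiv K E F v := by
  rw [canonicalDiv_of_mem K E F h]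
  exact diffExp_nonneg _ _

/-- At a pole of `x`: `W_x(v) ≥ ord_v x - 1` (i.e. `d_v ≥ e_v - 1`). -/
theorem canonicalDiv_ge_of_pole {v : Place K F} (h : xF K E F ∉ v.toValuationSubring) :
    v.ord (xF K E F) - 1 ≤ canonicalDiv K E F v := by
  have hv := (mem_placesOver_inftyS_iff v).mpr h
  rw [canonicalDiv_of_not_mem K E F h, diffExp_eq_count_differentIdeal]
  have h1 := ramificationIdx_sub_one_le_count_differentIdeal ↥(inftyS K E) E F (primeOf v hv)
  have h2 := Fermat.Agent.S20.RR.Canonical.ramificationIdx_eq_neg_ord v hv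
  linarith

/-- The element `x - a` of `K[x]`. -/
def linR (a : K) : ↥(polyR K E) := polyEquiv K E (X - C a)

theorem algebraMap_linR (a : K) :
    algebraMap ↥(polyR K E) F (linR K E a) = xF K E F - algebraMap K F a := by
  change algebraMap E F ((polyEquiv K E (X - C a) : polyR K E) : E) = _
  rw [coe_polyEquiv, map_sub, map_sub, ← algebraMap_eq_C, ← IsScalarTower.algebraMap_apply K E F]
  rfl

theorem irreducible_linR (a : K) : Irreducible (linR K E a) :=
  (MulEquiv.irreducible_iff (polyEquiv K E)).mpr (irreducible_X_sub_C a)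

omit [Algebra.IsSeparable E F] [FiniteDimensional E F] in
theorem mem_of_ordAt_pos {B : Type*} [CommRing B] [IsDedekindDomain B] [Algebra B F]
    [IsFractionRing B F] (P : HeightOneSpectrum B) {b : B}
    (h : 0 < ordAt F P (algebraMap B F b)) : b ∈ P.asIdeal := by
  unfold ordAt at h
  rw [valuation_of_algebraMap] at h
  rw [← intValuation_lt_one_iff_mem]
  by_contra hcon
  rw [not_lt] at hcon
  have h1 : P.intValuation b = 1 := le_antisymm (P.intValuation_le_one b) hcon
  rw [h1] at h
  simp at h

/-- At a zero of `x - a`: `W_x(v) ≥ ord_v (x - a) - 1` (i.e. `d_v ≥ e_v - 1`). -/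
theorem canonicalDiv_ge_of_zero (a : K) {v : Place K F}
    (hv : 0 < v.ord (xF K E F - algebraMap K F a)) :
    v.ord (xF K E F - algebraMap K F a) - 1 ≤ canonicalDiv K E F v := by
  have hmem : xF K E F - algebraMap K F a ∈ v.toValuationSubring :=
    (mem_iff_ord v _).mpr (Or.inr hv.le)
  have h : xF K E F ∈ v.toValuationSubring := by
    have := add_mem hmem (v.algebraMap_mem' a)
    simpa using this
  have hv' := (mem_placesOver_polyR_iff v).mpr h
  rw [canonicalDiv_of_mem K E F h, diffExp_eq_count_differentIdeal]
  set P := primeOf v hv' with hP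
  have h1 := ramificationIdx_sub_one_le_count_differentIdeal ↥(polyR K E) E F P
  have hmax : (Ideal.span {linR K E a}).IsMaximal :=
    PrincipalIdealRing.isMaximal_of_irreducible (irreducible_linR K E a)
  let v' : HeightOneSpectrum ↥(polyR K E) := ⟨Ideal.span {linR K E a}, hmax.isPrime, by
    rw [Ne, Ideal.span_singleton_eq_bot]; exact (irreducible_linR K E a).ne_zero⟩
  have hord : v.ord (xF K E F - algebraMap K F a) =
      ordAt F P (algebraMap ↥(polyR K E) F (linR K E a)) := by
    rw [algebraMap_linR]; exact ord_eq_ordAt v hv' _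
  have hπP : algebraMap ↥(polyR K E) ↥(IntCl (F := F) (polyR K E)) (linR K E a) ∈ P.asIdeal := by
    apply mem_of_ordAt_pos (F := F)
    rw [← IsScalarTower.algebraMap_apply, ← hord]
    exact hv
  have hlo : P.asIdeal.LiesOver v'.asIdeal := by
    constructor
    have hle : Ideal.span {linR K E a} ≤ P.asIdeal.under ↥(polyR K E) := by
      rw [Ideal.span_singleton_le_iff_mem]; exact hπP
    exact hmax.eq_of_le (Ideal.comap_ne_top _ P.isPrime.ne_top) hle
  have h2 := ordAt_algebraMap_generator ↥(polyR K E) E F v' P rfl
  linarith [hord, h2]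

end ESetting

section XSetting

open AlgebraicCurve Polynomial IntermediateField Module
open Fermat.Agent.Lib.RiemannRoch Fermat.Agent.Lib.RiemannRoch.XSetting
open Fermat.Agent.S20.RR.SerreDuality Fermat.Agent.S20.RR.Dictionary
  Fermat.Agent.S24.ZD.PlaceLemmas

variable {K F : Type*} [Field K] [Field F] [Algebra K F] [IsAlgClosed K] {x : F}
  (hx : Transcendental K x) [FiniteDimensional K⟮x⟯ F] [Algebra.IsSeparable K⟮x⟯ F]

attribute [local instance] polyAlgebra

omit [IsAlgClosed K] [FiniteDimensional K⟮x⟯ F] [Algebra.IsSeparable K⟮x⟯ F] in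
include hx in
theorem sub_algebraMap_ne_zero (a : K) : x - algebraMap K F a ≠ 0 := by
  intro h
  rw [sub_eq_zero] at h
  exact hx (h ▸ isAlgebraic_algebraMap a)

include hx in
/-- **Hurwitz inequality** (any characteristic, wild ramification allowed).  Let `F / K(x)` be
finite separable of degree `n`, `K` algebraically closed, `S` a finite set of values in `K`, and
`T` a finite set of places containing all poles of `x` and all places where `x` takes a value in
`S`.  Then `(|S| - 1) n - |T| ≤ 2 g - 2`. -/
theorem two_genusFF_sub_two_ge (S : Finset K) (T : Finset (Place K F))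
    (hT : ∀ v : Place K F,
      (v.ord x < 0 ∨ ∃ a ∈ S, 0 < v.ord (x - algebraMap K F a)) → v ∈ T) :
    ((S.card : ℤ) - 1) * (finrank K⟮x⟯ F : ℤ) - (T.card : ℤ) ≤ 2 * (genusFF K F : ℤ) - 2 := by
  classical
  haveI := isFractionRing_polyAlgebra hx
  haveI := FunctionFieldRR.nonempty_place hx
  haveI : ∀ v : Place K F, v.FiniteResidue := FunctionField.finiteResidue K x
  haveI := FunctionFieldRR.hasPrincipalDivisors hx
  have hdeg1 : ∀ v : Place K F, v.deg = 1 := FunctionFieldRR.deg_eq_one x
  have hx0 : x ≠ 0 := by
    have := sub_algebraMap_ne_zero hx 0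
    simpa using this
  have hxF : xF K K⟮x⟯ F = x := xF_eq
  set W := canonicalDiv K K⟮x⟯ F with hW
  have hWdeg : Divisor.degree W = 2 * (genusFF K F : ℤ) - 2 := by
    rw [hW, RiemannRochSep.degree_canonicalDiv K K⟮x⟯ F,
      RiemannRochSep.finrank_zero_eq_one K F]
    simp
  -- the pole divisor of `x`
  obtain ⟨Dx, hDx⟩ := RiemannRochSep.exists_divisor_ord K K⟮x⟯ F x hx0
  set B : Divisor K F := 0 ⊔ -Dx with hBdef
  have hB : ∀ v : Place K F, B v = max 0 (-(v.ord x)) := fun v => by
    rw [hBdef, Finsupp.sup_apply, Finsupp.neg_apply, hDx v]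
    rfl
  have hBdeg : Divisor.degree B = finrank K⟮x⟯ F :=
    FunctionFieldDeg.degree_poles_eq_finrank x hx
      (Fermat.Agent.S20.RR.SerreDuality.finite_riemannRochSpace K K⟮x⟯ F 0)
      (RiemannRochSep.exists_divisor_ord K K⟮x⟯ F) hB
  -- the comparison divisor
  set Z : Divisor K F := W - ∑ a ∈ S, divOf (K := K) (x - algebraMap K F a) with hZ
  have hZdeg : Divisor.degree Z = Divisor.degree W := by
    rw [hZ, map_sub, map_sum]
    simp [degree_divOf]
  set T1 : Divisor K F := ∑ v ∈ T, Finsupp.single v 1 with hT1
  have hT1deg : Divisor.degree T1 = T.card := by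
    rw [hT1, map_sum]
    simp [Divisor.degree_single, hdeg1]
  have hZv : ∀ v : Place K F, Z v = W v - ∑ a ∈ S, v.ord (x - algebraMap K F a) := fun v => by
    rw [hZ, Finsupp.sub_apply, Finsupp.finsetSum_apply]
    congr 1
    exact Finset.sum_congr rfl fun a _ => divOf_apply (sub_algebraMap_ne_zero hx a) v
  have hT1v : ∀ v : Place K F, T1 v = if v ∈ T then 1 else 0 := fun v => by
    rw [hT1, Finsupp.finsetSum_apply]
    simp [Finsupp.single_apply]
  have key : ((S.card : ℤ) - 1) • B - T1 ≤ Z := by
    intro v
    rw [Finsupp.sub_apply, Finsupp.smul_apply, smul_eq_mul, hZv, hT1v, hB]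
    by_cases hpole : v.ord x < 0
    · -- a pole of `x`
      have hvT : v ∈ T := hT v (Or.inl hpole)
      have hnm : xF K K⟮x⟯ F ∉ v.toValuationSubring := by
        rw [hxF, mem_iff_ord]
        rintro (h | h)
        · exact hx0 h
        · omega
      have hWv := canonicalDiv_ge_of_pole K K⟮x⟯ F hnm
      rw [hxF] at hWv
      have hsum : ∑ a ∈ S, v.ord (x - algebraMap K F a) = (S.card : ℤ) * v.ord x := by
        rw [Finset.sum_congr rfl (g := fun _ => v.ord x), Finset.sum_const, nsmul_eq_mul]
        intro a _
        rw [sub_eq_add_neg]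
        refine Fermat.Agent.Lib.RiemannRoch.WeakApprox.ord_add_eq_of_lt v hx0 ?_
        by_cases ha : a = 0
        · left; simp [ha]
        · right
          rw [← map_neg, Fermat.Agent.S24.ord_algebraMap]
          exact hpole
      rw [if_pos hvT, hsum, max_eq_right (by omega)]
      have : W v = canonicalDiv K K⟮x⟯ F v := rfl
      nlinarith
    · rw [not_lt] at hpole
      have hmem : xF K K⟮x⟯ F ∈ v.toValuationSubring := by
        rw [hxF, mem_iff_ord]
        exact Or.inr hpole
      have hnn : ∀ a : K, 0 ≤ v.ord (x - algebraMap K F a) := by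
        intro a
        have h1 : x - algebraMap K F a ∈ v.toValuationSubring := by
          rw [← hxF]
          exact sub_mem hmem (v.algebraMap_mem' a)
        rcases (mem_iff_ord v _).mp h1 with h | h
        · exact absurd h (sub_algebraMap_ne_zero hx a)
        · exact h
      rw [max_eq_left (by omega), mul_zero, zero_sub]
      by_cases hz : ∃ a ∈ S, 0 < v.ord (x - algebraMap K F a)
      · have hvT : v ∈ T := hT v (Or.inr hz)
        obtain ⟨a, haS, ha⟩ := hz
        have hWv := canonicalDiv_ge_of_zero K K⟮x⟯ F a (v := v) (by rw [hxF]; exact ha)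
        rw [hxF] at hWv
        have hsum : ∑ b ∈ S, v.ord (x - algebraMap K F b) = v.ord (x - algebraMap K F a) := by
          refine Finset.sum_eq_single a (fun b _ hba => ?_) (fun h => absurd haS h)
          have e : x - algebraMap K F b =
              algebraMap K F (a - b) + (x - algebraMap K F a) := by
            rw [map_sub]; ring
          have hab : algebraMap K F (a - b) ≠ 0 := by
            rw [Ne, map_eq_zero, sub_eq_zero]
            exact fun h => hba h.symm
          rw [e, Fermat.Agent.Lib.RiemannRoch.WeakApprox.ord_add_eq_of_lt v hab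
            (Or.inr (by rw [Fermat.Agent.S24.ord_algebraMap]; exact ha)),
            Fermat.Agent.S24.ord_algebraMap]
        rw [if_pos hvT, hsum]
        have : W v = canonicalDiv K K⟮x⟯ F v := rfl
        linarith
      · push Not at hz
        have hsum : ∑ a ∈ S, v.ord (x - algebraMap K F a) = 0 :=
          Finset.sum_eq_zero fun a ha => le_antisymm (hz a ha) (hnn a)
        have hWv := canonicalDiv_nonneg_of_mem K K⟮x⟯ F hmem
        have : W v = canonicalDiv K K⟮x⟯ F v := rfl
        rw [hsum]
        split_ifs <;> linarith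
  have hfin := degree_mono key
  rw [map_sub, map_zsmul, hBdeg, hT1deg, hZdeg, hWdeg, smul_eq_mul] at hfin
  exact hfin

end XSetting

end Fermat.Agent.Gateway.GoodRed.HurwitzIneq
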