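import Fermat.Agent.Gateway.GoodRed.CuspPersist

/-!
# P-GATEWAY (c) GoodRed, WP-GR4b (abstract form): the (IGUSA) hypothesis of `CuspData.RedHyp`

* `indep_of_indep_of_combination`: exchange lemma over a domain.
* `CuspData.igusa_of_family`: if `n = [F : K]` elements of `F`, integral over `L[x]` and with
  `A`-integral expansions at all cusps, have `k[x̄]`-independent reductions at the cusp `i₀`, then the
  powers of `θ̄` are `k[x̄]`-independent at `i₀` (this is the `igusa` field of `CuspData.RedHyp`).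
  In the modular instantiation the family is the `ψ(M)` box monomials of P-S28
  (`Fermat.Agent.S28.Tower.hind_algClosed`).
-/

set_option autoImplicit false

noncomputable section

namespace Fermat.Agent.Gateway.GoodRed

open Polynomial Matrix Fermat.Agent.Gateway.Red

/-- **Exchange lemma** over a domain `R` acting on a ring `E` through `ev : R →+* E`: if `n`
elements `w μ`, independent over `R`, are `R`-combinations of `n` elements `v j`, then the `v j` are
independent over `R`. -/
theorem indep_of_indep_of_combination {R E : Type*} [CommRing R] [IsDomain R] [CommRing E]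
    (ev : R →+* E) {n : ℕ} (v w : Fin n → E) (C : Matrix (Fin n) (Fin n) R)
    (hw : ∀ μ, w μ = ∑ j, ev (C μ j) * v j)
    (hind : ∀ b : Fin n → R, ∑ μ, ev (b μ) * w μ = 0 → ∀ μ, b μ = 0)
    (a : Fin n → R) (ha : ∑ j, ev (a j) * v j = 0) : ∀ j, a j = 0 := by
  classical
  have key : ∀ b : Fin n → R, ∑ μ, ev (b μ) * w μ = ∑ j, ev ((b ᵥ* C) j) * v j := by
    intro b
    simp only [hw, Finset.mul_sum, Matrix.vecMul, dotProduct, map_sum, map_mul, Finset.sum_mul]
    rw [Finset.sum_comm]
    refine Finset.sum_congr rfl fun j _ => Finset.sum_congr rfl fun μ _ => ?_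
    ring
  have hdet : C.det ≠ 0 := by
    intro h0
    obtain ⟨b, hb, hbC⟩ := Matrix.exists_vecMul_eq_zero_iff.mpr h0
    apply hb
    funext μ
    refine hind b ?_ μ
    rw [key, hbC]
    simp
  set b := a ᵥ* C.adjugate with hb
  have hbC : b ᵥ* C = C.det • a := by
    rw [hb, Matrix.vecMul_vecMul, Matrix.adjugate_mul, Matrix.vecMul_smul, Matrix.vecMul_one]
  have hb0 : ∀ μ, b μ = 0 := by
    refine hind b ?_
    rw [key, hbC]
    simp only [Pi.smul_apply, smul_eq_mul, map_mul, mul_assoc]
    rw [← Finset.mul_sum, ha, mul_zero]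
  intro j
  have h1 : (b ᵥ* C) j = 0 := by
    have : b = 0 := funext hb0
    rw [this, Matrix.zero_vecMul]
    rfl
  rw [hbC, Pi.smul_apply, smul_eq_mul] at h1
  exact (mul_eq_zero.mp h1).resolve_left hdet

variable {L : Type*} [Field L] {A : ValuationSubring L} {k : Type*} [Field k] (π : A →+* k)
variable {K F : Type*} [Field K] [Field F] [Algebra L[X] K] [IsFractionRing L[X] K]
    [Algebra K F] [Algebra L[X] F] [IsScalarTower L[X] K F]

namespace CuspData

variable (D : CuspData A K F)

/-- **(IGUSA) from a family** (GR4b, abstract form): if `n = [F : K]` elements `m μ` of `F`, integral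
over `L[x]` with `A`-integral expansions at all cusps, have reductions at the cusp `i₀` which are
linearly independent over `k[x̄]`, then the powers `1, θ̄, …, θ̄^(n-1)` are linearly independent over
`k[x̄]` at `i₀`. -/
theorem igusa_of_family [FiniteDimensional K F] [Algebra.IsSeparable K F] (i₀ : Fin D.pb.dim)
    (m : Fin D.pb.dim → F) (hm : ∀ μ, IsIntegral L[X] (m μ))
    (hσ : ∀ μ i, D.σ i (m μ) ∈ intLS A)
    (g₀ : Fin D.pb.dim → LaurentSeries A) (hg₀ : ∀ μ, D.σ i₀ (m μ) = embA A (g₀ μ))
    (hind : ∀ b : Fin D.pb.dim → k[X],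
      ∑ μ, aeval (redA A π D.ξ) (b μ) * redA A π (g₀ μ) = 0 → ∀ μ, b μ = 0)
    (c : Fin D.pb.dim → k[X])
    (hc : ∑ j, aeval (redA A π D.ξ) (c j) * redA A π (D.t i₀) ^ (j : ℕ) = 0) : ∀ j, c j = 0 := by
  have hlag : ∀ μ, ∃ cμ : Fin D.pb.dim → A[X],
      algebraMap K F (Algebra.discr K D.pb.basis) * m μ =
        ∑ j, algebraMap L[X] F (polyEmb A (cμ j)) * D.pb.gen ^ (j : ℕ) :=
    fun μ => D.lagrange (hm μ) (hσ μ)
  choose cc hcc using hlag
  have hrel : ∀ μ, redA A π D.disc * redA A π (g₀ μ) =
      ∑ j, aeval (redA A π D.ξ) ((cc μ j).map π) * redA A π (D.t i₀) ^ (j : ℕ) := by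
    intro μ
    have h1 := congrArg (D.σ i₀) (hcc μ)
    rw [map_mul, D.σ_discr, D.σ_sum, hg₀, ← map_mul] at h1
    have h2 := congrArg (redA A π) (embA_injective A h1)
    rw [map_mul, D.redA_sum] at h2
    exact h2
  refine indep_of_indep_of_combination
    ((aeval (redA A π D.ξ) : k[X] →ₐ[k] LaurentSeries k) : k[X] →+* LaurentSeries k)
    (fun j => redA A π (D.t i₀) ^ (j : ℕ)) (fun μ => redA A π D.disc * redA A π (g₀ μ))
    (Matrix.of fun μ j => (cc μ j).map π) (fun μ => ?_) (fun b hb => ?_) c ?_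
  · rw [hrel μ]
    rfl
  · refine hind b ?_
    have h3 : redA A π D.disc * ∑ μ, aeval (redA A π D.ξ) (b μ) * redA A π (g₀ μ) = 0 := by
      rw [← hb, Finset.mul_sum]
      refine Finset.sum_congr rfl fun μ _ => ?_
      simp only [RingHom.coe_coe]
      ring
    exact (mul_eq_zero.mp h3).resolve_left (D.redA_disc_ne_zero π)
  · exact hc

end CuspData

end Fermat.Agent.Gateway.GoodRed
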