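import Fermat.Agent.S28.Crux.Final
import Fermat.Agent.S28.ModEq.Final
import Fermat.Agent.S28.Hauptmodul.H2Haupt
import Fermat.Agent.S28.Hauptmodul.Hauptmodul3
import Fermat.Agent.S28.Tower.Hind
import Fermat.Agent.S28.Tower.SpanConvert
import Fermat.Agent.S28.Tower.CharZero
import Fermat.Agent.S28.Tower.CharZeroIntegral
import Fermat.Agent.S28.Tower.BAdapter

/-!
# P-GATEWAY (c), GoodRed: the two unconditional inputs from P-S28

* `full_span_poly` : every element `y` of the level-`N` function field over `ℚ` satisfies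
  `Q(j) y = ∑_{μ ∈ box N} P_μ(j) ev μ` with integer polynomials, `Q ≠ 0`;
* `box_indepMod` : over an algebraically closed field `k` of characteristic `ℓ ∤ N` the box
  monomials `ev k μ` are linearly independent over `k[j]`.
-/

set_option autoImplicit false

noncomputable section

namespace Fermat.Agent.Gateway.GoodRed

open Polynomial ModularCurve Fermat.Agent.S28 Fermat.Agent.S28.Tower

/-- the family of modular polynomials (private copy of the S28 glue). -/
def gΦ (p : ℕ) : ℤ[X][X] :=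
  if h : p.Prime then (haveI : NeZero p := ⟨h.ne_zero⟩; (ModEq.modularEquation p h).Φ) else 0

theorem gΦ_spec {p : ℕ} (hp : p.Prime) :
    haveI : NeZero p := ⟨hp.ne_zero⟩
    gΦ p = (ModEq.modularEquation p hp).Φ := by
  unfold gΦ
  rw [dif_pos hp]

/-- **(U1)** polynomial form of the spanning statement over `ℚ`. -/
theorem full_span_poly (N : ℕ) [NeZero N] {y : LaurentSeries ℚ}
    (hy : y ∈ modularFunctionFieldFull N) :
    ∃ Q : ℤ[X], Q ≠ 0 ∧ ∃ P : box N → ℤ[X],
      aeval jq Q * y = ∑ μ : box N, aeval jq (P μ) * ev ℚ (μ : ℕ →₀ ℕ) := by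
  have hN0 : N ≠ 0 := NeZero.ne N
  have hΦ0 : ∀ p, p.Prime → p ∣ N → (gΦ p).Monic ∧ (gΦ p).natDegree = p + 1 ∧
      IsModEq (gΦ p) p ℂ := by
    intro p hp _
    haveI : NeZero p := ⟨hp.ne_zero⟩
    rw [gΦ_spec hp]
    exact ⟨(ModEq.modularEquation p hp).monic, (ModEq.modularEquation p hp).natDegree_eq,
      isModEq_of_modularEquation _ _⟩
  have hroots : ∀ p, p.Prime → p ∣ N → ∃ ζ : ℂˣ, IsPrimitiveRoot ζ p := by
    intro p hp _
    have hpC : ((p : ℕ) : ℂ) ≠ 0 := by exact_mod_cast hp.ne_zero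
    exact exists_primitiveRoot_unit (k := ℂ) p hpC
  exact exists_poly_of_mem_span N (full_le_span hN0 gΦ hΦ0 hroots y hy)

/-- the box monomials lie in the level-`N` function field. -/
theorem ev_mem_full' (N : ℕ) [NeZero N] (μ : box N) :
    ev ℚ (μ : ℕ →₀ ℕ) ∈ modularFunctionFieldFull N := ev_mem_full N μ.2

/-- **(U2)** independence of the box monomials modulo `ℓ`. -/
theorem box_indepMod {k : Type} [Field k] [IsAlgClosed k] (ℓ : ℕ) [Fact ℓ.Prime] [CharP k ℓ]
    {N : ℕ} (hℓN : ¬ ℓ ∣ N) (c : box N → k[X])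
    (h : ∑ μ : box N, aeval (jqModC k) (c μ) * ev k (μ : ℕ →₀ ℕ) = 0) : ∀ μ, c μ = 0 := by
  have hℓ : ℓ.Prime := Fact.out
  have hN0 : N ≠ 0 := by
    rintro rfl
    exact hℓN (dvd_zero _)
  have hNk : (N : k) ≠ 0 := by
    rw [Ne, CharP.cast_eq_zero_iff k ℓ]; exact hℓN
  have hcrux : ∀ (p : ℕ) [NeZero p], p.Prime → p ≠ ℓ →
      qExpand k p (jqModC k) ∉ IntermediateField.adjoin k {jqModC k} := fun p _ hp hpℓ =>
    qExpand_jqModC_not_mem_adjoin ℓ p hp hpℓ (fun q _ hq => ModEq.modularEquation q hq)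
      hauptmodul2 hauptmodul3
  have hΦl : ∀ p, p.Prime → p ∣ N → (gΦ p).Monic ∧ (gΦ p).natDegree = p + 1 ∧
      IsModEq (gΦ p) p k ∧ Irreducible (polyAt (gΦ p) (gen₀ k N)) := by
    intro p hp hpN
    haveI : NeZero p := ⟨hp.ne_zero⟩
    have hpℓ : p ≠ ℓ := by
      rintro rfl
      exact hℓN hpN
    have hpk : ((p : ℕ) : k) ≠ 0 := by
      intro h0
      have := (CharP.cast_eq_zero_iff k ℓ p).mp h0
      exact hpℓ ((Nat.prime_dvd_prime_iff_eq hℓ hp).mp this).symm
    obtain ⟨z, hz⟩ := exists_primitiveRoot_unit (k := k) p hpk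
    rw [gΦ_spec hp]
    exact ⟨(ModEq.modularEquation p hp).monic, (ModEq.modularEquation p hp).natDegree_eq,
      isModEq_of_modularEquation _ _, irreducible_polyAt_gen₀ _ z hz hN0 (hcrux p hp hpℓ)⟩
  exact hind_algClosed gΦ hNk hΦl c h

end Fermat.Agent.Gateway.GoodRed
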