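import Fermat.Agent.Gateway.GoodRed.SumEmb
import Fermat.Agent.S28.Laurent

set_option autoImplicit false

/-!
# The `t`-line data for `GoodRed/SumEmb` (abstract part)

* `tExp π hπ o : RatFunc k →+* k⸨X⸩`: the expansion of the `t`-line at the base cusp `o`
  (`none = ∞`) with local parameter `π o`: `t ↦ a + π (some a)` resp. `t ↦ (π none)⁻¹`.
* `exists_branch_of_root`: an embedding `s : E → k⸨z⸩` with `P (s t) = jz * Q (s t)` restricts to
  one of the branches, as soon as all the `∑ e o` branches are roots of `P - jz * Q` and this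
  polynomial has degree at most `∑ e o`.
* `card_eq_mul_finrank`: the count needed by `sum_res_family_eq_zero`.
-/

namespace Fermat.Agent.Gateway.GoodRed

open HahnSeries LaurentSeries ModularCurve Fermat.Agent.Lib.Residue Fermat.Agent.S28

section ExpHom

variable {k : Type*} [Field k]

/-- The ring homomorphism `k(t) → k⸨X⸩`, `t ↦ s`, for a transcendental (= non-constant) series
`s`. -/
noncomputable def expHom (s : k⸨X⸩) (hs : Transcendental k s) : RatFunc k →+* k⸨X⸩ :=
  ((IntermediateField.val _).comp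
    (RatFunc.algEquivOfTranscendental s hs).toAlgHom : RatFunc k →ₐ[k] k⸨X⸩).toRingHom

theorem expHom_X (s : k⸨X⸩) (hs : Transcendental k s) : expHom s hs RatFunc.X = s := by
  change ((RatFunc.algEquivOfTranscendental s hs) RatFunc.X : k⸨X⸩) = s
  rw [RatFunc.algEquivOfTranscendental_X]

theorem expHom_C (s : k⸨X⸩) (hs : Transcendental k s) (c : k) :
    expHom s hs (RatFunc.C c) = HahnSeries.C c := by
  have h1 : (RatFunc.C c : RatFunc k) = algebraMap k (RatFunc k) c := rfl
  rw [h1]
  change (((IntermediateField.val _).comp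
    (RatFunc.algEquivOfTranscendental s hs).toAlgHom : RatFunc k →ₐ[k] k⸨X⸩))
      (algebraMap k (RatFunc k) c) = _
  rw [AlgHom.commutes, C_eq_algebraMap_laurent]

theorem expHom_algebraMap (s : k⸨X⸩) (hs : Transcendental k s) (p : Polynomial k) :
    expHom s hs (algebraMap (Polynomial k) (RatFunc k) p) = Polynomial.aeval s p := by
  change ((RatFunc.algEquivOfTranscendental s hs)
    (algebraMap (Polynomial k) (RatFunc k) p) : k⸨X⸩) = _
  rw [RatFunc.algEquivOfTranscendental_algebraMap]
  simp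

theorem transcendental_of_coeff_ne_zero {s : k⸨X⸩} {n : ℤ} (hn : n ≠ 0) (h : s.coeff n ≠ 0) :
    Transcendental k s := by
  intro halg
  obtain ⟨c, rfl⟩ := isAlgebraic_iff_exists_eq_C.mp halg
  rw [HahnSeries.C_apply, HahnSeries.coeff_single_of_ne hn] at h
  exact h rfl

/-- The value of `t` at the base cusp `o` in terms of the local parameter. -/
noncomputable def tVal (π : Option k → k⸨X⸩) : Option k → k⸨X⸩
  | none => (π none)⁻¹
  | some a => HahnSeries.C a + π (some a)

theorem transcendental_tVal (π : Option k → k⸨X⸩) (hπ : ∀ o, IsParam (π o)) (o : Option k) :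
    Transcendental k (tVal π o) := by
  cases o with
  | none => exact transcendental_of_coeff_ne_zero (by norm_num) (isParam_coeff_inv_ne_zero (hπ none))
  | some a =>
    apply transcendental_of_coeff_ne_zero (n := 1) one_ne_zero
    rw [tVal, HahnSeries.coeff_add, HahnSeries.C_apply,
      HahnSeries.coeff_single_of_ne one_ne_zero, zero_add]
    exact isParam_coeff_one_ne_zero (hπ (some a))

/-- The expansion of the `t`-line at the base cusp `o`. -/
noncomputable def tExp (π : Option k → k⸨X⸩) (hπ : ∀ o, IsParam (π o)) (o : Option k) :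
    RatFunc k →+* k⸨X⸩ :=
  expHom (tVal π o) (transcendental_tVal π hπ o)

theorem tExp_C (π : Option k → k⸨X⸩) (hπ : ∀ o, IsParam (π o)) (o : Option k) (c : k) :
    tExp π hπ o (RatFunc.C c) = HahnSeries.C c := expHom_C _ _ c

theorem tExp_X_some (π : Option k → k⸨X⸩) (hπ : ∀ o, IsParam (π o)) (a : k) :
    tExp π hπ (some a) RatFunc.X = HahnSeries.C a + π (some a) := expHom_X _ _

theorem tExp_X_none (π : Option k → k⸨X⸩) (hπ : ∀ o, IsParam (π o)) :
    tExp π hπ none RatFunc.X = (π none)⁻¹ := expHom_X _ _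

theorem tExp_algebraMap (π : Option k → k⸨X⸩) (hπ : ∀ o, IsParam (π o)) (o : Option k)
    (p : Polynomial k) :
    tExp π hπ o (algebraMap (Polynomial k) (RatFunc k) p) = Polynomial.aeval (tVal π o) p :=
  expHom_algebraMap _ _ p

end ExpHom

section Cover

variable {k : Type*} [Field k] {E : Type*} [Field E] [Algebra (RatFunc k) E]
  (S : Finset k) (ε : Option k → RatFunc k →+* k⸨X⸩) (π : Option k → k⸨X⸩)
  (hC : ∀ o ∈ Finset.insertNone S, ∀ c : k, ε o (RatFunc.C c) = HahnSeries.C c)
  (hπ : ∀ o ∈ Finset.insertNone S, IsParam (π o))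
  (hε : ∀ a ∈ S, ε (some a) RatFunc.X = HahnSeries.C a + π (some a))
  (hεinf : ε none RatFunc.X = (π none)⁻¹)
  (e m : Option k → ℕ) [∀ o, NeZero (m o)] (M : ℕ)
  (hem : ∀ o ∈ Finset.insertNone S, e o * m o = M) (ζ : kˣ) (hζ : IsPrimitiveRoot ζ M)

include hC in
theorem branch_C {o : Option k} (ho : o ∈ Finset.insertNone S) (b : ℕ)
    (c : k) : branch ε m ζ o b (RatFunc.C c) = HahnSeries.C c := by
  rw [branch_apply, hC o ho, qExpand_C, twist_C]

include hC hπ hε hεinf hem hζ in
open scoped Classical in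
/-- **Cover by root counting.**  If all the branches are roots of `P - jz * Q ∈ k⸨z⸩[T]`, a
nonzero polynomial of degree at most the number `∑ e o` of branches, then every embedding `s`
with `P (s t) = jz * Q (s t)` (i.e. `s (J(t)) = jz`) restricts to a branch on `k(t)`. -/
theorem exists_branch_of_root (P Q : Polynomial k) (jz : k⸨X⸩)
    (hbranch : ∀ i ∈ branchIndex S e,
      Polynomial.aeval (branch ε m ζ i.1 i.2 RatFunc.X) P =
        jz * Polynomial.aeval (branch ε m ζ i.1 i.2 RatFunc.X) Q)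
    (hne : P.map (algebraMap k k⸨X⸩) - Polynomial.C jz * Q.map (algebraMap k k⸨X⸩) ≠ 0)
    (hdeg : (P.map (algebraMap k k⸨X⸩) - Polynomial.C jz * Q.map (algebraMap k k⸨X⸩)).natDegree ≤
      ∑ o ∈ Finset.insertNone S, e o)
    (s : E →+* k⸨X⸩)
    (hsC : ∀ c : k, s (algebraMap (RatFunc k) E (RatFunc.C c)) = HahnSeries.C c)
    (hs : Polynomial.aeval (s (algebraMap (RatFunc k) E RatFunc.X)) P =
      jz * Polynomial.aeval (s (algebraMap (RatFunc k) E RatFunc.X)) Q) :
    ∃ o ∈ Finset.insertNone S, ∃ b < e o,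
      s.comp (algebraMap (RatFunc k) E) = branch ε m ζ o b := by
  set F : Polynomial k⸨X⸩ :=
    P.map (algebraMap k k⸨X⸩) - Polynomial.C jz * Q.map (algebraMap k k⸨X⸩) with hF
  have hroot : ∀ x : k⸨X⸩, Polynomial.aeval x P = jz * Polynomial.aeval x Q → x ∈ F.roots := by
    intro x hx
    rw [Polynomial.mem_roots hne, Polynomial.IsRoot.def, hF, Polynomial.eval_sub,
      Polynomial.eval_mul, Polynomial.eval_C, Polynomial.eval_map_algebraMap,
      Polynomial.eval_map_algebraMap, hx, sub_self]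
  set B : Finset k⸨X⸩ := (branchIndex S e).image fun i => branch ε m ζ i.1 i.2 RatFunc.X with hB
  have hBcard : B.card = ∑ o ∈ Finset.insertNone S, e o := by
    rw [hB, Finset.card_image_of_injOn (branch_X_injOn S ε π hπ hε hεinf e m M hem ζ hζ),
      card_branchIndex]
  have hBsub : B ⊆ F.roots.toFinset := by
    intro x hx
    obtain ⟨i, hi, rfl⟩ := Finset.mem_image.mp hx
    exact Multiset.mem_toFinset.mpr (hroot _ (hbranch i hi))
  have hcard : F.roots.toFinset.card ≤ B.card := by
    rw [hBcard]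
    exact (Multiset.toFinset_card_le _).trans ((Polynomial.card_roots' F).trans hdeg)
  have hBeq : B = F.roots.toFinset := Finset.eq_of_subset_of_card_le hBsub hcard
  have hmem : s (algebraMap (RatFunc k) E RatFunc.X) ∈ B := by
    rw [hBeq]
    exact Multiset.mem_toFinset.mpr (hroot _ hs)
  obtain ⟨⟨o, b⟩, hi, hib⟩ := Finset.mem_image.mp hmem
  obtain ⟨ho, hb⟩ := mem_branchIndex.mp hi
  refine ⟨o, ho, b, hb, ?_⟩
  apply ratFunc_ringHom_ext
  · intro c
    rw [RingHom.comp_apply, hsC, branch_C S ε hC m ζ ho]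
  · rw [RingHom.comp_apply]
    exact hib.symm

end Cover

section Count

open Module IntermediateField

/-- Tower count: if `T` is a set of embeddings of `Kt` extending one embedding of `K`, with at
least `[Kt : K]` elements, then `[E : K] = #T * [E : Kt]`. -/
theorem finrank_eq_card_mul_finrank {K Kt E L : Type*} [Field K] [Field Kt] [Field E] [Field L]
    [Algebra K Kt] [Algebra Kt E] [Algebra K E] [IsScalarTower K Kt E] [FiniteDimensional K Kt]
    (τ0 : K →+* L) (T : Finset (Kt →+* L))
    (hT : ∀ τ ∈ T, τ.comp (algebraMap K Kt) = τ0) (hle : finrank K Kt ≤ T.card) :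
    finrank K E = T.card * finrank Kt E := by
  have h1 : T.card = finrank K Kt := le_antisymm (card_extensions_le τ0 T hT) hle
  rw [h1, Module.finrank_mul_finrank]

variable {k : Type*} [Field k] {K : Type*} [Field K] [Algebra k K] [Algebra K (RatFunc k)]
  [IsScalarTower k K (RatFunc k)]

theorem adjoin_X_eq_top_of_tower : K⟮(RatFunc.X : RatFunc k)⟯ = ⊤ := by
  rw [eq_top_iff]
  intro g _
  rw [mem_adjoin_simple_iff]
  refine ⟨g.num.map (algebraMap k K), g.denom.map (algebraMap k K), ?_⟩
  rw [Polynomial.aeval_map_algebraMap, Polynomial.aeval_map_algebraMap]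
  simp

/-- `k(t)` is finite over any field `K ⊇ k` over which `t` is algebraic, of degree at most the
degree of any nonzero polynomial over `K` vanishing at `t`. -/
theorem finrank_ratFunc_le (F : Polynomial K) (hF0 : F ≠ 0)
    (hF : Polynomial.aeval (RatFunc.X : RatFunc k) F = 0) :
    FiniteDimensional K (RatFunc k) ∧ finrank K (RatFunc k) ≤ F.natDegree := by
  have halg : IsAlgebraic K (RatFunc.X : RatFunc k) := ⟨F, hF0, hF⟩
  have hint : IsIntegral K (RatFunc.X : RatFunc k) := halg.isIntegral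
  have htop : K⟮(RatFunc.X : RatFunc k)⟯ = ⊤ := adjoin_X_eq_top_of_tower
  have hfd : FiniteDimensional K K⟮(RatFunc.X : RatFunc k)⟯ := adjoin.finiteDimensional hint
  have e : K⟮(RatFunc.X : RatFunc k)⟯ ≃ₐ[K] RatFunc k := (equivOfEq htop).trans topEquiv
  refine ⟨e.toLinearEquiv.finiteDimensional, ?_⟩
  rw [← e.toLinearEquiv.finrank_eq, adjoin.finrank hint]
  exact Polynomial.natDegree_le_natDegree (minpoly.degree_le_of_ne_zero K _ hF0 hF)

end Count

section CountBranches

open Module

variable {k : Type*} [Field k] {K E : Type*} [Field K] [Field E] [Algebra k K]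
  [Algebra K (RatFunc k)] [IsScalarTower k K (RatFunc k)] [Algebra (RatFunc k) E] [Algebra K E]
  [IsScalarTower K (RatFunc k) E]
  (S : Finset k) (ε : Option k → RatFunc k →+* k⸨X⸩) (π : Option k → k⸨X⸩)
  (hπ : ∀ o ∈ Finset.insertNone S, IsParam (π o))
  (hε : ∀ a ∈ S, ε (some a) RatFunc.X = HahnSeries.C a + π (some a))
  (hεinf : ε none RatFunc.X = (π none)⁻¹)
  (e m : Option k → ℕ) [∀ o, NeZero (m o)] (M : ℕ)
  (hem : ∀ o ∈ Finset.insertNone S, e o * m o = M) (ζ : kˣ) (hζ : IsPrimitiveRoot ζ M)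

include hπ hε hεinf hem hζ in
open scoped Classical in
/-- **The count.**  If all branches restrict to the same embedding `τ0` of a subfield `K ⊇ k` of
`k(t)` over which `t` is a root of a nonzero polynomial of degree at most `∑ e o`, then
`[E : K] = (∑ e o) * [E : k(t)]`. -/
theorem finrank_eq_sum_mul_finrank (τ0 : K →+* k⸨X⸩)
    (hτ0 : ∀ i ∈ branchIndex S e,
      (branch ε m ζ i.1 i.2).comp (algebraMap K (RatFunc k)) = τ0)
    (F : Polynomial K) (hF0 : F ≠ 0) (hF : Polynomial.aeval (RatFunc.X : RatFunc k) F = 0)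
    (hFd : F.natDegree ≤ ∑ o ∈ Finset.insertNone S, e o) :
    finrank K E = (∑ o ∈ Finset.insertNone S, e o) * finrank (RatFunc k) E := by
  obtain ⟨hfd, hle⟩ := finrank_ratFunc_le F hF0 hF
  have hcard : ((branchIndex S e).image fun i => branch ε m ζ i.1 i.2).card =
      ∑ o ∈ Finset.insertNone S, e o := by
    rw [Finset.card_image_of_injOn (branch_injOn S ε π hπ hε hεinf e m M hem ζ hζ),
      card_branchIndex]
  rw [← hcard]
  refine finrank_eq_card_mul_finrank τ0 _ ?_ (by rw [hcard]; exact hle.trans hFd)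
  intro τ hτ
  obtain ⟨i, hi, rfl⟩ := Finset.mem_image.mp hτ
  exact hτ0 i hi

end CountBranches

section BranchRelation

variable {k : Type*} [Field k]
  (S : Finset k) (ε : Option k → RatFunc k →+* k⸨X⸩)
  (e m : Option k → ℕ) [∀ o, NeZero (m o)] (ζ : kˣ)

theorem twist_pow_eq_self {jz : k⸨X⸩} (hjz : twist ζ jz = jz) (b : ℕ) :
    twist (ζ ^ b) jz = jz := by
  induction b with
  | zero => rw [pow_zero, twist_one]
  | succ b ih => rw [pow_succ, ← twist_twist, hjz, ih]

/-- Ring endomorphisms of `k⸨X⸩` fixing the constants commute with polynomial evaluation. -/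
theorem aeval_map_of_fix_C (τ : k⸨X⸩ →+* k⸨X⸩) (hτ : ∀ c : k, τ (HahnSeries.C c) = HahnSeries.C c)
    (P : Polynomial k) (y : k⸨X⸩) : Polynomial.aeval (τ y) P = τ (Polynomial.aeval y P) := by
  rw [Polynomial.aeval_def, Polynomial.aeval_def, Polynomial.hom_eval₂]
  congr 1
  ext c
  rw [RingHom.comp_apply, ← C_eq_algebraMap_laurent, hτ]

/-- The relation `P(t) = j * Q(t)` at the base cusps propagates to all branches. -/
theorem aeval_branch_eq (P Q : Polynomial k) (jz : k⸨X⸩) (hjz : twist ζ jz = jz)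
    (hrel : ∀ o ∈ Finset.insertNone S, ∃ jo : k⸨X⸩, qExpand k (m o) jo = jz ∧
      Polynomial.aeval (ε o RatFunc.X) P = jo * Polynomial.aeval (ε o RatFunc.X) Q) :
    ∀ i ∈ branchIndex S e,
      Polynomial.aeval (branch ε m ζ i.1 i.2 RatFunc.X) P =
        jz * Polynomial.aeval (branch ε m ζ i.1 i.2 RatFunc.X) Q := by
  rintro ⟨o, b⟩ hi
  obtain ⟨ho, -⟩ := mem_branchIndex.mp hi
  obtain ⟨jo, hjo, hPQ⟩ := hrel o ho
  have hτ : ∀ c : k, ((twist (ζ ^ b)).comp (qExpand k (m o))) (HahnSeries.C c) = HahnSeries.C c :=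
    fun c => by rw [RingHom.comp_apply, qExpand_C, twist_C]
  have hb : branch ε m ζ o b RatFunc.X =
      ((twist (ζ ^ b)).comp (qExpand k (m o))) (ε o RatFunc.X) := rfl
  change Polynomial.aeval (branch ε m ζ o b RatFunc.X) P =
    jz * Polynomial.aeval (branch ε m ζ o b RatFunc.X) Q
  rw [hb, aeval_map_of_fix_C _ hτ, aeval_map_of_fix_C _ hτ, hPQ, map_mul, RingHom.comp_apply,
    hjo, twist_pow_eq_self ζ hjz]

end BranchRelation

section Integrality

open Polynomial

/-- If `j = P(t) / Q(t)` and `g` is integral over `k[j]`, then `Q(t) ^ n * g` is integral over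
`k[t]` for some `n`. -/
theorem exists_isIntegral_pow_mul_of_isIntegral_adjoin {k E : Type*} [Field k] [Field E]
    [Algebra k E] [Algebra k[X] E] [IsScalarTower k k[X] E] (P Q : k[X])
    (hQ : algebraMap k[X] E Q ≠ 0) (jE : E)
    (hj : jE * algebraMap k[X] E Q = algebraMap k[X] E P) (g : E)
    (hg : IsIntegral (Algebra.adjoin k {jE}) g) :
    ∃ n : ℕ, IsIntegral k[X] (algebraMap k[X] E (Q ^ n) * g) := by
  classical
  have hunit : IsUnit (algebraMap k[X] E Q) := hQ.isUnit
  let φ : Localization.Away Q →+* E := IsLocalization.Away.lift Q hunit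
  have hφ : ∀ x : k[X], φ (algebraMap k[X] (Localization.Away Q) x) = algebraMap k[X] E x :=
    fun x => IsLocalization.Away.lift_eq Q hunit x
  let _ : Algebra (Localization.Away Q) E := φ.toAlgebra
  have htower : IsScalarTower k[X] (Localization.Away Q) E :=
    IsScalarTower.of_algebraMap_eq fun x => (hφ x).symm
  -- `k[j]` lies in the image of the localization
  have hjmem : jE ∈ φ.range := by
    refine ⟨algebraMap k[X] (Localization.Away Q) P * IsLocalization.Away.invSelf Q, ?_⟩
    have h1 : φ (algebraMap k[X] (Localization.Away Q) Q) * φ (IsLocalization.Away.invSelf Q) = 1 := by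
      rw [← map_mul, IsLocalization.Away.mul_invSelf, map_one]
    rw [hφ] at h1
    rw [map_mul, hφ, ← hj, mul_assoc, h1, mul_one]
  have hsub : ∀ x ∈ Algebra.adjoin k {jE}, x ∈ φ.range := by
    intro x hx
    induction hx using Algebra.adjoin_induction with
    | mem y hy =>
      rw [Set.mem_singleton_iff] at hy
      rw [hy]; exact hjmem
    | algebraMap c =>
      refine ⟨algebraMap k[X] (Localization.Away Q) (Polynomial.C c), ?_⟩
      rw [hφ, IsScalarTower.algebraMap_apply k k[X] E]
      rfl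
    | add _ _ _ _ h1 h2 => exact φ.range.add_mem h1 h2
    | mul _ _ _ _ h1 h2 => exact φ.range.mul_mem h1 h2
  have hgRm : IsIntegral (Localization.Away Q) g := by
    obtain ⟨p, hp, hpg⟩ := hg
    have hlift : p.map (algebraMap (Algebra.adjoin k {jE}) E) ∈ Polynomial.lifts φ := by
      rw [Polynomial.lifts_iff_coeff_lifts]
      intro n
      rw [Polynomial.coeff_map]
      exact hsub _ (p.coeff n).2
    obtain ⟨q, hq, -, hqm⟩ :=
      Polynomial.lifts_and_natDegree_eq_and_monic hlift (hp.map _)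
    refine ⟨q, hqm, ?_⟩
    change Polynomial.eval₂ φ g q = 0
    rw [← Polynomial.eval_map, hq, Polynomial.eval_map]
    exact hpg
  obtain ⟨⟨_, n, rfl⟩, hm⟩ :=
    IsIntegral.exists_multiple_integral_of_isLocalization (Submonoid.powers Q) g hgRm
  refine ⟨n, ?_⟩
  rwa [Submonoid.smul_def, Algebra.smul_def] at hm

end Integrality

section TraceShape

open Polynomial

variable {k E : Type*} [Field k] [Field E] [Algebra k[X] E]

/-- Pass from a power of `Q` to a power of `∏ (t - a)` when `Q` divides such a power. -/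
theorem exists_isIntegral_prod_pow_mul (S : Finset k) (Q : k[X]) (r : ℕ)
    (hQr : Q ∣ (∏ a ∈ S, (Polynomial.X - Polynomial.C a)) ^ r) (g : E)
    (h : ∃ n : ℕ, IsIntegral k[X] (algebraMap k[X] E (Q ^ n) * g)) :
    ∃ N : ℕ, IsIntegral k[X] (algebraMap k[X] E ((∏ a ∈ S, (Polynomial.X - Polynomial.C a)) ^ N) * g) := by
  obtain ⟨n, hn⟩ := h
  obtain ⟨c, hc⟩ := hQr
  refine ⟨r * n, ?_⟩
  rw [pow_mul, hc, mul_pow, mul_comm (Q ^ n), map_mul, mul_assoc]
  exact IsIntegral.mul isIntegral_algebraMap hn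

variable [Algebra k E] [IsScalarTower k k[X] E] [Algebra (RatFunc k) E]
  [IsScalarTower k[X] (RatFunc k) E] [FiniteDimensional (RatFunc k) E]

/-- **Shape of the trace.**  If `j = P(t) / Q(t)` with `Q` dividing a power of `∏_{a ∈ S} (t - a)`
and `g` is integral over `k[j]`, then `Tr_{E/k(t)} g = f / ∏_{a ∈ S} (t - a) ^ N`. -/
theorem exists_trace_eq_of_isIntegral_adjoin (S : Finset k) (P Q : k[X]) (hQ0 : Q ≠ 0) (r : ℕ)
    (hQr : Q ∣ (∏ a ∈ S, (Polynomial.X - Polynomial.C a)) ^ r) (jE : E)
    (hj : jE * algebraMap k[X] E Q = algebraMap k[X] E P) (g : E)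
    (hg : IsIntegral (Algebra.adjoin k {jE}) g) :
    ∃ (f : k[X]) (N : ℕ), Algebra.trace (RatFunc k) E g =
      algebraMap k[X] (RatFunc k) f * ∏ a ∈ S, (RatFunc.X - RatFunc.C a)⁻¹ ^ N := by
  have hQE : algebraMap k[X] E Q ≠ 0 := by
    rw [IsScalarTower.algebraMap_apply k[X] (RatFunc k) E, Ne, map_eq_zero,
      map_eq_zero_iff _ (IsFractionRing.injective k[X] (RatFunc k))]
    exact hQ0
  obtain ⟨N, hN⟩ := exists_isIntegral_prod_pow_mul S Q r hQr g
    (exists_isIntegral_pow_mul_of_isIntegral_adjoin P Q hQE jE hj g hg)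
  obtain ⟨f, hf⟩ := exists_trace_eq_of_isIntegral S g N hN
  exact ⟨f, N, hf⟩

end TraceShape

section Consumer

open Polynomial Module IntermediateField

variable {k : Type*} [Field k]

/-- A ring homomorphism `k(t) → k⸨X⸩` fixing the constants evaluates polynomials. -/
theorem map_algebraMap_eq_aeval (τ : RatFunc k →+* k⸨X⸩)
    (hτ : ∀ c : k, τ (RatFunc.C c) = HahnSeries.C c) (p : k[X]) :
    τ (algebraMap k[X] (RatFunc k) p) = aeval (τ RatFunc.X) p := by
  have h : (τ.comp (algebraMap k[X] (RatFunc k))) = (aeval (τ RatFunc.X)).toRingHom := by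
    apply Polynomial.ringHom_ext
    · intro a
      rw [RingHom.comp_apply, RatFunc.algebraMap_C, hτ]
      change _ = aeval (τ RatFunc.X) (Polynomial.C a)
      rw [aeval_C, C_eq_algebraMap_laurent]
    · rw [RingHom.comp_apply, RatFunc.algebraMap_X]
      change _ = aeval (τ RatFunc.X) Polynomial.X
      rw [aeval_X]
  exact RingHom.congr_fun h p

theorem natDegree_map_sub_C_mul {L : Type*} [Field L] (f : k →+* L) (P Q : k[X])
    (hlt : Q.natDegree < P.natDegree) (c : L) :
    (P.map f - Polynomial.C c * Q.map f).natDegree = P.natDegree := by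
  have h1 : (Polynomial.C c * Q.map f).natDegree < (P.map f).natDegree := by
    rw [natDegree_map]
    exact lt_of_le_of_lt (natDegree_C_mul_le _ _) (by rwa [natDegree_map])
  rw [natDegree_sub_eq_left_of_natDegree_lt h1, natDegree_map]

theorem map_sub_C_mul_ne_zero {L : Type*} [Field L] (f : k →+* L) (P Q : k[X])
    (hlt : Q.natDegree < P.natDegree) (c : L) :
    P.map f - Polynomial.C c * Q.map f ≠ 0 := by
  intro h0
  have := natDegree_map_sub_C_mul f P Q hlt c
  rw [h0, natDegree_zero] at this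
  omega

variable {E : Type*} [Field E] [Algebra (RatFunc k) E]
  (S : Finset k) (ε : Option k → RatFunc k →+* k⸨X⸩) (π : Option k → k⸨X⸩)
  (hC : ∀ o ∈ Finset.insertNone S, ∀ c : k, ε o (RatFunc.C c) = HahnSeries.C c)
  (hπ : ∀ o ∈ Finset.insertNone S, IsParam (π o))
  (hε : ∀ a ∈ S, ε (some a) RatFunc.X = HahnSeries.C a + π (some a))
  (hεinf : ε none RatFunc.X = (π none)⁻¹)
  (e m : Option k → ℕ) [∀ o, NeZero (m o)] (M : ℕ)
  (hem : ∀ o ∈ Finset.insertNone S, e o * m o = M) (ζ : kˣ) (hζ : IsPrimitiveRoot ζ M)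
  (P Q : k[X]) (hlt : Q.natDegree < P.natDegree)
  (hPd : P.natDegree ≤ ∑ o ∈ Finset.insertNone S, e o) (jz : k⸨X⸩)
  (hbranch : ∀ i ∈ branchIndex S e,
    aeval (branch ε m ζ i.1 i.2 RatFunc.X) P = jz * aeval (branch ε m ζ i.1 i.2 RatFunc.X) Q)
  (jE : E)
  (hj : jE * algebraMap (RatFunc k) E (algebraMap k[X] (RatFunc k) Q) =
    algebraMap (RatFunc k) E (algebraMap k[X] (RatFunc k) P))

include hC hπ hε hεinf hem hζ hlt hPd hbranch hj in
/-- **Cover, consumer form.**  Every embedding `s : E → k⸨z⸩` over the constants with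
`s j = jz`, where `j = P(t) / Q(t)` in `E`, restricts to a branch on `k(t)`. -/
theorem exists_branch_of_map_j (s : E →+* k⸨X⸩)
    (hsC : ∀ c : k, s (algebraMap (RatFunc k) E (RatFunc.C c)) = HahnSeries.C c)
    (hsj : s jE = jz) :
    ∃ o ∈ Finset.insertNone S, ∃ b < e o,
      s.comp (algebraMap (RatFunc k) E) = branch ε m ζ o b := by
  refine exists_branch_of_root S ε π hC hπ hε hεinf e m M hem ζ hζ P Q jz hbranch
    (map_sub_C_mul_ne_zero _ P Q hlt jz)
    ((natDegree_map_sub_C_mul _ P Q hlt jz).le.trans hPd) s hsC ?_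
  have h1 := map_algebraMap_eq_aeval (s.comp (algebraMap (RatFunc k) E)) hsC
  simp only [RingHom.comp_apply] at h1
  rw [← h1 P, ← h1 Q, ← hj, map_mul, hsj]

end Consumer

section ConsumerCount

open Polynomial Module IntermediateField

variable {k : Type*} [Field k] {E : Type*} [Field E] [Algebra k E] [Algebra (RatFunc k) E]
  [IsScalarTower k (RatFunc k) E]
  (S : Finset k) (ε : Option k → RatFunc k →+* k⸨X⸩) (π : Option k → k⸨X⸩)
  (hC : ∀ o ∈ Finset.insertNone S, ∀ c : k, ε o (RatFunc.C c) = HahnSeries.C c)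
  (hπ : ∀ o ∈ Finset.insertNone S, IsParam (π o))
  (hε : ∀ a ∈ S, ε (some a) RatFunc.X = HahnSeries.C a + π (some a))
  (hεinf : ε none RatFunc.X = (π none)⁻¹)
  (e m : Option k → ℕ) [∀ o, NeZero (m o)] (M : ℕ)
  (hem : ∀ o ∈ Finset.insertNone S, e o * m o = M) (ζ : kˣ) (hζ : IsPrimitiveRoot ζ M)
  (P Q : k[X]) (hlt : Q.natDegree < P.natDegree)
  (hPd : P.natDegree ≤ ∑ o ∈ Finset.insertNone S, e o) (jz : k⸨X⸩)
  (hbranch : ∀ i ∈ branchIndex S e,
    aeval (branch ε m ζ i.1 i.2 RatFunc.X) P = jz * aeval (branch ε m ζ i.1 i.2 RatFunc.X) Q)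
  (jE : E)
  (hj : jE * algebraMap (RatFunc k) E (algebraMap k[X] (RatFunc k) Q) =
    algebraMap (RatFunc k) E (algebraMap k[X] (RatFunc k) P))

include hC hπ hε hεinf hem hζ hlt hPd hbranch hj in
/-- **Count, consumer form.**  `[E : k(j)] = (∑ e o) * [E : k(t)]` for `j = P(t) / Q(t)`, where
`k(j) = k⟮jE⟯` is taken inside `E`. -/
theorem finrank_adjoin_eq_sum_mul_finrank :
    finrank (IntermediateField.adjoin k {jE}) E =
      (∑ o ∈ Finset.insertNone S, e o) * finrank (RatFunc k) E := by
  classical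
  have hinjE : Function.Injective (algebraMap (RatFunc k) E) := (algebraMap (RatFunc k) E).injective
  have hinjP : Function.Injective (algebraMap k[X] (RatFunc k)) :=
    IsFractionRing.injective k[X] (RatFunc k)
  have hQ0 : Q ≠ 0 := by
    rintro rfl
    rw [map_zero, map_zero, mul_zero] at hj
    have hP0 : P = 0 := hinjP (hinjE (by rw [← hj, map_zero, map_zero]))
    rw [hP0, natDegree_zero] at hlt
    exact absurd hlt (Nat.not_lt_zero _)
  have haQ : algebraMap k[X] (RatFunc k) Q ≠ 0 := by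
    rwa [Ne, map_eq_zero_iff _ hinjP]
  set aP := algebraMap k[X] (RatFunc k) P with haP
  set aQ := algebraMap k[X] (RatFunc k) Q with haQdef
  set J : RatFunc k := aP / aQ with hJdef
  have hJ : J * aQ = aP := div_mul_cancel₀ _ haQ
  have hJE : algebraMap (RatFunc k) E J = jE := by
    have h1 : algebraMap (RatFunc k) E J * algebraMap (RatFunc k) E aQ =
        jE * algebraMap (RatFunc k) E aQ := by rw [← map_mul, hJ, hj]
    exact mul_right_cancel₀ (by rwa [Ne, map_eq_zero_iff _ hinjE]) h1
  -- the subfield `K = k(J)` of `k(t)`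
  let K : IntermediateField k (RatFunc k) := IntermediateField.adjoin k {J}
  have htower : IsScalarTower K (RatFunc k) E := inferInstance
  let Jk : K := ⟨J, IntermediateField.subset_adjoin k {J} (Set.mem_singleton J)⟩
  let F : K[X] := P.map (algebraMap k K) - Polynomial.C Jk * Q.map (algebraMap k K)
  have hF0 : F ≠ 0 := map_sub_C_mul_ne_zero (algebraMap k K) P Q hlt Jk
  have hFd : F.natDegree ≤ ∑ o ∈ Finset.insertNone S, e o :=
    (natDegree_map_sub_C_mul (algebraMap k K) P Q hlt Jk).le.trans hPd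
  have hF : aeval (RatFunc.X : RatFunc k) F = 0 := by
    change aeval (RatFunc.X : RatFunc k)
      (P.map (algebraMap k K) - Polynomial.C Jk * Q.map (algebraMap k K)) = 0
    rw [map_sub, map_mul, aeval_map_algebraMap, aeval_map_algebraMap, aeval_C,
      RatFunc.aeval_X_left_eq_algebraMap, RatFunc.aeval_X_left_eq_algebraMap]
    change aP - J * aQ = 0
    rw [hJ, sub_self]
  -- all branches agree on `K`
  have hbrJ : ∀ i ∈ branchIndex S e, branch ε m ζ i.1 i.2 J = jz := by
    intro i hi
    obtain ⟨ho, -⟩ := mem_branchIndex.mp hi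
    have hβC := branch_C S ε hC m ζ ho i.2
    have h1 := map_algebraMap_eq_aeval (branch ε m ζ i.1 i.2) hβC
    have hQne : aeval (branch ε m ζ i.1 i.2 RatFunc.X) Q ≠ 0 := by
      rw [← h1 Q, Ne, map_eq_zero_iff _ (branch ε m ζ i.1 i.2).injective]
      exact haQ
    rw [hJdef, map_div₀, haP, haQdef, h1 P, h1 Q, hbranch i hi, mul_div_assoc, div_self hQne,
      mul_one]
  have hpos : 0 < (branchIndex S e).card := by
    rw [card_branchIndex]
    exact lt_of_lt_of_le (lt_of_le_of_lt (Nat.zero_le _) hlt) hPd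
  obtain ⟨i0, hi0⟩ := Finset.card_pos.mp hpos
  let βa : ∀ i, i ∈ branchIndex S e → (K →ₐ[k] k⸨X⸩) := fun i hi =>
    { toRingHom := (branch ε m ζ i.1 i.2).comp (algebraMap K (RatFunc k))
      commutes' := fun c => by
        obtain ⟨ho, -⟩ := mem_branchIndex.mp hi
        change branch ε m ζ i.1 i.2 (RatFunc.C c) = _
        rw [branch_C S ε hC m ζ ho, C_eq_algebraMap_laurent] }
  have hτ0 : ∀ i ∈ branchIndex S e,
      (branch ε m ζ i.1 i.2).comp (algebraMap K (RatFunc k)) =
        (branch ε m ζ i0.1 i0.2).comp (algebraMap K (RatFunc k)) := by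
    intro i hi
    have h1 : βa i hi = βa i0 hi0 := by
      apply IntermediateField.adjoin_algHom_ext
      intro x hx
      rw [Set.mem_singleton_iff] at hx
      subst hx
      change branch ε m ζ i.1 i.2 J = branch ε m ζ i0.1 i0.2 J
      rw [hbrJ i hi, hbrJ i0 hi0]
    exact congrArg (fun f : K →ₐ[k] k⸨X⸩ => f.toRingHom) h1
  have key := finrank_eq_sum_mul_finrank (K := K) (E := E) S ε π hπ hε hεinf e m M hem ζ hζ _ hτ0
    F hF0 hF hFd
  rw [← key]
  -- bridge `K ≃ k⟮jE⟯`
  let φ : RatFunc k →ₐ[k] E := IsScalarTower.toAlgHom k (RatFunc k) E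
  have hmap : K.map φ = IntermediateField.adjoin k {jE} := by
    rw [IntermediateField.adjoin_map, Set.image_singleton]
    congr 2
  let i : K ≃+* IntermediateField.adjoin k {jE} :=
    ((K.equivMap φ).trans (IntermediateField.equivOfEq hmap)).toRingEquiv
  symm
  exact Algebra.finrank_eq_of_equiv_equiv i (RingEquiv.refl E) (by ext x; rfl)

end ConsumerCount

end Fermat.Agent.Gateway.GoodRed
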