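import Mathlib
import Fermat.Agent.Gateway.Red.Defs
import Fermat.Agent.Gateway.C0.RankOne

/-!
# GoodRed (S3): `A((z))` is integrally closed in its fractions inside `L((z))` (rank one)

Let `A` be a valuation subring of `L` of rank one, in the form: for `x` in the maximal ideal and
`c ≠ 0` some power of `x` is divisible by `c`. If `y ∈ L((z))` is a quotient `a / b` of
`A`-integral Laurent series and is integral over the ring `intLS A` of `A`-integral Laurent
series, then `y` is `A`-integral (`mem_intLS_of_isIntegral`).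

Proof (complete integral closedness): with `d = b ^ n` all `d * y ^ m` are `A`-integral. After
subtracting the `A`-integral head of `y`, the lowest coefficient `c` of `y` is not in `A`, and
`d₀ * c ^ m ∈ A` for all `m` (`d₀` the lowest coefficient of `d`), which contradicts rank one.
-/

set_option autoImplicit false

namespace Fermat.Agent.Gateway.GoodRed

open Fermat.Agent.Gateway.Red Polynomial

variable {L : Type*} [Field L] (A : ValuationSubring L)

/-- the lowest coefficient of an `A`-integral Laurent series lies in `A`. -/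
lemma leadingCoeff_mem_of_mem_intLS {y : LaurentSeries L} (hy : y ∈ intLS A) :
    y.leadingCoeff ∈ A := by
  rw [HahnSeries.leadingCoeff_eq]
  exact (mem_intLS_iff_coeff A).mp hy _

lemma intLS_leadingCoeff_pow (y : LaurentSeries L) (m : ℕ) :
    (y ^ m).leadingCoeff = y.leadingCoeff ^ m := by
  induction m with
  | zero =>
    rw [pow_zero, pow_zero]
    exact HahnSeries.leadingCoeff_one
  | succ m ih => rw [pow_succ, pow_succ, HahnSeries.leadingCoeff_mul, ih]

/-- If all `d * y ^ m` are `A`-integral (`d ≠ 0`) and `A` has rank one, the lowest coefficient of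
`y` lies in `A`. -/
lemma leadingCoeff_mem_of_forall_mul_pow_mem
    (hrk : ∀ x ∈ IsLocalRing.maximalIdeal A, ∀ c : A, c ≠ 0 → ∃ j : ℕ, c ∣ x ^ j)
    {y d : LaurentSeries L} (hd : d ≠ 0) (hpow : ∀ m : ℕ, d * y ^ m ∈ intLS A) :
    y.leadingCoeff ∈ A := by
  by_contra hc
  set c := y.leadingCoeff with hcdef
  have hdA : d.leadingCoeff ∈ A := by
    have := leadingCoeff_mem_of_mem_intLS A (hpow 0)
    rwa [pow_zero, mul_one] at this
  have hd0 : d.leadingCoeff ≠ 0 := HahnSeries.leadingCoeff_ne_zero.mpr hd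
  have hm : ∀ m : ℕ, d.leadingCoeff * c ^ m ∈ A := by
    intro m
    have := leadingCoeff_mem_of_mem_intLS A (hpow m)
    rwa [HahnSeries.leadingCoeff_mul, intLS_leadingCoeff_pow] at this
  have hc0 : c ≠ 0 := fun h => hc (h ▸ A.zero_mem)
  have hcinv : c⁻¹ ∈ A := (A.mem_or_inv_mem c).resolve_left hc
  have hx : (⟨c⁻¹, hcinv⟩ : A) ∈ IsLocalRing.maximalIdeal A := by
    rw [IsLocalRing.mem_maximalIdeal, mem_nonunits_iff]
    intro hu
    obtain ⟨u, hu⟩ := hu
    have h1 : ((u⁻¹ : Aˣ) : A) * (⟨c⁻¹, hcinv⟩ : A) = 1 := by rw [← hu]; exact u.inv_mul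
    have h2 : (((u⁻¹ : Aˣ) : A) : L) * c⁻¹ = 1 := by
      have := congrArg (fun a : A => (a : L)) h1
      simpa using this
    have h3 : (((u⁻¹ : Aˣ) : A) : L) = c := by
      field_simp at h2
      exact h2
    exact hc (h3 ▸ ((u⁻¹ : Aˣ) : A).2)
  have hdne : (⟨d.leadingCoeff, hdA⟩ : A) ≠ 0 := fun h => hd0 (congrArg Subtype.val h)
  obtain ⟨j, e, he⟩ := hrk _ hx ⟨d.leadingCoeff, hdA⟩ hdne
  have heL : c⁻¹ ^ j = d.leadingCoeff * (e : L) := by
    have := congrArg (fun a : A => (a : L)) he
    simpa using this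
  apply hc
  have : c = (d.leadingCoeff * c ^ (j + 1)) * (e : L) := by
    have h1 : c ^ (j + 1) * c⁻¹ ^ j = c := by
      rw [pow_succ, mul_assoc, mul_comm c, ← mul_assoc, ← mul_pow, mul_inv_cancel₀ hc0, one_pow,
        one_mul]
    calc c = c ^ (j + 1) * c⁻¹ ^ j := h1.symm
      _ = c ^ (j + 1) * (d.leadingCoeff * (e : L)) := by rw [heL]
      _ = (d.leadingCoeff * c ^ (j + 1)) * (e : L) := by ring
  rw [this]
  exact A.mul_mem _ _ (hm (j + 1)) e.2

/-- the denominators of the powers of an integral quotient are bounded. -/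
lemma forall_mul_pow_mem_of_isIntegral {y : LaurentSeries L} {a b : LaurentSeries A}
    (h : y * embA A b = embA A a) (hy : IsIntegral (intLS A) y) :
    ∃ n : ℕ, ∀ m : ℕ, embA A b ^ n * y ^ m ∈ intLS A := by
  obtain ⟨p, hp, hpy⟩ := hy
  refine ⟨p.natDegree, fun m => ?_⟩
  -- `y ^ i * b ^ n` is integral for `i ≤ n`
  have hlow : ∀ i : ℕ, i ≤ p.natDegree → embA A b ^ p.natDegree * y ^ i ∈ intLS A := by
    intro i hi
    have : embA A b ^ p.natDegree * y ^ i = embA A (a ^ i * b ^ (p.natDegree - i)) := by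
      rw [map_mul, map_pow, map_pow, ← h, mul_pow, mul_assoc, ← pow_add,
        Nat.add_sub_cancel' hi, mul_comm]
    rw [this]
    exact embA_mem_intLS A _
  -- reduce `X ^ m` modulo `p`
  set r : Polynomial (intLS A) := X ^ m %ₘ p with hr
  have hdeg : r.natDegree ≤ p.natDegree := natDegree_modByMonic_le _ hp
  have hym : y ^ m = aeval y r := by
    have h1 := congrArg (aeval y) (modByMonic_add_div (X ^ m : Polynomial (intLS A)) p)
    rw [map_add, map_mul, map_pow, aeval_X] at h1
    have hp0 : aeval y p = 0 := hpy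
    rw [hp0, zero_mul, add_zero] at h1
    exact h1.symm
  rw [hym, aeval_eq_sum_range, Finset.mul_sum]
  refine Subring.sum_mem _ fun i hi => ?_
  have hi' : i ≤ p.natDegree := (Nat.lt_succ_iff.mp (Finset.mem_range.mp hi)).trans hdeg
  have : embA A b ^ p.natDegree * r.coeff i • y ^ i
      = ((r.coeff i : intLS A) : LaurentSeries L) * (embA A b ^ p.natDegree * y ^ i) := by
    rw [Algebra.smul_def]
    show _ * (((r.coeff i : intLS A) : LaurentSeries L) * _) = _
    ring
  rw [this]
  exact Subring.mul_mem _ (r.coeff i).2 (hlow i hi')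

/-- **(S3)** `A`-integral Laurent series are integrally closed among quotients (rank one). -/
theorem mem_intLS_of_isIntegral
    (hrk : ∀ x ∈ IsLocalRing.maximalIdeal A, ∀ c : A, c ≠ 0 → ∃ j : ℕ, c ∣ x ^ j)
    {y : LaurentSeries L} {a b : LaurentSeries A} (hb : b ≠ 0)
    (h : y * embA A b = embA A a) (hy : IsIntegral (intLS A) y) : y ∈ intLS A := by
  classical
  by_contra hyA
  -- the least index with a non-integral coefficient
  have hne : {n : ℤ | y.coeff n ∉ A}.Nonempty := by
    by_contra hempty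
    rw [Set.not_nonempty_iff_eq_empty] at hempty
    apply hyA
    rw [mem_intLS_iff_coeff]
    intro n
    by_contra hn
    have : n ∈ {n : ℤ | y.coeff n ∉ A} := hn
    rw [hempty] at this
    exact this
  have hsub : {n : ℤ | y.coeff n ∉ A} ⊆ y.support := by
    intro n hn
    rw [HahnSeries.mem_support]
    intro h0
    exact hn (h0 ▸ A.zero_mem)
  have hwf : {n : ℤ | y.coeff n ∉ A}.IsWF := y.isWF_support.mono hsub
  set n := hwf.min hne with hn
  have hnbad : y.coeff n ∉ A := hwf.min_mem hne
  have hlt : ∀ m < n, y.coeff m ∈ A := by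
    intro m hm
    by_contra hbad
    exact absurd (hwf.min_le hne hbad) (not_le.mpr hm)
  -- subtract the integral head
  set t : LaurentSeries L := HahnSeries.truncLT n y with ht
  have htA : t ∈ intLS A := by
    rw [mem_intLS_iff_coeff]
    intro m
    rw [ht, HahnSeries.coeff_truncLT]
    split_ifs with hm
    · exact hlt m hm
    · exact A.zero_mem
  obtain ⟨t', ht'⟩ := htA
  set y₁ := y - t with hy₁
  have hcoeff_lt : ∀ m < n, y₁.coeff m = 0 := by
    intro m hm
    rw [hy₁, HahnSeries.coeff_sub, ht, HahnSeries.coeff_truncLT_of_lt hm, sub_self]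
  have hcoeff_n : y₁.coeff n = y.coeff n := by
    rw [hy₁, HahnSeries.coeff_sub, ht, HahnSeries.coeff_truncLT_of_le le_rfl, sub_zero]
  have hn0 : y.coeff n ≠ 0 := fun h0 => hnbad (h0 ▸ A.zero_mem)
  have hy₁0 : y₁ ≠ 0 := by
    intro h0
    rw [h0, HahnSeries.coeff_zero] at hcoeff_n
    exact hn0 hcoeff_n.symm
  have horder : y₁.order = n := by
    apply le_antisymm
    · exact HahnSeries.order_le_of_coeff_ne_zero (by rw [hcoeff_n]; exact hn0)
    · exact (HahnSeries.le_order_iff_forall hy₁0).mpr hcoeff_lt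
  have hlead : y₁.leadingCoeff = y.coeff n := by
    rw [HahnSeries.leadingCoeff_eq, horder, hcoeff_n]
  -- `y₁` is again an integral quotient
  have h₁ : y₁ * embA A b = embA A (a - t' * b) := by
    rw [hy₁, sub_mul, h, map_sub, map_mul, ht']
  have hy₁int : IsIntegral (intLS A) y₁ := by
    refine IsIntegral.sub hy ?_
    have : t = algebraMap (intLS A) (LaurentSeries L) ⟨t, ⟨t', ht'⟩⟩ := rfl
    rw [this]
    exact isIntegral_algebraMap
  obtain ⟨k, hk⟩ := forall_mul_pow_mem_of_isIntegral A h₁ hy₁int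
  have hbk : embA A b ^ k ≠ 0 := pow_ne_zero k (fun h0 => hb ((embA_eq_zero_iff A b).mp h0))
  have := leadingCoeff_mem_of_forall_mul_pow_mem A hrk hbk hk
  rw [hlead] at this
  exact hnbad this

/-- **(S3)** for a valuation subring over a prime `ℓ` of an algebraic extension of `ℚ`
(rank one by `C0.rank_one_of_isAlgebraic`). -/
theorem mem_intLS_of_isIntegral_of_liesOverPrime {L : Type*} [Field L] [Algebra ℚ L]
    [Algebra.IsAlgebraic ℚ L] (A : ValuationSubring L) {ℓ : ℕ} (hℓ : ℓ.Prime)
    (hA : A.LiesOverPrime ℓ) {y : LaurentSeries L} {a b : LaurentSeries A} (hb : b ≠ 0)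
    (h : y * embA A b = embA A a) (hy : IsIntegral (intLS A) y) : y ∈ intLS A :=
  mem_intLS_of_isIntegral A (Fermat.Agent.Gateway.C0.rank_one_of_isAlgebraic A hℓ hA) hb h hy

end Fermat.Agent.Gateway.GoodRed
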