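import Mathlib
import Fermat.Agent.Gateway.GoodRed.PolePlaces

/-!
helper48 (P-GATEWAY (c), WP-GR10/GR12 glue): the Prelude Riemann–Roch space of a cuspidal divisor
is linearly equivalent to helper22's `poleSpace` of the family of expansions restricted to the
integral closure `B` of `k[x]` in `F`.

* `intB x : Subalgebra k F` : the integral closure of `k[x]` in `F`, as a `k`-subalgebra.
* `sigmaB σ x j := (σ j).comp (intB x).val` and `sigmaB_algebraMap`.
* `rrEquiv : riemannRochSpace (cuspDivisor rot pl m) ≃ₗ[k] poleSpace (sigmaB σ x) _ (m j * ramQ j)`.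
* `finrank_riemannRochSpace_cuspDivisor`.
-/

set_option autoImplicit false
set_option linter.unusedSectionVars false

open AlgebraicCurve IntermediateField Function

namespace Fermat.Agent.Gateway.GoodRed.PlacesAtInfinity

open Fermat.Agent.S24 Fermat.Agent.S28 Fermat.Agent.Gateway.GoodRed

variable {k F : Type*} [Field k] [Field F] [Algebra k F]

/-- The integral closure of `k[x]` in `F`, as a `k`-subalgebra of `F`. -/
def intB (x : F) : Subalgebra k F :=
  (integralClosure (Algebra.adjoin k {x}) F).restrictScalars k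

theorem mem_intB {x f : F} : f ∈ intB (k := k) x ↔ IsIntegral (Algebra.adjoin k {x}) f :=
  Iff.rfl

variable {M : ℕ} [NeZero M] {ζ : kˣ}
  {ι : Type*} [Fintype ι] [DecidableEq ι] (σ : ι → F →+* LaurentSeries k) (rot : Equiv.Perm ι)
  (hσk : ∀ j (c : k), σ j (algebraMap k F c) = HahnSeries.C c)
  (hrot : ∀ j f, σ (rot j) f = twist ζ (σ j f)) (hζ : IsPrimitiveRoot ζ M)
  (hσinj : Injective σ)

/-- The family of expansions restricted to the integral closure of `k[x]`. -/
noncomputable def sigmaB (x : F) : ι → intB (k := k) x →+* LaurentSeries k :=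
  fun j => (σ j).comp (intB (k := k) x).val.toRingHom

omit [Fintype ι] [DecidableEq ι] in
@[simp] theorem sigmaB_apply (x : F) (j : ι) (f : intB (k := k) x) :
    sigmaB σ x j f = σ j (f : F) := rfl

include hσk in
omit [Fintype ι] [DecidableEq ι] in
theorem sigmaB_algebraMap (x : F) (j : ι) (c : k) :
    sigmaB σ x j (algebraMap k (intB (k := k) x) c) = HahnSeries.C c := by
  rw [sigmaB_apply]
  exact hσk j c

omit [Fintype ι] [DecidableEq ι] in
theorem sigmaB_injective_of_injective (x : F) (j : ι) : Injective (sigmaB σ x j) := by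
  intro f g h
  rw [sigmaB_apply, sigmaB_apply] at h
  exact Subtype.ext ((σ j).injective h)

variable {σ rot} {x : F} {pl : ι → Place k F}

/-- **`L(∑ m_c P_c) ≃ poleSpace` of the expansions restricted to the integral closure of
`k[x]`.** -/
noncomputable def rrEquiv [FiniteDimensional k⟮x⟯ F] [Algebra.IsSeparable k⟮x⟯ F]
    (hxt : Transcendental k x) (hpl : IsPolePlaces σ rot M x pl)
    (m : ι → ℕ) (hm : ∀ j, m (rot j) = m j) :
    ↥(riemannRochSpace (cuspDivisor rot pl m)) ≃ₗ[k]
      ↥(poleSpace (sigmaB σ x) (sigmaB_algebraMap σ hσk x) (fun j => m j * ramQ rot M j)) where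
  toFun f := ⟨⟨f.1, ((mem_riemannRochSpace_cuspDivisor_iff hσk hrot hζ hσinj hxt hpl m hm f.1).mp
      f.2).1⟩, fun j a ha =>
      ((mem_riemannRochSpace_cuspDivisor_iff hσk hrot hζ hσinj hxt hpl m hm f.1).mp f.2).2 j a ha⟩
  invFun g := ⟨(g.1 : F),
    (mem_riemannRochSpace_cuspDivisor_iff hσk hrot hζ hσinj hxt hpl m hm (g.1 : F)).mpr
      ⟨g.1.2, fun j a ha => g.2 j a ha⟩⟩
  map_add' _ _ := rfl
  map_smul' _ _ := rfl
  left_inv _ := rfl
  right_inv _ := rfl

omit [NeZero M] in
@[simp] theorem rrEquiv_apply_coe [NeZero M] [FiniteDimensional k⟮x⟯ F]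
    [Algebra.IsSeparable k⟮x⟯ F]
    (hxt : Transcendental k x) (hpl : IsPolePlaces σ rot M x pl)
    (m : ι → ℕ) (hm : ∀ j, m (rot j) = m j) (f : ↥(riemannRochSpace (cuspDivisor rot pl m))) :
    (((rrEquiv hσk hrot hζ hσinj hxt hpl m hm f : ↥(poleSpace (sigmaB σ x)
      (sigmaB_algebraMap σ hσk x) (fun j => m j * ramQ rot M j))) : intB (k := k) x) : F) =
      (f : F) := rfl

include hσk hrot hζ hσinj in
/-- The dimensions agree. -/
theorem finrank_riemannRochSpace_cuspDivisor [FiniteDimensional k⟮x⟯ F]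
    [Algebra.IsSeparable k⟮x⟯ F]
    (hxt : Transcendental k x) (hpl : IsPolePlaces σ rot M x pl)
    (m : ι → ℕ) (hm : ∀ j, m (rot j) = m j) :
    Module.finrank k ↥(riemannRochSpace (cuspDivisor rot pl m)) =
      Module.finrank k ↥(poleSpace (sigmaB σ x) (sigmaB_algebraMap σ hσk x)
        (fun j => m j * ramQ rot M j)) :=
  (rrEquiv hσk hrot hζ hσinj hxt hpl m hm).finrank_eq

include hσk hrot hζ hσinj in
/-- Finite-dimensionality transfers. -/
theorem finiteDimensional_poleSpace_iff [FiniteDimensional k⟮x⟯ F]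
    [Algebra.IsSeparable k⟮x⟯ F]
    (hxt : Transcendental k x) (hpl : IsPolePlaces σ rot M x pl)
    (m : ι → ℕ) (hm : ∀ j, m (rot j) = m j) :
    FiniteDimensional k ↥(riemannRochSpace (cuspDivisor rot pl m)) ↔
      FiniteDimensional k ↥(poleSpace (sigmaB σ x) (sigmaB_algebraMap σ hσk x)
        (fun j => m j * ramQ rot M j)) :=
  ⟨fun _ => (rrEquiv hσk hrot hζ hσinj hxt hpl m hm).finiteDimensional,
    fun _ => (rrEquiv hσk hrot hζ hσinj hxt hpl m hm).symm.finiteDimensional⟩

end Fermat.Agent.Gateway.GoodRed.PlacesAtInfinity
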