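import Mathlib
import Fermat.Agent.Gateway.GoodRed.LowerBound
import Fermat.Agent.Gateway.GoodRed.PoleSpaceEquiv

/-!
helper30 (P-GATEWAY (c), WP-GR12, adapter): the Riemann inequality of `GoodRed/LowerBound.lean`
for the family `sigmaB σ x` of `GoodRed/PoleSpaceEquiv.lean` (the expansions restricted to
`intB x`, the integral closure of `k[x]` in `F` as a `k`-subalgebra), in the two shapes
`P` (with `(M / e_j) ∣ P j`) and `fun j => m j * (M / e_j)`.
-/

set_option autoImplicit false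
set_option linter.unusedSectionVars false

open AlgebraicCurve IntermediateField Function Module

namespace Fermat.Agent.Gateway.GoodRed.LowerBound

open Fermat.Agent.S24 Fermat.Agent.S28 Fermat.Agent.Gateway.GoodRed
  Fermat.Agent.Gateway.GoodRed.PlacesAtInfinity

variable {k F : Type*} [Field k] [Field F] [Algebra k F] {M : ℕ} [NeZero M] {ζ : kˣ}
  {ι : Type*} [Fintype ι] [DecidableEq ι] (σ : ι → F →+* LaurentSeries k) (rot : Equiv.Perm ι)
  (hσk : ∀ j (c : k), σ j (algebraMap k F c) = HahnSeries.C c)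
  (hrot : ∀ j f, σ (rot j) f = twist ζ (σ j f)) (hζ : IsPrimitiveRoot ζ M)
  (hσinj : Injective σ)

omit [NeZero M] [Fintype ι] [DecidableEq ι] in
theorem poleSpace_sigmaB_eq (x : F) (P : ι → ℕ) :
    poleSpace (sigmaB σ x) (sigmaB_algebraMap σ hσk x) P =
      poleSpace (restrictFamily σ ↥(intB (k := k) x))
        (restrictFamily_algebraMap σ hσk ↥(intB (k := k) x)) P :=
  Submodule.ext fun _ => Iff.rfl

include hrot hζ hσinj in
/-- **Riemann's inequality for the pole spaces of `sigmaB σ x`** (any characteristic). -/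
theorem lowerBound_sigmaB (x : F) [FiniteDimensional k⟮x⟯ F]
    [Algebra.IsSeparable k⟮x⟯ F] (ξ : LaurentSeries k) (hx : ∀ j, σ j x = ξ)
    (hξ : ξ.order = -(M : ℤ)) (hcard : Module.finrank k⟮x⟯ F ≤ Fintype.card ι)
    (P : ι → ℕ) (hP : ∀ j, P (rot j) = P j) (hdvd : ∀ j, ramQ rot M j ∣ P j) :
    Module.Finite k (poleSpace (sigmaB σ x) (sigmaB_algebraMap σ hσk x) P) ∧
      ∑ j, P j + M ≤ M * (finrank k (poleSpace (sigmaB σ x) (sigmaB_algebraMap σ hσk x) P) +
        genusFF k F) ∧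
      ((M : ℤ) * (2 * (genusFF k F : ℤ) - 2) < ∑ j, (P j : ℤ) →
        M * (finrank k (poleSpace (sigmaB σ x) (sigmaB_algebraMap σ hσk x) P) +
          genusFF k F) = ∑ j, P j + M) := by
  rw [poleSpace_sigmaB_eq σ hσk]
  refine lowerBound_poleSpace σ rot hσk hrot hζ hσinj ↥(intB (k := k) x) x ξ hx hξ hcard
    Subtype.val_injective (fun f => ?_) P hP hdvd
  constructor
  · rintro ⟨b, rfl⟩
    exact b.2
  · intro hf
    exact ⟨⟨f, hf⟩, rfl⟩

include hrot hζ hσinj in
/-- The same for `P j = m j * (M / e_j)` with `m` a `rot`-invariant multiplicity function. -/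
theorem lowerBound_sigmaB_mul (x : F) [FiniteDimensional k⟮x⟯ F]
    [Algebra.IsSeparable k⟮x⟯ F] (ξ : LaurentSeries k) (hx : ∀ j, σ j x = ξ)
    (hξ : ξ.order = -(M : ℤ)) (hcard : Module.finrank k⟮x⟯ F ≤ Fintype.card ι)
    (m : ι → ℕ) (hm : ∀ j, m (rot j) = m j) :
    Module.Finite k (poleSpace (sigmaB σ x) (sigmaB_algebraMap σ hσk x)
        fun j => m j * ramQ rot M j) ∧
      ∑ j, m j * ramQ rot M j + M ≤
        M * (finrank k (poleSpace (sigmaB σ x) (sigmaB_algebraMap σ hσk x)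
          fun j => m j * ramQ rot M j) + genusFF k F) ∧
      ((M : ℤ) * (2 * (genusFF k F : ℤ) - 2) < ∑ j, ((m j * ramQ rot M j : ℕ) : ℤ) →
        M * (finrank k (poleSpace (sigmaB σ x) (sigmaB_algebraMap σ hσk x)
          fun j => m j * ramQ rot M j) + genusFF k F) = ∑ j, m j * ramQ rot M j + M) :=
  lowerBound_sigmaB σ rot hσk hrot hζ hσinj x ξ hx hξ hcard (fun j => m j * ramQ rot M j)
    (fun j => by rw [hm, ramQ_rot]) (fun j => Dvd.intro_left _ rfl)

end Fermat.Agent.Gateway.GoodRed.LowerBound
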