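import Fermat.Agent.S24.ZP.PlaceBasics

/-!
# Poles of `y = P(x) / Q(x)` (helper24; input (iii) of the Hurwitz backup route for (G2))

`P Q : K[X]` coprime with `deg Q < deg P`, `x y : F` with `y * Q(x) = P(x)`.  Then every pole of
`x` and every zero of `x - a`, `a` a root of `Q`, is a pole of `y`.
-/

set_option autoImplicit false

open AlgebraicCurve Polynomial

namespace Fermat.Agent.Gateway.GoodRed.PolesOfRel

open Fermat.Agent.S24.ZP

variable {K F : Type*} [Field K] [Field F] [Algebra K F] (v : Place K F)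

/-- polynomial expressions in an integral element are integral. -/
theorem aeval_mem {x : F} (hx : x ∈ v.toValuationSubring) (R : K[X]) :
    aeval x R ∈ v.toValuationSubring := by
  rw [aeval_eq_sum_range]
  refine Subring.sum_mem v.toValuationSubring.toSubring (fun i _ => ?_)
  rw [Algebra.smul_def]
  exact mul_mem (v.algebraMap_mem' _) (pow_mem hx i)

theorem ord_aeval_nonneg {x : F} (hx : 0 ≤ v.ord x) (R : K[X]) : 0 ≤ v.ord (aeval x R) := by
  rcases eq_or_ne (aeval x R) 0 with h0 | h0
  · rw [h0, v.ord_zero]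
  rcases eq_or_ne x 0 with rfl | hx0
  · exact (ord_nonneg_iff v h0).mpr (aeval_mem v (zero_mem _) R)
  · exact (ord_nonneg_iff v h0).mpr (aeval_mem v ((ord_nonneg_iff v hx0).mp hx) R)

/-- a polynomial with nonzero constant term is a unit at a zero of its argument. -/
theorem aeval_unit_of_ord_pos {w : F} (hw : 0 < v.ord w) (R : K[X]) (hR : R.coeff 0 ≠ 0) :
    aeval w R ≠ 0 ∧ v.ord (aeval w R) = 0 := by
  have hw0 : w ≠ 0 := by
    rintro rfl
    rw [v.ord_zero] at hw
    exact lt_irrefl _ hw
  have hdec : aeval w R = algebraMap K F (R.coeff 0) + w * aeval w R.divX := by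
    conv_lhs => rw [← divX_mul_X_add R]
    rw [map_add, map_mul, aeval_X, aeval_C]
    ring
  have hc0 : algebraMap K F (R.coeff 0) ≠ 0 := by simpa using hR
  have hc : v.ord (algebraMap K F (R.coeff 0)) = 0 := ord_algebraMap v _
  rcases eq_or_ne (aeval w R.divX) 0 with hS | hS
  · rw [hdec, hS, mul_zero, add_zero]
    exact ⟨hc0, hc⟩
  · have hwS : w * aeval w R.divX ≠ 0 := mul_ne_zero hw0 hS
    have hlt : v.ord (algebraMap K F (R.coeff 0)) < v.ord (w * aeval w R.divX) := by
      rw [hc, v.ord_mul hw0 hS]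
      have := ord_aeval_nonneg v hw.le R.divX
      omega
    have hord := ord_add_eq_of_lt v hwS hlt hc0
    rw [← hdec] at hord
    refine ⟨?_, by rw [hord, hc]⟩
    intro h0
    have h1 : algebraMap K F (R.coeff 0) = -(w * aeval w R.divX) := by
      rw [hdec] at h0
      linear_combination h0
    rw [h1, ord_neg] at hlt
    exact lt_irrefl _ hlt

/-- a polynomial with zero constant term vanishes at a zero of its argument. -/
theorem ord_aeval_pos_of_coeff_zero {w : F} (hw : 0 < v.ord w) (R : K[X]) (hR : R.coeff 0 = 0)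
    (hne : aeval w R ≠ 0) : 0 < v.ord (aeval w R) := by
  have hw0 : w ≠ 0 := by
    rintro rfl
    rw [v.ord_zero] at hw
    exact lt_irrefl _ hw
  have hdec : aeval w R = w * aeval w R.divX := by
    conv_lhs => rw [← divX_mul_X_add R, hR]
    rw [map_add, map_mul, aeval_X, aeval_C, map_zero, add_zero]
    ring
  have hS : aeval w R.divX ≠ 0 := by
    intro h0
    rw [hdec, h0, mul_zero] at hne
    exact hne rfl
  rw [hdec, v.ord_mul hw0 hS]
  have := ord_aeval_nonneg v hw.le R.divX
  omega

/-- the order of a polynomial at a pole of its argument. -/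
theorem ord_aeval_of_ord_neg {x : F} (hx : v.ord x < 0) (R : K[X]) (hR : R ≠ 0) :
    aeval x R ≠ 0 ∧ v.ord (aeval x R) = R.natDegree * v.ord x := by
  have hx0 : x ≠ 0 := by
    rintro rfl
    rw [v.ord_zero] at hx
    exact lt_irrefl _ hx
  have hw : 0 < v.ord x⁻¹ := by rw [v.ord_inv]; omega
  let _ : Invertible x := invertibleOfNonzero hx0
  have hrev : aeval x⁻¹ R.reverse * x ^ R.natDegree = aeval x R := by
    have := eval₂_reverse_mul_pow (algebraMap K F) x R
    rw [invOf_eq_inv] at this
    exact this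
  have hcoeff : R.reverse.coeff 0 ≠ 0 := by
    rw [coeff_zero_reverse]
    exact leadingCoeff_ne_zero.mpr hR
  obtain ⟨hne, hord⟩ := aeval_unit_of_ord_pos v hw R.reverse hcoeff
  have hpow : x ^ R.natDegree ≠ 0 := pow_ne_zero _ hx0
  refine ⟨?_, ?_⟩
  · rw [← hrev]
    exact mul_ne_zero hne hpow
  · rw [← hrev, v.ord_mul hne hpow, hord, ord_pow, zero_add]

/-- **Poles of `y = P(x)/Q(x)`.** -/
theorem ord_neg_of_rel (P Q : K[X]) (hcop : IsCoprime P Q) (hdeg : Q.natDegree < P.natDegree)
    (x y : F) (hrel : y * aeval x Q = aeval x P)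
    (h : v.ord x < 0 ∨ ∃ a : K, Q.IsRoot a ∧ 0 < v.ord (x - algebraMap K F a)) :
    v.ord y < 0 := by
  have hP0 : P ≠ 0 := by
    rintro rfl
    simp at hdeg
  have hQ0 : Q ≠ 0 := by
    rintro rfl
    have hu : IsUnit P := by
      obtain ⟨a, b, hab⟩ := hcop
      rw [mul_zero, add_zero] at hab
      exact IsUnit.of_mul_eq_one _ (by rw [mul_comm]; exact hab)
    rw [natDegree_eq_zero_of_isUnit hu] at hdeg
    exact absurd hdeg (by simp)
  rcases h with hx | ⟨a, ha, hxa⟩
  · obtain ⟨hPne, hPord⟩ := ord_aeval_of_ord_neg v hx P hP0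
    obtain ⟨hQne, hQord⟩ := ord_aeval_of_ord_neg v hx Q hQ0
    have hy0 : y ≠ 0 := by
      rintro rfl
      rw [zero_mul] at hrel
      exact hPne hrel.symm
    have h1 := congrArg v.ord hrel
    rw [v.ord_mul hy0 hQne, hPord, hQord] at h1
    have hlt : (Q.natDegree : ℤ) < P.natDegree := by exact_mod_cast hdeg
    nlinarith
  · -- shift to `t = x - a`
    set t : F := x - algebraMap K F a with ht
    have hxt : ∀ R : K[X], aeval x R = aeval t (R.comp (X + C a)) := by
      intro R
      rw [aeval_comp, map_add, aeval_X, aeval_C, ht, sub_add_cancel]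
    have hcoeff : ∀ R : K[X], (R.comp (X + C a)).coeff 0 = R.eval a := by
      intro R
      rw [coeff_zero_eq_eval_zero, eval_comp, eval_add, eval_X, eval_C, zero_add]
    have hPa : P.eval a ≠ 0 := by
      intro h0
      obtain ⟨u, w, huw⟩ := hcop
      have := congrArg (eval a) huw
      rw [eval_add, eval_mul, eval_mul, h0, ha, mul_zero, mul_zero, add_zero, eval_one] at this
      exact zero_ne_one this
    obtain ⟨hPne, hPord⟩ := aeval_unit_of_ord_pos v hxa (P.comp (X + C a))
      (by rw [hcoeff]; exact hPa)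
    rw [← hxt] at hPne hPord
    have hy0 : y ≠ 0 := by
      rintro rfl
      rw [zero_mul] at hrel
      exact hPne hrel.symm
    have hQne : aeval x Q ≠ 0 := by
      intro h0
      rw [h0, mul_zero] at hrel
      exact hPne hrel.symm
    have hQpos : 0 < v.ord (aeval x Q) := by
      rw [hxt] at hQne ⊢
      exact ord_aeval_pos_of_coeff_zero v hxa _ (by rw [hcoeff]; exact ha) hQne
    have h1 := congrArg v.ord hrel
    rw [v.ord_mul hy0 hQne, hPord] at h1
    omega

end Fermat.Agent.Gateway.GoodRed.PolesOfRel
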