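import Fermat.Agent.Gateway.GoodRed.RedHom
import Fermat.Agent.Gateway.GoodRed.ConjFamily

/-!
# P-GATEWAY (c) GoodRed, (S5) part 2: persistence for a family of cusp embeddings

* `family_persists` : a family `σ i : F →+* L((z))` (`F = FBar L N`) of `ψ(N)` pairwise distinct
  ring homs which are the identity on the constants, send `j ↦ j(z^N)`, every `j(q^d)` (`d ∣ N`) to
  some `j(ξ z^e)` (`ξ^N = 1`), and which contains the expansion at `∞`: every member `Persists`
  (Q4), and elements of `Ov` integral over `L[j]` have `A`-integral expansions (Q3).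
  [instantiates `cusp_family_persistence` = `CuspPersist` + `Igusa` + `CuspPrimitive`; the
  separating family is `j(q^d)`, `d ∣ N` (unit differences by `ConjFamily.isUnit_jS_sub`), the
  IGUSA family is the box monomials (`box_indepMod`).]
* `fBar_eq_fullC : FBar L N = modularFunctionFieldFullC L N`, `toFullC`, and `embF τ` : a cusp
  embedding `τ : ConjFamily.Emb L N` (helper83) as a ring hom on `FBar L N`.
-/

set_option autoImplicit false
set_option linter.unusedSectionVars false
set_option linter.style.haveILetI false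

noncomputable section

namespace Fermat.Agent.Gateway.GoodRed

open Polynomial ModularCurve Fermat.Agent.S28 Fermat.Agent.S28.Tower Fermat.Agent.Gateway.Red
open IntermediateField

section Main

variable {L : Type} [Field L] [Algebra ℚ L] [IsAlgClosed L] (A : ValuationSubring L)
  {k : Type} [Field k] (π : A →+* k) (N : ℕ)
  [IsAlgClosed k] (ℓ : ℕ) [Fact ℓ.Prime] [CharP k ℓ] [NeZero N]
  (hπ : Function.Surjective π) (hℓN : ¬ ℓ ∣ N)

attribute [local instance] algebraRF algebraPolyF

/-- a ring hom `F → L((z))` which is the identity on the constants and maps `j` to `ξ` is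
compatible with the `L[X]`-algebra structure `X ↦ j`. -/
theorem map_algebraMap_polyF (s : FBar L N →+* LaurentSeries L)
    (hsL : ∀ c : L, s (algebraMap L (FBar L N) c) = HahnSeries.C c) (P : L[X]) :
    s (algebraMap L[X] (FBar L N) P) = aeval (s (jSF L N one_ne_zero (one_dvd N))) P := by
  have h : s.comp (algebraMap L[X] (FBar L N)) =
      ((aeval (s (jSF L N one_ne_zero (one_dvd N))) : L[X] →ₐ[L] LaurentSeries L) :
        L[X] →+* LaurentSeries L) := by
    refine Polynomial.ringHom_ext (fun c => ?_) ?_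
    · have h1 : algebraMap L[X] (FBar L N) (C c) = algebraMap L (FBar L N) c := by
        apply Subtype.ext
        rw [coe_algebraMap_polyF, aeval_C]
        rfl
      rw [RingHom.comp_apply, h1, hsL, RingHom.coe_coe, aeval_C, algebraMap_laurent_eq_C]
    · rw [RingHom.comp_apply, ← jSF_one, RingHom.coe_coe, aeval_X]
  exact DFunLike.congr_fun h P

/-- the box monomials are integral over `L[j]`, and their expansions are `A`-integral as soon as
those of the `j(q^d)` are. -/
theorem evF_integral {ι' : Type*} (σ : ι' → FBar L N →+* LaurentSeries L)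
    (hint : ∀ i (d : ℕ) (hd0 : d ≠ 0) (hd : d ∣ N), σ i (jSF L N hd0 hd) ∈ intLS A)
    (μ : box N) :
    IsIntegral L[X] (evF L N μ) ∧ ∀ i, σ i (evF L N μ) ∈ intLS A := by
  -- a multiplicative predicate on `L((q))`
  let P : LaurentSeries L → Prop := fun x =>
    ∃ h : x ∈ FBar L N, IsIntegral L[X] (⟨x, h⟩ : FBar L N) ∧
      ∀ i, σ i (⟨x, h⟩ : FBar L N) ∈ intLS A
  have hmul : ∀ x y, P x → P y → P (x * y) := by
    rintro x y ⟨hx, hx1, hx2⟩ ⟨hy, hy1, hy2⟩
    refine ⟨mul_mem hx hy, ?_, fun i => ?_⟩
    · have : (⟨x * y, mul_mem hx hy⟩ : FBar L N) = ⟨x, hx⟩ * ⟨y, hy⟩ := rfl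
      rw [this]
      exact hx1.mul hy1
    · have : (⟨x * y, mul_mem hx hy⟩ : FBar L N) = ⟨x, hx⟩ * ⟨y, hy⟩ := rfl
      rw [this, map_mul]
      exact Subring.mul_mem _ (hx2 i) (hy2 i)
  have hone : P 1 := by
    refine ⟨one_mem _, ?_, fun i => ?_⟩
    · have : (⟨1, one_mem _⟩ : FBar L N) = 1 := rfl
      rw [this]
      exact isIntegral_one
    · have : (⟨1, one_mem _⟩ : FBar L N) = 1 := rfl
      rw [this, map_one]
      exact Subring.one_mem _
  have hpow : ∀ x (n : ℕ), P x → P (x ^ n) := by
    intro x n hx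
    induction n with
    | zero => rw [pow_zero]; exact hone
    | succ n ih => rw [pow_succ]; exact hmul _ _ ih hx
  have hP : P (ev L (μ : ℕ →₀ ℕ)) := by
    rw [ev, Finsupp.prod]
    refine Finset.prod_induction _ P hmul hone fun d hd => hpow _ _ ?_
    obtain ⟨hd0, hdN⟩ := dvd_of_mem_support_of_mem_box (NeZero.ne N) μ.2 hd
    exact ⟨jS_mem_FBar hd0 hdN, isIntegral_jSF L N d hd0 hdN, fun i => hint i d hd0 hdN⟩
  obtain ⟨h, h1, h2⟩ := hP
  exact ⟨h1, h2⟩

include hπ hℓN in
/-- **(S5), abstract family form.** A family `σ i : F →+* L((z))` of `ψ(N)` pairwise distinct ring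
homs which are the identity on the constants, send `j` to `j(z^N)` and every `j(q^d)`, `d ∣ N`, to
a series `j(ξ z^e)` with `ξ` an `N`-th root of unity, and which contains the expansion at `∞`:
every member persists to the residue fields (Q4), and elements of `Ov` which are integral over
`L[j]` have `A`-integral expansions (Q3). -/
theorem family_persists {ι' : Type*} [Fintype ι']
    (σ : ι' → FBar L N →+* LaurentSeries L)
    (hσL : ∀ i (c : L), σ i (algebraMap L (FBar L N) c) = HahnSeries.C c)
    (hσj : ∀ i, σ i (jSF L N one_ne_zero (one_dvd N)) = qExpand L N (jqModC L))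
    (hval : ∀ i (d : ℕ) (hd0 : d ≠ 0) (hd : d ∣ N), ∃ (ξ : Lˣ) (e : ℕ),
      ξ ^ N = 1 ∧ e ≠ 0 ∧ σ i (jSF L N hd0 hd) = jS L ξ e)
    (hinj : Function.Injective σ)
    (hcard : Fintype.card ι' = dedekindPsi N)
    (i₀ : ι') (hi₀ : σ i₀ = sInfty L N) :
    (∀ i, Persists A π N (σ i)) ∧
    (∀ f : FBar L N, IsIntegral L[X] f → f ∈ Ov A π (FBar L N) → ∀ i, σ i f ∈ intLS A) := by
  classical
  have hN0 : N ≠ 0 := NeZero.ne N
  haveI := finiteDimensional_RF L N
  haveI := isSeparable_RF L N
  haveI := isScalarTower_polyF L N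
  haveI : Infinite k := IsAlgClosed.instInfinite
  have hπu : ∀ a : A, π a ≠ 0 → IsUnit a := fun a ha => isUnit_of_map_ne_zero A π hπ ha
  have hNA : IsUnit ((N : ℕ) : A) := isUnit_natCast_A A π N ℓ hπ hℓN
  -- the values on the generators
  choose ξ e hξ he hσe using hval
  -- the index type of the generators
  let ι := {d : ℕ // d ∈ N.divisors}
  have hd0 : ∀ d : ι, (d : ℕ) ≠ 0 := fun d => (Nat.pos_of_mem_divisors d.2).ne'
  have hdN : ∀ d : ι, (d : ℕ) ∣ N := fun d => Nat.dvd_of_mem_divisors d.2
  let y : ι → FBar L N := fun d => jSF L N (hd0 d) (hdN d)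
  let ζ : ι' → ι → Aˣ := fun i d => unitOfRoot A (ξ i d (hd0 d) (hdN d)) hN0 (hξ i d (hd0 d) (hdN d))
  let g : ι' → ι → LaurentSeries A := fun i d => jS A (ζ i d) (e i d (hd0 d) (hdN d))
  have hg : ∀ i d, σ i (y d) = embA A (g i d) := by
    intro i d
    rw [embA_jS, map_unitOfRoot]
    exact hσe i d (hd0 d) (hdN d)
  have hint : ∀ i (d : ℕ) (hd0 : d ≠ 0) (hd : d ∣ N), σ i (jSF L N hd0 hd) ∈ intLS A := by
    intro i d hd0' hd
    have := hg i ⟨d, Nat.mem_divisors.mpr ⟨hd, hN0⟩⟩
    exact ⟨_, this.symm⟩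
  have hsep : ∀ i i', i ≠ i' → ∃ d, g i d ≠ g i' d := by
    intro i i' hne
    by_contra hcon
    simp only [not_exists, not_not] at hcon
    apply hne
    apply hinj
    refine ringHom_ext_FBar L N _ _ (fun c => by rw [hσL, hσL]) fun d hd0' hd => ?_
    have h1 := hg i ⟨d, Nat.mem_divisors.mpr ⟨hd, hN0⟩⟩
    have h2 := hg i' ⟨d, Nat.mem_divisors.mpr ⟨hd, hN0⟩⟩
    rw [hcon] at h1
    exact h1.trans h2.symm
  have hunit : ∀ i i' d, g i d ≠ g i' d → IsUnit (g i d - g i' d) := by
    intro i i' d hne
    refine ConjFamily.isUnit_jS_sub hNA (unitOfRoot_pow A _ hN0 _) (unitOfRoot_pow A _ hN0 _)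
      (he i d (hd0 d) (hdN d)) (he i' d (hd0 d) (hdN d)) ?_
    by_contra hcon
    simp only [not_or, not_not] at hcon
    apply hne
    have h1 : ζ i d = ζ i' d := hcon.1
    show jS A (ζ i d) _ = jS A (ζ i' d) _
    rw [h1, hcon.2]
  have hσ : ∀ i (P : L[X]), σ i (algebraMap L[X] (FBar L N) P) = aeval (embA A (xiA A N)) P := by
    intro i P
    rw [map_algebraMap_polyF N (σ i) (hσL i), hσj, embA_xiA]
  have hcard' : Fintype.card ι' = Module.finrank (RatFunc L) (FBar L N) := by
    rw [hcard, finrank_RF_eq_dedekindPsi A π N ℓ hπ hℓN]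
  have hκ : Fintype.card (box N) = Module.finrank (RatFunc L) (FBar L N) :=
    (finrank_RF_eq_card_box A π N ℓ hπ hℓN).symm
  have hm := fun μ : box N => evF_integral A N σ hint μ
  have hg₀ : ∀ μ : box N, σ i₀ (evF L N μ) = embA A (qExpand A N (ev A (μ : ℕ →₀ ℕ))) := by
    intro μ
    rw [hi₀, sInfty_apply, coe_evF, GaussRing.embA_qExpand, embA_ev]
  have hind : ∀ b : box N → k[X],
      ∑ μ, aeval (redA A π (xiA A N)) (b μ) * redA A π (qExpand A N (ev A (μ : ℕ →₀ ℕ))) = 0 →
        ∀ μ, b μ = 0 := by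
    intro b hb
    refine box_indepMod ℓ hℓN b ?_
    apply (qExpand k N).injective
    rw [map_zero, ← hb, map_sum]
    refine Finset.sum_congr rfl fun μ _ => ?_
    rw [map_mul, redA_xiA, GaussRing.redA_qExpand, redA_ev]
    congr 1
    have := Polynomial.aeval_algHom_apply (qExpandAlgHomC k N) (jqModC k) (b μ)
    simpa only [qExpandAlgHomC_apply] using this.symm
  obtain ⟨h1, h2, h3⟩ := cusp_family_persistence (K := RatFunc L) (F := FBar L N) π hπ hπu
    (xiA A N) (isUnit_xiA A N) (xiA_order_neg A N) σ hσ hcard' y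
    (fun d => isIntegral_jSF L N _ (hd0 d) (hdN d)) g hg hsep hunit hκ (fun μ => evF L N μ)
    (fun μ => (hm μ).1) (fun μ i => (hm μ).2 i) i₀ _ hg₀ hind
  have h0 : ∀ f : FBar L N, f ∈ Ov A π (FBar L N) → σ i₀ f ∈ gaussRing A π := by
    intro f hf
    rw [hi₀]
    exact (persists_sInfty (A := A) (π := π) (N := N)).mem f hf
  refine ⟨fun i => ⟨fun f hf => h1 f (h0 f hf) i, fun f hf hred => ?_⟩,
    fun f hf hfO i => h3 f hf (h0 f hfO) i⟩
  refine h2 f (h0 f hf) ?_ i _
  have := (persists_sInfty (A := A) (π := π) (N := N)).red_eq_zero f hf hred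
  rw [← this]
  congr 2
  rw [hi₀]

end Main

section Bridge

variable (L : Type) [Field L] [Algebra ℚ L] (N : ℕ) [NeZero N]

/-- the base change of the `ℚ`-model is the function field generated over `L` by the `j(q^d)`. -/
theorem fBar_eq_fullC : FBar L N = modularFunctionFieldFullC L N := by
  apply le_antisymm
  · have hT : ∀ x ∈ modularFunctionFieldFull N, coeffEmb L x ∈ modularFunctionFieldFullC L N := by
      intro x hx
      rw [modularFunctionFieldFull] at hx
      induction hx using IntermediateField.adjoin_induction with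
      | mem x hx =>
        obtain ⟨d, hne, hdvd, rfl⟩ := hx
        have h2 : coeffEmb L (qExpand ℚ d jq) = qExpand L d (jqModC L) := by
          rw [← jS_rat_eq_qExpand, coeffEmb, coeffMap_jS, map_one, jS_eq_qExpand]
        rw [h2]
        exact jqModCd_mem_full L N hdvd
      | algebraMap c =>
        have : coeffEmb L (algebraMap ℚ (LaurentSeries ℚ) c) =
            algebraMap L (LaurentSeries L) (algebraMap ℚ L c) := by
          rw [algebraMap_laurentSeries_eq_single, algebraMap_laurentSeries_eq_single]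
          exact coeffMap_single _ _ _
        rw [this]
        exact (modularFunctionFieldFullC L N).algebraMap_mem _
      | add x y _ _ hx hy =>
        rw [map_add]
        exact add_mem hx hy
      | inv x _ hx =>
        rw [map_inv₀]
        exact inv_mem hx
      | mul x y _ _ hx hy =>
        rw [map_mul]
        exact mul_mem hx hy
    rw [FBar, laurentBaseChange, IntermediateField.adjoin_le_iff]
    rintro _ ⟨x, hx, rfl⟩
    exact hT x hx
  · rw [modularFunctionFieldFullC, IntermediateField.adjoin_le_iff]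
    rintro _ ⟨d, hne, hdvd, rfl⟩
    rw [← jS_eq_qExpand]
    exact jS_mem_FBar (NeZero.ne d) hdvd

/-- the identity `F → Fk L N`. -/
def toFullC : FBar L N →+* ConjFamily.Fk L N where
  toFun f := ⟨(f : LaurentSeries L), (fBar_eq_fullC L N).le f.2⟩
  map_one' := rfl
  map_mul' _ _ := rfl
  map_zero' := rfl
  map_add' _ _ := rfl

theorem coe_toFullC (f : FBar L N) :
    ((toFullC L N f : ConjFamily.Fk L N) : LaurentSeries L) = f := by
  cases f
  rfl

theorem toFullC_surjective : Function.Surjective (toFullC L N) := by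
  rintro ⟨y, hy⟩
  exact ⟨⟨y, (fBar_eq_fullC L N).ge hy⟩, Subtype.ext (coe_toFullC L N _)⟩

theorem toFullC_algebraMap (c : L) :
    toFullC L N (algebraMap L (FBar L N) c) = algebraMap L (ConjFamily.Fk L N) c := by
  apply Subtype.ext
  rw [coe_toFullC, coe_algebraMap_FBar]
  have : ((algebraMap L (ConjFamily.Fk L N) c : ConjFamily.Fk L N) : LaurentSeries L)
      = algebraMap L (LaurentSeries L) c := rfl
  rw [this, algebraMap_laurentSeries_eq_single]
  rfl

theorem toFullC_jSF {d : ℕ} (hd0 : d ≠ 0) (hd : d ∣ N) :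
    toFullC L N (jSF L N hd0 hd) = ConjFamily.jdF d hd := by
  apply Subtype.ext
  rw [coe_toFullC, coe_jSF, ConjFamily.coe_jdF]

variable {L N}

/-- a cusp embedding of `Fk L N`, as a ring hom on `F = FBar L N`. -/
def embF (τ : ConjFamily.Emb L N) : FBar L N →+* LaurentSeries L := τ.1.comp (toFullC L N)

theorem embF_apply (τ : ConjFamily.Emb L N) (f : FBar L N) : embF τ f = τ.1 (toFullC L N f) := rfl

theorem embF_injective : Function.Injective (embF (L := L) (N := N)) := by
  intro τ τ' h
  apply Subtype.ext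
  refine RingHom.ext fun y => ?_
  obtain ⟨f, rfl⟩ := toFullC_surjective L N y
  exact DFunLike.congr_fun h f

theorem embF_embInfty : embF (ConjFamily.embInfty (k := L) (N := N)) = sInfty L N := by
  refine RingHom.ext fun f => ?_
  rw [embF_apply, ConjFamily.embInfty_apply, sInfty_apply, coe_toFullC]

end Bridge

end Fermat.Agent.Gateway.GoodRed
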