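import Fermat.Agent.Gateway.GoodRed.CuspPrimitive
import Fermat.Agent.Gateway.GoodRed.Igusa

/-!
# P-GATEWAY (c) GoodRed, (S5) abstract part: cusp persistence in family form

`CuspData`-free packaging of `CuspPersist` + `Igusa` + `CuspPrimitive`.  Setting: `A` a valuation
subring of `L`, `π : A →+* k` onto an infinite field, `F / K` finite separable with `K` a fraction
field of `L[x]`, and a family `σ i : F →+* L((z))` (`i : ι'`, `#ι' = [F : K]`) of ring homs over
`x ↦ ξ`.  Given

* a finite family `y d` of elements of `F`, integral over `L[x]`, whose expansions `σ i (y d)` are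
  `A`-integral, separate the `σ i`, and have unit differences, and
* `[F : K]` elements `m μ`, integral over `L[x]` with `A`-integral expansions, whose reductions at
  the cusp `i₀` are `k[x̄]`-linearly independent,

we get for every `f : F` with `σ i₀ f` in the Gauss ring:
* (Q4) all `σ i f` lie in the Gauss ring;
* (Q4') if `σ i₀ f` reduces to zero, so do all `σ i f`;
* (Q3) if `f` is integral over `L[x]`, all `σ i f` are `A`-integral.
-/

set_option autoImplicit false

noncomputable section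

namespace Fermat.Agent.Gateway.GoodRed

open Polynomial Fermat.Agent.Gateway.Red

variable {L : Type*} [Field L] {A : ValuationSubring L} {k : Type*} [Field k] (π : A →+* k)
variable {K F : Type*} [Field K] [Field F] [Algebra L[X] K] [IsFractionRing L[X] K]
    [Algebra K F] [Algebra L[X] F] [IsScalarTower L[X] K F]

/-- **Cusp persistence in family form.** -/
theorem cusp_family_persistence [FiniteDimensional K F] [Algebra.IsSeparable K F] [Infinite k]
    {ι ι' κ : Type*} [Fintype ι] [Fintype ι'] [Fintype κ]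
    (hπs : Function.Surjective π) (hπu : ∀ a : A, π a ≠ 0 → IsUnit a)
    (ξ : LaurentSeries A) (hξ : IsUnit ξ) (hξo : ξ.order < 0)
    (σ : ι' → (F →+* LaurentSeries L))
    (hσ : ∀ i (P : L[X]), σ i (algebraMap L[X] F P) = aeval (embA A ξ) P)
    (hcard : Fintype.card ι' = Module.finrank K F)
    (y : ι → F) (hy : ∀ d, IsIntegral L[X] (y d))
    (g : ι' → ι → LaurentSeries A) (hg : ∀ i d, σ i (y d) = embA A (g i d))
    (hsep : ∀ i i', i ≠ i' → ∃ d, g i d ≠ g i' d)
    (hunit : ∀ i i' d, g i d ≠ g i' d → IsUnit (g i d - g i' d))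
    (hκ : Fintype.card κ = Module.finrank K F)
    (m : κ → F) (hm : ∀ μ, IsIntegral L[X] (m μ))
    (hmσ : ∀ μ i, σ i (m μ) ∈ intLS A) (i₀ : ι')
    (g₀ : κ → LaurentSeries A) (hg₀ : ∀ μ, σ i₀ (m μ) = embA A (g₀ μ))
    (hind : ∀ b : κ → k[X],
      ∑ μ, aeval (redA A π ξ) (b μ) * redA A π (g₀ μ) = 0 → ∀ μ, b μ = 0) :
    (∀ f : F, σ i₀ f ∈ gaussRing A π → ∀ i, σ i f ∈ gaussRing A π) ∧
    (∀ (f : F) (h0 : σ i₀ f ∈ gaussRing A π), gaussRed A π ⟨_, h0⟩ = 0 →
      ∀ i (hi : σ i f ∈ gaussRing A π), gaussRed A π ⟨_, hi⟩ = 0) ∧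
    (∀ f : F, IsIntegral L[X] f → σ i₀ f ∈ gaussRing A π → ∀ i, σ i f ∈ intLS A) := by
  classical
  obtain ⟨D, e, lam, hDξ, hDσ, -, -⟩ :=
    exists_cuspData_of_family π hπs hπu ξ hξ hξo σ hσ hcard y hy g hg hsep hunit
  have hπ : ∀ a : A, a ∈ IsLocalRing.maximalIdeal A → π a = 0 := by
    intro a ha
    by_contra h
    exact (IsLocalRing.mem_maximalIdeal a).mp ha (hπu a h)
  have hdim : Fintype.card κ = Fintype.card (Fin D.pb.dim) := by
    rw [hκ, Fintype.card_fin, D.pb.finrank]
  let eκ : Fin D.pb.dim ≃ κ := (Fintype.equivOfCardEq hdim).symm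
  set j₀ : Fin D.pb.dim := e.symm i₀ with hj₀
  have hej₀ : e j₀ = i₀ := e.apply_symm_apply i₀
  have higusa : ∀ c : Fin D.pb.dim → k[X],
      ∑ j, aeval (redA A π D.ξ) (c j) * redA A π (D.t j₀) ^ (j : ℕ) = 0 → ∀ j, c j = 0 := by
    refine D.igusa_of_family π j₀ (fun μ => m (eκ μ)) (fun μ => hm _)
      (fun μ i => by rw [hDσ]; exact hmσ _ _) (fun μ => g₀ (eκ μ))
      (fun μ => by rw [hDσ, hej₀]; exact hg₀ _) ?_
    intro b hb
    rw [hDξ] at hb
    have h1 := hind (fun μ => b (eκ.symm μ)) ?_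
    · intro μ
      have := h1 (eκ μ)
      rwa [eκ.symm_apply_apply] at this
    · rw [← Equiv.sum_comp eκ]
      simpa only [Equiv.symm_apply_apply] using hb
  have hσe : ∀ i, σ i = D.σ (e.symm i) := fun i => by rw [hDσ, e.apply_symm_apply]
  refine ⟨fun f h0 i => ?_, fun f h0 hred i hi => ?_, fun f hf h0 i => ?_⟩
  · rw [hσe i]
    exact D.σ_mem_gaussRing π hπ j₀ higusa (by rw [hDσ, hej₀]; exact h0) _
  · have h0' : D.σ j₀ f ∈ gaussRing A π := by rw [hDσ, hej₀]; exact h0
    have hi' : D.σ (e.symm i) f ∈ gaussRing A π := by rw [← hσe i]; exact hi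
    have hred' : gaussRed A π ⟨_, h0'⟩ = 0 := by
      rw [← hred]
      congr 2
      rw [hDσ, hej₀]
    have := D.gaussRed_σ_eq_zero π hπ j₀ higusa h0' hred' (e.symm i) hi'
    rw [← this]
    congr 2
    rw [hσe i]
  · rw [hσe i]
    exact D.qint π hπ j₀ higusa hf (by rw [hDσ, hej₀]; exact h0) _

end Fermat.Agent.Gateway.GoodRed
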