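import Mathlib
import Fermat.Agent.Gateway.Red.Defs
import Fermat.Agent.Gateway.C0.Count
import Fermat.Agent.Gateway.GoodRed.CharLBound

set_option autoImplicit false

/-!
# P-GATEWAY (c) GoodRed: the sandwich (abstract form)

`F / L` a function field in characteristic `0`, `O` a valuation subring of `F` over the valuation
subring `A` of `L`, with residue map `res : O → Fk`; two families of expansions `σL j : F → L((z))`,
`σk j : Fk → k((z))` indexed by the same set, compatible with the reduction on the functions regular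
away from the cusps (`hq`: the expansions of such functions in `O` are `A`-integral and reduce to
the expansions of the reduction).

* `specialisation` (SC): `res` maps `cuspSpaceE x σL P ∩ O` into `cuspSpaceE xk σk P`.
* `sandwich` (EQ): from (SC), the upper bound in characteristic `ℓ`, the lower bound (Riemann) in
  characteristic `0` and the cartesian property, the reduction of `cuspSpaceE x σL P ∩ O` is all of
  `cuspSpaceE xk σk P`, the two dimensions agree, and the number of differentials used in the upper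
  bound equals the genus used in the lower bound.
-/

set_option linter.unusedSectionVars false

noncomputable section

namespace Fermat.Agent.Gateway.GoodRed.Sandwich

open Module HahnSeries LaurentSeries Polynomial Function Fermat.Agent.Gateway.Red
  Fermat.Agent.Gateway.C0

variable {L : Type*} [Field L] {A : ValuationSubring L} {k : Type*} [Field k] (π : A →+* k)
  {F : Type*} [Field F] [Algebra L F] {O : ValuationSubring F}
  {Fk : Type*} [Field Fk] [Algebra k Fk] (res : O →+* Fk)
  {ι : Type*} [Fintype ι] [DecidableEq ι] (σL : ι → F →+* L⸨X⸩) (σk : ι → Fk →+* k⸨X⸩)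
  (hσLk : ∀ j (c : L), σL j (algebraMap L F c) = HahnSeries.C c)
  (hσkk : ∀ j (c : k), σk j (algebraMap k Fk c) = HahnSeries.C c)
  (x : F) (xk : Fk)

/-- **(SC)** Specialisation of the cuspidal Riemann–Roch spaces. -/
theorem specialisation
    (hint : ∀ f : O, IsIntegral (Algebra.adjoin L {x}) (f : F) →
      IsIntegral (Algebra.adjoin k {xk}) (res f))
    (hq : ∀ j (f : O), IsIntegral (Algebra.adjoin L {x}) (f : F) →
      ∃ g : LaurentSeries A, σL j (f : F) = embA A g ∧ σk j (res f) = redA A π g)
    (P : ι → ℕ) (f : F) (hf : f ∈ O) (hfP : f ∈ cuspSpaceE x σL hσLk P) :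
    res ⟨f, hf⟩ ∈ cuspSpaceE xk σk hσkk P := by
  rw [mem_cuspSpaceE_iff] at hfP ⊢
  refine ⟨hint ⟨f, hf⟩ hfP.1, fun j a ha => ?_⟩
  obtain ⟨g, hg, hgk⟩ := hq j ⟨f, hf⟩ hfP.1
  have h0 : g.coeff a = 0 := by
    have := hfP.2 j a ha
    rw [show σL j f = embA A g from hg, embA_coeff] at this
    exact Subtype.ext this
  rw [hgk, redA_coeff, h0, map_zero]

/-- **(EQ)** The sandwich. -/
theorem sandwich (R : RedSetup A O k Fk) (P : ι → ℕ) (M : ℕ) (hM : M ≠ 0)
    [FiniteDimensional L (cuspSpaceE x σL hσLk P)] [FiniteDimensional k (cuspSpaceE xk σk hσkk P)]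
    (hfg : (R.lat (cuspSpaceE x σL hσLk P)).FG)
    (hSC : ∀ (f : F) (hf : f ∈ O), f ∈ cuspSpaceE x σL hσLk P →
      R.res ⟨f, hf⟩ ∈ cuspSpaceE xk σk hσkk P)
    (g gL : ℕ) (hg : gL ≤ g)
    (hUB : M * (finrank k (cuspSpaceE xk σk hσkk P) + g) ≤ ∑ j, P j + M)
    (hLB : ∑ j, P j + M ≤ M * (finrank L (cuspSpaceE x σL hσLk P) + gL)) :
    R.redLat (cuspSpaceE x σL hσLk P) = cuspSpaceE xk σk hσkk P ∧
      finrank k (cuspSpaceE xk σk hσkk P) = finrank L (cuspSpaceE x σL hσLk P) ∧
      M * (finrank L (cuspSpaceE x σL hσLk P) + g) = ∑ j, P j + M ∧ g = gL := by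
  set V := cuspSpaceE x σL hσLk P with hV
  set Rb := cuspSpaceE xk σk hσkk P with hRb
  have h1 : finrank k Rb + g ≤ finrank L V + gL :=
    Nat.le_of_mul_le_mul_left (hUB.trans hLB) (Nat.pos_of_ne_zero hM)
  have hdim : finrank k Rb ≤ finrank L V := by omega
  have hle : R.redLat V ≤ Rb := by
    rintro _ ⟨f, hf, hfV, rfl⟩
    exact hSC f hf hfV
  obtain ⟨e1, e2⟩ := R.redLat_eq_of_finrank_le V hfg Rb hle hdim
  have hgg : g = gL := by omega
  refine ⟨e1, e2, ?_, hgg⟩
  apply le_antisymm
  · rw [← e2]; exact hUB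
  · rw [hgg]; exact hLB

end Fermat.Agent.Gateway.GoodRed.Sandwich

end
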