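import Mathlib
import Fermat.Agent.S24.ZP.PlaceBasics
import Fermat.Agent.Gateway.GoodRed.Instantiate.UpperBound4
import Fermat.Agent.Gateway.GoodRed.Instantiate.UpperBound9

/-!
# P-GATEWAY (c), Hurwitz backup route for (G2): the `t`-line inputs  (B4)(ii),(iii)

Abstract:
* `ord_aeval_eq_zero`, `ord_aeval_pos`, `ord_aeval_of_ord_neg` : orders of polynomial values at a
  place of a function field;
* `ord_neg_of_ord_neg`, `ord_neg_of_root` : for `j Q(t) = P(t)`, `deg Q < deg P`, the poles of `t`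
  and the zeros of `t - a` (`Q(a) = 0 ≠ P(a)`) are poles of `j`;
* `adjoin_j_le`, `finiteDimensional_adjoin_t`, `isSeparable_adjoin_t`, `finrank_tAlgebra` :
  `k(j) ≤ k(t)` and the transfer of finiteness / separability / degree.

At a level `N = 4 N'` (`t` with `q`-expansion `x₄`, `(2 : k) ≠ 0`) resp. `N = 9 N'` (`y₉`,
`(3 : k) ≠ 0`), for `E = Fk k N` (`k` algebraically closed, `(N : k) ≠ 0`):
* `transcendental_t4/9`, `finiteDimensional_t4/9`, `isSeparable_t4/9`;
* `finrank_t4 : finrank k⟮t⟯ (Fk k N) * 6 = dedekindPsi N`, `finrank_t9 : … * 12 = dedekindPsi N`;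
* `poles_t4/9 : ∃ S : Finset k, S.card = 2 (resp. 3) ∧ ∀ v, (v.ord t < 0 ∨ ∃ a ∈ S,
  0 < v.ord (t - algebraMap k _ a)) → v.ord (jFk k N) < 0`.
-/

set_option autoImplicit false
set_option linter.unusedSectionVars false
set_option linter.style.haveILetI false

noncomputable section

namespace Fermat.Agent.Gateway.GoodRed.TLineHurwitz

open Polynomial AlgebraicCurve IntermediateField ModularCurve
open Fermat.Agent.S24.ZP Fermat.Agent.S28 Fermat.Agent.Gateway.GoodRed.UpperBoundT
open Fermat.Agent.Gateway.GoodRed.ConjFamily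

section Ord

variable {K F : Type*} [Field K] [Field F] [Algebra K F] (v : Place K F)

/-- value of a polynomial at an element of the maximal ideal: unit iff constant coefficient ≠ 0. -/
theorem ord_aeval_eq_zero {s : F} (hs : s = 0 ∨ 0 < v.ord s) {R : K[X]} (hR : R.coeff 0 ≠ 0) :
    aeval s R ≠ 0 ∧ v.ord (aeval s R) = 0 := by
  have hsO : s ∈ v.toValuationSubring := by
    rcases hs with rfl | hs
    · exact zero_mem _
    · have hs0 : s ≠ 0 := by rintro rfl; simp at hs
      exact (ord_nonneg_iff v hs0).mp hs.le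
  set s' : v.toValuationSubring := ⟨s, hsO⟩ with hs'
  have hsm : s' ∈ IsLocalRing.maximalIdeal v.toValuationSubring := by
    rw [IsLocalRing.mem_maximalIdeal, mem_nonunits_iff]
    rcases hs with rfl | hs
    · intro hu
      have : (s' : v.toValuationSubring) = 0 := Subtype.ext rfl
      rw [this] at hu
      exact not_isUnit_zero hu
    · have hs0 : s ≠ 0 := by rintro rfl; simp at hs
      have := (ord_pos_iff v hs0).mp hs
      intro hu
      rw [ValuationSubring.mem_nonunits_iff_exists_mem_maximalIdeal] at this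
      obtain ⟨hmem, hmax⟩ := this
      rw [IsLocalRing.mem_maximalIdeal, mem_nonunits_iff] at hmax
      exact hmax hu
  have hcoe : aeval s R = ((aeval s' R : v.toValuationSubring) : F) := by
    have := Polynomial.aeval_algebraMap_apply (A := v.toValuationSubring) F s' R
    exact this
  have hdecomp : aeval s' R = aeval s' R.divX * s' + algebraMap K v.toValuationSubring (R.coeff 0) := by
    conv_lhs => rw [← Polynomial.divX_mul_X_add R]
    rw [map_add, map_mul, aeval_X, aeval_C]
  have hunit0 : IsUnit (algebraMap K v.toValuationSubring (R.coeff 0)) :=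
    (IsUnit.mk0 _ hR).map _
  have hunit : IsUnit (aeval s' R) := by
    rw [hdecomp]
    have hm : aeval s' R.divX * s' ∈ IsLocalRing.maximalIdeal v.toValuationSubring :=
      Ideal.mul_mem_left _ _ hsm
    have := IsLocalRing.isUnit_or_isUnit_of_isUnit_add (a := aeval s' R.divX * s' + algebraMap K v.toValuationSubring (R.coeff 0)) (b := -(aeval s' R.divX * s')) (by simpa using hunit0)
    rcases this with h | h
    · exact h
    · exfalso
      rw [IsUnit.neg_iff] at h
      exact (IsLocalRing.mem_maximalIdeal _).mp hm h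
  obtain ⟨u, hu⟩ := hunit
  rw [hcoe, ← hu]
  refine ⟨?_, v.ord_coe_unit u⟩
  intro h0
  have : (u : v.toValuationSubring) = 0 := Subtype.ext h0
  exact u.ne_zero this

/-- value of a polynomial without constant term at an element of positive order. -/
theorem ord_aeval_pos {s : F} (hs : 0 < v.ord s) {R : K[X]} (hR : R.coeff 0 = 0)
    (h0 : aeval s R ≠ 0) : 0 < v.ord (aeval s R) := by
  have hs0 : s ≠ 0 := by rintro rfl; simp at hs
  have hdecomp : aeval s R = aeval s R.divX * s := by
    conv_lhs => rw [← Polynomial.divX_mul_X_add R]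
    rw [hR, map_zero, add_zero, map_mul, aeval_X]
  rw [hdecomp] at h0 ⊢
  have hd0 : aeval s R.divX ≠ 0 := left_ne_zero_of_mul h0
  rw [v.ord_mul hd0 hs0]
  have hsO : s ∈ v.toValuationSubring := (ord_nonneg_iff v hs0).mp hs.le
  have hmem : aeval s R.divX ∈ v.toValuationSubring := by
    have := Polynomial.aeval_algebraMap_apply (A := v.toValuationSubring) F
      (⟨s, hsO⟩ : v.toValuationSubring) R.divX
    have h2 : aeval s R.divX = ((aeval (⟨s, hsO⟩ : v.toValuationSubring) R.divX :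
        v.toValuationSubring) : F) := this
    rw [h2]
    exact Subtype.property _
  have := (ord_nonneg_iff v hd0).mpr hmem
  omega

/-- value of a polynomial at a pole. -/
theorem ord_aeval_of_ord_neg {t : F} (ht : v.ord t < 0) {R : K[X]} (hR : R ≠ 0) :
    aeval t R ≠ 0 ∧ v.ord (aeval t R) = R.natDegree * v.ord t := by
  have ht0 : t ≠ 0 := by rintro rfl; simp at ht
  have hinv : 0 < v.ord t⁻¹ := by rw [v.ord_inv]; omega
  have hrev : R.reverse.coeff 0 ≠ 0 := by
    rw [Polynomial.coeff_zero_reverse]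
    exact Polynomial.leadingCoeff_ne_zero.mpr hR
  obtain ⟨h1, h2⟩ := ord_aeval_eq_zero v (Or.inr hinv) hrev
  have hrel : aeval t⁻¹ R.reverse * t ^ R.natDegree = aeval t R := by
    let _ : Invertible t := invertibleOfNonzero ht0
    have h := Polynomial.eval₂_reverse_mul_pow (algebraMap K F) t R
    rw [invOf_eq_inv] at h
    exact h
  have htn : t ^ R.natDegree ≠ 0 := pow_ne_zero _ ht0
  rw [← hrel]
  refine ⟨mul_ne_zero h1 htn, ?_⟩
  rw [v.ord_mul h1 htn, h2, zero_add, ord_pow]

end Ord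

section Rel

variable {K F : Type*} [Field K] [Field F] [Algebra K F] (v : Place K F)
  {t j : F} {P Q : K[X]}

/-- poles of `t` are poles of `j = P(t)/Q(t)` when `deg Q < deg P`. -/
theorem ord_neg_of_ord_neg (hj : j * aeval t Q = aeval t P) (hlt : Q.natDegree < P.natDegree)
    (hQ0 : Q ≠ 0) (ht : v.ord t < 0) : v.ord j < 0 := by
  have hP0 : P ≠ 0 := by
    rintro rfl
    simp at hlt
  obtain ⟨hP1, hP2⟩ := ord_aeval_of_ord_neg v ht hP0
  obtain ⟨hQ1, hQ2⟩ := ord_aeval_of_ord_neg v ht hQ0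
  have hj0 : j ≠ 0 := by
    rintro rfl
    rw [zero_mul] at hj
    exact hP1 hj.symm
  have h := v.ord_mul hj0 hQ1
  rw [hj, hP2, hQ2] at h
  have hlt' : (Q.natDegree : ℤ) < P.natDegree := by exact_mod_cast hlt
  nlinarith

/-- zeros of `t - a`, `a` a root of `Q` and not of `P`, are poles of `j = P(t)/Q(t)`. -/
theorem ord_neg_of_root (hj : j * aeval t Q = aeval t P) {a : K} (hQa : Q.eval a = 0)
    (hPa : P.eval a ≠ 0) (h : 0 < v.ord (t - algebraMap K F a)) : v.ord j < 0 := by
  set s := t - algebraMap K F a with hs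
  have hcomp : ∀ R : K[X], aeval t R = aeval s (R.comp (X + C a)) := by
    intro R
    rw [Polynomial.aeval_comp, map_add, aeval_X, aeval_C, hs, sub_add_cancel]
  have hc0 : ∀ R : K[X], (R.comp (X + C a)).coeff 0 = R.eval a := by
    intro R
    rw [Polynomial.coeff_zero_eq_eval_zero, Polynomial.eval_comp, Polynomial.eval_add,
      Polynomial.eval_X, Polynomial.eval_C, zero_add]
  obtain ⟨hP1, hP2⟩ := ord_aeval_eq_zero v (Or.inr h) (R := P.comp (X + C a))
    (by rw [hc0]; exact hPa)
  rw [← hcomp] at hP1 hP2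
  have hj0 : j ≠ 0 := by
    rintro rfl
    rw [zero_mul] at hj
    exact hP1 hj.symm
  have hQ1 : aeval t Q ≠ 0 := by
    intro h0
    rw [h0, mul_zero] at hj
    exact hP1 hj.symm
  have hQ2 : 0 < v.ord (aeval t Q) := by
    rw [hcomp] at hQ1 ⊢
    exact ord_aeval_pos v h (by rw [hc0]; exact hQa) hQ1
  have h3 := v.ord_mul hj0 hQ1
  rw [hj, hP2] at h3
  omega

end Rel

section Tower

variable {k : Type*} [Field k] {E : Type*} [Field E] [Algebra k E] (t : E)
  (htr : Transcendental k t) {jE : E} {P Q : k[X]}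

include htr in
theorem aeval_ne_zero_of_transcendental {R : k[X]} (hR : R ≠ 0) : aeval t R ≠ 0 :=
  fun h => hR (transcendental_iff.mp htr R h)

include htr in
/-- `k(j) ≤ k(t)` for `j = P(t)/Q(t)`. -/
theorem adjoin_j_le (hj : jE * aeval t Q = aeval t P) (hQ0 : Q ≠ 0) : k⟮jE⟯ ≤ k⟮t⟯ := by
  rw [IntermediateField.adjoin_simple_le_iff]
  have hQt := aeval_ne_zero_of_transcendental t htr hQ0
  have : jE = aeval t P / aeval t Q := by
    rw [eq_div_iff hQt, hj]
  rw [this, IntermediateField.mem_adjoin_simple_iff]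
  exact ⟨P, Q, rfl⟩

include htr in
theorem finiteDimensional_adjoin_t (hj : jE * aeval t Q = aeval t P) (hQ0 : Q ≠ 0)
    [FiniteDimensional k⟮jE⟯ E] : FiniteDimensional k⟮t⟯ E := by
  have hle := adjoin_j_le t htr hj hQ0
  letI : Algebra k⟮jE⟯ k⟮t⟯ := (IntermediateField.inclusion hle).toRingHom.toAlgebra
  haveI : IsScalarTower k⟮jE⟯ k⟮t⟯ E := IsScalarTower.of_algebraMap_eq (fun x => rfl)
  exact Module.Finite.of_restrictScalars_finite k⟮jE⟯ k⟮t⟯ E

include htr in
theorem isSeparable_adjoin_t (hj : jE * aeval t Q = aeval t P) (hQ0 : Q ≠ 0)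
    [Algebra.IsSeparable k⟮jE⟯ E] : Algebra.IsSeparable k⟮t⟯ E := by
  have hle := adjoin_j_le t htr hj hQ0
  letI : Algebra k⟮jE⟯ k⟮t⟯ := (IntermediateField.inclusion hle).toRingHom.toAlgebra
  haveI : IsScalarTower k⟮jE⟯ k⟮t⟯ E := IsScalarTower.of_algebraMap_eq (fun x => rfl)
  exact Algebra.isSeparable_tower_top_of_isSeparable k⟮jE⟯ k⟮t⟯ E

/-- the degree over `k(T)` (acting through `T ↦ t`) is the degree over `k(t)`. -/
theorem finrank_tAlgebra :
    letI := tAlgebra t htr
    Module.finrank (RatFunc k) E = Module.finrank k⟮t⟯ E := by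
  letI := tAlgebra t htr
  have h := rank_eq_of_equiv_equiv (R := RatFunc k) (R' := k⟮t⟯) (M := E) (M₁ := E)
    (RatFunc.algEquivOfTranscendental t htr) (AddEquiv.refl E)
    (RatFunc.algEquivOfTranscendental t htr).bijective (fun r m => by
      rw [AddEquiv.refl_apply, AddEquiv.refl_apply, Algebra.smul_def, IntermediateField.smul_def]
      rfl)
  exact congrArg Cardinal.toNat h

end Tower

section Level4

open Fermat.Agent.Gateway.GoodRed.TLine4 Fermat.Agent.Gateway.GoodRed.UpperBound4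

variable {k : Type} [Field k] [IsAlgClosed k] (h2 : (2 : k) ≠ 0) (N N' : ℕ) [NeZero N] [NeZero N']
  (hN : N = 4 * N') (hNk : (N : k) ≠ 0) (t : Fk k N) (ht : (t : LaurentSeries k) = x4k k)

include ht in
theorem transcendental_t4 : Transcendental k t := transcendental_of_coe t transcendental_x4k ht

include ht in
theorem rel_t4 : jFk k N * aeval t (TLine4.JQ k) = aeval t (TLine4.JP k) := by
  apply rel_of_coe
  rw [ht]
  exact TLine4.rel_inf

include hNk ht in
theorem finiteDimensional_t4 : FiniteDimensional k⟮t⟯ (Fk k N) := by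
  haveI := finiteDimensional_Fk hNk
  exact finiteDimensional_adjoin_t t (transcendental_t4 N t ht) (rel_t4 N t ht) TLine4.JQ_ne_zero

include hNk ht in
theorem isSeparable_t4 : Algebra.IsSeparable k⟮t⟯ (Fk k N) := by
  haveI := isSeparable_Fk hNk
  exact isSeparable_adjoin_t t (transcendental_t4 N t ht) (rel_t4 N t ht) TLine4.JQ_ne_zero

include h2 hN hNk ht in
/-- `[Fk : k(x₄)] * ψ(4) = ψ(N)`. -/
theorem finrank_t4 : Module.finrank k⟮t⟯ (Fk k N) * 6 = dedekindPsi N := by
  have htr := transcendental_t4 N t ht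
  obtain ⟨ζ, hζ⟩ := Fermat.Agent.S28.Tower.exists_primitiveRoot_unit (k := k) N hNk
  have hζ' : IsPrimitiveRoot ζ (4 * N') := hN ▸ hζ
  letI := tAlgebra t htr
  haveI := isScalarTower_tAlgebra t htr
  have hj : jFk k N * algebraMap (RatFunc k) (Fk k N) (algebraMap k[X] (RatFunc k) (TLine4.JQ k)) =
      algebraMap (RatFunc k) (Fk k N) (algebraMap k[X] (RatFunc k) (TLine4.JP k)) := by
    show jFk k N * tHom t htr _ = tHom t htr _
    rw [tHom_algebraMap, tHom_algebraMap]
    exact rel_t4 N t ht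
  have h := TLine4.finrank_adjoin_eq4 h2 N' ζ hζ' (jFk k N) hj
  rw [finrank_tAlgebra t htr] at h
  rw [← finrank_Fk_eq_dedekindPsi hNk, h, mul_comm]

include h2 ht in
/-- the poles of `x₄` and the zeros of `x₄`, `x₄ - 16` are poles of `j`. -/
theorem poles_t4 : ∃ S : Finset k, S.card = 2 ∧ ∀ v : Place k (Fk k N),
    (v.ord t < 0 ∨ ∃ a ∈ S, 0 < v.ord (t - algebraMap k (Fk k N) a)) →
      v.ord (jFk k N) < 0 := by
  classical
  have h16 : (16 : k) ≠ 0 := TLine4.ne_zero_16 h2
  have h256 : (256 : k) ≠ 0 := TLine4.ne_zero_256 h2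
  refine ⟨{0, 16}, Finset.card_pair h16.symm, ?_⟩
  have hrel := rel_t4 N t ht
  intro v hv
  rcases hv with hv | ⟨a, ha, hv⟩
  · exact ord_neg_of_ord_neg v hrel TLine4.natDegree_JQ_lt TLine4.JQ_ne_zero hv
  · rw [Finset.mem_insert, Finset.mem_singleton] at ha
    rcases ha with rfl | rfl
    · refine ord_neg_of_root v hrel ?_ ?_ hv
      · simp [TLine4.JQ]
      · simp only [TLine4.JP, eval_pow, eval_add, eval_mul, eval_X, eval_ofNat]
        have : (0 : k) ^ 2 + 224 * 0 + 256 = 256 := by norm_num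
        rw [this]
        exact pow_ne_zero _ h256
    · refine ord_neg_of_root v hrel ?_ ?_ hv
      · simp [TLine4.JQ]
      · simp only [TLine4.JP, eval_pow, eval_add, eval_mul, eval_X, eval_ofNat]
        have : (16 : k) ^ 2 + 224 * 16 + 256 = 16 * 256 := by norm_num
        rw [this]
        exact pow_ne_zero _ (mul_ne_zero h16 h256)

end Level4

section Level9

open Fermat.Agent.Gateway.GoodRed.TLine9 Fermat.Agent.Gateway.GoodRed.UpperBound9

variable {k : Type} [Field k] [IsAlgClosed k] (h3 : (3 : k) ≠ 0) (N N' : ℕ) [NeZero N] [NeZero N']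
  (hN : N = 9 * N') (hNk : (N : k) ≠ 0) (t : Fk k N) (ht : (t : LaurentSeries k) = y9k k)

include ht in
theorem transcendental_t9 : Transcendental k t := transcendental_of_coe t transcendental_y9k ht

include ht in
theorem rel_t9 : jFk k N * aeval t (TLine9.JQ k) = aeval t (TLine9.JP k) := by
  apply rel_of_coe
  rw [ht]
  exact TLine9.rel_inf

include hNk ht in
theorem finiteDimensional_t9 : FiniteDimensional k⟮t⟯ (Fk k N) := by
  haveI := finiteDimensional_Fk hNk
  exact finiteDimensional_adjoin_t t (transcendental_t9 N t ht) (rel_t9 N t ht) TLine9.JQ_ne_zero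

include hNk ht in
theorem isSeparable_t9 : Algebra.IsSeparable k⟮t⟯ (Fk k N) := by
  haveI := isSeparable_Fk hNk
  exact isSeparable_adjoin_t t (transcendental_t9 N t ht) (rel_t9 N t ht) TLine9.JQ_ne_zero

include h3 hN hNk ht in
/-- `[Fk : k(y₉)] * ψ(9) = ψ(N)`. -/
theorem finrank_t9 : Module.finrank k⟮t⟯ (Fk k N) * 12 = dedekindPsi N := by
  have htr := transcendental_t9 N t ht
  obtain ⟨w, hw⟩ := exists_omega (k := k)
  obtain ⟨ζ, hζ⟩ := Fermat.Agent.S28.Tower.exists_primitiveRoot_unit (k := k) N hNk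
  have hζ' : IsPrimitiveRoot ζ (9 * N') := hN ▸ hζ
  letI := tAlgebra t htr
  haveI := isScalarTower_tAlgebra t htr
  have hj : jFk k N * algebraMap (RatFunc k) (Fk k N) (algebraMap k[X] (RatFunc k) (TLine9.JQ k)) =
      algebraMap (RatFunc k) (Fk k N) (algebraMap k[X] (RatFunc k) (TLine9.JP k)) := by
    show jFk k N * tHom t htr _ = tHom t htr _
    rw [tHom_algebraMap, tHom_algebraMap]
    exact rel_t9 N t ht
  have h := TLine9.finrank_adjoin_eq9 h3 hw N' ζ hζ' (jFk k N) hj
  rw [finrank_tAlgebra t htr] at h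
  rw [← finrank_Fk_eq_dedekindPsi hNk, h, mul_comm]

omit [IsAlgClosed k] in
/-- `J₉`'s numerator does not vanish at `3`. -/
theorem eval_JP9_three (h3 : (3 : k) ≠ 0) : (TLine9.JP k).eval 3 ≠ 0 := by
  simp only [TLine9.JP, eval_pow, eval_add, eval_mul, eval_X, eval_ofNat]
  have h1 : (3 : k) + 6 = 3 ^ 2 := by norm_num
  have h2 : (3 : k) ^ 3 + 234 * 3 ^ 2 + 756 * 3 + 2160 = 3 ^ 8 := by norm_num
  rw [h1, h2]
  exact mul_ne_zero (pow_ne_zero _ (pow_ne_zero _ h3)) (pow_ne_zero _ (pow_ne_zero _ h3))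

omit [IsAlgClosed k] in
/-- `J₉`'s numerator does not vanish at `3ω`, `ω` a primitive cube root of unity. -/
theorem eval_JP9_omega (h3 : (3 : k) ≠ 0) {ω : k} (hω : ω ^ 2 + ω + 1 = 0) :
    (TLine9.JP k).eval (3 * ω) ≠ 0 := by
  simp only [TLine9.JP, eval_pow, eval_add, eval_mul, eval_X, eval_ofNat]
  have e1 : (3 * ω + 6) * (ω ^ 2 + 2) = 3 ^ 2 := by linear_combination (3 * ω + 3) * hω
  have e2 : ((3 * ω) ^ 3 + 234 * (3 * ω) ^ 2 + 756 * (3 * ω) + 2160) * (1 + 2 * ω) = -(3 ^ 5)
      := by linear_combination (54 * ω ^ 2 + 4185 * ω + 2403) * hω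
  have n1 : 3 * ω + 6 ≠ 0 := by
    intro h0
    rw [h0, zero_mul] at e1
    exact pow_ne_zero _ h3 e1.symm
  have n2 : (3 * ω) ^ 3 + 234 * (3 * ω) ^ 2 + 756 * (3 * ω) + 2160 ≠ 0 := by
    intro h0
    rw [h0, zero_mul] at e2
    exact pow_ne_zero 5 h3 (neg_eq_zero.mp e2.symm)
  exact mul_ne_zero (pow_ne_zero _ n1) (pow_ne_zero _ n2)

omit [IsAlgClosed k] in
theorem eval_JQ9_three : (TLine9.JQ k).eval 3 = 0 := by
  simp [TLine9.JQ]

omit [IsAlgClosed k] in
theorem eval_JQ9_omega {ω : k} (hω : ω ^ 2 + ω + 1 = 0) : (TLine9.JQ k).eval (3 * ω) = 0 := by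
  simp only [TLine9.JQ, eval_pow, eval_sub, eval_mul, eval_X, eval_ofNat]
  have : (3 * ω) ^ 3 - 27 = 0 := by linear_combination (27 * ω - 27) * hω
  rw [this, mul_zero]

include h3 ht in
/-- the poles of `y₉` and the zeros of `y₉ - 3`, `y₉ - 3ω`, `y₉ - 3ω²` are poles of `j`. -/
theorem poles_t9 : ∃ S : Finset k, S.card = 3 ∧ ∀ v : Place k (Fk k N),
    (v.ord t < 0 ∨ ∃ a ∈ S, 0 < v.ord (t - algebraMap k (Fk k N) a)) →
      v.ord (jFk k N) < 0 := by
  classical
  obtain ⟨w, hw⟩ := exists_omega (k := k)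
  have hw2 := TLine9.w_sq_root hw
  have hcard : ({3, 3 * w, 3 * w ^ 2} : Finset k).card = 3 := by
    rw [Finset.card_insert_of_notMem, Finset.card_pair (TLine9.three_w_sq_ne_three_w h3 hw).symm]
    rw [Finset.mem_insert, Finset.mem_singleton]
    rintro (h | h)
    · exact TLine9.three_w_ne_three h3 hw h.symm
    · exact TLine9.three_w_sq_ne_three h3 hw h.symm
  refine ⟨{3, 3 * w, 3 * w ^ 2}, hcard, ?_⟩
  have hrel := rel_t9 N t ht
  intro v hv
  rcases hv with hv | ⟨a, ha, hv⟩
  · exact ord_neg_of_ord_neg v hrel TLine9.natDegree_JQ_lt TLine9.JQ_ne_zero hv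
  · rw [Finset.mem_insert, Finset.mem_insert, Finset.mem_singleton] at ha
    rcases ha with rfl | rfl | rfl
    · exact ord_neg_of_root v hrel eval_JQ9_three (eval_JP9_three h3) hv
    · exact ord_neg_of_root v hrel (eval_JQ9_omega hw) (eval_JP9_omega h3 hw) hv
    · exact ord_neg_of_root v hrel (eval_JQ9_omega hw2) (eval_JP9_omega h3 hw2) hv

end Level9

end Fermat.Agent.Gateway.GoodRed.TLineHurwitz
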